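import Mathlib

set_option autoImplicit false
set_option linter.unusedSectionVars false

/-!
# PROGRAM Z, package Z3: the grading of `M_2(R)` (char 2) given by `X` with `X^2 = X + 1`,
and finite facts about `GL_2(F_2)`.
-/

namespace Fermat.Agent.Z34

/-- two by two matrices -/
abbrev M2 (R : Type*) := Matrix (Fin 2) (Fin 2) R

section Grading

variable {S : Type*} [Ring S] {X : S}

/-- even part -/
def cp (X Y : S) : S := Y * X + X * Y + Y

/-- odd part -/
def cm (X Y : S) : S := X * Y + Y * X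

theorem cp_add_cm (h2 : (2 : S) = 0) (Y : S) : cp X Y + cm X Y = Y := by
  have : cp X Y + cm X Y = Y + 2 * (X * Y + Y * X) := by
    simp only [cp, cm]; noncomm_ring
  rw [this, h2, zero_mul, add_zero]

theorem comm_cp (h2 : (2 : S) = 0) (hX : X * X = X + 1) (Y : S) :
    X * cp X Y = cp X Y * X := by
  have h : X * cp X Y - cp X Y * X = (X * X - (X + 1)) * Y - Y * (X * X - (X + 1)) +
      2 * (X * Y - Y * X) := by
    simp only [cp]; noncomm_ring
  rw [h2, hX, sub_self, zero_mul, mul_zero, zero_mul, sub_zero, add_zero, sub_eq_zero] at h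
  exact h

theorem anti_cm (h2 : (2 : S) = 0) (hX : X * X = X + 1) (Y : S) :
    cm X Y * X = (X + 1) * cm X Y := by
  have h : cm X Y * X - (X + 1) * cm X Y = Y * (X * X - (X + 1)) - (X * X - (X + 1)) * Y -
      2 * (X * Y) := by
    simp only [cm]; noncomm_ring
  rw [h2, hX, sub_self, zero_mul, mul_zero, zero_mul, sub_zero, sub_zero, sub_eq_zero] at h
  exact h

theorem cp_of_comm (h2 : (2 : S) = 0) {W : S} (h : X * W = W * X) : cp X W = W := by
  rw [cp, h, ← two_mul, h2, zero_mul, zero_add]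

theorem cm_of_comm (h2 : (2 : S) = 0) {W : S} (h : X * W = W * X) : cm X W = 0 := by
  rw [cm, h, ← two_mul, h2, zero_mul]

theorem cp_of_anti (h2 : (2 : S) = 0) {W : S} (h : W * X = (X + 1) * W) : cp X W = 0 := by
  have : cp X W = 2 * (X * W + W) := by rw [cp, h]; noncomm_ring
  rw [this, h2, zero_mul]

theorem cm_of_anti (h2 : (2 : S) = 0) {W : S} (h : W * X = (X + 1) * W) : cm X W = W := by
  have := cp_add_cm (X := X) h2 W
  rwa [cp_of_anti h2 h, zero_add] at this

theorem cp_add (Y Z : S) : cp X (Y + Z) = cp X Y + cp X Z := by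
  simp only [cp]; noncomm_ring

theorem cm_add (Y Z : S) : cm X (Y + Z) = cm X Y + cm X Z := by
  simp only [cm]; noncomm_ring

theorem cp_mul (h2 : (2 : S) = 0) (hX : X * X = X + 1) (Y Z : S) :
    cp X (Y * Z) = cp X Y * cp X Z + cm X Y * cm X Z := by
  have e : Y * Z = (cp X Y * cp X Z + cm X Y * cm X Z) + (cp X Y * cm X Z + cm X Y * cp X Z) := by
    conv_lhs => rw [← cp_add_cm (X := X) h2 Y, ← cp_add_cm (X := X) h2 Z]
    noncomm_ring
  have h1 := comm_cp h2 hX Y
  have h3 := comm_cp h2 hX Z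
  have h5 := anti_cm h2 hX Y
  have h7 := anti_cm h2 hX Z
  have h9 : (X + 1) * (X + 1) = X := by
    have : (X + 1) * (X + 1) = (X * X - (X + 1)) + X + 2 * (X + 1) := by noncomm_ring
    rw [this, h2, hX, sub_self, zero_mul, zero_add, add_zero]
  have hA : X * (cp X Y * cp X Z + cm X Y * cm X Z) =
      (cp X Y * cp X Z + cm X Y * cm X Z) * X := by
    have h10 : X * cm X Y = cm X Y * (X + 1) := by
      have : cm X Y * (X + 1) = X * cm X Y + 2 * cm X Y := by
        rw [mul_add, h5]; noncomm_ring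
      rw [this, h2, zero_mul, add_zero]
    rw [mul_add, add_mul, ← mul_assoc, h1, mul_assoc, h3, mul_assoc, ← mul_assoc X, h10,
      mul_assoc (cm X Y), ← h7, mul_assoc]
  have hB : (cp X Y * cm X Z + cm X Y * cp X Z) * X =
      (X + 1) * (cp X Y * cm X Z + cm X Y * cp X Z) := by
    have h11 : (X + 1) * cp X Y = cp X Y * (X + 1) := by rw [add_mul, h1]; noncomm_ring
    rw [add_mul, mul_add, mul_assoc, h7, ← mul_assoc (X + 1) (cp X Y), h11, mul_assoc, mul_assoc,
      ← h3, ← mul_assoc (X + 1) (cm X Y), ← h5, mul_assoc (cm X Y)]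
  rw [e, cp_add, cp_of_comm h2 hA, cp_of_anti h2 hB, add_zero]

theorem cm_mul (h2 : (2 : S) = 0) (hX : X * X = X + 1) (Y Z : S) :
    cm X (Y * Z) = cp X Y * cm X Z + cm X Y * cp X Z := by
  have h1 := cp_add_cm (X := X) h2 (Y * Z)
  rw [cp_mul h2 hX] at h1
  have e : Y * Z = (cp X Y * cp X Z + cm X Y * cm X Z) + (cp X Y * cm X Z + cm X Y * cp X Z) := by
    conv_lhs => rw [← cp_add_cm (X := X) h2 Y, ← cp_add_cm (X := X) h2 Z]
    noncomm_ring
  exact add_left_cancel (h1.trans e)

end Grading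

section F2

/-- the element of order three -/
def gam : M2 (ZMod 2) := !![1, 1; 1, 0]

theorem M2_ext {R : Type*} {A B : M2 R} (h00 : A 0 0 = B 0 0) (h01 : A 0 1 = B 0 1)
    (h10 : A 1 0 = B 1 0) (h11 : A 1 1 = B 1 1) : A = B := by
  ext i j
  fin_cases i <;> fin_cases j
  exacts [h00, h01, h10, h11]

theorem eta (M : M2 (ZMod 2)) : M = !![M 0 0, M 0 1; M 1 0, M 1 1] := M2_ext rfl rfl rfl rfl

theorem gam_sq : gam * gam = gam + 1 := by decide

/-- **F1** -/
theorem anti_of_not_comm {M : M2 (ZMod 2)} (hM : M.det = 1) (h : ¬ gam * M = M * gam) :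
    M * gam = (gam + 1) * M := by
  revert hM h
  rw [eta M]
  generalize M 0 0 = a
  generalize M 0 1 = b
  generalize M 1 0 = c
  generalize M 1 1 = d
  revert a b c d
  decide

/-- elements of `V ⊂ M_2(F_2)` -/
theorem shape_of_anti {Y : M2 (ZMod 2)} (h : Y * gam = (gam + 1) * Y) :
    Y = !![Y 0 1 + Y 1 0, Y 0 1; Y 1 0, Y 0 1 + Y 1 0] := by
  revert h
  rw [eta Y]
  generalize Y 0 0 = a
  generalize Y 0 1 = b
  generalize Y 1 0 = c
  generalize Y 1 1 = d
  revert a b c d
  decide

/-- the vector of an element of `V` -/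
def vec (Y : M2 (ZMod 2)) : Fin 2 → ZMod 2 := ![Y 0 1, Y 1 0]

theorem det_eq_one {M N : M2 (ZMod 2)} (hMN : M * N = 1) : M.det = 1 := by
  have h1 : M.det * N.det = 1 := by rw [← Matrix.det_mul, hMN, Matrix.det_one]
  revert h1
  generalize M.det = a
  generalize N.det = b
  revert a b
  decide

theorem vec_conj {M N Y : M2 (ZMod 2)} (hMN : M * N = 1)
    (h : Y * gam = (gam + 1) * Y) : vec (M * Y * N) = M.mulVec (vec Y) := by
  have h2 := det_eq_one hMN
  have hN : N = !![M 1 1, M 0 1; M 1 0, M 0 0] := by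
    have h3 : M.adjugate * (M * N) = N := by
      rw [← mul_assoc, Matrix.adjugate_mul, h2, one_smul, one_mul]
    rw [hMN, mul_one, Matrix.adjugate_fin_two] at h3
    rw [← h3]
    simp
  rw [hN, shape_of_anti h]
  revert h2
  rw [eta M]
  generalize M 0 0 = a
  generalize M 0 1 = b
  generalize M 1 0 = c
  generalize M 1 1 = d
  generalize Y 0 1 = y
  generalize Y 1 0 = z
  revert a b c d y z
  decide

theorem vec_eq_zero {w : Fin 2 → ZMod 2} (h : gam.mulVec w = w) : w = 0 := by
  have : w = ![w 0, w 1] := by ext i; fin_cases i <;> rfl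
  revert h
  rw [this]
  generalize w 0 = a
  generalize w 1 = b
  revert a b
  decide

theorem eq_zero_of_vec {Y : M2 (ZMod 2)} (h : Y * gam = (gam + 1) * Y) (hv : vec Y = 0) :
    Y = 0 := by
  have h0 : Y 0 1 = 0 := congrFun hv 0
  have h1 : Y 1 0 = 0 := congrFun hv 1
  rw [shape_of_anti h, h0, h1]
  decide

theorem eq_one_of_comm {M : M2 (ZMod 2)} (hM : M * M = 1) (h : gam * M = M * gam) : M = 1 := by
  revert hM h
  rw [eta M]
  generalize M 0 0 = a
  generalize M 0 1 = b
  generalize M 1 0 = c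
  generalize M 1 1 = d
  revert a b c d
  decide

theorem eq_or_of_comm {M N : M2 (ZMod 2)} (hM : M * M = 1) (hN : N * N = 1) (hMN : M * N = N * M)
    (h : M ≠ 1) : N = 1 ∨ N = M := by
  revert hM hN hMN h
  rw [eta M, eta N]
  generalize M 0 0 = a
  generalize M 0 1 = b
  generalize M 1 0 = c
  generalize M 1 1 = d
  generalize N 0 0 = a'
  generalize N 0 1 = b'
  generalize N 1 0 = c'
  generalize N 1 1 = d'
  revert a b c d a' b' c' d'
  decide

end F2

end Fermat.Agent.Z34
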