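import Mathlib
import Fermat.Agent.H27.Z3Grade

set_option autoImplicit false
set_option linter.unusedSectionVars false

/-!
# PROGRAM Z, package Z3: rigidity (Lemma A)
-/

namespace Fermat.Agent.Z34

open Matrix

variable {G : Type*} [Group G] {R : Type*} [CommRing R]

/-- the subgroup of elements acting through `A_3` -/
def HH (ρ0 : G →* M2 (ZMod 2)) : Subgroup G where
  carrier := {g | gam * ρ0 g = ρ0 g * gam}
  one_mem' := by simp
  mul_mem' := by
    intro a b ha hb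
    change gam * ρ0 (a * b) = ρ0 (a * b) * gam
    rw [map_mul, ← mul_assoc, show gam * ρ0 a = ρ0 a * gam from ha, mul_assoc,
      show gam * ρ0 b = ρ0 b * gam from hb, mul_assoc]
  inv_mem' := by
    intro a ha
    change gam * ρ0 a⁻¹ = ρ0 a⁻¹ * gam
    have h1 : ρ0 a * ρ0 a⁻¹ = 1 := by rw [← map_mul, mul_inv_cancel, map_one]
    have h2 : ρ0 a⁻¹ * ρ0 a = 1 := by rw [← map_mul, inv_mul_cancel, map_one]
    calc gam * ρ0 a⁻¹ = ρ0 a⁻¹ * (ρ0 a * gam) * ρ0 a⁻¹ := by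
          rw [← mul_assoc, h2, one_mul]
      _ = ρ0 a⁻¹ * (gam * ρ0 a) * ρ0 a⁻¹ := by rw [show gam * ρ0 a = ρ0 a * gam from ha]
      _ = ρ0 a⁻¹ * gam := by rw [mul_assoc, mul_assoc, h1, mul_one]

theorem mem_HH {ρ0 : G →* M2 (ZMod 2)} {g : G} : g ∈ HH ρ0 ↔ gam * ρ0 g = ρ0 g * gam := Iff.rfl

/-- congruence of matrices modulo an ideal -/
def Cg (I : Ideal R) (A B : M2 R) : Prop := ∀ i j, A i j - B i j ∈ I

/-- matrices with entries in an ideal -/
def InM (I : Ideal R) (A : M2 R) : Prop := ∀ i j, A i j ∈ I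

theorem InM.mul_left {I : Ideal R} {A : M2 R} (h : InM I A) (B : M2 R) : InM I (B * A) := by
  intro i j
  rw [Matrix.mul_apply]
  exact Ideal.sum_mem _ fun k _ => Ideal.mul_mem_left _ _ (h k j)

theorem InM.mul_right {I : Ideal R} {A : M2 R} (h : InM I A) (B : M2 R) : InM I (A * B) := by
  intro i j
  rw [Matrix.mul_apply]
  exact Ideal.sum_mem _ fun k _ => Ideal.mul_mem_right _ _ (h i k)

theorem InM.add {I : Ideal R} {A B : M2 R} (h : InM I A) (h' : InM I B) : InM I (A + B) :=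
  fun i j => Ideal.add_mem _ (h i j) (h' i j)

theorem InM.sub {I : Ideal R} {A B : M2 R} (h : InM I A) (h' : InM I B) : InM I (A - B) :=
  fun i j => Ideal.sub_mem _ (h i j) (h' i j)

theorem InM.mono {I J : Ideal R} {A : M2 R} (h : InM I A) (hIJ : I ≤ J) : InM J A :=
  fun i j => hIJ (h i j)

theorem InM.mul_eq_zero {m I : Ideal R} (hmI : ∀ a ∈ m, ∀ b ∈ I, a * b = 0) {A B : M2 R}
    (hA : InM m A) (hB : InM I B) : A * B = 0 := by
  ext i j
  rw [Matrix.mul_apply, Matrix.zero_apply]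
  exact Finset.sum_eq_zero fun k _ => hmI _ (hA i k) _ (hB k j)

theorem InM.mul_eq_zero' {m I : Ideal R} (hmI : ∀ a ∈ m, ∀ b ∈ I, a * b = 0) {A B : M2 R}
    (hA : InM I A) (hB : InM m B) : A * B = 0 := by
  ext i j
  rw [Matrix.mul_apply, Matrix.zero_apply]
  exact Finset.sum_eq_zero fun k _ => by rw [mul_comm]; exact hmI _ (hB k j) _ (hA i k)

section Lam

variable [Algebra (ZMod 2) R]

/-- base change of a matrix over `F_2` -/
def up (R : Type*) [CommRing R] [Algebra (ZMod 2) R] (A : M2 (ZMod 2)) : M2 R :=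
  A.map (algebraMap (ZMod 2) R)

theorem up_mul (A B : M2 (ZMod 2)) : up R (A * B) = up R A * up R B := by
  simp only [up, Matrix.map_mul]

theorem up_add (A B : M2 (ZMod 2)) : up R (A + B) = up R A + up R B := by
  ext i j
  simp [up]

theorem up_one : up R 1 = 1 := by
  simp [up]

theorem map_lam_mul_left {m I : Ideal R} (hmI : ∀ a ∈ m, ∀ b ∈ I, a * b = 0)
    (lam : R →ₗ[ZMod 2] ZMod 2) {M Y : M2 R} {M0 : M2 (ZMod 2)}
    (hM : InM m (M - up R M0)) (hY : InM I Y) : (M * Y).map lam = M0 * Y.map lam := by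
  have h1 : M * Y = up R M0 * Y := by
    have := InM.mul_eq_zero hmI hM hY
    rwa [sub_mul, sub_eq_zero] at this
  rw [h1]
  ext i j
  simp only [Matrix.map_apply, Matrix.mul_apply, map_sum, up]
  refine Finset.sum_congr rfl fun k _ => ?_
  rw [← Algebra.smul_def, map_smul, smul_eq_mul]

theorem map_lam_mul_right {m I : Ideal R} (hmI : ∀ a ∈ m, ∀ b ∈ I, a * b = 0)
    (lam : R →ₗ[ZMod 2] ZMod 2) {M Y : M2 R} {M0 : M2 (ZMod 2)}
    (hM : InM m (M - up R M0)) (hY : InM I Y) : (Y * M).map lam = Y.map lam * M0 := by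
  have h1 : Y * M = Y * up R M0 := by
    have := InM.mul_eq_zero' hmI hY hM
    rwa [mul_sub, sub_eq_zero] at this
  rw [h1]
  ext i j
  simp only [Matrix.map_apply, Matrix.mul_apply, map_sum, up]
  refine Finset.sum_congr rfl fun k _ => ?_
  rw [mul_comm (Y i k), ← Algebra.smul_def, map_smul, smul_eq_mul, mul_comm]

theorem two_eq_zero_M2 : (2 : M2 R) = 0 := by
  have h : (2 : R) = 0 := by
    have : algebraMap (ZMod 2) R 2 = 0 := by
      rw [show (2 : ZMod 2) = 0 from by decide, map_zero]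
    rwa [map_ofNat] at this
  have h1 : (2 : M2 R) = (2 : R) • (1 : M2 R) := by
    rw [two_smul, one_add_one_eq_two]
  rw [h1, h, zero_smul]

end Lam

section Step

open Classical in
/-- the bad part -/
noncomputable def bad (ρ : G →* M2 R) (ρ0 : G →* M2 (ZMod 2)) (X : M2 R) (g : G) : M2 R :=
  if g ∈ HH ρ0 then cm X (ρ g) else cp X (ρ g)

variable [Algebra (ZMod 2) R] {ρ : G →* M2 R} {ρ0 : G →* M2 (ZMod 2)} {X : M2 R}

theorem bad_pos {g : G} (h : g ∈ HH ρ0) : bad ρ ρ0 X g = cm X (ρ g) := by rw [bad, if_pos h]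
theorem bad_neg {g : G} (h : g ∉ HH ρ0) : bad ρ ρ0 X g = cp X (ρ g) := by rw [bad, if_neg h]

theorem det_rho0 (g : G) : (ρ0 g).det = 1 :=
  det_eq_one (N := ρ0 g⁻¹) (by rw [← map_mul, mul_inv_cancel, map_one])

theorem anti_rho0 {g : G} (h : g ∉ HH ρ0) : ρ0 g * gam = (gam + 1) * ρ0 g :=
  anti_of_not_comm (det_rho0 g) h

theorem mul_mem_HH_of_not {g h : G} (hg : g ∉ HH ρ0) (hh : h ∉ HH ρ0) : g * h ∈ HH ρ0 := by
  have h1 := anti_rho0 hg
  have h2 := anti_rho0 hh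
  rw [mem_HH, map_mul]
  symm
  have h3 : (gam + 1) * (gam + 1) = gam := by decide
  have h4 : ρ0 g * (gam + 1) = gam * ρ0 g := by
    rw [mul_add, h1, add_mul, mul_one, one_mul, add_assoc, ← two_mul,
      two_eq_zero_M2, zero_mul, add_zero]
  rw [mul_assoc, h2, ← mul_assoc, h4, mul_assoc]

theorem mul_notMem_left {g h : G} (hg : g ∉ HH ρ0) (hh : h ∈ HH ρ0) : g * h ∉ HH ρ0 := by
  intro h1
  exact hg (by simpa using (HH ρ0).mul_mem h1 ((HH ρ0).inv_mem hh))

theorem mul_notMem_right {g h : G} (hg : g ∈ HH ρ0) (hh : h ∉ HH ρ0) : g * h ∉ HH ρ0 := by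
  intro h1
  exact hh (by simpa using (HH ρ0).mul_mem ((HH ρ0).inv_mem hg) h1)

variable {m I : Ideal R} (hmI : ∀ a ∈ m, ∀ b ∈ I, a * b = 0) (hI : I ≤ m)
  (hρ : ∀ g, InM m (ρ g - up R (ρ0 g))) (hX : X * X = X + 1)
  (hXm : InM m (X - up R gam))
  (hbad : ∀ g, InM I (bad ρ ρ0 X g))

include hmI hI hX hbad in
theorem bad_mul (g h : G) :
    bad ρ ρ0 X (g * h) = ρ g * bad ρ ρ0 X h + bad ρ ρ0 X g * ρ h := by
  have h2 := two_eq_zero_M2 (R := R)
  have hz : bad ρ ρ0 X g * bad ρ ρ0 X h = 0 :=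
    InM.mul_eq_zero hmI ((hbad g).mono hI) (hbad h)
  have hcp : ∀ Y : M2 R, cp X Y = Y + cm X Y := fun Y => by
    have := cp_add_cm (X := X) h2 Y
    calc cp X Y = (cp X Y + cm X Y) + cm X Y - 2 * cm X Y := by noncomm_ring
      _ = Y + cm X Y := by rw [this, h2, zero_mul, sub_zero]
  have hcm : ∀ Y : M2 R, cm X Y = Y + cp X Y := fun Y => by
    have := cp_add_cm (X := X) h2 Y
    calc cm X Y = (cp X Y + cm X Y) + cp X Y - 2 * cp X Y := by noncomm_ring
      _ = Y + cp X Y := by rw [this, h2, zero_mul, sub_zero]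
  by_cases hg : g ∈ HH ρ0 <;> by_cases hh : h ∈ HH ρ0
  · rw [bad_pos hg, bad_pos hh] at hz ⊢
    rw [bad_pos ((HH ρ0).mul_mem hg hh), map_mul, cm_mul h2 hX, hcp, hcp, add_mul, mul_add, hz]
    simp
  · rw [bad_pos hg, bad_neg hh] at hz ⊢
    rw [bad_neg (mul_notMem_right hg hh), map_mul, cp_mul h2 hX, hcp (ρ g), hcm (ρ h), add_mul,
      mul_add, hz]
    simp
  · rw [bad_neg hg, bad_pos hh] at hz ⊢
    rw [bad_neg (mul_notMem_left hg hh), map_mul, cp_mul h2 hX, hcm (ρ g), hcp (ρ h), add_mul,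
      mul_add, hz]
    simp only [add_zero]
    abel
  · rw [bad_neg hg, bad_neg hh] at hz ⊢
    rw [bad_pos (mul_mem_HH_of_not hg hh), map_mul, cm_mul h2 hX, hcm (ρ g), hcm (ρ h), add_mul,
      mul_add, hz]
    simp only [add_zero]
    abel

/-- the cocycle -/
noncomputable def xc (ρ : G →* M2 R) (ρ0 : G →* M2 (ZMod 2)) (X : M2 R) (g : G) : M2 R :=
  bad ρ ρ0 X g * ρ g⁻¹

theorem mul_inv_rho (g : G) : ρ g * ρ g⁻¹ = 1 := by rw [← map_mul, mul_inv_cancel, map_one]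
theorem inv_mul_rho (g : G) : ρ g⁻¹ * ρ g = 1 := by rw [← map_mul, inv_mul_cancel, map_one]

include hbad in
theorem xc_mem (g : G) : InM I (xc ρ ρ0 X g) := (hbad g).mul_right _

include hmI hI hX hbad in
theorem xc_mul (g h : G) :
    xc ρ ρ0 X (g * h) = xc ρ ρ0 X g + ρ g * xc ρ ρ0 X h * ρ g⁻¹ := by
  rw [xc, bad_mul hmI hI hX hbad, _root_.mul_inv_rev, map_mul, add_mul, add_comm, xc, xc]
  congr 1
  · rw [mul_assoc, ← mul_assoc (ρ h), mul_inv_rho, one_mul]
  · simp only [mul_assoc]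

include hmI hI hX hbad hρ hXm in
theorem xc_anti (g : G) : xc ρ ρ0 X g * X = (X + 1) * xc ρ ρ0 X g := by
  have h2 := two_eq_zero_M2 (R := R)
  have h4 : ∀ Y : M2 R, cp X Y = Y * X + X * Y + Y := fun Y => rfl
  rw [xc]
  by_cases hg : g ∈ HH ρ0
  · have h1 : InM m (ρ g⁻¹ * X - X * ρ g⁻¹) := by
      have e : ρ g⁻¹ * X - X * ρ g⁻¹ = (ρ g⁻¹ - up R (ρ0 g⁻¹)) * X +
          up R (ρ0 g⁻¹) * (X - up R gam) - (X - up R gam) * ρ g⁻¹ -
          up R gam * (ρ g⁻¹ - up R (ρ0 g⁻¹)) := by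
        have e1 : up R (ρ0 g⁻¹) * up R gam = up R gam * up R (ρ0 g⁻¹) := by
          rw [← up_mul, ← up_mul, (mem_HH.mp ((HH ρ0).inv_mem hg))]
        have e2 : ρ g⁻¹ * X - X * ρ g⁻¹ = (ρ g⁻¹ - up R (ρ0 g⁻¹)) * X +
            up R (ρ0 g⁻¹) * (X - up R gam) - (X - up R gam) * ρ g⁻¹ -
            up R gam * (ρ g⁻¹ - up R (ρ0 g⁻¹)) + (up R (ρ0 g⁻¹) * up R gam -
              up R gam * up R (ρ0 g⁻¹)) := by noncomm_ring
        rw [e2, e1, sub_self, add_zero]
      rw [e]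
      exact ((((hρ _).mul_right _).add (hXm.mul_left _)).sub (hXm.mul_right _)).sub
        ((hρ _).mul_left _)
    have h3 := InM.mul_eq_zero' hmI (hbad g) h1
    rw [mul_sub, sub_eq_zero] at h3
    rw [mul_assoc, h3, ← mul_assoc, ← mul_assoc, bad_pos hg, anti_cm h2 hX]
  · have h1 : InM m (ρ g⁻¹ * X - (X + 1) * ρ g⁻¹) := by
      have e : ρ g⁻¹ * X - (X + 1) * ρ g⁻¹ = (ρ g⁻¹ - up R (ρ0 g⁻¹)) * X +
          up R (ρ0 g⁻¹) * (X - up R gam) - (X - up R gam) * ρ g⁻¹ -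
          (up R gam + 1) * (ρ g⁻¹ - up R (ρ0 g⁻¹)) := by
        have e1 : up R (ρ0 g⁻¹) * up R gam = (up R gam + 1) * up R (ρ0 g⁻¹) := by
          rw [← up_one, ← up_add, ← up_mul, ← up_mul, anti_rho0 (fun h => hg (by
            simpa using (HH ρ0).inv_mem h))]
        have e2 : ρ g⁻¹ * X - (X + 1) * ρ g⁻¹ = (ρ g⁻¹ - up R (ρ0 g⁻¹)) * X +
            up R (ρ0 g⁻¹) * (X - up R gam) - (X - up R gam) * ρ g⁻¹ -
            (up R gam + 1) * (ρ g⁻¹ - up R (ρ0 g⁻¹)) + (up R (ρ0 g⁻¹) * up R gam -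
              (up R gam + 1) * up R (ρ0 g⁻¹)) := by noncomm_ring
        rw [e2, e1, sub_self, add_zero]
      rw [e]
      exact ((((hρ _).mul_right _).add (hXm.mul_left _)).sub (hXm.mul_right _)).sub
        ((hρ _).mul_left _)
    have h3 := InM.mul_eq_zero' hmI (hbad g) h1
    rw [mul_sub, sub_eq_zero] at h3
    have h5 := comm_cp h2 hX (ρ g)
    rw [mul_assoc, h3, ← mul_assoc, bad_neg hg, mul_add, ← h5, mul_one, add_mul, add_mul, one_mul,
      mul_assoc]

theorem bad_congr {g h : G} (h1 : ρ g = ρ h) (h0 : ρ0 g = ρ0 h) :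
    bad ρ ρ0 X g = bad ρ ρ0 X h := by
  by_cases hg : g ∈ HH ρ0
  · have hh : h ∈ HH ρ0 := by rw [mem_HH, ← h0]; exact hg
    rw [bad_pos hg, bad_pos hh, h1]
  · have hh : h ∉ HH ρ0 := by rw [mem_HH, ← h0]; exact hg
    rw [bad_neg hg, bad_neg hh, h1]

theorem inv_congr {g h : G} (h1 : ρ g = ρ h) : ρ g⁻¹ = ρ h⁻¹ := by
  calc ρ g⁻¹ = ρ g⁻¹ * (ρ h * ρ h⁻¹) := by rw [mul_inv_rho, mul_one]
    _ = (ρ g⁻¹ * ρ g) * ρ h⁻¹ := by rw [h1, mul_assoc]
    _ = _ := by rw [inv_mul_rho, one_mul]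

theorem xc_congr {g h : G} (h1 : ρ g = ρ h) (h0 : ρ0 g = ρ0 h) :
    xc ρ ρ0 X g = xc ρ ρ0 X h := by
  rw [xc, xc, bad_congr h1 h0, inv_congr h1]

theorem xc_one : xc ρ ρ0 X 1 = 0 := by
  have h2 := two_eq_zero_M2 (R := R)
  rw [xc, bad_pos (HH ρ0).one_mem, map_one, cm_of_comm h2 (by simp), zero_mul]

theorem comm_of_exp {T : Type*} [Ring T] (r : G →* T) {D : Subgroup G}
    (hr : ∀ d ∈ D, r d * r d = 1) {d e : G} (hd : d ∈ D) (he : e ∈ D) :
    r d * r e = r e * r d := by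
  have h6 := hr (d * e) (D.mul_mem hd he)
  rw [map_mul] at h6
  symm
  calc r e * r d = (r d * r e * (r d * r e)) * (r e * r d) := by rw [h6, one_mul]
    _ = r d * r e * r d * (r e * r e) * r d := by simp only [mul_assoc]
    _ = r d * r e * (r d * r d) := by rw [hr e he, mul_one, mul_assoc]
    _ = r d * r e := by rw [hr d hd, mul_one]

include hmI hI hX hρ hbad hXm in
/-- **The step of the rigidity lemma.** -/
theorem step {V : Type*} (D : V → Subgroup G) {g0 : G} (hg0 : ρ g0 = X) (hg00 : ρ0 g0 = gam)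
    (hD : ∀ v, ∀ d ∈ D v, ρ d * ρ d = 1) (hD0 : ∀ v, ∀ d ∈ D v, ρ0 d * ρ0 d = 1)
    (U : Subgroup G)
    (hU : ∀ u ∈ U, ρ u = 1) (hU0 : ∀ u ∈ U, ρ0 u = 1)
    (Sel : ∀ x : G → (Fin 2 → ZMod 2), (∀ a b, x (a * b) = x a + ρ0 a *ᵥ x b) →
      (∀ u ∈ U, x u = 0) → (∀ v, ∀ d ∈ D v, ∀ e ∈ D v, ρ0 e *ᵥ x d = x d) →
      ∃ w, ∀ g, x g = ρ0 g *ᵥ w - w) (g : G) : bad ρ ρ0 X g = 0 := by
  have h2 := two_eq_zero_M2 (R := R)
  suffices hx : xc ρ ρ0 X g = 0 by
    have h1 : bad ρ ρ0 X g = xc ρ ρ0 X g * ρ g := by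
      rw [xc, mul_assoc, inv_mul_rho, mul_one]
    rw [h1, hx, zero_mul]
  -- the matrix cocycles over `F_2`
  suffices hl : ∀ lam : R →ₗ[ZMod 2] ZMod 2, (xc ρ ρ0 X g).map lam = 0 by
    ext i j
    rw [Matrix.zero_apply]
    refine (Module.forall_dual_apply_eq_zero_iff (ZMod 2) _).mp fun lam => ?_
    exact congrFun (congrFun (hl lam) i) j
  intro lam
  set y : G → M2 (ZMod 2) := fun g => (xc ρ ρ0 X g).map lam with hy
  have hxm := xc_mem (X := X) hbad
  have hmul : ∀ a b, y (a * b) = y a + ρ0 a * y b * ρ0 a⁻¹ := by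
    intro a b
    have h5 : y (a * b) = y a + (ρ a * xc ρ ρ0 X b * ρ a⁻¹).map lam := by
      simp only [hy]
      rw [xc_mul hmI hI hX hbad]
      ext i j
      simp
    rw [h5, map_lam_mul_right hmI lam (hρ a⁻¹) ((hxm b).mul_left _),
      map_lam_mul_left hmI lam (hρ a) (hxm b)]
  have hanti : ∀ a, y a * gam = (gam + 1) * y a := by
    intro a
    have h5 := congrArg (fun M : M2 R => M.map lam) (xc_anti hmI hI hρ hX hXm hbad a)
    beta_reduce at h5
    have h6 : InM m ((X + 1) - up R (gam + 1)) := by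
      rw [up_add, up_one, add_sub_add_right_eq_sub]
      exact hXm
    rw [map_lam_mul_right hmI lam hXm (hxm a), map_lam_mul_left hmI lam h6 (hxm a)] at h5
    exact h5
  have hvmul : ∀ a b, vec (y (a * b)) = vec (y a) + ρ0 a *ᵥ vec (y b) := by
    intro a b
    rw [hmul, ← vec_conj (mul_inv_rho a) (hanti b)]
    ext i
    fin_cases i <;> simp [vec]
  have hcongr : ∀ {a b : G}, ρ a = ρ b → ρ0 a = ρ0 b → y a = y b := by
    intro a b h h'
    simp only [hy, xc_congr h h']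
  have hone : y 1 = 0 := by
    simp only [hy, xc_one]
    ext i j; simp
  have hexp : ∀ v, ∀ d ∈ D v, ∀ e ∈ D v, ρ d * ρ e = ρ e * ρ d ∧ ρ0 d * ρ0 e = ρ0 e * ρ0 d := by
    intro v d hd e he
    exact ⟨comm_of_exp ρ (hD v) hd he, comm_of_exp ρ0 (hD0 v) hd he⟩
  have hloc : ∀ v, ∀ d ∈ D v, ∀ e ∈ D v, ρ0 e *ᵥ vec (y d) = vec (y d) := by
    intro v d hd e he
    by_cases hdH : d ∈ HH ρ0
    · have hd1 : ρ0 d = 1 := eq_one_of_comm (hD0 v d hd) hdH
      have h5 : y (d * e) = y (e * d) := hcongr (by rw [map_mul, map_mul, (hexp v d hd e he).1])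
        (by rw [map_mul, map_mul, (hexp v d hd e he).2])
      have h6 := congrArg vec h5
      rw [hvmul, hvmul, hd1, Matrix.one_mulVec, add_comm (vec (y d))] at h6
      exact (add_left_cancel h6).symm
    · have hd1 : ρ0 d ≠ 1 := fun h => hdH (by rw [mem_HH, h]; simp)
      have h5 : y (d * d) = y 1 := hcongr (by rw [map_mul, hD v d hd, map_one])
        (by rw [map_mul, hD0 v d hd, map_one])
      rw [hone] at h5
      have h6 := congrArg vec h5
      rw [hvmul] at h6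
      have h7 : vec (0 : M2 (ZMod 2)) = 0 := by ext i; fin_cases i <;> simp [vec]
      rw [h7] at h6
      have h8 : ρ0 d *ᵥ vec (y d) = vec (y d) := by
        have h9 := eq_neg_of_add_eq_zero_right h6
        rw [h9]
        ext i
        simp [CharTwo.neg_eq]
      rcases eq_or_of_comm (hD0 v d hd) (hD0 v e he) (hexp v d hd e he).2 hd1 with h9 | h9
      · rw [h9, Matrix.one_mulVec]
      · rw [h9, h8]
  obtain ⟨w, hw⟩ := Sel (fun g => vec (y g)) hvmul (fun u hu => by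
    rw [hcongr (a := u) (b := 1) (by rw [hU u hu, map_one]) (by rw [hU0 u hu, map_one]), hone]
    ext i; fin_cases i <;> simp [vec]) hloc
  have hg0' : vec (y g0) = 0 := by
    have h7 : y g0 = 0 := by
      simp only [hy, xc]
      rw [bad_pos (show g0 ∈ HH ρ0 from by rw [mem_HH, hg00]), hg0, cm_of_comm h2 rfl, zero_mul]
      ext i j; simp
    rw [h7]
    ext i; fin_cases i <;> simp [vec]
  have hw0 : w = 0 := by
    have h8 := hw g0
    rw [hg0', hg00] at h8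
    exact vec_eq_zero (sub_eq_zero.mp h8.symm)
  refine eq_zero_of_vec (hanti g) ?_
  rw [hw g, hw0, Matrix.mulVec_zero, sub_zero]

end Step

section Main

variable [Algebra (ZMod 2) R] {ρ : G →* M2 R} {ρ0 : G →* M2 (ZMod 2)} {X : M2 R}

theorem bad_mem_base {m : Ideal R} (hρ : ∀ g, InM m (ρ g - up R (ρ0 g)))
    (hXm : InM m (X - up R gam)) (g : G) : InM m (bad ρ ρ0 X g) := by
  by_cases hg : g ∈ HH ρ0
  · rw [bad_pos hg, cm]
    have e1 : up R gam * up R (ρ0 g) + up R (ρ0 g) * up R gam = 0 := by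
      rw [← up_mul, ← up_mul, mem_HH.mp hg, ← up_add]
      have : ρ0 g * gam + ρ0 g * gam = 0 := by
        rw [← two_mul, two_eq_zero_M2, zero_mul]
      rw [this]
      ext i j; simp [up]
    have e : X * ρ g + ρ g * X = (X - up R gam) * ρ g + up R gam * (ρ g - up R (ρ0 g)) +
        ((ρ g - up R (ρ0 g)) * X + up R (ρ0 g) * (X - up R gam)) := by
      have e2 : X * ρ g + ρ g * X = (X - up R gam) * ρ g + up R gam * (ρ g - up R (ρ0 g)) +
        ((ρ g - up R (ρ0 g)) * X + up R (ρ0 g) * (X - up R gam)) +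
        (up R gam * up R (ρ0 g) + up R (ρ0 g) * up R gam) := by noncomm_ring
      rw [e2, e1, add_zero]
    rw [e]
    exact ((hXm.mul_right _).add ((hρ g).mul_left _)).add
      (((hρ g).mul_right _).add (hXm.mul_left _))
  · rw [bad_neg hg, cp]
    have e1 : up R (ρ0 g) * up R gam + up R gam * up R (ρ0 g) + up R (ρ0 g) = 0 := by
      rw [← up_mul, anti_rho0 hg, ← up_mul, ← up_add, ← up_add]
      have : (gam + 1) * ρ0 g + gam * ρ0 g + ρ0 g = 2 * (gam * ρ0 g + ρ0 g) := by noncomm_ring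
      rw [this, two_eq_zero_M2, zero_mul]
      ext i j; simp [up]
    have e : ρ g * X + X * ρ g + ρ g = (X - up R gam) * ρ g + up R gam * (ρ g - up R (ρ0 g)) +
        ((ρ g - up R (ρ0 g)) * X + up R (ρ0 g) * (X - up R gam)) + (ρ g - up R (ρ0 g)) := by
      have e2 : ρ g * X + X * ρ g + ρ g = (X - up R gam) * ρ g +
        up R gam * (ρ g - up R (ρ0 g)) +
        ((ρ g - up R (ρ0 g)) * X + up R (ρ0 g) * (X - up R gam)) + (ρ g - up R (ρ0 g)) +
        (up R (ρ0 g) * up R gam + up R gam * up R (ρ0 g) + up R (ρ0 g)) := by noncomm_ring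
      rw [e2, e1, add_zero]
    rw [e]
    exact (((hXm.mul_right _).add ((hρ g).mul_left _)).add
      (((hρ g).mul_right _).add (hXm.mul_left _))).add (hρ g)

/-- **Rigidity.** -/
theorem rigid {m : Ideal R} {n : ℕ} (hm : m ^ n = ⊥) (hρ : ∀ g, InM m (ρ g - up R (ρ0 g)))
    (hX : X * X = X + 1) (hXm : InM m (X - up R gam))
    {V : Type*} (D : V → Subgroup G) {g0 : G} (hg0 : ρ g0 = X) (hg00 : ρ0 g0 = gam)
    (hD : ∀ v, ∀ d ∈ D v, ρ d * ρ d = 1) (hD0 : ∀ v, ∀ d ∈ D v, ρ0 d * ρ0 d = 1)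
    (U : Subgroup G) (hU : ∀ u ∈ U, ρ u = 1) (hU0 : ∀ u ∈ U, ρ0 u = 1)
    (Sel : ∀ x : G → (Fin 2 → ZMod 2), (∀ a b, x (a * b) = x a + ρ0 a *ᵥ x b) →
      (∀ u ∈ U, x u = 0) → (∀ v, ∀ d ∈ D v, ∀ e ∈ D v, ρ0 e *ᵥ x d = x d) →
      ∃ w, ∀ g, x g = ρ0 g *ᵥ w - w) (g : G) : bad ρ ρ0 X g = 0 := by
  have key : ∀ k : ℕ, ∀ g, InM (m ^ (k + 1)) (bad ρ ρ0 X g) := by
    intro k
    induction k with
    | zero => simpa using bad_mem_base hρ hXm
    | succ k ih =>
      intro g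
      set f := Ideal.Quotient.mk (m ^ (k + 1 + 1)) with hf
      set F : M2 R →+* M2 (R ⧸ m ^ (k + 1 + 1)) := f.mapMatrix with hF
      let ρ' : G →* M2 (R ⧸ m ^ (k + 1 + 1)) := (F : M2 R →* _).comp ρ
      have hρ' : ∀ g, ρ' g = F (ρ g) := fun _ => rfl
      have hup : ∀ A : M2 (ZMod 2), F (up R A) = up _ A := fun A => by
        ext i j
        simp only [hF, RingHom.mapMatrix_apply, Matrix.map_apply, up]
        rfl
      have hbad' : ∀ g, bad ρ' ρ0 (F X) g = F (bad ρ ρ0 X g) := by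
        intro g
        by_cases hg : g ∈ HH ρ0
        · rw [bad_pos hg, bad_pos hg, cm, cm, map_add, map_mul, map_mul, hρ']
        · rw [bad_neg hg, bad_neg hg, cp, cp, map_add, map_add, map_mul, map_mul, hρ']
      have hFm : ∀ (I : Ideal R) (A : M2 R), InM I A → InM (I.map f) (F A) := by
        intro I A hA i j
        exact Ideal.mem_map_of_mem f (hA i j)
      have h1 := step (m := m.map f) (I := (m ^ (k + 1)).map f) (ρ := ρ') (ρ0 := ρ0) (X := F X)
        (by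
          have h3 : m.map f * (m ^ (k + 1)).map f = ⊥ := by
            rw [← Ideal.map_mul, ← pow_succ', Ideal.map_quotient_self]
          intro a ha b hb
          have := Ideal.mul_mem_mul ha hb
          rw [h3] at this
          exact this)
        (Ideal.map_mono (Ideal.pow_le_self (by omega)))
        (fun g => by rw [hρ', ← hup, ← map_sub]; exact hFm _ _ (hρ g))
        (by rw [← map_mul, hX, map_add, map_one])
        (by rw [← hup, ← map_sub]; exact hFm _ _ hXm)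
        (fun g => by rw [hbad']; exact hFm _ _ (ih g)) D (g0 := g0)
        (by rw [hρ', hg0]) hg00
        (fun v d hd => by rw [hρ', ← map_mul, hD v d hd, map_one]) hD0 U
        (fun u hu => by rw [hρ', hU u hu, map_one]) hU0 Sel g
      intro i j
      have h2 := congrFun (congrFun ((hbad' g).symm.trans h1) i) j
      exact Ideal.Quotient.eq_zero_iff_mem.mp h2
  have h := key n g
  have h2 : m ^ (n + 1) = ⊥ := by rw [pow_succ, hm, Ideal.bot_mul]
  rw [h2] at h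
  ext i j
  exact h i j

end Main

end Fermat.Agent.Z34
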