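import Mathlib
import Fermat.Agent.H27.Z3Rigid
import Fermat.Agent.CC.Basic

set_option autoImplicit false
set_option linter.unusedSectionVars false

/-!
# PROGRAM Z, package Z3: the algebra generated by the traces of a dihedral representation
-/

namespace Fermat.Agent.Z34

open Matrix Fermat.Agent.CC

section Torus

variable {R : Type*} [CommRing R] {X : M2 R}

theorem rank_one_mul {E : M2 R} (hE : E.det = 0) (Y : M2 R) :
    E * Y * E = (E * Y).trace • E := by
  rw [Matrix.det_fin_two] at hE
  ext i j
  fin_cases i <;> fin_cases j <;>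
    simp only [Matrix.mul_apply, Fin.sum_univ_two, Matrix.smul_apply, Matrix.trace_fin_two,
      smul_eq_mul, Fin.zero_eta, Fin.mk_one, Fin.isValue]
  · linear_combination (-(Y 1 1)) * hE
  · linear_combination (Y 0 1) * hE
  · linear_combination (Y 1 0) * hE
  · linear_combination (-(Y 0 0)) * hE

variable (h2 : (2 : R) = 0) (hX : X * X = X + 1) {w : R} (hw : w * w = w + 1)

/-- the idempotent -/
def ee (X : M2 R) (w : R) : M2 R := X + (w + 1) • 1

theorem neg_eq_self' (h2 : (2 : R) = 0) (a : R) : -a = a := by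
  linear_combination (-a) * h2

include h2 hX hw in
theorem ee_sq : ee X w * ee X w = ee X w := by
  have h3 : (w + 1) * (w + 1) = w := by linear_combination hw + (w + 1) * h2
  have h4 : (2 : M2 R) = 0 := by
    have h1 : (2 : M2 R) = (2 : R) • (1 : M2 R) := by rw [two_smul, one_add_one_eq_two]
    rw [h1, h2, zero_smul]
  have : ee X w * ee X w = X * X + ((w + 1) * (w + 1)) • 1 + 2 * ((w + 1) • X) := by
    simp only [ee, add_mul, mul_add, Matrix.smul_mul, Matrix.mul_smul, one_mul, mul_one, two_mul,
      smul_smul]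
    abel
  rw [this, hX, h3, h4, zero_mul, add_zero, ee, add_smul, one_smul]
  abel

theorem ee_comm {Y : M2 R} (h : X * Y = Y * X) : ee X w * Y = Y * ee X w := by
  simp only [ee, add_mul, mul_add, Matrix.smul_mul, Matrix.mul_smul, one_mul, mul_one, h]

include h2 hX hw in
theorem X_mul_ee : X * ee X w = w • ee X w := by
  have h4 : (2 : M2 R) = 0 := by
    have h1 : (2 : M2 R) = (2 : R) • (1 : M2 R) := by rw [two_smul, one_add_one_eq_two]
    rw [h1, h2, zero_smul]
  have h3 : w * (w + 1) = 1 := by linear_combination hw + w * h2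
  have e1 : X * ee X w = w • X + 1 + 2 * X := by
    rw [ee, mul_add, hX, Matrix.mul_smul, mul_one, add_smul, one_smul, two_mul]
    abel
  rw [e1, h4, zero_mul, add_zero, ee, smul_add, smul_smul, h3, one_smul]

include h2 hX in
theorem trace_det_X (hu : IsUnit (X 0 1)) : X.trace = 1 ∧ X.det = 1 := by
  have h00 := congrFun (congrFun hX 0) 0
  have h01 := congrFun (congrFun hX 0) 1
  have h11 := congrFun (congrFun hX 1) 1
  simp only [Matrix.mul_apply, Fin.sum_univ_two, Matrix.add_apply, Matrix.one_apply_eq,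
    Fin.isValue] at h00 h01 h11
  rw [Matrix.one_apply_ne (by decide), add_zero] at h01
  have ht : X.trace = 1 := by
    rw [Matrix.trace_fin_two]
    have h3 : (X 0 0 + X 1 1 - 1) * X 0 1 = 0 := by linear_combination h01
    have h4 := hu.mul_left_eq_zero.mp h3
    exact sub_eq_zero.mp h4
  refine ⟨ht, ?_⟩
  rw [Matrix.trace_fin_two] at ht
  rw [Matrix.det_fin_two]
  linear_combination X 0 0 * ht - h00 - h2

variable (ht : X.trace = 1) (hd : X.det = 1)

include h2 ht in
theorem trace_ee : (ee X w).trace = 1 := by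
  rw [ee, Matrix.trace_add, Matrix.trace_smul, Matrix.trace_one, ht]
  simp only [Fintype.card_fin, Nat.cast_ofNat, h2, smul_zero, add_zero]

include h2 ht hd hw in
theorem det_ee : (ee X w).det = 0 := by
  rw [Matrix.trace_fin_two] at ht
  rw [Matrix.det_fin_two] at hd ⊢
  simp only [ee, Matrix.add_apply, Matrix.smul_apply, Matrix.one_apply_eq, smul_eq_mul, mul_one]
  rw [Matrix.one_apply_ne (by decide), Matrix.one_apply_ne (by decide)]
  linear_combination hd + (w + 1) * ht + hw + (w + 1 + 1) * h2 + w * h2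

/-- the character of the torus -/
def lam (X : M2 R) (w : R) (Y : M2 R) : R := (ee X w * Y).trace

include h2 hX hw ht hd in
theorem mul_ee_eq {Y : M2 R} (h : X * Y = Y * X) : Y * ee X w = lam X w Y • ee X w := by
  have h1 := rank_one_mul (det_ee h2 hw ht hd) Y
  rw [ee_comm h, mul_assoc, ee_sq h2 hX hw] at h1
  rw [h1, lam, ee_comm h]

include h2 hX hw ht hd in
theorem lam_mul {Y Z : M2 R} (h : X * Y = Y * X) :
    lam X w (Y * Z) = lam X w Y * lam X w Z := by
  rw [lam, ← mul_assoc, ee_comm h, mul_ee_eq h2 hX hw ht hd h, Matrix.smul_mul, Matrix.trace_smul,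
    smul_eq_mul, ← lam]

theorem lam_one (h2 : (2 : R) = 0) (ht : X.trace = 1) : lam X w 1 = 1 := by
  rw [lam, mul_one, trace_ee h2 ht]

include h2 hX hw ht in
theorem lam_X : lam X w X = w := by
  rw [lam, ee_comm (X := X) (Y := X) rfl, X_mul_ee h2 hX hw, Matrix.trace_smul,
    trace_ee h2 ht, smul_eq_mul, mul_one]

include h2 hX hw ht hd in
theorem eq_lam {Y : M2 R} (h : X * Y = Y * X) :
    Y = lam X w Y • ee X w + (Y.trace - lam X w Y) • (1 - ee X w) := by
  have e0 : (1 - ee X w : M2 R) = ee X (w + 1) := by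
    ext i j
    simp only [ee, Matrix.sub_apply, Matrix.add_apply, Matrix.smul_apply, smul_eq_mul]
    linear_combination (-(X i j) - (w + 1) * (1 : M2 R) i j) * h2
  have hw' : (w + 1) * (w + 1) = (w + 1) + 1 := by linear_combination hw + (w) * h2
  have h3 : lam X (w + 1) Y = Y.trace - lam X w Y := by
    rw [lam, lam, ← e0, sub_mul, Matrix.trace_sub, one_mul]
  have h4 := mul_ee_eq h2 hX hw' ht hd h
  rw [← e0, h3] at h4
  rw [← h4, ← mul_ee_eq h2 hX hw ht hd h, ← mul_add, add_sub_cancel, mul_one]

include h2 hX hw ht hd in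
theorem det_eq_lam {Y : M2 R} (h : X * Y = Y * X) :
    Y.det = lam X w Y * (Y.trace - lam X w Y) := by
  have h1 := det_ee h2 hw ht hd
  have h3 := trace_ee (w := w) h2 ht
  generalize hl : lam X w Y = l
  generalize hl' : Y.trace - l = l'
  have h4 := eq_lam h2 hX hw ht hd h
  rw [hl, hl'] at h4
  rw [h4]
  generalize ee X w = E at h1 h3
  rw [Matrix.trace_fin_two] at h3
  rw [Matrix.det_fin_two] at h1 ⊢
  simp only [Matrix.add_apply, Matrix.smul_apply, Matrix.one_apply_eq, smul_eq_mul,
    Matrix.sub_apply]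
  rw [Matrix.one_apply_ne (by decide), Matrix.one_apply_ne (by decide)]
  linear_combination (l - l') ^ 2 * h1 + (l' * (l - l')) * h3

end Torus

end Fermat.Agent.Z34
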