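import Mathlib
import Fermat.Agent.H27.Z3Span

set_option autoImplicit false
set_option linter.unusedSectionVars false

/-!
# PROGRAM Z, package Z3: bound for the algebra generated by the traces
-/

namespace Fermat.Agent.Z34

open Matrix Fermat.Agent.CC

theorem one_add_pow {S : Type*} [Ring S] (h2 : (2 : S) = 0) (x : S) (k : ℕ) :
    (1 + x) ^ (2 ^ k) = 1 + x ^ (2 ^ k) := by
  induction k with
  | zero => simp
  | succ k ih =>
    rw [pow_succ, pow_mul, ih, pow_mul]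
    generalize x ^ 2 ^ k = y
    have : (1 + y) ^ 2 = 1 + y ^ 2 + 2 * y := by noncomm_ring
    rw [this, h2, zero_mul, add_zero]

theorem InM.pow {R : Type*} [CommRing R] {m : Ideal R} {A : M2 R} (h : InM m A) (k : ℕ) :
    InM (m ^ k) (A ^ k) := by
  induction k with
  | zero => intro i j; simp
  | succ k ih =>
    intro i j
    rw [pow_succ, pow_succ, Matrix.mul_apply]
    exact Ideal.sum_mem _ fun l _ => Ideal.mul_mem_mul (ih i l) (h l j)

theorem gam_pow_cases {M : M2 (ZMod 2)} (hM : M.det = 1) (h : gam * M = M * gam) :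
    M = 1 ∨ M = gam ∨ M = gam * gam := by
  revert hM h
  rw [eta M]
  generalize M 0 0 = a
  generalize M 0 1 = b
  generalize M 1 0 = c
  generalize M 1 1 = d
  revert a b c d
  decide

variable {G : Type*} [Group G] {R : Type*} [CommRing R] [Algebra (ZMod 2) R]
  {ρ : G →* M2 R} {ρ0 : G →* M2 (ZMod 2)} {X : M2 R}

theorem two_eq_zero : (2 : R) = 0 := by
  have : algebraMap (ZMod 2) R 2 = 0 := by
    rw [show (2 : ZMod 2) = 0 from by decide, map_zero]
  rwa [map_ofNat] at this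

theorem comm_of_bad {g : G} (h : bad ρ ρ0 X g = 0) (hg : g ∈ HH ρ0) : X * ρ g = ρ g * X := by
  have h2 := two_eq_zero_M2 (R := R)
  rw [bad_pos hg, cm] at h
  have : X * ρ g - ρ g * X = (X * ρ g + ρ g * X) - 2 * (ρ g * X) := by noncomm_ring
  rw [h, h2, zero_mul, sub_zero, sub_eq_zero] at this
  exact this

theorem trace_of_bad {g : G} (h : bad ρ ρ0 X g = 0) (hg : g ∉ HH ρ0) : (ρ g).trace = 0 := by
  have h2 := two_eq_zero_M2 (R := R)
  rw [bad_neg hg] at h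
  have h1 := cp_add_cm (X := X) h2 (ρ g)
  rw [h, zero_add] at h1
  rw [← h1, cm, Matrix.trace_add, Matrix.trace_mul_comm, ← two_mul, two_eq_zero, zero_mul]

section

variable {m : Ideal R} {N : ℕ} (hm : m ^ N = ⊥)

include hm in
theorem pow_two_pow_eq_bot : m ^ (2 ^ N) = ⊥ := by
  have h1 : N ≤ 2 ^ N := Nat.lt_two_pow_self.le
  obtain ⟨k, hk⟩ := Nat.exists_eq_add_of_le h1
  rw [hk, pow_add, hm, Ideal.bot_mul]

include hm in
theorem unip_pow {u : R} (hu : u - 1 ∈ m) : u ^ (2 ^ N) = 1 := by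
  have h1 : u = 1 + (u - 1) := by ring
  rw [h1, one_add_pow two_eq_zero]
  have h3 := Ideal.pow_mem_pow hu (2 ^ N)
  rw [pow_two_pow_eq_bot hm] at h3
  rw [show (u - 1) ^ 2 ^ N = 0 from h3, add_zero]

include hm in
theorem unip_pow_M2 {u : M2 R} (hu : InM m (u - 1)) : u ^ (2 ^ N) = 1 := by
  have h1 : u = 1 + (u - 1) := by abel
  rw [h1, one_add_pow two_eq_zero_M2]
  have h3 := hu.pow (2 ^ N)
  rw [pow_two_pow_eq_bot hm] at h3
  have h4 : (u - 1) ^ 2 ^ N = 0 := by ext i j; exact h3 i j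
  rw [h4, add_zero]

include hm in
theorem isUnit_of_sub_one {u : R} (hu : u - 1 ∈ m) : IsUnit u := by
  have h1 := unip_pow hm hu
  exact IsUnit.of_pow_eq_one h1 (by positivity)

end

theorem up_inj [Nontrivial R] {A B : M2 (ZMod 2)} (h : up R A = up R B) : A = B := by
  ext i j
  have h1 := congrFun (congrFun h i) j
  simp only [up, Matrix.map_apply] at h1
  exact (algebraMap (ZMod 2) R).injective h1

section Data

variable {O : Type*} [CommRing O] [Algebra O R] (ω : O)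
  {m : Ideal R} {N : ℕ} (hm : m ^ N = ⊥) (hρ : ∀ g, InM m (ρ g - up R (ρ0 g)))
  (hX : X * X = X + 1) (hXm : InM m (X - up R gam))
  (hw : algebraMap O R ω * algebraMap O R ω = algebraMap O R ω + 1)
  {g0 : G} (hg0 : ρ g0 = X) (hg00 : ρ0 g0 = gam)
  (hbad : ∀ g, bad ρ ρ0 X g = 0) (hdet : ∀ g, (ρ g).det = 1)

/-- the character of `H` -/
noncomputable def mu (ρ : G →* M2 R) (X : M2 R) (ω : O) (g : G) : R :=
  lam X (algebraMap O R ω) (ρ g)

include hm hXm hX in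
theorem trace_det_X' : X.trace = 1 ∧ X.det = 1 := by
  refine trace_det_X two_eq_zero hX (isUnit_of_sub_one hm ?_)
  have h1 := hXm 0 1
  simpa [up, gam] using h1

include hm hXm hX hw hbad in
theorem mu_mul {g h : G} (hg : g ∈ HH ρ0) : mu ρ X ω (g * h) = mu ρ X ω g * mu ρ X ω h := by
  obtain ⟨ht, hd⟩ := trace_det_X' hm hX hXm
  rw [mu, map_mul, lam_mul two_eq_zero hX hw ht hd (comm_of_bad (hbad g) hg), mu, mu]

include hm hXm hX in
theorem mu_one : mu ρ X ω 1 = 1 := by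
  obtain ⟨ht, hd⟩ := trace_det_X' hm hX hXm
  rw [mu, map_one, lam_one two_eq_zero ht]

include hm hXm hX hw hg0 in
theorem mu_g0 : mu ρ X ω g0 = algebraMap O R ω := by
  obtain ⟨ht, hd⟩ := trace_det_X' hm hX hXm
  rw [mu, hg0, lam_X two_eq_zero hX hw ht]

include hm hXm hX hw hbad hdet in
theorem trace_eq_mu {g : G} (hg : g ∈ HH ρ0) : (ρ g).trace = mu ρ X ω g + mu ρ X ω g⁻¹ := by
  obtain ⟨ht, hd⟩ := trace_det_X' hm hX hXm
  have h1 := det_eq_lam two_eq_zero hX hw ht hd (comm_of_bad (hbad g) hg)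
  rw [hdet] at h1
  have h3 : mu ρ X ω g * mu ρ X ω g⁻¹ = 1 := by
    rw [← mu_mul ω hm hX hXm hw hbad hg, mul_inv_cancel, mu_one ω hm hX hXm]
  have h4 : mu ρ X ω g * ((ρ g).trace - mu ρ X ω g) = 1 := h1.symm
  have h5 : (ρ g).trace - mu ρ X ω g = mu ρ X ω g⁻¹ := by
    calc (ρ g).trace - mu ρ X ω g = (mu ρ X ω g * mu ρ X ω g⁻¹) * ((ρ g).trace - mu ρ X ω g) := by
          rw [h3, one_mul]
      _ = (mu ρ X ω g * ((ρ g).trace - mu ρ X ω g)) * mu ρ X ω g⁻¹ := by ring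
      _ = _ := by rw [h4, one_mul]
  rw [← h5]; ring

include hm hXm hX hw hbad in
theorem rho_eq_mu {g : G} (hg : g ∈ HH ρ0) (hdet : (ρ g).det = 1) :
    ρ g = mu ρ X ω g • ee X (algebraMap O R ω) +
      mu ρ X ω g⁻¹ • (1 - ee X (algebraMap O R ω)) := by
  obtain ⟨ht, hd⟩ := trace_det_X' hm hX hXm
  have h1 := det_eq_lam two_eq_zero hX hw ht hd (comm_of_bad (hbad g) hg)
  rw [hdet] at h1
  have h3 : mu ρ X ω g * mu ρ X ω g⁻¹ = 1 := by
    rw [← mu_mul ω hm hX hXm hw hbad hg, mul_inv_cancel, mu_one ω hm hX hXm]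
  have h4 : mu ρ X ω g * ((ρ g).trace - mu ρ X ω g) = 1 := h1.symm
  have h5 : (ρ g).trace - mu ρ X ω g = mu ρ X ω g⁻¹ := by
    calc (ρ g).trace - mu ρ X ω g = (mu ρ X ω g * mu ρ X ω g⁻¹) * ((ρ g).trace - mu ρ X ω g) := by
          rw [h3, one_mul]
      _ = (mu ρ X ω g * ((ρ g).trace - mu ρ X ω g)) * mu ρ X ω g⁻¹ := by ring
      _ = _ := by rw [h4, one_mul]
  have h6 := eq_lam two_eq_zero hX hw ht hd (comm_of_bad (hbad g) hg)
  rw [← h5]
  exact h6

include hm hXm hX hw hbad hdet in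
theorem rho_comm {g h : G} (hg : g ∈ HH ρ0) (hh : h ∈ HH ρ0) : ρ g * ρ h = ρ h * ρ g := by
  rw [rho_eq_mu ω hm hX hXm hw hbad hg (hdet g), rho_eq_mu ω hm hX hXm hw hbad hh (hdet h)]
  simp only [add_mul, mul_add, Matrix.smul_mul, Matrix.mul_smul, smul_smul, mul_sub, sub_mul,
    one_mul, mul_one, smul_sub]
  simp only [mul_comm (mu ρ X ω g), mul_comm (mu ρ X ω g⁻¹)]
  abel

include hm hXm hX hw hρ in
theorem mu_sub_one_mem {g : G} (hg : ρ0 g = 1) : mu ρ X ω g - 1 ∈ m := by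
  obtain ⟨ht, hd⟩ := trace_det_X' hm hX hXm
  have h1 : mu ρ X ω g - 1 = (ee X (algebraMap O R ω) * (ρ g - up R (ρ0 g))).trace := by
    rw [mul_sub, Matrix.trace_sub, hg, up_one, mul_one, trace_ee two_eq_zero ht, mu, lam]
  rw [h1, Matrix.trace_fin_two]
  exact Ideal.add_mem _ ((hρ g).mul_left _ 0 0) ((hρ g).mul_left _ 1 1)

include hm hXm hX hw hρ hbad hg0 hg00 in
/-- decomposition of `μ` -/
theorem mu_cases {g : G} (hg : g ∈ HH ρ0) : ∃ (j : ℕ) (g' : G), ρ0 g' = 1 ∧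
    mu ρ X ω g = algebraMap O R ω ^ j * mu ρ X ω g' := by
  have hg0H : g0 ∈ HH ρ0 := by rw [mem_HH, hg00]
  have key : ∀ j : ℕ, mu ρ X ω (g0 ^ j) = algebraMap O R ω ^ j := by
    intro j
    induction j with
    | zero => rw [pow_zero, pow_zero, mu_one ω hm hX hXm]
    | succ j ih =>
      rw [pow_succ, pow_succ, mu_mul ω hm hX hXm hw hbad ((HH ρ0).pow_mem hg0H j), ih,
        mu_g0 ω hm hX hXm hw hg0]
  have key2 : ∀ j : ℕ, ρ0 g = gam ^ j → ∃ (j : ℕ) (g' : G), ρ0 g' = 1 ∧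
      mu ρ X ω g = algebraMap O R ω ^ j * mu ρ X ω g' := by
    intro j hj
    refine ⟨j, (g0 ^ j)⁻¹ * g, ?_, ?_⟩
    · rw [map_mul, hj, ← hg00, ← map_pow, ← map_mul, inv_mul_cancel, map_one]
    · rw [← key, ← mu_mul ω hm hX hXm hw hbad ((HH ρ0).pow_mem hg0H j), mul_inv_cancel_left]
  rcases gam_pow_cases (det_rho0 g) hg with h | h | h
  · exact key2 0 (by rw [h, pow_zero])
  · exact key2 1 (by rw [h, pow_one])
  · exact key2 2 (by rw [h, pow_two])

include hm hρ in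
theorem rho_cube_sub {g : G} (hg : g ∈ HH ρ0) : InM m (ρ (g ^ 3) - 1) := by
  have h1 : ρ0 (g ^ 3) = 1 := by
    rw [map_pow]
    rcases gam_pow_cases (det_rho0 g) hg with h | h | h <;> rw [h] <;> decide
  have := hρ (g ^ 3)
  rwa [h1, up_one] at this

/-- the kernel of the `2`-part -/
def WW (hc : ∀ g ∈ HH ρ0, ∀ h ∈ HH ρ0, ρ g * ρ h = ρ h * ρ g) : Subgroup G where
  carrier := {g | g ∈ HH ρ0 ∧ ρ g ^ 3 = 1}
  one_mem' := ⟨(HH ρ0).one_mem, by rw [map_one, one_pow]⟩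
  mul_mem' := by
    rintro a b ⟨ha, ha'⟩ ⟨hb, hb'⟩
    refine ⟨(HH ρ0).mul_mem ha hb, ?_⟩
    have h1 : Commute (ρ a) (ρ b) := hc a ha b hb
    rw [map_mul, h1.mul_pow, ha', hb', one_mul]
  inv_mem' := by
    rintro a ⟨ha, ha'⟩
    refine ⟨(HH ρ0).inv_mem ha, ?_⟩
    have h1 : ρ a ^ 3 * ρ a⁻¹ ^ 3 = 1 := by
      rw [← map_pow, ← map_pow, ← map_mul, inv_pow, mul_inv_cancel, map_one]
    rwa [ha', one_mul] at h1

theorem mem_WW (hc : ∀ g ∈ HH ρ0, ∀ h ∈ HH ρ0, ρ g * ρ h = ρ h * ρ g) {g : G} :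
    g ∈ WW hc ↔ g ∈ HH ρ0 ∧ ρ g ^ 3 = 1 := Iff.rfl

/-- what class field theory provides -/
def CFT {V : Type*} (𝓛 : Lev G) (ρ0 : G →* M2 (ZMod 2)) (I : V → Subgroup G) (h : ℕ) : Prop :=
  ∀ W : Subgroup G, W.Normal → W ≤ HH ρ0 → 𝓛.isOpen W → (∀ v, I v ⊓ HH ρ0 ≤ W) →
    (∀ a ∈ HH ρ0, ∀ b ∈ HH ρ0, a * b * a⁻¹ * b⁻¹ ∈ W) →
    (∀ a ∈ HH ρ0, ∃ n : ℕ, a ^ (2 ^ n) ∈ W) → W.relIndex (HH ρ0) ≤ h

theorem exists_AB {u : M2 (ZMod 2)} (hu : u * u = 1) (hu1 : u ≠ 1) :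
    ∃ A B : M2 (ZMod 2), (u - 1) * A + gam * (u - 1) * B = 1 := by
  have key : ∀ a b c d : ZMod 2, (!![a, b; c, d] : M2 (ZMod 2)) * !![a, b; c, d] = 1 →
      (!![a, b; c, d] : M2 (ZMod 2)) ≠ 1 → ∃ x y z t x' y' z' t' : ZMod 2,
      (!![a, b; c, d] - 1) * !![x, y; z, t] + gam * (!![a, b; c, d] - 1) * !![x', y'; z', t'] =
        (1 : M2 (ZMod 2)) := by decide
  rw [eta u] at hu hu1 ⊢
  obtain ⟨x, y, z, t, x', y', z', t', h⟩ := key _ _ _ _ hu hu1
  exact ⟨_, _, h⟩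

include hm hρ hXm hX hw hbad in
theorem rho_eq_one_of_inertia {g gv : G} (hg : g ∈ HH ρ0) {s : R} (hs : s - 1 ∈ m)
    (hI : (ρ g - 1) * (ρ gv - s • 1) = 0) (h1 : ρ0 gv * ρ0 gv = 1) (h2 : ρ0 gv ≠ 1) :
    ρ g = 1 := by
  obtain ⟨A, B, hAB⟩ := exists_AB h1 h2
  set Y := ρ g - 1 with hY
  have hYX : X * Y = Y * X := by
    rw [hY, mul_sub, sub_mul, comm_of_bad (hbad g) hg, mul_one, one_mul]
  set M := (ρ gv - s • 1) * up R A + X * (ρ gv - s • 1) * up R B with hM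
  have hYM : Y * M = 0 := by
    rw [hM, mul_add, ← mul_assoc, hI, zero_mul, zero_add, ← mul_assoc, ← mul_assoc, ← hYX,
      mul_assoc X, hI, mul_zero, zero_mul]
  have hn : InM m ((ρ gv - s • 1) - up R (ρ0 gv - 1)) := by
    have e1 : up R (ρ0 gv - 1) = up R (ρ0 gv) - 1 := by
      rw [eq_sub_iff_add_eq, ← up_one (R := R), ← up_add, sub_add_cancel]
    have e : (ρ gv - s • (1 : M2 R)) - up R (ρ0 gv - 1) =
        (ρ gv - up R (ρ0 gv)) - (s - 1) • 1 := by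
      rw [e1, sub_smul, one_smul]; abel
    rw [e]
    refine (hρ gv).sub fun i j => ?_
    rw [Matrix.smul_apply, smul_eq_mul]
    exact Ideal.mul_mem_right _ _ hs
  have hM1 : InM m (M - 1) := by
    have e : M - 1 = ((ρ gv - s • 1) - up R (ρ0 gv - 1)) * up R A +
        ((X - up R gam) * (ρ gv - s • 1) + up R gam * ((ρ gv - s • 1) - up R (ρ0 gv - 1))) *
          up R B := by
      have e3 : up R (ρ0 gv - 1) * up R A + up R gam * up R (ρ0 gv - 1) * up R B = 1 := by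
        rw [← up_mul, ← up_mul, ← up_mul, ← up_add, hAB, up_one]
      have e4 : M - 1 = M - (up R (ρ0 gv - 1) * up R A + up R gam * up R (ρ0 gv - 1) * up R B) := by
        rw [e3]
      rw [e4, hM]
      generalize ρ gv - s • (1 : M2 R) = T
      generalize up R (ρ0 gv - 1) = T0
      noncomm_ring
    rw [e]
    exact (hn.mul_right _).add (((hXm.mul_right _).add (hn.mul_left _)).mul_right _)
  have h5 := unip_pow_M2 hm hM1
  have h6 : Y * M ^ (2 ^ N) = 0 := by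
    obtain ⟨k, hk⟩ : ∃ k, 2 ^ N = k + 1 := Nat.exists_eq_succ_of_ne_zero (by positivity)
    rw [hk, pow_succ', ← mul_assoc, hYM, zero_mul]
  rw [h5, mul_one] at h6
  exact sub_eq_zero.mp h6

include hm hρ hX hXm hw hg0 hg00 hbad hdet in
/-- **The span bound.** -/
theorem exists_span [Nontrivial R] {V : Type*} (I : V → Subgroup G) (gv : V → G) (s : V → R)
    (hs : ∀ v, s v - 1 ∈ m) (hI : ∀ v, ∀ g ∈ I v, (ρ g - 1) * (ρ (gv v) - s v • 1) = 0)
    (hgv : ∀ v, ρ0 (gv v) * ρ0 (gv v) = 1) (hgv1 : ∀ v, ρ0 (gv v) ≠ 1)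
    (𝓛 : Lev G) (U : Subgroup G) (hUo : 𝓛.isOpen U) (hU : ∀ u ∈ U, ρ u = 1)
    (hU0 : ∀ u ∈ U, ρ0 u = 1) {h : ℕ} (hCFT : CFT 𝓛 ρ0 I h)
    {Q : Type*} [Fintype Q] (sg : Q → R) (hsg : ∀ q, sg q * sg q = 1)
    (hgen : Algebra.adjoin O (Set.range (fun g => (ρ g).trace) ∪ Set.range sg) = ⊤) :
    ∃ S : Finset R, S.card ≤ h * 2 ^ (Fintype.card Q) ∧ Submodule.span O (S : Set R) = ⊤ := by
  classical
  have hc : ∀ g ∈ HH ρ0, ∀ h ∈ HH ρ0, ρ g * ρ h = ρ h * ρ g := fun g hg h hh =>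
    rho_comm ω hm hX hXm hw hbad hdet hg hh
  set W := WW hc with hW
  have hUW : U ≤ W := fun u hu => ⟨by rw [mem_HH, hU0 u hu]; simp, by rw [hU u hu, one_pow]⟩
  have hWo : 𝓛.isOpen W := 𝓛.mono _ _ hUo hUW
  have hWH : W ≤ HH ρ0 := fun g hg => hg.1
  have hidx : W.relIndex (HH ρ0) ≤ h := by
    refine hCFT W ⟨?_⟩ hWH hWo ?_ ?_ ?_
    · rintro w ⟨hw1, hw2⟩ g
      have hn : g * w * g⁻¹ ∈ HH ρ0 := by
        by_cases hg : g ∈ HH ρ0
        · exact (HH ρ0).mul_mem ((HH ρ0).mul_mem hg hw1) ((HH ρ0).inv_mem hg)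
        · exact mul_mem_HH_of_not (mul_notMem_left hg hw1) (fun h => hg (by
            simpa using (HH ρ0).inv_mem h))
      refine ⟨hn, ?_⟩
      rw [← map_pow, conj_pow, map_mul, map_mul, map_pow, hw2, mul_one, ← map_mul, mul_inv_cancel,
        map_one]
    · rintro v g ⟨hg, hgH⟩
      refine ⟨hgH, ?_⟩
      rw [rho_eq_one_of_inertia ω hm hρ hX hXm hw hbad hgH (hs v) (hI v g hg) (hgv v) (hgv1 v),
        one_pow]
    · intro a ha b hb
      refine ⟨(HH ρ0).mul_mem ((HH ρ0).mul_mem ((HH ρ0).mul_mem ha hb) ((HH ρ0).inv_mem ha))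
        ((HH ρ0).inv_mem hb), ?_⟩
      have : ρ (a * b * a⁻¹ * b⁻¹) = 1 := by
        rw [map_mul, map_mul, map_mul, hc a ha b hb, mul_assoc (ρ b), ← map_mul, mul_inv_cancel,
          map_one, mul_one, ← map_mul, mul_inv_cancel, map_one]
      rw [this, one_pow]
    · intro a ha
      refine ⟨N, (HH ρ0).pow_mem ha _, ?_⟩
      rw [← map_pow, ← pow_mul, mul_comm, pow_mul, map_pow]
      exact unip_pow_M2 hm (rho_cube_sub hm hρ ha)
  -- the image
  let S1 : Set R := {r | ∃ g, ρ0 g = 1 ∧ mu ρ X ω g = r}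
  have hker : ∀ g, ρ0 g = 1 → g ∈ HH ρ0 := fun g hg => by rw [mem_HH, hg]; simp
  have hfi : (W.subgroupOf (HH ρ0)).FiniteIndex := by
    have := 𝓛.fin W hWo
    infer_instance
  let φ : S1 → (HH ρ0) ⧸ W.subgroupOf (HH ρ0) := fun r =>
    QuotientGroup.mk ⟨r.2.choose, hker _ r.2.choose_spec.1⟩
  have hφ : Function.Injective φ := by
    intro r r' hrr
    have h1 := QuotientGroup.eq.mp hrr
    rw [Subgroup.mem_subgroupOf] at h1
    obtain ⟨h1H, h1c⟩ := h1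
    set g := r.2.choose
    set g' := r'.2.choose
    have hg : ρ0 g = 1 := r.2.choose_spec.1
    have hg' : ρ0 g' = 1 := r'.2.choose_spec.1
    have hr : mu ρ X ω g = r := r.2.choose_spec.2
    have hr' : mu ρ X ω g' = r' := r'.2.choose_spec.2
    change (ρ (g⁻¹ * g')) ^ 3 = 1 at h1c
    have h3 : ρ0 (g⁻¹ * g') = 1 := by
      have : ρ0 g⁻¹ = 1 := by
        have h4 : ρ0 g * ρ0 g⁻¹ = 1 := by rw [← map_mul, mul_inv_cancel, map_one]
        rwa [hg, one_mul] at h4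
      rw [map_mul, this, hg', one_mul]
    have h5 : mu ρ X ω (g⁻¹ * g') ^ 3 = 1 := by
      have h6 : mu ρ X ω ((g⁻¹ * g') ^ 3) = mu ρ X ω (g⁻¹ * g') ^ 3 := by
        rw [pow_succ, pow_two, mu_mul ω hm hX hXm hw hbad ((HH ρ0).mul_mem (hker _ h3) (hker _ h3)),
          mu_mul ω hm hX hXm hw hbad (hker _ h3)]
        ring
      rw [← h6, mu, map_pow, h1c, ← map_one ρ]
      exact mu_one ω hm hX hXm
    have h7 := unip_pow hm (mu_sub_one_mem ω hm hρ hX hXm hw h3)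
    have h8 : mu ρ X ω (g⁻¹ * g') = 1 := by
      have hcop : Nat.Coprime 3 (2 ^ N) := by
        apply Nat.Coprime.pow_right
        decide
      have h9 := pow_gcd_eq_one.mpr (And.intro h5 h7)
      rwa [hcop, pow_one] at h9
    have h10 : mu ρ X ω g' = mu ρ X ω g := by
      have : g' = g * (g⁻¹ * g') := by group
      rw [this, mu_mul ω hm hX hXm hw hbad (hker _ hg), h8, mul_one]
    exact Subtype.ext (by rw [← hr, ← hr', h10])
  have : Finite ((HH ρ0) ⧸ W.subgroupOf (HH ρ0)) := Subgroup.finite_quotient_of_finiteIndex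
  have hS1f : Finite S1 := Finite.of_injective φ hφ
  have hS1 : Nat.card S1 ≤ h := by
    refine (Nat.card_le_card_of_injective φ hφ).trans ?_
    exact hidx
  have : Fintype S1 := Fintype.ofFinite _
  rw [Nat.card_eq_fintype_card, ← Set.toFinset_card] at hS1
  set S1' := S1.toFinset with hS1'
  have hmem1 : ∀ r, r ∈ S1' ↔ r ∈ S1 := fun r => Set.mem_toFinset
  let S : Finset R := (S1' ×ˢ (Finset.univ : Finset (Finset Q))).image
    fun p => p.1 * ∏ q ∈ p.2, sg q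
  have hSmem : ∀ r, r ∈ S ↔ ∃ a ∈ S1, ∃ A : Finset Q, a * ∏ q ∈ A, sg q = r := by
    intro r
    simp only [S, Finset.mem_image, Finset.mem_product, Finset.mem_univ, and_true, Prod.exists,
      hmem1]
    constructor
    · rintro ⟨a, A, ha, h⟩; exact ⟨a, ha, A, h⟩
    · rintro ⟨a, ha, A, h⟩; exact ⟨a, A, ha, h⟩
  refine ⟨S, ?_, ?_⟩
  · refine Finset.card_image_le.trans ?_
    rw [Finset.card_product, Finset.card_univ, Fintype.card_finset]
    exact Nat.mul_le_mul_right _ hS1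
  -- closure under multiplication
  have hS1mul : ∀ a ∈ S1, ∀ b ∈ S1, a * b ∈ S1 := by
    rintro a ⟨g, hg, rfl⟩ b ⟨g', hg', rfl⟩
    exact ⟨g * g', by rw [map_mul, hg, hg', one_mul],
      mu_mul ω hm hX hXm hw hbad (hker _ hg)⟩
  have hS1one : (1 : R) ∈ S1 := ⟨1, map_one _, mu_one ω hm hX hXm⟩
  have hprod : ∀ A B : Finset Q, ∃ C : Finset Q,
      (∏ q ∈ A, sg q) * ∏ q ∈ B, sg q = ∏ q ∈ C, sg q := by
    intro A B
    induction A using Finset.induction_on generalizing B with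
    | empty => exact ⟨B, by simp⟩
    | insert q A hq ih =>
      rw [Finset.prod_insert hq]
      by_cases hB : q ∈ B
      · obtain ⟨C, hC⟩ := ih (B.erase q)
        refine ⟨C, ?_⟩
        rw [← hC, ← Finset.mul_prod_erase B _ hB]
        linear_combination (∏ q ∈ A, sg q) * (∏ q ∈ B.erase q, sg q) * hsg q
      · obtain ⟨C, hC⟩ := ih (insert q B)
        refine ⟨C, ?_⟩
        rw [← hC, Finset.prod_insert hB]
        ring
  let Mo : Submonoid R :=
    { carrier := (S : Set R)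
      one_mem' := by
        rw [Finset.mem_coe, hSmem]
        exact ⟨1, hS1one, ∅, by simp⟩
      mul_mem' := by
        intro a b ha hb
        rw [Finset.mem_coe, hSmem] at ha hb ⊢
        obtain ⟨a, ha, A, rfl⟩ := ha
        obtain ⟨b, hb, B, rfl⟩ := hb
        obtain ⟨C, hC⟩ := hprod A B
        exact ⟨a * b, hS1mul a ha b hb, C, by rw [← hC]; ring⟩ }
  have hspan : Submodule.span O (S : Set R) =
      Subalgebra.toSubmodule (Algebra.adjoin O (S : Set R)) := by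
    rw [Algebra.adjoin_eq_span]
    congr 1
    exact (Submonoid.closure_eq Mo).symm ▸ rfl
  rw [hspan]
  have hS1S : ∀ r ∈ S1, r ∈ S := fun r hr => (hSmem r).mpr ⟨r, hr, ∅, by simp⟩
  have hle : (⊤ : Subalgebra O R) ≤ Algebra.adjoin O (S : Set R) := by
    rw [← hgen]
    refine Algebra.adjoin_le ?_
    rintro r (⟨g, rfl⟩ | ⟨q, rfl⟩)
    · change (ρ g).trace ∈ Algebra.adjoin O (S : Set R)
      by_cases hg : g ∈ HH ρ0
      · rw [trace_eq_mu ω hm hX hXm hw hbad hdet hg]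
        have key : ∀ g ∈ HH ρ0, mu ρ X ω g ∈ Algebra.adjoin O (S : Set R) := by
          intro g hg
          obtain ⟨j, g', h1, h3⟩ := mu_cases ω hm hρ hX hXm hw hg0 hg00 hbad hg
          rw [h3]
          exact Subalgebra.mul_mem _ (Subalgebra.pow_mem _ (Subalgebra.algebraMap_mem _ _) _)
            (Algebra.subset_adjoin (hS1S _ ⟨g', h1, rfl⟩))
        exact Subalgebra.add_mem _ (key g hg) (key _ ((HH ρ0).inv_mem hg))
      · rw [trace_of_bad (hbad g) hg]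
        exact Subalgebra.zero_mem _
    · refine Algebra.subset_adjoin ?_
      rw [Finset.mem_coe, hSmem]
      exact ⟨1, hS1one, {q}, by simp⟩
  rw [eq_top_iff] 
  intro r _
  exact hle (Algebra.mem_top (x := r))

end Data

end Fermat.Agent.Z34
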