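import Mathlib
import Fermat.Agent.H27.Z3Span2

set_option autoImplicit false
set_option linter.unusedSectionVars false

/-!
# PROGRAM Z, package Z4: normal form of a component
-/

namespace Fermat.Agent.Z34

open Matrix Fermat.Agent.CC IsLocalRing

/-- Global data. -/
structure Dat (G : Type*) [Group G] where
  𝓛 : Lev G
  ρ0 : G →* M2 (ZMod 2)
  σ : G
  τ : G
  hσ : ρ0 σ = !![1, 1; 0, 1]
  hτ : ρ0 τ = !![0, 1; 1, 0]
  V : Type
  D : V → Subgroup G
  I : V → Subgroup G
  I_le : ∀ v, I v ≤ D v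
  gv : V → G
  gv_mem : ∀ v, gv v ∈ D v
  gv_ne : ∀ v, ρ0 (gv v) ≠ 1
  Q : Finset V
  gv_I : ∀ v, v ∉ Q → gv v ∈ I v
  n : V → G → ℕ
  U0 : Subgroup G
  U0_open : 𝓛.isOpen U0
  U0_ker : ∀ u ∈ U0, ρ0 u = 1
  v0 : V
  σ_mem : σ ∈ I v0

/-- A component: a representation over a local `O`-algebra `P`. -/
structure Comp {G : Type*} [Group G] (X : Dat G) {O : Type*} [CommRing O] [IsLocalRing O]
    (χ : G → O) (P : Type*) [CommRing P] [IsLocalRing P] [Algebra O P] where
  ρ : G →* M2 P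
  det : ∀ g, (ρ g).det = algebraMap O P (χ g)
  res : ∀ g, (ρ g).trace - (((X.ρ0 g).trace.val : ℕ) : P) ∈ maximalIdeal P
  cont : ∀ n : ℕ, ∃ U, X.𝓛.isOpen U ∧ ∀ u ∈ U,
    InM ((maximalIdeal O).map (algebraMap O P) ^ n) (ρ u - 1)
  α : X.V → G → P
  α_sq : ∀ v, ∀ d ∈ X.D v, α v d * α v d = 1
  α_I : ∀ v, ∀ d ∈ X.I v, α v d = 1
  α_Q : ∀ v ∈ X.Q, ∀ d ∈ X.D v, α v d = α v (X.gv v) ^ (X.n v d)
  ℓ : X.V → Fin 2 → P
  ℓ_unit : ∀ v, ∃ i, IsUnit (ℓ v i)
  act : ∀ v, ∀ d ∈ X.D v, ρ d *ᵥ ℓ v = (algebraMap O P (χ d) * α v d) • ℓ v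
  quo : ∀ v, ∀ d ∈ X.D v, ∀ w : Fin 2 → P, ∃ c : P, ρ d *ᵥ w - α v d • w = c • ℓ v

section Normal

variable {G : Type*} [Group G] {P : Type*} [CommRing P]

/-- the normalised matrix attached to a trace function -/
def nrm (t : G → P) (χτ : P) (σ τ : G) (u : P) (g : G) : M2 P :=
  let c := t (σ * g) - t g
  let a := u * (t (σ * τ * g) - t (τ * g) - t τ * c)
  let d := t g - a
  !![a, u * (t (τ * g) + u * χτ * c - t τ * d); c, d]

theorem nrm_map {P' : Type*} [CommRing P'] (f : P →+* P') (t : G → P) (χτ : P) (σ τ : G)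
    (u : P) (g : G) : (nrm t χτ σ τ u g).map f = nrm (fun g => f (t g)) (f χτ) σ τ (f u) g := by
  ext i j
  fin_cases i <;> fin_cases j <;> simp [nrm, map_mul, map_add, map_sub]

/-- **Normal form.** -/
theorem exists_nrm (ρ : G →* M2 P) {σ τ : G} (hσ : (ρ σ).trace = 2) (hσd : (ρ σ).det = 1)
    {u : P} (hu : ((ρ (σ * τ)).trace - (ρ τ).trace) * u = 1) {j : Fin 2}
    (hj : IsUnit ((ρ σ - 1) 0 j) ∨ IsUnit ((ρ σ - 1) 1 j)) :
    ∃ P0 P1 : M2 P, P0 * P1 = 1 ∧ P1 * P0 = 1 ∧
      ∀ g, P1 * ρ g * P0 = nrm (fun g => (ρ g).trace) (ρ τ).det σ τ u g := by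
  set n := ρ σ - 1 with hn
  have hnt : n.trace = 0 := by
    rw [hn, Matrix.trace_sub, hσ, Matrix.trace_one]; simp
  have hnd : n.det = 0 := by
    rw [Matrix.det_fin_two] at hσd ⊢
    rw [Matrix.trace_fin_two] at hσ
    simp only [hn, Matrix.sub_apply, Matrix.one_apply_eq]
    rw [Matrix.one_apply_ne (by decide), Matrix.one_apply_ne (by decide)]
    linear_combination hσd - hσ
  have hnn : n * n = 0 := by
    have h1 := rank_one_mul hnd (1 : M2 P)
    rwa [mul_one, hnt, zero_smul] at h1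
  set c1 := (ρ (σ * τ)).trace - (ρ τ).trace with hc1
  have hc1' : (n * ρ τ).trace = c1 := by
    rw [hn, sub_mul, one_mul, Matrix.trace_sub, ← map_mul]
  -- the basis
  set e1 : Fin 2 → P := n *ᵥ (Pi.single j 1) with he1
  set e2 : Fin 2 → P := u • (ρ τ *ᵥ e1) with he2
  have hne1 : n *ᵥ e1 = 0 := by rw [he1, Matrix.mulVec_mulVec, hnn, Matrix.zero_mulVec]
  have hne2 : n *ᵥ e2 = e1 := by
    rw [he2, Matrix.mulVec_smul, he1, Matrix.mulVec_mulVec, Matrix.mulVec_mulVec, 
      rank_one_mul hnd, hc1', Matrix.smul_mulVec, smul_smul, mul_comm, hu, one_smul]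
  have he1j : ∀ i, e1 i = n i j := fun i => by
    rw [he1, Matrix.mulVec_single_one]; rfl
  set δ := e1 0 * e2 1 - e1 1 * e2 0 with hδ
  have e10 : n 0 0 * e1 0 + n 0 1 * e1 1 = 0 := by
    have := congrFun hne1 0
    simpa [Matrix.mulVec, dotProduct, Fin.sum_univ_two] using this
  have e11 : n 1 0 * e1 0 + n 1 1 * e1 1 = 0 := by
    have := congrFun hne1 1
    simpa [Matrix.mulVec, dotProduct, Fin.sum_univ_two] using this
  have e20 : n 0 0 * e2 0 + n 0 1 * e2 1 = e1 0 := by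
    have := congrFun hne2 0
    simpa [Matrix.mulVec, dotProduct, Fin.sum_univ_two] using this
  have e21 : n 1 0 * e2 0 + n 1 1 * e2 1 = e1 1 := by
    have := congrFun hne2 1
    simpa [Matrix.mulVec, dotProduct, Fin.sum_univ_two] using this
  have hδu : IsUnit δ := by
    rcases hj with hj | hj
    · rw [← he1j] at hj
      have h1 : δ * n 0 1 = e1 0 * e1 0 := by
        rw [hδ]; linear_combination e1 0 * e20 - e2 0 * e10
      exact isUnit_of_mul_isUnit_left (h1 ▸ hj.mul hj)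
    · rw [← he1j] at hj
      have h1 : δ * (-n 1 0) = e1 1 * e1 1 := by
        rw [hδ]; linear_combination e1 1 * e21 - e2 1 * e11
      exact isUnit_of_mul_isUnit_left (h1 ▸ hj.mul hj)
  obtain ⟨δi, hδi⟩ := hδu.exists_right_inv
  set P0 : M2 P := !![e1 0, e2 0; e1 1, e2 1] with hP0
  set P1 : M2 P := !![δi * e2 1, -δi * e2 0; -δi * e1 1, δi * e1 0] with hP1
  have h01 : P0 * P1 = 1 := by
    rw [hP0, hP1]
    refine M2_ext ?_ ?_ ?_ ?_ <;>
      simp only [Matrix.mul_apply, Fin.sum_univ_two, Matrix.of_apply, Matrix.cons_val',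
        Matrix.cons_val_zero, Matrix.cons_val_one, Matrix.cons_val_fin_one,
        Matrix.one_apply_eq, Matrix.one_apply_ne (show (0 : Fin 2) ≠ 1 by decide),
        Matrix.one_apply_ne (show (1 : Fin 2) ≠ 0 by decide)]
    · linear_combination hδi
    · ring
    · ring
    · linear_combination hδi
  have h10 : P1 * P0 = 1 := by
    rw [hP0, hP1]
    refine M2_ext ?_ ?_ ?_ ?_ <;>
      simp only [Matrix.mul_apply, Fin.sum_univ_two, Matrix.of_apply, Matrix.cons_val',
        Matrix.cons_val_zero, Matrix.cons_val_one, Matrix.cons_val_fin_one,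
        Matrix.one_apply_eq, Matrix.one_apply_ne (show (0 : Fin 2) ≠ 1 by decide),
        Matrix.one_apply_ne (show (1 : Fin 2) ≠ 0 by decide)]
    · linear_combination hδi
    · ring
    · ring
    · linear_combination hδi
  refine ⟨P0, P1, h01, h10, ?_⟩
  -- conjugated representation
  set F : G → M2 P := fun g => P1 * ρ g * P0 with hF
  have hFmul : ∀ g h, F (g * h) = F g * F h := by
    intro g h
    simp only [hF]
    rw [map_mul]
    calc P1 * (ρ g * ρ h) * P0 = P1 * ρ g * 1 * (ρ h * P0) := by simp only [mul_assoc, mul_one]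
      _ = P1 * ρ g * (P0 * P1) * (ρ h * P0) := by rw [h01]
      _ = _ := by simp only [mul_assoc]
  have hFtr : ∀ g, (F g).trace = (ρ g).trace := by
    intro g
    simp only [hF]
    rw [Matrix.trace_mul_comm, ← mul_assoc, h01, one_mul]
  have hFn : P1 * n * P0 = !![0, 1; 0, 0] := by
    have h3 : n * P0 = P0 * !![0, 1; 0, 0] := by
      rw [hP0]
      refine M2_ext ?_ ?_ ?_ ?_ <;>
        simp only [Matrix.mul_apply, Fin.sum_univ_two, Matrix.of_apply, Matrix.cons_val',
          Matrix.cons_val_zero, Matrix.cons_val_one, Matrix.cons_val_fin_one]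
      · linear_combination e10
      · linear_combination e20
      · linear_combination e11
      · linear_combination e21
    rw [mul_assoc, h3, ← mul_assoc, h10, one_mul]
  have hFσ : F σ = 1 + !![0, 1; 0, 0] := by
    have : ρ σ = 1 + n := by rw [hn]; abel
    simp only [hF]
    rw [this, mul_add, mul_one, add_mul, h10, hFn]
  have hFτ : F τ 0 0 = 0 ∧ F τ 1 0 = c1 := by
    have h3 : ρ τ *ᵥ e1 = c1 • e2 := by
      rw [he2, smul_smul, hu, one_smul]
    have h4 : ∀ i, ρ τ i 0 * e1 0 + ρ τ i 1 * e1 1 = c1 * e2 i := by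
      intro i
      have := congrFun h3 i
      simpa [Matrix.mulVec, dotProduct, Fin.sum_univ_two] using this
    have h5 := h4 0
    have h6 := h4 1
    simp only [hF, hP0, hP1, Matrix.mul_apply, Fin.sum_univ_two, Matrix.of_apply,
      Matrix.cons_val', Matrix.cons_val_zero, Matrix.cons_val_one, Matrix.cons_val_fin_one]
    constructor
    · linear_combination δi * e2 1 * h5 - δi * e2 0 * h6
    · linear_combination (-δi * e1 1) * h5 + δi * e1 0 * h6 + c1 * hδi
  have hFτ11 : F τ 1 1 = (ρ τ).trace := by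
    have := hFtr τ
    rw [Matrix.trace_fin_two, hFτ.1, zero_add] at this
    exact this
  have hdet : (F τ).det = (ρ τ).det := by
    simp only [hF]
    rw [Matrix.det_mul, Matrix.det_mul, mul_comm, ← mul_assoc, ← Matrix.det_mul, h01,
      Matrix.det_one, one_mul]
  have hFτ01 : F τ 0 1 = -(u * (ρ τ).det) := by
    rw [Matrix.det_fin_two, hFτ.1, hFτ.2, zero_mul, zero_sub] at hdet
    rw [← hdet]
    linear_combination (-(F τ 0 1)) * hu
  intro g
  change F g = _
  have k1 : (ρ (σ * g)).trace - (ρ g).trace = F g 1 0 := by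
    rw [← hFtr, ← hFtr, hFmul, hFσ, add_mul, one_mul, Matrix.trace_add, add_sub_cancel_left,
      Matrix.trace_fin_two]
    simp [Matrix.mul_apply, Fin.sum_univ_two]
  have k2 : (ρ (σ * τ * g)).trace - (ρ (τ * g)).trace =
      c1 * F g 0 0 + (ρ τ).trace * F g 1 0 := by
    rw [← hFtr, ← hFtr (τ * g), mul_assoc, hFmul, hFσ, add_mul, one_mul, Matrix.trace_add,
      add_sub_cancel_left, Matrix.trace_fin_two, hFmul, ← hFτ11, ← hFτ.2]
    simp [Matrix.mul_apply, Fin.sum_univ_two]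
  have k3 : (ρ g).trace = F g 0 0 + F g 1 1 := by rw [← hFtr, Matrix.trace_fin_two]
  have k4 : (ρ (τ * g)).trace = -(u * (ρ τ).det) * F g 1 0 + c1 * F g 0 1 +
      (ρ τ).trace * F g 1 1 := by
    rw [← hFtr, hFmul, Matrix.trace_fin_two, ← hFτ11, ← hFτ.2, ← hFτ01]
    simp only [Matrix.mul_apply, Fin.sum_univ_two, hFτ.1]
    ring
  have g00 : F g 0 0 = u * ((ρ (σ * τ * g)).trace - (ρ (τ * g)).trace -
      (ρ τ).trace * ((ρ (σ * g)).trace - (ρ g).trace)) := by
    rw [k2, k1]; linear_combination (-(F g 0 0)) * hu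
  have g11 : F g 1 1 = (ρ g).trace - F g 0 0 := by rw [k3]; ring
  have g01 : F g 0 1 = u * ((ρ (τ * g)).trace + u * (ρ τ).det *
      ((ρ (σ * g)).trace - (ρ g).trace) - (ρ τ).trace * F g 1 1) := by
    rw [k4, k1]; linear_combination (-(F g 0 1)) * hu
  refine M2_ext ?_ ?_ ?_ ?_
  · simp only [nrm, Matrix.of_apply, Matrix.cons_val', Matrix.cons_val_zero, 
      Matrix.cons_val_fin_one]
    exact g00
  · simp only [nrm, Matrix.of_apply, Matrix.cons_val', Matrix.cons_val_zero, 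
      Matrix.cons_val_one, Matrix.cons_val_fin_one]
    rw [← g00, ← g11]
    exact g01
  · simp only [nrm, Matrix.of_apply, Matrix.cons_val', Matrix.cons_val_zero, 
      Matrix.cons_val_one, Matrix.cons_val_fin_one]
    exact k1.symm
  · simp only [nrm, Matrix.of_apply, Matrix.cons_val',
      Matrix.cons_val_one, Matrix.cons_val_fin_one]
    rw [← g00]
    exact g11

end Normal

end Fermat.Agent.Z34
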