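import Mathlib
import Fermat.Agent.H27.Z4Comp
import Fermat.Agent.H25.TraceProd

set_option autoImplicit false
set_option linter.unusedSectionVars false
set_option linter.style.haveILetI false

/-!
# PROGRAM Z, package Z4: the trace ring of a family of components
-/

namespace Fermat.Agent.Z34

open Matrix Fermat.Agent.CC IsLocalRing Fermat.Agent.H25.TR

section F2

theorem nrm_F2 {G : Type*} [Group G] (ρ0 : G →* M2 (ZMod 2)) {σ τ : G}
    (hσ : ρ0 σ = !![1, 1; 0, 1]) (hτ : ρ0 τ = !![0, 1; 1, 0]) (g : G) :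
    nrm (fun g => (ρ0 g).trace) 1 σ τ 1 g = ρ0 g := by
  have key : ∀ a b c d : ZMod 2,
      (!![1 * (((!![1, 1; 0, 1] : M2 (ZMod 2)) * !![0, 1; 1, 0] * !![a, b; c, d]).trace -
          ((!![0, 1; 1, 0] : M2 (ZMod 2)) * !![a, b; c, d]).trace -
          (!![0, 1; 1, 0] : M2 (ZMod 2)).trace * (((!![1, 1; 0, 1] : M2 (ZMod 2)) *
          !![a, b; c, d]).trace - (!![a, b; c, d] : M2 (ZMod 2)).trace)),
        1 * (((!![0, 1; 1, 0] : M2 (ZMod 2)) * !![a, b; c, d]).trace + 1 * 1 *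
          (((!![1, 1; 0, 1] : M2 (ZMod 2)) *
          !![a, b; c, d]).trace - (!![a, b; c, d] : M2 (ZMod 2)).trace) -
          (!![0, 1; 1, 0] : M2 (ZMod 2)).trace * ((!![a, b; c, d] : M2 (ZMod 2)).trace -
          1 * (((!![1, 1; 0, 1] : M2 (ZMod 2)) * !![0, 1; 1, 0] * !![a, b; c, d]).trace -
          ((!![0, 1; 1, 0] : M2 (ZMod 2)) * !![a, b; c, d]).trace -
          (!![0, 1; 1, 0] : M2 (ZMod 2)).trace * (((!![1, 1; 0, 1] : M2 (ZMod 2)) *
          !![a, b; c, d]).trace - (!![a, b; c, d] : M2 (ZMod 2)).trace))));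
        (((!![1, 1; 0, 1] : M2 (ZMod 2)) *
          !![a, b; c, d]).trace - (!![a, b; c, d] : M2 (ZMod 2)).trace),
        (!![a, b; c, d] : M2 (ZMod 2)).trace -
          1 * (((!![1, 1; 0, 1] : M2 (ZMod 2)) * !![0, 1; 1, 0] * !![a, b; c, d]).trace -
          ((!![0, 1; 1, 0] : M2 (ZMod 2)) * !![a, b; c, d]).trace -
          (!![0, 1; 1, 0] : M2 (ZMod 2)).trace * (((!![1, 1; 0, 1] : M2 (ZMod 2)) *
          !![a, b; c, d]).trace - (!![a, b; c, d] : M2 (ZMod 2)).trace))] : M2 (ZMod 2)) =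
      !![a, b; c, d] := by decide
  have h := key (ρ0 g 0 0) (ρ0 g 0 1) (ρ0 g 1 0) (ρ0 g 1 1)
  rw [← eta (ρ0 g)] at h
  rw [← h]
  simp only [nrm, map_mul, hσ, hτ]

end F2

section CompLemmas

variable {G : Type*} [Group G] {X : Dat G} {O : Type*} [CommRing O] [IsLocalRing O]
  {χ : G → O} {P : Type*} [CommRing P] [IsLocalRing P] [Algebra O P] (C : Comp X χ P)

namespace Comp

include C in
theorem exists_row {v : X.V} {d : G} (hd : d ∈ X.D v) : ∃ c : Fin 2 → P,
    (∀ i j, C.ρ d i j = (C.α v d • (1 : M2 P)) i j + C.ℓ v i * c j) ∧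
    C.ℓ v 0 * c 0 + C.ℓ v 1 * c 1 = (algebraMap O P (χ d) - 1) * C.α v d := by
  choose c hc using C.quo v d hd
  have h1 : ∀ i j, C.ρ d i j = (C.α v d • (1 : M2 P)) i j + C.ℓ v i * c (Pi.single j 1) := by
    intro i j
    have h2 := congrFun (hc (Pi.single j 1)) i
    rw [Matrix.mulVec_single_one] at h2
    simp only [Pi.sub_apply, Pi.smul_apply, smul_eq_mul, Matrix.col_apply] at h2
    rw [Matrix.smul_apply, smul_eq_mul, Matrix.one_apply, mul_comm (C.ℓ v i), ← h2]
    have h3 : (Pi.single j (1 : P) : Fin 2 → P) i = if i = j then 1 else 0 := by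
      rw [Pi.single_apply]
    rw [h3]; ring
  refine ⟨fun j => c (Pi.single j 1), h1, ?_⟩
  obtain ⟨i, hi⟩ := C.ℓ_unit v
  have h2 := congrFun (C.act v d hd) i
  have h3 : (C.ρ d *ᵥ C.ℓ v) i = C.ρ d i 0 * C.ℓ v 0 + C.ρ d i 1 * C.ℓ v 1 := by
    simp [Matrix.mulVec, dotProduct, Fin.sum_univ_two]
  rw [h3, h1 i 0, h1 i 1, Pi.smul_apply, smul_eq_mul] at h2
  have h4 : (C.α v d • (1 : M2 P)) i 0 * C.ℓ v 0 + (C.α v d • (1 : M2 P)) i 1 * C.ℓ v 1 =
      C.α v d * C.ℓ v i := by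
    fin_cases i <;> simp [Matrix.smul_apply]
  refine hi.mul_left_cancel ?_
  linear_combination h2 - h4

include C in
theorem trace_D {v : X.V} {d : G} (hd : d ∈ X.D v) :
    (C.ρ d).trace = C.α v d * (1 + algebraMap O P (χ d)) := by
  obtain ⟨c, hc, hc'⟩ := C.exists_row hd
  rw [Matrix.trace_fin_two, hc, hc]
  simp only [Matrix.smul_apply, Matrix.one_apply_eq, smul_eq_mul, mul_one]
  linear_combination hc'

include C in
theorem rel_D {v : X.V} {d d' : G} (hd : d ∈ X.D v) (hd' : d' ∈ X.D v) :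
    C.ρ d * (C.ρ d' - C.α v d' • 1) =
      (algebraMap O P (χ d) * C.α v d) • (C.ρ d' - C.α v d' • 1) := by
  obtain ⟨c, hc, hc'⟩ := C.exists_row hd'
  have h1 : ∀ i j, (C.ρ d' - C.α v d' • 1) i j = C.ℓ v i * c j := fun i j => by
    rw [Matrix.sub_apply, hc, add_sub_cancel_left]
  ext i j
  have h2 := congrFun (C.act v d hd) i
  have h3 : (C.ρ d *ᵥ C.ℓ v) i = C.ρ d i 0 * C.ℓ v 0 + C.ρ d i 1 * C.ℓ v 1 := by
    simp [Matrix.mulVec, dotProduct, Fin.sum_univ_two]
  rw [h3, Pi.smul_apply, smul_eq_mul] at h2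
  rw [Matrix.mul_apply, Fin.sum_univ_two, h1, h1, Matrix.smul_apply, h1, smul_eq_mul]
  linear_combination c j * h2

end Comp

end CompLemmas

section Family

variable {G : Type} [Group G] {X : Dat G} {O : Type} [CommRing O] [IsLocalRing O]
  [IsNoetherianRing O] {χ : G → O} {κ : Type} [Finite κ] [Nonempty κ] {B : κ → Type}
  [∀ i, CommRing (B i)] [∀ i, IsLocalRing (B i)] [∀ i, Algebra O (B i)]
  [∀ i, Module.Finite O (B i)] [∀ i, IsLocalHom (algebraMap O (B i))]
  (C : ∀ i, Comp X χ (B i))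

/-- traces and signs -/
def gens : G ⊕ X.Q → ∀ i, B i :=
  Sum.elim (fun g i => ((C i).ρ g).trace) (fun q i => (C i).α q (X.gv q))

/-- The algebra generated by traces and signs. -/
def TS : Subalgebra O (∀ i, B i) := Algebra.adjoin O (Set.range (gens C))

/-- the generators -/
def gA (x : G ⊕ X.Q) : TS C := ⟨gens C x, Algebra.subset_adjoin ⟨x, rfl⟩⟩

theorem adjoin_gA : Algebra.adjoin O (Set.range (gA C)) = ⊤ := by
  rw [eq_top_iff]
  rintro ⟨x, hx⟩ -
  induction hx using Algebra.adjoin_induction with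
  | mem x hx =>
    obtain ⟨g, rfl⟩ := hx
    exact Algebra.subset_adjoin ⟨g, rfl⟩
  | algebraMap r => exact Subalgebra.algebraMap_mem _ r
  | add x y hx hy hx' hy' => exact add_mem hx' hy'
  | mul x y hx hy hx' hy' => exact mul_mem hx' hy'

/-- projection -/
def pr (i : κ) : TS C →ₐ[O] B i := (Pi.evalAlgHom O B i).comp (TS C).val

theorem pr_apply (i : κ) (x : TS C) : pr C i x = (x : ∀ i, B i) i := rfl

theorem ext_pr {x y : TS C} (h : ∀ i, pr C i x = pr C i y) : x = y :=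
  Subtype.ext (funext h)

theorem ext_M2 {x y : M2 (TS C)} (h : ∀ i, x.map (pr C i) = y.map (pr C i)) : x = y := by
  ext1 a b
  exact ext_pr C fun i => congrFun (congrFun (h i) a) b

theorem pr_tr (i : κ) (g : G) : pr C i (gA C (Sum.inl g)) = ((C i).ρ g).trace := rfl

theorem pr_sg (i : κ) (q : X.Q) : pr C i (gA C (Sum.inr q)) = (C i).α q (X.gv q) := rfl

variable (h2 : (2 : O) ∈ maximalIdeal O)

theorem map_mem (P : Type) [CommRing P] [IsLocalRing P] [Algebra O P]
    [IsLocalHom (algebraMap O P)] {a : O} (ha : a ∈ maximalIdeal O) :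
    algebraMap O P a ∈ maximalIdeal P :=
  (map_mem_nonunits_iff (algebraMap O P) a).mpr ha

include h2 in
theorem two_mem (P : Type) [CommRing P] [IsLocalRing P] [Algebra O P]
    [IsLocalHom (algebraMap O P)] : (2 : P) ∈ maximalIdeal P := by
  have := map_mem P h2
  rwa [map_ofNat] at this

include h2 in
theorem sub_one_mem_of_sq (P : Type) [CommRing P] [IsLocalRing P] [Algebra O P]
    [IsLocalHom (algebraMap O P)] {a : P} (ha : a * a = 1) : a - 1 ∈ maximalIdeal P := by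
  have h3 : (a - 1) ^ 2 ∈ maximalIdeal P := by
    have : (a - 1) ^ 2 = 2 * (1 - a) := by linear_combination ha
    rw [this]
    exact Ideal.mul_mem_right _ _ (two_mem h2 P)
  exact (Ideal.IsPrime.pow_mem_iff_mem inferInstance 2 (by norm_num)).mp h3

include h2 in
theorem TS_le : TS C ≤ congSub O B := by
  refine Algebra.adjoin_le ?_
  rintro _ ⟨g | q, rfl⟩
  · refine ⟨(((X.ρ0 g).trace.val : ℕ) : O), fun i => ?_⟩
    rw [map_natCast]
    exact (C i).res g
  · refine ⟨1, fun i => ?_⟩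
    rw [map_one]
    exact sub_one_mem_of_sq h2 (B i) ((C i).α_sq q _ (X.gv_mem q))

theorem finite_TS : Module.Finite O (TS C) := by
  haveI := Fintype.ofFinite κ
  have h1 : IsNoetherian O (∀ i, B i) := inferInstance
  exact Module.IsNoetherian.finite O (Subalgebra.toSubmodule (TS C))

instance : Algebra.IsIntegral O (∀ i, B i) := by
  haveI := Fintype.ofFinite κ
  infer_instance

end Family

end Fermat.Agent.Z34
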