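import Mathlib
import Fermat.Agent.H27.Z4Fam

set_option autoImplicit false
set_option linter.unusedSectionVars false
set_option linter.style.haveILetI false

/-!
# PROGRAM Z, package Z4: the representation over the trace ring
-/

namespace Fermat.Agent.Z34

open Matrix Fermat.Agent.CC IsLocalRing Fermat.Agent.H25.TR

section Val

/-- lift of a matrix over `F_2` -/
def valM (P : Type*) [CommRing P] (M : M2 (ZMod 2)) : M2 P := M.map fun a => ((a.val : ℕ) : P)

theorem natCast_val_eq {P : Type*} [CommRing P] [Algebra (ZMod 2) P] (a : ZMod 2) :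
    ((a.val : ℕ) : P) = algebraMap (ZMod 2) P a := by
  rw [← map_natCast (algebraMap (ZMod 2) P), ZMod.natCast_val, ZMod.cast_id]

end Val

section

variable {G : Type} [Group G] {X : Dat G} {O : Type} [CommRing O] [IsLocalRing O]
  [IsNoetherianRing O] {χ : G → O} {κ : Type} [Finite κ] [Nonempty κ] {B : κ → Type}
  [∀ i, CommRing (B i)] [∀ i, IsLocalRing (B i)] [∀ i, Algebra O (B i)]
  [∀ i, Module.Finite O (B i)] [∀ i, IsLocalHom (algebraMap O (B i))]
  (C : ∀ i, Comp X χ (B i))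
  (h2 : (2 : O) ∈ maximalIdeal O) (hχσ : χ X.σ = 1) (hχ : ∀ g, χ g - 1 ∈ maximalIdeal O)

include h2 in
theorem isUnit_iff_pr (x : TS C) (i : κ) : IsUnit x ↔ IsUnit (pr C i x) :=
  isUnit_iff_of_le (TS_le C h2) x i

include h2 in
theorem isLocalRing_TS : IsLocalRing (TS C) := isLocalRing_of_le (TS_le C h2)

/-- `c(τ)` -/
def c1A : TS C := gA C (Sum.inl (X.σ * X.τ)) - gA C (Sum.inl X.τ)

include h2 in
theorem pr_c1A (i : κ) : pr C i (c1A C) - 1 ∈ maximalIdeal (B i) := by
  have h3 := (C i).res (X.σ * X.τ)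
  have h4 := (C i).res X.τ
  have e1 : ((X.ρ0 (X.σ * X.τ)).trace.val : ℕ) = 1 := by
    rw [map_mul, X.hσ, X.hτ]; decide
  have e2 : ((X.ρ0 X.τ).trace.val : ℕ) = 0 := by
    rw [X.hτ]; decide
  rw [e1, Nat.cast_one] at h3
  rw [e2, Nat.cast_zero, sub_zero] at h4
  have : pr C i (c1A C) - 1 = (((C i).ρ (X.σ * X.τ)).trace - 1) - ((C i).ρ X.τ).trace := by
    rw [c1A, map_sub, pr_tr, pr_tr]; ring
  rw [this]
  exact Ideal.sub_mem _ h3 h4

theorem isUnit_of_sub_one_mem {P : Type} [CommRing P] [IsLocalRing P] {x : P}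
    (h : x - 1 ∈ maximalIdeal P) : IsUnit x := by
  by_contra hx
  have h3 : x ∈ maximalIdeal P := hx
  have h4 := Ideal.sub_mem _ h3 h
  rw [sub_sub_cancel] at h4
  exact h4 isUnit_one

include h2 in
theorem isUnit_c1A : IsUnit (c1A C) := by
  rw [isUnit_iff_pr C h2 _ (Classical.arbitrary κ)]
  exact isUnit_of_sub_one_mem (pr_c1A C h2 _)

/-- inverse of `c(τ)` -/
noncomputable def uA : TS C := Ring.inverse (c1A C)

include h2 in
theorem c1A_mul_uA : c1A C * uA C = 1 := Ring.mul_inverse_cancel _ (isUnit_c1A C h2)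

/-- matrices over the trace ring -/
noncomputable def MA (g : G) : M2 (TS C) :=
  nrm (fun g => gA C (Sum.inl g)) (algebraMap O _ (χ X.τ)) X.σ X.τ (uA C) g

theorem MA_map (i : κ) (g : G) : (MA C g).map (pr C i) =
    nrm (fun g => ((C i).ρ g).trace) ((C i).ρ X.τ).det X.σ X.τ (pr C i (uA C)) g := by
  have := nrm_map (pr C i).toRingHom (fun g => gA C (Sum.inl g)) (algebraMap O _ (χ X.τ)) X.σ X.τ
    (uA C) g
  rw [MA]
  refine Eq.trans this ?_
  have h3 : (pr C i).toRingHom (algebraMap O _ (χ X.τ)) = ((C i).ρ X.τ).det := by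
    rw [(C i).det]
    exact (pr C i).commutes _
  rw [h3]
  rfl

include h2 hχσ in
theorem exists_conj (i : κ) : ∃ P0 P1 : M2 (B i), P0 * P1 = 1 ∧ P1 * P0 = 1 ∧
    ∀ g, (MA C g).map (pr C i) = P1 * (C i).ρ g * P0 := by
  have ht : ((C i).ρ X.σ).trace = 2 := by
    rw [(C i).trace_D (X.I_le _ X.σ_mem), (C i).α_I _ _ X.σ_mem, hχσ, map_one]; ring
  have hd : ((C i).ρ X.σ).det = 1 := by rw [(C i).det, hχσ, map_one]
  have hu : (((C i).ρ (X.σ * X.τ)).trace - ((C i).ρ X.τ).trace) * pr C i (uA C) = 1 := by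
    have := congrArg (pr C i) (c1A_mul_uA C h2)
    rw [map_mul, map_one, c1A, map_sub, pr_tr, pr_tr] at this
    exact this
  have hj : ∃ j, IsUnit (((C i).ρ X.σ - 1) 0 j) ∨ IsUnit (((C i).ρ X.σ - 1) 1 j) := by
    by_contra hcon
    push Not at hcon
    have hm : ∀ a b, ((C i).ρ X.σ - 1) a b ∈ maximalIdeal (B i) := by
      intro a b
      fin_cases a
      · exact (hcon b).1
      · exact (hcon b).2
    have h3 : ((C i).ρ (X.σ * X.τ)).trace - ((C i).ρ X.τ).trace =
        (((C i).ρ X.σ - 1) * (C i).ρ X.τ).trace := by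
      rw [sub_mul, one_mul, Matrix.trace_sub, ← map_mul]
    have h4 : ((C i).ρ (X.σ * X.τ)).trace - ((C i).ρ X.τ).trace ∈ maximalIdeal (B i) := by
      rw [h3, Matrix.trace_fin_two, Matrix.mul_apply, Matrix.mul_apply, Fin.sum_univ_two,
        Fin.sum_univ_two]
      exact Ideal.add_mem _
        (Ideal.add_mem _ (Ideal.mul_mem_right _ _ (hm _ _)) (Ideal.mul_mem_right _ _ (hm _ _)))
        (Ideal.add_mem _ (Ideal.mul_mem_right _ _ (hm _ _)) (Ideal.mul_mem_right _ _ (hm _ _)))
    exact h4 (IsUnit.of_mul_eq_one _ hu)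
  obtain ⟨j, hj⟩ := hj
  obtain ⟨P0, P1, h3, h4, h5⟩ := exists_nrm (C i).ρ ht hd hu hj
  exact ⟨P0, P1, h3, h4, fun g => by rw [MA_map, h5]⟩

/-- base change matrix -/
noncomputable def P0A (i : κ) : M2 (B i) := (exists_conj C h2 hχσ i).choose
/-- its inverse -/
noncomputable def P1A (i : κ) : M2 (B i) := (exists_conj C h2 hχσ i).choose_spec.choose

theorem P01 (i : κ) : P0A C h2 hχσ i * P1A C h2 hχσ i = 1 :=
  (exists_conj C h2 hχσ i).choose_spec.choose_spec.1
theorem P10 (i : κ) : P1A C h2 hχσ i * P0A C h2 hχσ i = 1 :=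
  (exists_conj C h2 hχσ i).choose_spec.choose_spec.2.1
theorem MA_conj (i : κ) (g : G) : (MA C g).map (pr C i) =
    P1A C h2 hχσ i * (C i).ρ g * P0A C h2 hχσ i :=
  (exists_conj C h2 hχσ i).choose_spec.choose_spec.2.2 g

/-- **The representation over the trace ring.** -/
noncomputable def ρA : G →* M2 (TS C) where
  toFun := MA C
  map_one' := by
    refine ext_M2 C fun i => ?_
    rw [MA_conj C h2 hχσ, map_one, mul_one, P10]
    ext a b
    rw [Matrix.map_apply, Matrix.one_apply, Matrix.one_apply]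
    split_ifs <;> simp
  map_mul' g h := by
    refine ext_M2 C fun i => ?_
    have e : (MA C g * MA C h).map (pr C i) = (MA C g).map (pr C i) * (MA C h).map (pr C i) :=
      Matrix.map_mul
    rw [e, MA_conj C h2 hχσ, MA_conj C h2 hχσ, MA_conj C h2 hχσ, map_mul]
    calc P1A C h2 hχσ i * ((C i).ρ g * (C i).ρ h) * P0A C h2 hχσ i =
        P1A C h2 hχσ i * (C i).ρ g * 1 * ((C i).ρ h * P0A C h2 hχσ i) := by
          simp only [mul_assoc, mul_one]
      _ = _ := by
          rw [← P01 C h2 hχσ i]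
          simp only [mul_assoc]

theorem ρA_conj (i : κ) (g : G) : (ρA C h2 hχσ g).map (pr C i) =
    P1A C h2 hχσ i * (C i).ρ g * P0A C h2 hχσ i := MA_conj C h2 hχσ i g

theorem trace_ρA (g : G) : (ρA C h2 hχσ g).trace = gA C (Sum.inl g) := by
  refine ext_pr C fun i => ?_
  have h3 : pr C i ((ρA C h2 hχσ g).trace) = ((ρA C h2 hχσ g).map (pr C i)).trace := by
    rw [Matrix.trace_fin_two, Matrix.trace_fin_two, map_add]; rfl
  rw [h3, ρA_conj, Matrix.trace_mul_comm, ← mul_assoc, P01, one_mul, pr_tr]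

theorem det_map_pr (i : κ) (M : M2 (TS C)) : pr C i M.det = (M.map (pr C i)).det := by
  rw [Matrix.det_fin_two, Matrix.det_fin_two, map_sub, map_mul, map_mul]; rfl

theorem det_ρA (g : G) : (ρA C h2 hχσ g).det = algebraMap O _ (χ g) := by
  refine ext_pr C fun i => ?_
  rw [det_map_pr, ρA_conj, Matrix.det_mul, Matrix.det_mul, mul_comm, ← mul_assoc,
    ← Matrix.det_mul, P01, Matrix.det_one, one_mul, (C i).det, AlgHom.commutes]

theorem exists_alg (P : Type) [CommRing P] [Nontrivial P] (h : (2 : P) = 0) :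
    Nonempty (Algebra (ZMod 2) P) := by
  haveI : CharP P 2 := CharTwo.of_one_ne_zero_of_two_eq_zero one_ne_zero h
  exact ⟨ZMod.algebra P 2⟩

include hχ in
/-- residual matrices -/
theorem ρA_res [IsLocalRing (TS C)] (g : G) :
    InM (maximalIdeal (TS C)) (ρA C h2 hχσ g - valM _ (X.ρ0 g)) := by
  set i := Classical.arbitrary κ
  set f := IsLocalRing.residue (TS C) with hf
  have hmem : ∀ x : TS C, pr C i x ∈ maximalIdeal (B i) → f x = 0 := by
    intro x hx
    rw [hf, IsLocalRing.residue_eq_zero_iff, mem_maximalIdeal_iff (TS_le C h2) x i]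
    exact hx
  have h2' : (2 : ResidueField (TS C)) = 0 := by
    have := hmem 2 (by rw [map_ofNat]; exact two_mem h2 (B i))
    rwa [map_ofNat] at this
  obtain ⟨halg⟩ := exists_alg (ResidueField (TS C)) h2'
  have ht : ∀ g, f (gA C (Sum.inl g)) =
      algebraMap (ZMod 2) (ResidueField (TS C)) (X.ρ0 g).trace := by
    intro g
    rw [← natCast_val_eq, ← map_natCast f, ← sub_eq_zero, ← map_sub]
    refine hmem _ ?_
    rw [map_sub, map_natCast, pr_tr]
    exact (C i).res g
  have hc : f (algebraMap O _ (χ X.τ)) = 1 := by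
    rw [← sub_eq_zero, ← map_one f, ← map_sub]
    refine hmem _ ?_
    rw [map_sub, map_one, AlgHom.commutes]
    have := map_mem (B i) (hχ X.τ)
    rwa [map_sub, map_one] at this
  have hu : f (uA C) = 1 := by
    have h3 := congrArg f (c1A_mul_uA C h2)
    have h4 : f (c1A C) = 1 := by
      rw [← sub_eq_zero, ← map_one f, ← map_sub]
      refine hmem _ ?_
      rw [map_sub, map_one]
      exact pr_c1A C h2 i
    rwa [map_mul, map_one, h4, one_mul] at h3
  have h3 : (ρA C h2 hχσ g).map f = up _ (X.ρ0 g) := by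
    change (MA C g).map f = _
    rw [MA, nrm_map, hc, hu]
    simp only [ht]
    have h4 := nrm_map (algebraMap (ZMod 2) (ResidueField (TS C)))
      (fun g => (X.ρ0 g).trace) 1 X.σ X.τ 1 g
    rw [map_one, nrm_F2 X.ρ0 X.hσ X.hτ] at h4
    exact h4.symm
  intro a b
  have h4 := congrFun (congrFun h3 a) b
  rw [Matrix.map_apply, up, Matrix.map_apply, ← natCast_val_eq, ← map_natCast f, ← sub_eq_zero,
    ← map_sub, hf, IsLocalRing.residue_eq_zero_iff] at h4
  exact h4

end

end Fermat.Agent.Z34
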