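import Mathlib
import Fermat.Agent.H27.Z4Rep

set_option autoImplicit false
set_option linter.unusedSectionVars false
set_option linter.style.haveILetI false

/-!
# PROGRAM Z, package Z4: upper bound for the number of generators
-/

namespace Fermat.Agent.Z34

open Matrix Fermat.Agent.CC IsLocalRing Fermat.Agent.H25.TR

/-- The Selmer input. -/
def Sel0 {G : Type*} [Group G] (X : Dat G) : Prop :=
  ∀ x : G → (Fin 2 → ZMod 2), (∀ a b, x (a * b) = x a + X.ρ0 a *ᵥ x b) →
    (∃ U, X.𝓛.isOpen U ∧ ∀ u ∈ U, x u = 0) →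
    (∀ v, ∀ d ∈ X.D v, ∀ e ∈ X.D v, X.ρ0 e *ᵥ x d = x d) →
    ∃ w, ∀ g, x g = X.ρ0 g *ᵥ w - w

theorem sq_of_trace {M : M2 (ZMod 2)} (hd : M.det = 1) (ht : M.trace = 0) : M * M = 1 := by
  revert hd ht
  rw [eta M]
  generalize M 0 0 = a
  generalize M 0 1 = b
  generalize M 1 0 = c
  generalize M 1 1 = d
  revert a b c d
  decide

theorem M2_sq {R : Type*} [CommRing R] (M : M2 R) : M * M = M.trace • M - M.det • 1 := by
  refine M2_ext ?_ ?_ ?_ ?_ <;>
    simp only [Matrix.mul_apply, Fin.sum_univ_two, Matrix.sub_apply, Matrix.smul_apply,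
      smul_eq_mul, Matrix.trace_fin_two, Matrix.det_fin_two, Matrix.one_apply_eq,
      Matrix.one_apply_ne (show (0 : Fin 2) ≠ 1 by decide),
      Matrix.one_apply_ne (show (1 : Fin 2) ≠ 0 by decide)] <;> ring

theorem gam_pow_four (k : ℕ) : gam ^ (4 ^ k) = gam := by
  induction k with
  | zero => simp
  | succ k ih =>
    rw [pow_succ, pow_mul, ih]
    decide

section

variable {G : Type} [Group G] {X : Dat G} {O : Type} [CommRing O] [IsLocalRing O]
  [IsNoetherianRing O] {χ : G → O} (h2 : (2 : O) ∈ maximalIdeal O)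
  (hχ : ∀ g, χ g - 1 ∈ maximalIdeal O)

theorem algebraMap_quot_eq_zero {A : Type} [CommRing A] [Algebra O A] {a : O}
    (ha : a ∈ maximalIdeal O) : algebraMap O (A ⧸ lamI O A) a = 0 := by
  rw [IsScalarTower.algebraMap_apply O A (A ⧸ lamI O A)]
  exact Ideal.Quotient.eq_zero_iff_mem.mpr (Ideal.mem_map_of_mem _ ha)

include h2 hχ in
/-- **The upper bound.** -/
theorem bound_abs {A : Type} [CommRing A] [IsLocalRing A] [Algebra O A] [Module.Finite O A]
    [IsLocalHom (algebraMap O A)] (ρ : G →* M2 A) (hdet : ∀ g, (ρ g).det = algebraMap O A (χ g))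
    (hres : ∀ g, InM (maximalIdeal A) (ρ g - valM A (X.ρ0 g)))
    (hcont : ∃ U, X.𝓛.isOpen U ∧ ∀ u ∈ U, InM (lamI O A) (ρ u - 1))
    (s : X.V → A) (hs : ∀ v, s v * s v = 1)
    (htr : ∀ v, ∀ d ∈ X.D v, ∃ a : A, (ρ d).trace = a * (1 + algebraMap O A (χ d)))
    (hrel : ∀ v, ∀ d ∈ X.I v, ρ d * (ρ (X.gv v) - s v • 1) =
      algebraMap O A (χ d) • (ρ (X.gv v) - s v • 1))
    {Q : Type} [Fintype Q] (sg : Q → A) (hsg : ∀ q, sg q * sg q = 1)
    (hgen : Algebra.adjoin O (Set.range (fun g => (ρ g).trace) ∪ Set.range sg) = ⊤)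
    (ω : O) (hω : ω ^ 2 + ω + 1 ∈ maximalIdeal O) (hSel : Sel0 X) {h : ℕ}
    (hCFT : CFT X.𝓛 X.ρ0 X.I h) :
    ∃ S : Finset A, S.card ≤ h * 2 ^ (Fintype.card Q) ∧ Submodule.span O (S : Set A) = ⊤ := by
  classical
  -- the quotient ring
  set J : Ideal A := lamI O A with hJ
  have hJle : J ≤ maximalIdeal A := by
    rw [hJ, lamI, Ideal.map_le_iff_le_comap]
    intro a ha
    exact (map_mem_nonunits_iff (algebraMap O A) a).mpr ha
  haveI hnt : Nontrivial (A ⧸ J) :=
    Ideal.Quotient.nontrivial_iff.mpr (fun h => (Ideal.IsPrime.ne_top inferInstance)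
      (top_le_iff.mp (h ▸ hJle)))
  set f : A →+* A ⧸ J := Ideal.Quotient.mk J with hf
  have h2R : (2 : A ⧸ J) = 0 := by
    have := algebraMap_quot_eq_zero (A := A) h2
    rwa [map_ofNat] at this
  obtain ⟨halg⟩ := exists_alg (A ⧸ J) h2R
  obtain ⟨N, hN⟩ := exists_pow_le_lamI (O := O) (B := A)
  set m : Ideal (A ⧸ J) := (maximalIdeal A).map f with hm
  have hmN : m ^ N = ⊥ := by
    rw [hm, ← Ideal.map_pow, eq_bot_iff, Ideal.map_le_iff_le_comap]
    intro x hx
    rw [Ideal.mem_comap, Submodule.mem_bot]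
    exact Ideal.Quotient.eq_zero_iff_mem.mpr (hN hx)
  have hmapm : ∀ {M : M2 A}, InM (maximalIdeal A) M → InM m (M.map f) :=
    fun hM i j => Ideal.mem_map_of_mem f (hM i j)
  set F : M2 A →+* M2 (A ⧸ J) := f.mapMatrix with hF
  let ρR : G →* M2 (A ⧸ J) := (F : M2 A →* _).comp ρ
  have hρR : ∀ g, ρR g = F (ρ g) := fun _ => rfl
  have hup : ∀ M : M2 (ZMod 2), F (valM A M) = up _ M := by
    intro M
    ext i j
    change f (((M i j).val : ℕ) : A) = algebraMap (ZMod 2) (A ⧸ J) (M i j)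
    rw [map_natCast, natCast_val_eq]
  have hρ : ∀ g, InM m (ρR g - up _ (X.ρ0 g)) := by
    intro g
    rw [hρR, ← hup, ← map_sub]
    exact hmapm (hres g)
  have hχR : ∀ g, algebraMap O (A ⧸ J) (χ g) = 1 := by
    intro g
    rw [← sub_eq_zero, ← map_one (algebraMap O (A ⧸ J)), ← map_sub]
    exact algebraMap_quot_eq_zero (hχ g)
  have htrR : ∀ g, (ρR g).trace = f ((ρ g).trace) := by
    intro g
    rw [hρR, Matrix.trace_fin_two, Matrix.trace_fin_two, map_add]; rfl
  have hdetR : ∀ g, (ρR g).det = 1 := by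
    intro g
    rw [hρR, hF, ← RingHom.map_det, hdet]
    exact hχR g
  -- the open subgroup
  obtain ⟨U, hU, hU'⟩ := hcont
  have hUR : ∀ u ∈ U ⊓ X.U0, ρR u = 1 := by
    rintro u ⟨hu, -⟩
    rw [hρR, ← map_one F, ← sub_eq_zero, ← map_sub]
    ext i j
    exact Ideal.Quotient.eq_zero_iff_mem.mpr (hU' u hu i j)
  have hU0 : ∀ u ∈ U ⊓ X.U0, X.ρ0 u = 1 := fun u hu => X.U0_ker u hu.2
  have hUo : X.𝓛.isOpen (U ⊓ X.U0) := X.𝓛.inf _ _ hU X.U0_open
  -- the element of order three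
  set g0 : G := (X.σ * X.τ) ^ (4 ^ N) with hg0
  have hστ : X.ρ0 (X.σ * X.τ) = gam := by rw [map_mul, X.hσ, X.hτ]; decide
  have hg00 : X.ρ0 g0 = gam := by rw [hg0, map_pow, hστ, gam_pow_four]
  have hX3 : ρR g0 * ρR g0 * ρR g0 = 1 := by
    have h3 : InM m (ρR ((X.σ * X.τ) ^ 3) - 1) := by
      have h4 := hρ ((X.σ * X.τ) ^ 3)
      have h5 : X.ρ0 ((X.σ * X.τ) ^ 3) = 1 := by rw [map_pow, hστ]; decide
      rwa [h5, up_one] at h4
    have h4 := unip_pow_M2 hmN h3
    have h5 : ρR g0 * ρR g0 * ρR g0 = (ρR ((X.σ * X.τ) ^ 3)) ^ (4 ^ N) := by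
      rw [← map_mul, ← map_mul, ← map_pow, hg0]
      congr 1
      rw [← pow_mul, ← pow_add, ← pow_add]
      congr 1
      ring
    have h6 : (4 : ℕ) ^ N = 2 ^ N * 2 ^ N := by rw [← mul_pow]; norm_num
    rw [h5, h6, pow_mul, h4, one_pow]
  have hXm : InM m (ρR g0 - up _ gam) := by
    have := hρ g0
    rwa [hg00] at this
  have hX : ρR g0 * ρR g0 = ρR g0 + 1 := by
    set Z := ρR g0 with hZ
    have h3 : (Z - 1) * (Z * Z + Z + 1) = 0 := by
      have : (Z - 1) * (Z * Z + Z + 1) = Z * Z * Z - 1 := by noncomm_ring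
      rw [this, hX3, sub_self]
    have h4 : InM m (up _ gam * (Z - 1) - 1) := by
      have e1 : up (A ⧸ J) gam * (up (A ⧸ J) gam - 1) = 1 := by
        have e2 : up (A ⧸ J) gam - 1 = up (A ⧸ J) (gam - 1) := by
          rw [eq_comm, eq_sub_iff_add_eq, ← up_one (R := A ⧸ J), ← up_add, sub_add_cancel]
        rw [e2, ← up_mul, show gam * (gam - 1) = 1 by decide, up_one]
      have e3 : up (A ⧸ J) gam * (Z - 1) - 1 = up (A ⧸ J) gam * (Z - up (A ⧸ J) gam) := by
        have : up (A ⧸ J) gam * (Z - 1) - 1 = up (A ⧸ J) gam * (Z - up (A ⧸ J) gam) +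
          (up (A ⧸ J) gam * (up (A ⧸ J) gam - 1) - 1) := by noncomm_ring
        rw [this, e1, sub_self, add_zero]
      rw [e3]
      exact hXm.mul_left _
    have h5 := unip_pow_M2 hmN h4
    have h6 : (up (A ⧸ J) gam * (Z - 1)) ^ (2 ^ N) * (Z * Z + Z + 1) = 0 := by
      obtain ⟨k, hk⟩ : ∃ k, 2 ^ N = k + 1 := Nat.exists_eq_succ_of_ne_zero (by positivity)
      rw [hk, pow_succ, mul_assoc, mul_assoc, h3, mul_zero, mul_zero]
    rw [h5, one_mul] at h6
    have h7 : Z * Z = (Z * Z + Z + 1) + (Z + 1) - 2 * (Z + 1) := by noncomm_ring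
    rw [h7, h6, two_eq_zero_M2, zero_mul, zero_add, sub_zero]
  -- decomposition groups
  have htr0 : ∀ v, ∀ d ∈ X.D v, (ρR d).trace = 0 := by
    intro v d hd
    obtain ⟨a, ha⟩ := htr v d hd
    rw [htrR, ha, map_mul, map_add, map_one]
    have : f (algebraMap O A (χ d)) = 1 := hχR d
    rw [this, one_add_one_eq_two, h2R, mul_zero]
  have hD : ∀ v, ∀ d ∈ X.D v, ρR d * ρR d = 1 := by
    intro v d hd
    rw [M2_sq, htr0 v d hd, hdetR, zero_smul, zero_sub, one_smul]
    have : -(1 : M2 (A ⧸ J)) = 1 - 2 * 1 := by noncomm_ring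
    rw [this, two_eq_zero_M2, zero_mul, sub_zero]
  have hD0 : ∀ v, ∀ d ∈ X.D v, X.ρ0 d * X.ρ0 d = 1 := by
    intro v d hd
    have h3 := hρ (d * d)
    rw [map_mul, hD v d hd] at h3
    by_contra hne
    have h4 : ∃ i j, (1 : M2 (ZMod 2)) i j ≠ (X.ρ0 (d * d)) i j := by
      by_contra hcon
      push Not at hcon
      refine hne ?_
      rw [← map_mul]
      ext i j
      exact (hcon i j).symm
    obtain ⟨i, j, hij⟩ := h4
    have h5 := h3 i j
    have h6 : ((1 : M2 (A ⧸ J)) - up (A ⧸ J) (X.ρ0 (d * d))) i j =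
        algebraMap (ZMod 2) (A ⧸ J) ((1 : M2 (ZMod 2)) i j - (X.ρ0 (d * d)) i j) := by
      rw [← up_one, Matrix.sub_apply, map_sub]; rfl
    rw [h6] at h5
    have h7 : (1 : M2 (ZMod 2)) i j - (X.ρ0 (d * d)) i j = 1 := by
      have h8 : ∀ a b : ZMod 2, a ≠ b → a - b = 1 := by decide
      exact h8 _ _ hij
    rw [h7, map_one] at h5
    have h8 : m = ⊤ := (Ideal.eq_top_iff_one _).mpr h5
    rw [h8, Ideal.top_pow] at hmN
    exact bot_ne_top hmN.symm
  have hbad : ∀ g, bad ρR X.ρ0 (ρR g0) g = 0 :=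
    rigid hmN hρ hX hXm X.D rfl hg00 hD hD0 (U ⊓ X.U0) hUR hU0
      (fun x hx hxU hxD => hSel x hx ⟨_, hUo, hxU⟩ hxD)
  have hsm : ∀ v, f (s v) - 1 ∈ m := by
    intro v
    have h3 : s v - 1 ∈ maximalIdeal A := sub_one_mem_of_sq h2 A (hs v)
    have := Ideal.mem_map_of_mem f h3
    rwa [map_sub, map_one] at this
  have hI : ∀ v, ∀ g ∈ X.I v, (ρR g - 1) * (ρR (X.gv v) - f (s v) • 1) = 0 := by
    intro v g hg
    have h3 := congrArg F (hrel v g hg)
    have h4 : F (ρ (X.gv v) - s v • 1) = ρR (X.gv v) - f (s v) • 1 := by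
      rw [map_sub, ← hρR]
      congr 1
      ext i j
      simp only [hF, RingHom.mapMatrix_apply, Matrix.map_apply, Matrix.smul_apply, smul_eq_mul,
        map_mul]
      congr 1
      rw [Matrix.one_apply, Matrix.one_apply]
      split_ifs <;> simp
    have h5 : F (algebraMap O A (χ g) • (ρ (X.gv v) - s v • 1)) = F (ρ (X.gv v) - s v • 1) := by
      ext i j
      simp only [hF, RingHom.mapMatrix_apply, Matrix.map_apply, Matrix.smul_apply, smul_eq_mul,
        map_mul]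
      have : f (algebraMap O A (χ g)) = 1 := hχR g
      rw [this, one_mul]
    rw [map_mul, h5, h4, ← hρR] at h3
    rw [sub_mul, one_mul, h3, sub_self]
  have hw : algebraMap O (A ⧸ J) ω * algebraMap O (A ⧸ J) ω = algebraMap O (A ⧸ J) ω + 1 := by
    have h3 : algebraMap O (A ⧸ J) (ω ^ 2 + ω + 1) = 0 := algebraMap_quot_eq_zero hω
    rw [map_add, map_add, map_pow, map_one] at h3
    linear_combination h3 - (algebraMap O (A ⧸ J) ω + 1) * h2R
  have hgenR : Algebra.adjoin O (Set.range (fun g => (ρR g).trace) ∪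
      Set.range fun q => f (sg q)) = ⊤ := by
    have h3 : Function.Surjective (Ideal.Quotient.mkₐ O J) := Ideal.Quotient.mkₐ_surjective O J
    have h4 := congrArg (Subalgebra.map (Ideal.Quotient.mkₐ O J)) hgen
    rw [AlgHom.map_adjoin, Algebra.map_top, (AlgHom.range_eq_top _).mpr h3, Set.image_union,
      ← Set.range_comp, ← Set.range_comp] at h4
    rw [← h4]
    congr 3
  obtain ⟨S, hS, hS'⟩ := exists_span ω hmN hρ hX hXm hw rfl hg00 hbad hdetR X.I X.gv
    (fun v => f (s v)) hsm hI (fun v => hD0 v _ (X.gv_mem v)) X.gv_ne X.𝓛 (U ⊓ X.U0) hUo hUR hU0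
    hCFT (fun q => f (sg q)) (fun q => by rw [← map_mul, hsg, map_one]) hgenR
  -- lift the generators
  have hsurj : Function.Surjective f := Ideal.Quotient.mk_surjective
  choose l hl using hsurj
  refine ⟨S.image l, Finset.card_image_le.trans hS, ?_⟩
  have h3 : (Submodule.span O ((S.image l : Finset A) : Set A)) ⊔
      (maximalIdeal O • (⊤ : Submodule O A)) = ⊤ := by
    rw [eq_top_iff]
    intro a _
    have h4 : f a ∈ Submodule.span O (S : Set (A ⧸ J)) := by rw [hS']; trivial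
    have h5 : (S : Set (A ⧸ J)) = (Ideal.Quotient.mkₐ O J).toLinearMap ''
        ((S.image l : Finset A) : Set A) := by
      ext x
      simp only [Finset.coe_image, Set.mem_image, Finset.mem_coe, AlgHom.toLinearMap_apply,
        exists_exists_and_eq_and]
      constructor
      · intro hx
        exact ⟨x, hx, hl x⟩
      · rintro ⟨y, hy, rfl⟩
        change f (l y) ∈ S
        rwa [hl]
    rw [h5, Submodule.span_image] at h4
    obtain ⟨b, hb, hba⟩ := h4
    have h6 : a - b ∈ J := by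
      rw [← Ideal.Quotient.eq_zero_iff_mem, map_sub, sub_eq_zero]
      exact hba.symm
    have h7 : a = b + (a - b) := by ring
    rw [h7]
    refine Submodule.add_mem_sup hb ?_
    rw [Ideal.smul_top_eq_map]
    exact h6
  rw [eq_top_iff]
  refine Submodule.le_of_le_smul_of_le_jacobson_bot (I := maximalIdeal O) Module.Finite.fg_top
    (IsLocalRing.maximalIdeal_le_jacobson _) ?_
  rw [h3]

end

end Fermat.Agent.Z34
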