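import Mathlib
import Fermat.Agent.H27.Z4Bound

set_option autoImplicit false
set_option linter.unusedSectionVars false
set_option linter.style.haveILetI false

/-!
# PROGRAM Z, package Z4: local relations over the trace ring, the bound for families
-/

namespace Fermat.Agent.Z34

open Matrix Fermat.Agent.CC IsLocalRing Fermat.Agent.H25.TR

variable {G : Type} [Group G] {X : Dat G} {O : Type} [CommRing O] [IsLocalRing O]
  [IsNoetherianRing O] {χ : G → O} {κ : Type} [Finite κ] [Nonempty κ] {B : κ → Type}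
  [∀ i, CommRing (B i)] [∀ i, IsLocalRing (B i)] [∀ i, Algebra O (B i)]
  [∀ i, Module.Finite O (B i)] [∀ i, IsLocalHom (algebraMap O (B i))]
  (C : ∀ i, Comp X χ (B i))
  (h2 : (2 : O) ∈ maximalIdeal O) (hχσ : χ X.σ = 1) (hχ : ∀ g, χ g - 1 ∈ maximalIdeal O)

open Classical in
/-- the sign at `v` -/
noncomputable def sgA (v : X.V) : TS C := if h : v ∈ X.Q then gA C (Sum.inr ⟨v, h⟩) else 1

theorem pr_sgA (i : κ) (v : X.V) : pr C i (sgA C v) = (C i).α v (X.gv v) := by
  rw [sgA]
  split_ifs with h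
  · exact pr_sg C i ⟨v, h⟩
  · rw [map_one, (C i).α_I v _ (X.gv_I v h)]

theorem sgA_sq (v : X.V) : sgA C v * sgA C v = 1 := by
  refine ext_pr C fun i => ?_
  rw [map_mul, map_one, pr_sgA, (C i).α_sq v _ (X.gv_mem v)]

/-- the matrix with image the line at `v` -/
noncomputable def NA (v : X.V) : M2 (TS C) := ρA C h2 hχσ (X.gv v) - sgA C v • 1

theorem NA_map (i : κ) (v : X.V) : (NA C h2 hχσ v).map (pr C i) =
    P1A C h2 hχσ i * ((C i).ρ (X.gv v) - (C i).α v (X.gv v) • 1) * P0A C h2 hχσ i := by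
  have h3 : (NA C h2 hχσ v).map (pr C i) = (ρA C h2 hχσ (X.gv v)).map (pr C i) -
      (C i).α v (X.gv v) • 1 := by
    ext a b
    rw [Matrix.map_apply, NA, Matrix.sub_apply, map_sub, Matrix.sub_apply, Matrix.map_apply,
      Matrix.smul_apply, Matrix.smul_apply, smul_eq_mul, smul_eq_mul, map_mul, pr_sgA,
      Matrix.one_apply, Matrix.one_apply]
    split_ifs <;> simp
  rw [h3, ρA_conj, mul_sub, sub_mul, Matrix.mul_smul, mul_one, Matrix.smul_mul, P10]

theorem map_pr_mul (i : κ) (M N : M2 (TS C)) :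
    (M * N).map (pr C i) = M.map (pr C i) * N.map (pr C i) := Matrix.map_mul

theorem rel_map (i : κ) {v : X.V} {d : G} (hd : d ∈ X.D v) :
    (ρA C h2 hχσ d * NA C h2 hχσ v).map (pr C i) =
      (algebraMap O (B i) (χ d) * (C i).α v d) • (NA C h2 hχσ v).map (pr C i) := by
  rw [map_pr_mul, ρA_conj, NA_map]
  have h3 := (C i).rel_D hd (X.gv_mem v)
  calc P1A C h2 hχσ i * (C i).ρ d * P0A C h2 hχσ i *
      (P1A C h2 hχσ i * ((C i).ρ (X.gv v) - (C i).α v (X.gv v) • 1) * P0A C h2 hχσ i) =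
      P1A C h2 hχσ i * ((C i).ρ d * (P0A C h2 hχσ i * P1A C h2 hχσ i) *
        ((C i).ρ (X.gv v) - (C i).α v (X.gv v) • 1)) * P0A C h2 hχσ i := by
        simp only [mul_assoc]
    _ = _ := by
      rw [P01, mul_one, h3, Matrix.mul_smul, Matrix.smul_mul]

include hχ in
theorem exists_unit_NA [IsLocalRing (TS C)] (v : X.V) : ∃ a b, IsUnit (NA C h2 hχσ v a b) := by
  by_contra hcon
  push Not at hcon
  have hm : ∀ a b, NA C h2 hχσ v a b ∈ maximalIdeal (TS C) := hcon
  have hs : sgA C v - 1 ∈ maximalIdeal (TS C) := by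
    have h2' : (2 : TS C) ∈ maximalIdeal (TS C) := by
      rw [mem_maximalIdeal_iff (TS_le C h2) _ (Classical.arbitrary κ)]
      exact two_mem h2 _
    have h3 : (sgA C v - 1) ^ 2 ∈ maximalIdeal (TS C) := by
      have : (sgA C v - 1) ^ 2 = 2 * (1 - sgA C v) := by linear_combination sgA_sq C v
      rw [this]
      exact Ideal.mul_mem_right _ _ h2'
    exact (Ideal.IsPrime.pow_mem_iff_mem inferInstance 2 (by norm_num)).mp h3
  obtain ⟨a, b, hab⟩ : ∃ a b, X.ρ0 (X.gv v) a b ≠ (1 : M2 (ZMod 2)) a b := by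
    by_contra hc
    push Not at hc
    exact X.gv_ne v (by ext a b; exact hc a b)
  have h3 := ρA_res C h2 hχσ hχ (X.gv v) a b
  have h4 := hm a b
  rw [Matrix.sub_apply] at h3
  rw [NA, Matrix.sub_apply, Matrix.smul_apply, smul_eq_mul] at h4
  have h5 : (sgA C v - 1) * (1 : M2 (TS C)) a b ∈ maximalIdeal (TS C) :=
    Ideal.mul_mem_right _ _ hs
  have h6 : valM (TS C) (X.ρ0 (X.gv v)) a b - (1 : M2 (TS C)) a b ∈ maximalIdeal (TS C) := by
    have : valM (TS C) (X.ρ0 (X.gv v)) a b - (1 : M2 (TS C)) a b =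
      (ρA C h2 hχσ (X.gv v) a b - sgA C v * (1 : M2 (TS C)) a b) +
        (sgA C v - 1) * (1 : M2 (TS C)) a b -
        (ρA C h2 hχσ (X.gv v) a b - valM (TS C) (X.ρ0 (X.gv v)) a b) := by ring
    rw [this]
    exact Ideal.sub_mem _ (Ideal.add_mem _ h4 h5) h3
  have h7 : valM (TS C) (X.ρ0 (X.gv v)) a b - (1 : M2 (TS C)) a b = 1 ∨
      valM (TS C) (X.ρ0 (X.gv v)) a b - (1 : M2 (TS C)) a b = -1 := by
    have e1 : (1 : M2 (TS C)) a b = (((1 : M2 (ZMod 2)) a b).val : TS C) := by
      rw [Matrix.one_apply, Matrix.one_apply]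
      split_ifs
      · simp [ZMod.val_one]
      · simp
    rw [valM, Matrix.map_apply, e1]
    revert hab
    generalize X.ρ0 (X.gv v) a b = x
    generalize (1 : M2 (ZMod 2)) a b = y
    intro hxy
    have key : ∀ x y : ZMod 2, x ≠ y → (x.val = 1 ∧ y.val = 0) ∨ (x.val = 0 ∧ y.val = 1) := by
      decide
    rcases key x y hxy with ⟨h, h'⟩ | ⟨h, h'⟩
    · left; rw [h, h']; simp
    · right; rw [h, h']; simp
  rcases h7 with h7 | h7
  · rw [h7] at h6
    exact (Ideal.ne_top_iff_one _).mp (Ideal.IsPrime.ne_top inferInstance) h6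
  · rw [h7, neg_mem_iff] at h6
    exact (Ideal.ne_top_iff_one _).mp (Ideal.IsPrime.ne_top inferInstance) h6

include h2 hχσ hχ in
theorem exists_αA [IsLocalRing (TS C)] {v : X.V} {d : G} (hd : d ∈ X.D v) :
    ∃ a : TS C, ∀ i, pr C i a = (C i).α v d := by
  by_cases hv : v ∈ X.Q
  · refine ⟨sgA C v ^ X.n v d, fun i => ?_⟩
    rw [map_pow, pr_sgA, (C i).α_Q v hv d hd]
  · obtain ⟨a, b, hab⟩ := exists_unit_NA C h2 hχσ hχ v
    obtain ⟨e, he⟩ := hab.exists_right_inv
    have hχd : IsUnit (χ d) := by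
      by_contra hn
      have h3 : χ d ∈ maximalIdeal O := hn
      have h4 := Ideal.sub_mem _ h3 (hχ d)
      rw [sub_sub_cancel] at h4
      exact h4 isUnit_one
    obtain ⟨c, hc⟩ := hχd.exists_right_inv
    refine ⟨(ρA C h2 hχσ d * NA C h2 hχσ v) a b * e * algebraMap O _ c, fun i => ?_⟩
    have h3 := congrFun (congrFun (rel_map C h2 hχσ i hd) a) b
    rw [Matrix.map_apply, Matrix.smul_apply, Matrix.map_apply, smul_eq_mul] at h3
    have h4 := congrArg (pr C i) he
    have h5 := congrArg (algebraMap O (B i)) hc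
    rw [map_mul, map_one] at h4 h5
    rw [map_mul, map_mul, h3, AlgHom.commutes]
    linear_combination (algebraMap O (B i) (χ d) * (C i).α v d * algebraMap O (B i) c) * h4 +
      (C i).α v d * h5

include h2 in
theorem isLocalHom_TS : IsLocalHom (algebraMap O (TS C)) := by
  refine ⟨fun a ha => ?_⟩
  have h3 := (isUnit_iff_pr C h2 _ (Classical.arbitrary κ)).mp ha
  rw [AlgHom.commutes] at h3
  exact isUnit_of_map_unit _ _ h3

include h2 hχσ hχ in
/-- **The bound for a family of components.** -/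
theorem TS_bound (ω : O) (hω : ω ^ 2 + ω + 1 ∈ maximalIdeal O) (hSel : Sel0 X) {h : ℕ}
    (hCFT : CFT X.𝓛 X.ρ0 X.I h) :
    ∃ S : Finset (TS C), S.card ≤ h * 2 ^ X.Q.card ∧ Submodule.span O (S : Set (TS C)) = ⊤ := by
  haveI := isLocalRing_TS C h2
  haveI := isLocalHom_TS C h2
  haveI := finite_TS C
  have hcard : Fintype.card X.Q = X.Q.card := Fintype.card_coe _
  rw [← hcard]
  refine bound_abs (X := X) h2 hχ (ρA C h2 hχσ) (det_ρA C h2 hχσ) (ρA_res C h2 hχσ hχ) ?_
    (sgA C) (sgA_sq C) ?_ ?_ (fun q : X.Q => sgA C q) (fun q => sgA_sq C q) ?_ ω hω hSel hCFT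
  · -- continuity
    obtain ⟨c, hc⟩ := exists_artinRees (TS C)
    choose U hU hU' using fun i => (C i).cont (1 + c)
    haveI := Fintype.ofFinite κ
    refine ⟨⨅ i, U i, ?_, fun u hu => ?_⟩
    · have h3 : ∀ s : Finset κ, X.𝓛.isOpen (⨅ i ∈ s, U i) := by
        classical
        intro s
        induction s using Finset.induction_on with
        | empty => simpa using X.𝓛.top
        | insert i s hi ih => rw [Finset.iInf_insert]; exact X.𝓛.inf _ _ (hU i) ih
      have := h3 Finset.univ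
      simpa using this
    · intro a b
      have h3 := hc 1 ((ρA C h2 hχσ u - 1) a b) fun i => by
        have h4 := hU' i u ((iInf_le U i) hu)
        have h5 : (ρA C h2 hχσ u - 1).map (pr C i) =
            P1A C h2 hχσ i * ((C i).ρ u - 1) * P0A C h2 hχσ i := by
          rw [mul_sub, sub_mul, ← ρA_conj, mul_one, P10]
          ext a b
          rw [Matrix.map_apply, Matrix.sub_apply, Matrix.sub_apply, map_sub, Matrix.map_apply,
            Matrix.one_apply, Matrix.one_apply]
          split_ifs <;> simp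
        have h6 := congrFun (congrFun h5 a) b
        change pr C i ((ρA C h2 hχσ u - 1) a b) ∈ _
        rw [Matrix.map_apply] at h6
        rw [h6]
        exact ((h4.mul_left _).mul_right _) a b
      rwa [pow_one] at h3
  · intro v d hd
    obtain ⟨a, ha⟩ := exists_αA C h2 hχσ hχ hd
    refine ⟨a, ?_⟩
    rw [trace_ρA]
    refine ext_pr C fun i => ?_
    rw [pr_tr, (C i).trace_D hd, map_mul, map_add, map_one, ha, AlgHom.commutes]
  · intro v d hd
    refine ext_M2 C fun i => ?_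
    have h3 := rel_map C h2 hχσ i (X.I_le v hd)
    rw [(C i).α_I v d hd, mul_one] at h3
    refine Eq.trans h3 ?_
    ext a b
    change _ = pr C i (algebraMap O (TS C) (χ d) * (NA C h2 hχσ v a b))
    rw [map_mul, AlgHom.commutes]
    rfl
  · rw [← adjoin_gA C]
    congr 1
    ext x
    constructor
    · rintro (⟨g, rfl⟩ | ⟨q, rfl⟩)
      · exact ⟨Sum.inl g, (trace_ρA C h2 hχσ g).symm⟩
      · refine ⟨Sum.inr q, ?_⟩
        change _ = sgA C q
        rw [sgA, dif_pos q.2]
    · rintro ⟨g | q, rfl⟩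
      · exact Or.inl ⟨g, trace_ρA C h2 hχσ g⟩
      · refine Or.inr ⟨q, ?_⟩
        change sgA C q = _
        rw [sgA, dif_pos q.2]

end Fermat.Agent.Z34
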