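import Mathlib
import Fermat.Agent.H27.Z4Loc

set_option autoImplicit false
set_option linter.unusedSectionVars false
set_option linter.style.haveILetI false

/-!
# PROGRAM Z, package Z4: the counting theorem
-/

namespace Fermat.Agent.Z34

open Matrix Fermat.Agent.CC IsLocalRing Fermat.Agent.H25.TR

section Fam

variable (O P ι : Type)

/-- the family of rings -/
def Fam : Option ι → Type
  | none => P
  | some _ => O

variable [CommRing O] [CommRing P] [Algebra O P]

instance : ∀ i, CommRing (Fam O P ι i)
  | none => inferInstanceAs (CommRing P)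
  | some _ => inferInstanceAs (CommRing O)

instance : ∀ i, Algebra O (Fam O P ι i)
  | none => inferInstanceAs (Algebra O P)
  | some _ => inferInstanceAs (Algebra O O)

instance [IsLocalRing O] [IsLocalRing P] : ∀ i, IsLocalRing (Fam O P ι i)
  | none => inferInstanceAs (IsLocalRing P)
  | some _ => inferInstanceAs (IsLocalRing O)

instance [Module.Finite O P] : ∀ i, Module.Finite O (Fam O P ι i)
  | none => inferInstanceAs (Module.Finite O P)
  | some _ => inferInstanceAs (Module.Finite O O)

instance [IsLocalHom (algebraMap O P)] : ∀ i, IsLocalHom (algebraMap O (Fam O P ι i))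
  | none => inferInstanceAs (IsLocalHom (algebraMap O P))
  | some _ => ⟨fun _ h => h⟩

end Fam

section

variable {G : Type} [Group G] {X : Dat G} {O : Type} [CommRing O] [IsLocalRing O]
  [IsNoetherianRing O] [IsDomain O] {χ : G → O} {P : Type} [CommRing P] [IsLocalRing P]
  [Algebra O P] [Module.Finite O P] [IsLocalHom (algebraMap O P)] {ι : Type}

/-- the family of components -/
def FamC (C : ι → Comp X χ O) (C' : Comp X χ P) : ∀ i, Comp X χ (Fam O P ι i)
  | none => C'
  | some i => C i

variable [Fintype ι]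

/-- **Counting.** -/
theorem inj_of_card (A : Type) [CommRing A] [Algebra O A] (p : A →ₐ[O] (ι → O)) (S : Finset A)
    (hS : Submodule.span O (S : Set A) = ⊤) (hcard : S.card ≤ Fintype.card ι)
    (hsep : ∀ i j, i ≠ j → ∃ x : A, p x i ≠ p x j) : Function.Injective p := by
  classical
  -- idempotent-like elements
  have hid : ∀ i, ∃ x : A, p x i ≠ 0 ∧ ∀ j, j ≠ i → p x j = 0 := by
    intro i
    have h1 : ∀ j, ∃ x : A, (j ≠ i → p x i - p x j ≠ 0) := by
      intro j
      by_cases hj : j = i
      · exact ⟨0, fun h => absurd hj h⟩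
      · obtain ⟨x, hx⟩ := hsep i j (fun h => hj h.symm)
        exact ⟨x, fun _ => sub_ne_zero.mpr hx⟩
    choose x hx using h1
    refine ⟨∏ j ∈ Finset.univ.erase i, (x j - algebraMap O A (p (x j) j)), ?_, ?_⟩
    · rw [map_prod, Finset.prod_apply, Finset.prod_ne_zero_iff]
      intro j hj
      rw [map_sub, AlgHom.commutes, Pi.sub_apply, Pi.algebraMap_apply]
      exact hx j (Finset.ne_of_mem_erase hj)
    · intro j hj
      rw [map_prod, Finset.prod_apply]
      refine Finset.prod_eq_zero (Finset.mem_erase.mpr ⟨hj, Finset.mem_univ j⟩) ?_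
      rw [map_sub, AlgHom.commutes, Pi.sub_apply, Pi.algebraMap_apply]
      exact sub_self _
  choose e he he' using hid
  -- the map from the free module
  let φ : (S → O) →ₗ[O] A := Fintype.linearCombination O (fun s : S => (s : A))
  have hφ : Function.Surjective φ := by
    rw [← LinearMap.range_eq_top, Fintype.range_linearCombination]
    rw [← hS]
    congr 1
    simp
  let ψ : (S → O) →ₗ[O] (ι → O) := p.toLinearMap.comp φ
  have hli : LinearIndependent O (fun i : ι => (⟨p (e i), by
      obtain ⟨y, hy⟩ := hφ (e i)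
      exact ⟨y, by simp only [ψ, LinearMap.comp_apply, hy]; rfl⟩⟩ : LinearMap.range ψ)) := by
    rw [Fintype.linearIndependent_iff]
    intro g hg i
    have h1 := congrArg (fun z : LinearMap.range ψ => (z : ι → O) i) hg
    simp only [AddSubmonoidClass.coe_finsetSum, SetLike.val_smul, Finset.sum_apply, Pi.smul_apply,
      smul_eq_mul, ZeroMemClass.coe_zero, Pi.zero_apply] at h1
    rw [Finset.sum_eq_single i] at h1
    · exact (mul_eq_zero.mp h1).resolve_right (he i)
    · intro j _ hj
      rw [he' j i (fun h => hj h.symm), mul_zero]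
    · intro h; exact absurd (Finset.mem_univ i) h
  have h1 : Fintype.card ι ≤ Module.finrank O (LinearMap.range ψ) := hli.fintype_card_le_finrank
  have h3 := Submodule.finrank_quotient_add_finrank (LinearMap.ker ψ)
  rw [ψ.quotKerEquivRange.finrank_eq, Module.finrank_fintype_fun_eq_card, Fintype.card_coe] at h3
  have h4 : Module.finrank O (LinearMap.ker ψ) = 0 := by omega
  have h5 : LinearMap.ker ψ = ⊥ := by
    rw [Module.finrank_eq_zero_iff] at h4
    rw [eq_bot_iff]
    intro x hx
    obtain ⟨a, ha, hax⟩ := h4 ⟨x, hx⟩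
    have h6 : a • x = 0 := congrArg Subtype.val hax
    rw [Submodule.mem_bot]
    exact (smul_eq_zero.mp h6).resolve_left ha
  intro x y hxy
  obtain ⟨x, rfl⟩ := hφ x
  obtain ⟨y, rfl⟩ := hφ y
  have h6 : ψ (x - y) = 0 := by
    rw [map_sub, sub_eq_zero]
    exact hxy
  have h7 : x - y ∈ LinearMap.ker ψ := h6
  rw [h5, Submodule.mem_bot, sub_eq_zero] at h7
  rw [h7]

/-- evaluation data of a component -/
def Comp.val {P : Type} [CommRing P] [IsLocalRing P] [Algebra O P] (C : Comp X χ P) :
    G ⊕ X.Q → P :=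
  Sum.elim (fun g => (C.ρ g).trace) (fun q => C.α q (X.gv q))

/-- **Theorem Z34.** -/
theorem main (h2 : (2 : O) ∈ maximalIdeal O) (hχσ : χ X.σ = 1)
    (hχ : ∀ g, χ g - 1 ∈ maximalIdeal O) (ω : O) (hω : ω ^ 2 + ω + 1 ∈ maximalIdeal O)
    (hSel : Sel0 X) {h : ℕ} (hCFT : CFT X.𝓛 X.ρ0 X.I h)
    (C : ι → Comp X χ O) (hC : ∀ i j, i ≠ j → ∃ x, (C i).val x ≠ (C j).val x)
    (hcard : h * 2 ^ X.Q.card ≤ Fintype.card ι) (C' : Comp X χ P)
    (p : MvPolynomial (G ⊕ X.Q) O) (hp : ∀ i, MvPolynomial.aeval (C i).val p = 0) :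
    MvPolynomial.aeval C'.val p = 0 := by
  classical
  obtain ⟨S, hS, hS'⟩ := TS_bound (FamC C C') h2 hχσ hχ ω hω hSel hCFT
  let F : TS (FamC C C') →ₐ[O] (ι → O) := AlgHom.pi
    (fun i => (pr (FamC C C') (some i) : TS (FamC C C') →ₐ[O] O))
  have hF : Function.Injective F := by
    refine inj_of_card _ F S hS' (hS.trans hcard) ?_
    intro i j hij
    obtain ⟨x, hx⟩ := hC i j hij
    refine ⟨gA (FamC C C') x, ?_⟩
    rcases x with g | q
    · exact hx
    · exact hx
  have key : ∀ i, pr (FamC C C') i (MvPolynomial.aeval (gA (FamC C C')) p) =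
      MvPolynomial.aeval (FamC C C' i).val p := by
    intro i
    rw [MvPolynomial.comp_aeval_apply]
    have h4 : (fun x => pr (FamC C C') i (gA (FamC C C') x)) = (FamC C C' i).val := by
      funext x
      rcases x with g | q <;> rfl
    rw [h4]
  have h1 : MvPolynomial.aeval (gA (FamC C C')) p = 0 := by
    apply hF
    rw [map_zero]
    funext i
    exact (key (some i)).trans (hp i)
  have h3 := key none
  rw [h1, map_zero] at h3
  exact h3.symm

end

end Fermat.Agent.Z34
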