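import Mathlib
import Fermat.Agent.H27.Z4Main
import Fermat.Agent.CC.GQ
import Fermat.Agent.H25.DecGen
import Fermat.Agent.H05_Frob

set_option autoImplicit false
set_option linter.unusedSectionVars false
set_option linter.style.haveILetI false

/-!
# PROGRAM Z: the geometric data (one chosen place above each prime of `Σ`)
-/

namespace Fermat.Agent.Z34

open Matrix Fermat.Agent.CC IsLocalRing
open scoped Pointwise

/-- Geometric data over `ℚ`. -/
structure GDat where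
  /-- the set `Σ` of primes -/
  Sg : Finset Nat.Primes
  /-- the auxiliary primes -/
  Q : Finset Nat.Primes
  hQ : Q ⊆ Sg
  /-- the residual representation in a basis -/
  ρ0 : GQ →* M2 (ZMod 2)
  /-- the chosen places -/
  A : Nat.Primes → ValuationSubring Qb
  hA : ∀ p : Nat.Primes, (A p).LiesOverPrime (p : ℕ)
  /-- the chosen Frobenius elements -/
  φ : Nat.Primes → GQ
  hφ : ∀ p : Nat.Primes, (A p).IsFrobeniusAt (φ p) (p : ℕ)
  /-- a root of unity generating the unramified quadratic extension of `ℚ_p` -/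
  ζ : Nat.Primes → Qb
  hζ : ∀ p : Nat.Primes, IsPrimitiveRoot (ζ p) ((p : ℕ) ^ 2 - 1)
  gI : Nat.Primes → GQ
  gI_mem : ∀ p ∈ Sg, p ∉ Q → gI p ∈ (A p).inertiaSubgroupIn ℚ
  gI_ne : ∀ p ∈ Sg, p ∉ Q → ρ0 (gI p) ≠ 1
  φ_ne : ∀ p ∈ Q, ρ0 (φ p) ≠ 1
  σ : GQ
  τ : GQ
  hσ : ρ0 σ = !![1, 1; 0, 1]
  hτ : ρ0 τ = !![0, 1; 1, 0]
  U0 : Subgroup GQ
  U0_open : (levS Sg).isOpen U0
  U0_ker : ∀ u ∈ U0, ρ0 u = 1
  v0 : Nat.Primes
  v0_mem : v0 ∈ Sg
  σ_mem : σ ∈ (A v0).inertiaSubgroupIn ℚ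

theorem inertia_le_decomp (A : ValuationSubring Qb) :
    A.inertiaSubgroupIn ℚ ≤ A.decompositionSubgroup ℚ := fun σ hσ =>
  ((H05.mem_inertiaSubgroupIn_iff A σ).mp hσ).choose

namespace GDat

variable (Y : GDat)

open Classical in
/-- the parity of the action on the unramified quadratic extension -/
noncomputable def κ (p : Nat.Primes) (d : GQ) : ℕ := if d (Y.ζ p) = Y.ζ p then 0 else 1

open Classical in
/-- the abstract data -/
noncomputable def toDat : Dat GQ where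
  𝓛 := levS Y.Sg
  ρ0 := Y.ρ0
  σ := Y.σ
  τ := Y.τ
  hσ := Y.hσ
  hτ := Y.hτ
  V := {p : Nat.Primes // p ∈ Y.Sg}
  D v := (Y.A v).decompositionSubgroup ℚ
  I v := (Y.A v).inertiaSubgroupIn ℚ
  I_le v := inertia_le_decomp _
  gv v := if (v : Nat.Primes) ∈ Y.Q then Y.φ v else Y.gI v
  gv_mem v := by
    split_ifs with h
    · exact (Y.hφ v).mem_decompositionSubgroup
    · exact inertia_le_decomp _ (Y.gI_mem v v.2 h)
  gv_ne v := by
    split_ifs with h
    · exact Y.φ_ne v h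
    · exact Y.gI_ne v v.2 h
  Q := Y.Q.subtype (· ∈ Y.Sg)
  gv_I v hv := by
    rw [Finset.mem_subtype] at hv
    rw [if_neg hv]
    exact Y.gI_mem v v.2 hv
  n v := Y.κ v
  U0 := Y.U0
  U0_open := Y.U0_open
  U0_ker := Y.U0_ker
  v0 := ⟨Y.v0, Y.v0_mem⟩
  σ_mem := Y.σ_mem

theorem toDat_Q_card : Y.toDat.Q.card = Y.Q.card := by
  classical
  change (Y.Q.subtype (· ∈ Y.Sg)).card = Y.Q.card
  rw [Finset.card_subtype]
  congr 1
  exact Finset.filter_true_of_mem (fun x hx => Y.hQ hx)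

theorem toDat_gv {v : Y.toDat.V} (hv : v ∈ Y.toDat.Q) : Y.toDat.gv v = Y.φ v.1 := by
  have h1 : v.1 ∈ Y.Q := Finset.mem_subtype.mp hv
  exact if_pos h1

end GDat

end Fermat.Agent.Z34
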