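import Mathlib
import Fermat.Agent.H27.ZDat
import Fermat.Agent.H05_Cyclo

set_option autoImplicit false
set_option linter.unusedSectionVars false
set_option linter.style.haveILetI false

/-!
# PROGRAM Z: components from lines
-/

namespace Fermat.Agent.Z34

open Matrix Fermat.Agent.CC IsLocalRing Module
open scoped Pointwise

section cross

variable {P : Type*} [CommRing P]

/-- the functional vanishing on the line spanned by `ℓ` -/
def cr (ℓ w : Fin 2 → P) : P := ℓ 0 * w 1 - ℓ 1 * w 0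

theorem cr_self (ℓ : Fin 2 → P) : cr ℓ ℓ = 0 := by simp only [cr]; ring

theorem cr_add (ℓ w w' : Fin 2 → P) : cr ℓ (w + w') = cr ℓ w + cr ℓ w' := by
  simp only [cr, Pi.add_apply]; ring

theorem cr_sub (ℓ w w' : Fin 2 → P) : cr ℓ (w - w') = cr ℓ w - cr ℓ w' := by
  simp only [cr, Pi.sub_apply]; ring

theorem cr_smul (ℓ w : Fin 2 → P) (c : P) : cr ℓ (c • w) = c * cr ℓ w := by
  simp only [cr, Pi.smul_apply, smul_eq_mul]; ring

theorem cr_eq_zero_iff {ℓ w : Fin 2 → P} (hℓ : ∃ i, IsUnit (ℓ i)) :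
    cr ℓ w = 0 ↔ ∃ c : P, w = c • ℓ := by
  constructor
  · intro h
    obtain ⟨i, hi⟩ := hℓ
    obtain ⟨v, hv⟩ := hi.exists_right_inv
    refine ⟨w i * v, funext fun j => ?_⟩
    simp only [cr] at h
    simp only [Pi.smul_apply, smul_eq_mul]
    fin_cases i <;> fin_cases j <;> simp only [Fin.zero_eta, Fin.mk_one, Fin.isValue] at hv ⊢
    · linear_combination (-w 0) * hv
    · linear_combination v * h - w 1 * hv
    · linear_combination (-v) * h - w 0 * hv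
    · linear_combination (-w 1) * hv
  · rintro ⟨c, rfl⟩
    rw [cr_smul, cr_self, mul_zero]

theorem exists_cr_eq_one {ℓ : Fin 2 → P} (hℓ : ∃ i, IsUnit (ℓ i)) : ∃ w, cr ℓ w = 1 := by
  obtain ⟨i, hi⟩ := hℓ
  obtain ⟨v, hv⟩ := hi.exists_right_inv
  fin_cases i
  · exact ⟨![0, v], by simpa [cr] using hv⟩
  · exact ⟨![-v, 0], by simpa [cr] using hv⟩

theorem cr_mulVec (M : M2 P) (ℓ w : Fin 2 → P) : cr (M *ᵥ ℓ) (M *ᵥ w) = M.det * cr ℓ w := by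
  simp only [cr, Matrix.mulVec, dotProduct, Fin.sum_univ_two, Matrix.det_fin_two]
  ring

theorem cr_mem {I : Ideal P} {M : M2 P} (h : InM I (M - 1)) (ℓ w : Fin 2 → P) :
    cr ℓ (M *ᵥ w) - cr ℓ w ∈ I := by
  have h1 : cr ℓ (M *ᵥ w) - cr ℓ w = cr ℓ ((M - 1) *ᵥ w) := by
    rw [Matrix.sub_mulVec, Matrix.one_mulVec, cr_sub]
  rw [h1]
  simp only [cr, Matrix.mulVec, dotProduct, Fin.sum_univ_two]
  exact Ideal.sub_mem _
    (Ideal.mul_mem_left _ _ (Ideal.add_mem _ (Ideal.mul_mem_right _ _ (h 1 0))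
      (Ideal.mul_mem_right _ _ (h 1 1))))
    (Ideal.mul_mem_left _ _ (Ideal.add_mem _ (Ideal.mul_mem_right _ _ (h 0 0))
      (Ideal.mul_mem_right _ _ (h 0 1))))

end cross

/-- The line at a place: inertia acts trivially on the quotient, Frobenius by `u`. -/
structure IsLine {P : Type*} [CommRing P] (A : ValuationSubring Qb) (φ : GQ) (ρ : GQ →* M2 P)
    (ℓ : Fin 2 → P) (u : P) : Prop where
  unit : ∃ i, IsUnit (ℓ i)
  sq : u * u = 1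
  inert : ∀ σ ∈ A.inertiaSubgroupIn ℚ, ∀ w : Fin 2 → P, ∃ c : P, ρ σ *ᵥ w - w = c • ℓ
  frob : ∀ w : Fin 2 → P, ∃ c : P, ρ φ *ᵥ w - u • w = c • ℓ

theorem not_dvd_sq_sub_one {p : ℕ} (hp : p.Prime) : ¬ p ∣ p ^ 2 - 1 := by
  intro h
  have h1 : p ∣ p ^ 2 - (p ^ 2 - 1) := Nat.dvd_sub (Dvd.intro_left (p ^ 1) rfl) h
  have h2 : p ^ 2 - (p ^ 2 - 1) = 1 := by
    have : 0 < p ^ 2 := pow_pos hp.pos 2
    omega
  rw [h2] at h1
  exact hp.one_lt.ne' (Nat.dvd_one.mp h1)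

theorem pow_apply_zeta {p : ℕ} (hp : p.Prime) {A : ValuationSubring Qb} (hA : A.LiesOverPrime p)
    {φ : GQ} (hφ : A.IsFrobeniusAt φ p) {ζ : Qb} (hζ : IsPrimitiveRoot ζ (p ^ 2 - 1)) (n : ℕ) :
    (φ ^ n) ζ = ζ ^ p ^ n := by
  induction n with
  | zero => simp
  | succ n ih =>
    rw [pow_succ, AlgEquiv.mul_apply,
      H05.IsFrobeniusAt.apply_rootOfUnity hp hA (not_dvd_sq_sub_one hp) hφ hζ.pow_eq_one, map_pow,
      ih, ← pow_mul, ← pow_succ]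

theorem zeta_pow_even {p : ℕ} (hp : p.Prime) {ζ : Qb} (hζ : IsPrimitiveRoot ζ (p ^ 2 - 1))
    (k : ℕ) : ζ ^ p ^ (2 * k) = ζ := by
  have h0 : 0 < p ^ 2 := pow_pos hp.pos 2
  have h1 : ζ ^ p ^ 2 = ζ := by
    have : p ^ 2 = (p ^ 2 - 1) + 1 := by omega
    rw [this, pow_succ, hζ.pow_eq_one, one_mul]
  induction k with
  | zero => simp
  | succ k ih =>
    have : p ^ (2 * (k + 1)) = p ^ (2 * k) * p ^ 2 := by rw [← pow_add]; ring_nf
    rw [this, pow_mul, ih, h1]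

theorem zeta_pow_ne {p : ℕ} (hp : p.Prime) {ζ : Qb} (hζ : IsPrimitiveRoot ζ (p ^ 2 - 1)) :
    ζ ^ p ≠ ζ := by
  intro h
  have h2 := hp.two_le
  have hζ0 : ζ ≠ 0 := hζ.ne_zero (by
    have : 2 ^ 2 ≤ p ^ 2 := Nat.pow_le_pow_left h2 2
    omega)
  have h1 : ζ ^ (p - 1) = 1 := by
    have h3 : ζ ^ (p - 1) * ζ = 1 * ζ := by
      rw [← pow_succ, one_mul]
      have : p - 1 + 1 = p := by omega
      rw [this, h]
    exact mul_right_cancel₀ hζ0 h3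
  have h3 := hζ.dvd_of_pow_eq_one _ h1
  have h4 := Nat.le_of_dvd (by omega) h3
  have h5 : 2 * p ≤ p ^ 2 := by rw [pow_two]; exact Nat.mul_le_mul_right p h2
  omega

namespace GDat

variable (Y : GDat)

theorem pow_kappa {M : Type*} [Monoid M] {u : M} (hu : u * u = 1) (p : Nat.Primes) {n : ℕ}
    {h s : GQ} (hh : h (Y.ζ p) = Y.ζ p) (hs : s ∈ (Y.A p).inertiaSubgroupIn ℚ) :
    u ^ Y.κ p (Y.φ p ^ n * (h * s)) = u ^ n := by
  have h1 : (Y.φ p ^ n * (h * s)) (Y.ζ p) = Y.ζ p ^ (p : ℕ) ^ n := by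
    rw [AlgEquiv.mul_apply, AlgEquiv.mul_apply,
      H05.inertia_apply_rootOfUnity p.2 (Y.hA p) (not_dvd_sq_sub_one p.2) hs (Y.hζ p).pow_eq_one,
      hh, pow_apply_zeta p.2 (Y.hA p) (Y.hφ p) (Y.hζ p)]
  have hu2 : ∀ k : ℕ, u ^ (2 * k) = 1 := fun k => by rw [pow_mul, pow_two, hu, one_pow]
  rcases Nat.even_or_odd' n with ⟨k, rfl | rfl⟩
  · rw [zeta_pow_even p.2 (Y.hζ p)] at h1
    rw [κ, if_pos h1, hu2, pow_zero]
  · rw [pow_succ (p : ℕ), pow_mul, zeta_pow_even p.2 (Y.hζ p)] at h1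
    rw [κ, if_neg (fun h2 => zeta_pow_ne p.2 (Y.hζ p) (h1.symm.trans h2)), pow_one, pow_succ, hu2,
      one_mul]

variable {O : Type*} [CommRing O] [IsLocalRing O] {χ : GQ → O} {P : Type*} [CommRing P]
  [IsLocalRing P] [Algebra O P]

theorem exists_normal_levS {Sg : Finset Nat.Primes} {U : Subgroup GQ} (hU : (levS Sg).isOpen U)
    (ζ : Qb) : ∃ H : Subgroup GQ, H.Normal ∧ IsOpen (H : Set GQ) ∧ H ≤ U ∧ ∀ h ∈ H, h ζ = ζ := by
  obtain ⟨F, hF, hFU⟩ := hU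
  haveI := hF.1
  let F' : IntermediateField ℚ Qb := IntermediateField.adjoin ℚ {ζ}
  haveI : FiniteDimensional ℚ F' :=
    IntermediateField.adjoin.finiteDimensional (Algebra.IsIntegral.isIntegral ζ)
  obtain ⟨H, hH, hH2, hH3⟩ := lev.nor (F ⊔ F').fixingSubgroup ⟨F ⊔ F', inferInstance, le_rfl⟩
  refine ⟨H, hH, ?_, ?_, ?_⟩
  · obtain ⟨E, hE, hEH⟩ := hH2
    exact Subgroup.isOpen_mono hEH (IntermediateField.fixingSubgroup_isOpen E)
  · exact (hH3.trans (IntermediateField.fixingSubgroup_le le_sup_left)).trans hFU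
  · intro h hh
    have h1 := hH3 hh
    rw [IntermediateField.mem_fixingSubgroup_iff] at h1
    exact h1 ζ (le_sup_right (a := F) (IntermediateField.mem_adjoin_simple_self ℚ ζ))

section

variable {ρ : GQ →* M2 P} {J : Ideal P}
    (cont : ∀ n : ℕ, ∃ U, (levS Y.Sg).isOpen U ∧ ∀ u ∈ U, InM (J ^ n) (ρ u - 1))
    (hJ : ∀ x : P, (∀ n, x ∈ J ^ n) → x = 0)
    {p : Nat.Primes} {ℓ : Fin 2 → P} {u : P} (hL : IsLine (Y.A p) (Y.φ p) ρ ℓ u)

theorem _root_.Fermat.Agent.Z34.IsLine.cr_inert {A : ValuationSubring Qb} {φ : GQ}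
    (hL : IsLine A φ ρ ℓ u) {s : GQ} (hs : s ∈ A.inertiaSubgroupIn ℚ) (w : Fin 2 → P) :
    cr ℓ (ρ s *ᵥ w) = cr ℓ w := by
  have h1 := (cr_eq_zero_iff hL.unit).mpr (hL.inert s hs w)
  rwa [cr_sub, sub_eq_zero] at h1

theorem _root_.Fermat.Agent.Z34.IsLine.cr_frob {A : ValuationSubring Qb} {φ : GQ}
    (hL : IsLine A φ ρ ℓ u) (w : Fin 2 → P) :
    cr ℓ (ρ φ *ᵥ w) = u * cr ℓ w := by
  have h1 := (cr_eq_zero_iff hL.unit).mpr (hL.frob w)
  rwa [cr_sub, cr_smul, sub_eq_zero] at h1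

theorem _root_.Fermat.Agent.Z34.IsLine.cr_frob_pow {A : ValuationSubring Qb} {φ : GQ}
    (hL : IsLine A φ ρ ℓ u) (n : ℕ) (w : Fin 2 → P) :
    cr ℓ (ρ (φ ^ n) *ᵥ w) = u ^ n * cr ℓ w := by
  induction n generalizing w with
  | zero => simp
  | succ n ih =>
    rw [pow_succ, map_mul, ← Matrix.mulVec_mulVec, ih, hL.cr_frob, pow_succ]
    ring

include cont hJ hL in
theorem cr_decomp {d : GQ} (hd : d ∈ (Y.A p).decompositionSubgroup ℚ) (w : Fin 2 → P) :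
    cr ℓ (ρ d *ᵥ w) = u ^ Y.κ p d * cr ℓ w := by
  rw [← sub_eq_zero]
  apply hJ
  intro r
  obtain ⟨U, hU, hUr⟩ := cont r
  obtain ⟨H, hHn, hHo, hHU, hHζ⟩ := exists_normal_levS hU (Y.ζ p)
  haveI := hHn
  obtain ⟨n, h, hh, s, hs, rfl⟩ := H25.exists_decomp p.2 (Y.hA p) (Y.hφ p) hd H hHo
  rw [Y.pow_kappa hL.sq p (hHζ h hh) hs, map_mul, map_mul, ← Matrix.mulVec_mulVec,
    ← Matrix.mulVec_mulVec, hL.cr_frob_pow, ← mul_sub]
  apply Ideal.mul_mem_left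
  have h1 := cr_mem (hUr h (hHU hh)) ℓ (ρ s *ᵥ w)
  rwa [hL.cr_inert hs] at h1

include cont hJ hL in
theorem quo_decomp {d : GQ} (hd : d ∈ (Y.A p).decompositionSubgroup ℚ) (w : Fin 2 → P) :
    ∃ c : P, ρ d *ᵥ w - u ^ Y.κ p d • w = c • ℓ := by
  rw [← cr_eq_zero_iff hL.unit, cr_sub, cr_smul, Y.cr_decomp cont hJ hL hd, sub_self]

include cont hJ hL in
theorem act_decomp (hdet : ∀ g, (ρ g).det = algebraMap O P (χ g)) {d : GQ}
    (hd : d ∈ (Y.A p).decompositionSubgroup ℚ) :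
    ρ d *ᵥ ℓ = (algebraMap O P (χ d) * u ^ Y.κ p d) • ℓ := by
  have h1 : cr ℓ (ρ d *ᵥ ℓ) = 0 := by rw [Y.cr_decomp cont hJ hL hd, cr_self, mul_zero]
  obtain ⟨c, hc⟩ := (cr_eq_zero_iff hL.unit).mp h1
  obtain ⟨w, hw⟩ := exists_cr_eq_one hL.unit
  have h2 := cr_mulVec (ρ d) ℓ w
  have hc2 : cr (c • ℓ) (ρ d *ᵥ w) = c * cr ℓ (ρ d *ᵥ w) := by
    simp only [cr, Pi.smul_apply, smul_eq_mul]; ring
  rw [hc, hc2, Y.cr_decomp cont hJ hL hd, hw, mul_one, mul_one, hdet] at h2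
  have hu : u ^ Y.κ p d * u ^ Y.κ p d = 1 := by rw [← mul_pow, hL.sq, one_pow]
  rw [hc]
  congr 1
  linear_combination u ^ Y.κ p d * h2 - c * hu

end

/-- **Components from lines.** -/
theorem exists_comp (ρ : GQ →* M2 P) (hdet : ∀ g, (ρ g).det = algebraMap O P (χ g))
    (hres : ∀ g, (ρ g).trace - (((Y.ρ0 g).trace.val : ℕ) : P) ∈ maximalIdeal P)
    (hcont : ∀ n : ℕ, ∃ U, (levS Y.Sg).isOpen U ∧ ∀ u ∈ U,
      InM ((maximalIdeal O).map (algebraMap O P) ^ n) (ρ u - 1))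
    (hJ : ∀ x : P, (∀ n, x ∈ (maximalIdeal O).map (algebraMap O P) ^ n) → x = 0)
    (hline : ∀ p ∈ Y.Sg, ∃ ℓ u, IsLine (Y.A p) (Y.φ p) ρ ℓ u) :
    ∃ C : Comp Y.toDat χ P, C.ρ = ρ := by
  have hl : ∀ v : {p : Nat.Primes // p ∈ Y.Sg}, ∃ ℓ u, IsLine (Y.A v) (Y.φ v) ρ ℓ u :=
    fun v => hline v v.2
  choose ℓ u hL using hl
  have hone : ∀ (v : {p : Nat.Primes // p ∈ Y.Sg}) (d : GQ),
      d ∈ (Y.A v).inertiaSubgroupIn ℚ → u v ^ Y.κ v d = 1 := by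
    intro v d hd
    have h1 := Y.pow_kappa (u := u v) (hL v).sq v (n := 0) (h := 1) (s := d) rfl hd
    rwa [pow_zero, one_mul, one_mul, pow_zero] at h1
  refine ⟨{
    ρ := ρ
    det := hdet
    res := hres
    cont := hcont
    α := fun v d => u v ^ Y.κ v.1 d
    α_sq := fun v d _ => by rw [← mul_pow, (hL v).sq, one_pow]
    α_I := fun v d hd => hone v d hd
    α_Q := ?_
    ℓ := ℓ
    ℓ_unit := fun v => (hL v).unit
    act := fun v d hd => Y.act_decomp hcont hJ (hL v) hdet hd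
    quo := fun v d hd w => Y.quo_decomp hcont hJ (hL v) hd w }, rfl⟩
  intro v hv d hd
  change u v ^ Y.κ v.1 d = (u v ^ Y.κ v.1 (Y.toDat.gv v)) ^ Y.κ v.1 d
  rw [Y.toDat_gv hv]
  have h1 := Y.pow_kappa (u := u v) (hL v).sq v.1 (n := 1) (h := 1) (s := 1) rfl (one_mem _)
  rw [pow_one, mul_one, mul_one, pow_one] at h1
  rw [h1]

end GDat

end Fermat.Agent.Z34
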