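import Mathlib
import Fermat.Agent.TC.Rs2
import Fermat.Agent.TFin.HardCase

/-!
# The hard case for levels of type `Γ₀`
-/

set_option autoImplicit false
set_option linter.style.haveILetI false
set_option linter.unusedSectionVars false

noncomputable section

namespace Fermat.Agent.H27.MH

open CongruenceSubgroup Matrix.SpecialLinearGroup Fermat.Agent.H22 IsLocalRing
open Fermat.Agent.H25 Fermat.Agent.H25.PR Fermat.Agent.CC Fermat.Agent.TW Fermat.Agent.H25.PT
open Fermat.Agent.H05 Fermat.Agent.H25.TR Fermat.Agent.H25.TWM Fermat.Agent.H25.GE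
open Fermat.Agent.TC
open ModularFormClass (qCoeff)

variable {O K : Type} [CommRing O] [IsDomain O] [IsDiscreteValuationRing O]
    [IsAdicComplete (maximalIdeal O) O] [Field K] [Algebra O K] {p r : ℕ}
    [Finite (ResidueField O)] [CharZero O] [Fact p.Prime] [IsAlgClosed K] [FaithfulSMul O K]
    {F : TWBase O K p r}

/-- the family of the flat tower and of the level above its top -/
def xx {m : ℕ} (X : Fin (m + 1) → CmpT F) (X' : CmpT F) : Option (Fin (m + 1)) → CmpT F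
  | some j => X j
  | none => X'

/-- the indices of the flat tower -/
def cpx {m : ℕ} {κ' : Type} : Fin (m + 1) → Option (Fin (m + 1)) ⊕ κ' :=
  fun j => Sum.inl (some j)

variable {κ' : Type} [Finite κ'] (E : Extra F κ') {m : ℕ} {tv : Fin m → Nat.Primes}
  (X : Fin (m + 1) → CmpT F) (X' : CmpT F) {ϖ : O}

/-- the system of the hard case -/
abbrev sysH : Sys F.D p r (Option (Fin (m + 1)) ⊕ κ') := sysT (xx X X') E

/-- the raising data at `p` -/
abbrev raiseP {pp : Nat.Primes} (hp : RStep (X (Fin.last m)) X' pp)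
    (hϖ : maximalIdeal O = Ideal.span {ϖ}) (hϖ0 : ϖ ≠ 0) :
    Sys.RaiseD (sysH E X X') (bdT (xx X X') E (some (Fin.last m))) (bdT (xx X X') E none) pp ϖ :=
  raiseD (X := xx X X') (i := some (Fin.last m)) (i' := none) E hp hϖ hϖ0

/-- projection of the trace ring of the flat tower to its top component -/
def prL (n : ℕ) (b : ((sysH E X X').comap cpx).A n) :
    ((sysH E X X').H n (Sum.inl (some (Fin.last m)))).B :=
  pr (((sysH E X X').comap cpx).H n) (((sysH E X X').comap cpx).hbar n) (Fin.last m) b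

set_option maxHeartbeats 1000000 in
/-- **THE HARD CASE** for levels of type `Γ₀`. -/
theorem liftH (hϖ : maximalIdeal O = Ideal.span {ϖ}) (hϖ0 : ϖ ≠ 0) (hT : FrD F.D p tv)
    (ε : Fin m → O) (hε : ∀ t, ε t ^ 2 = 1)
    (htr : ∀ t, (F.D.rbar (frv (tv t) (tv t).2)).trace = F.D.res (ε t * (((tv t : ℕ) : O) + 1)))
    (he : ∀ n j, n ≤ (F.c n).e j)
    (j₀ : Fin (m + 1))
    (hstep : ∀ t : Fin m, j₀ ≤ t.castSucc → RStep (X t.castSucc) (X t.succ) (tv t))
    (hin : ∀ (t : Fin m) (h : j₀ ≤ t.castSucc), RIn (hstep t h))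
    (hD₀ : ∀ t, (tv t : ℕ) ∣ F.D₀)
    (hsq : ∀ t, ¬ (tv t : ℕ) * (tv t : ℕ) ∣ (X (Fin.last m)).N)
    (hbad : ∀ ℓ : ℕ, ℓ.Prime → ℓ ∈ F.bad₀ → ℓ ∣ F.D₀)
    (hst : ∀ (n : ℕ) (t : Fin m), t.castSucc < j₀ → ∀ x,
      ((X j₀).toCmp.cd 1 n).t x (frv (tv t) (tv t).2) =
        algebraMap O _ (ε t * (((tv t : ℕ) : O) + 1)))
    {pp : Nat.Primes} (hpp : (pp : ℕ) = p) (hstepp : RStep (X (Fin.last m)) X' pp)
    (tp y e : ∀ n, ((sysH E X X').comap cpx).A n)
    (hy : ∀ n, y n ∈ maximalIdeal (((sysH E X X').comap cpx).A n))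
    (hTp : ∀ n x, (raiseP E X X' hstepp hϖ hϖ0).Tq n x =
      prL E X X' n (tp n) • x)
    (hye : ∀ n, ((p : ((sysH E X X').comap cpx).A n) + 1) ^ 2 - tp n ^ 2 = y n * e n)
    (hSelI : ∀ n, SelBQ (((sysH E X X').comap cpx).H n) (((sysH E X X').comap cpx).hbar n) r tv
      (fun δ => δ (y n) = 0))
    (w : κ')
    (hSels : ∀ (hd' : 2 * rk O (X (Fin.last m)).N F.a < rk O X'.N F.a) n,
      SelB (((raiseP E X X' hstepp hϖ hϖ0).YC X'.B.hpO hϖ hd' (fun _ : Unit => Sum.inr w)).H n)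
        (((raiseP E X X' hstepp hϖ hϖ0).YC X'.B.hpO hϖ hd' (fun _ : Unit => Sum.inr w)).hbar n)
        r tv)
    (xw : (E.H₀ w).B →ₐ[O] O) (tW : GQ → O)
    (hW : ∀ g, xw (((E.H₀ w).C F.hbar₀).t g) = tW g)
    (hW1 : ∀ t, tW (tmv p (Fact.out : p.Prime) (tv t) (tv t).2) = 2)
    (hW2 : ∀ t, tW (frv (tv t) (tv t).2) = ε t * (((tv t : ℕ) : O) + 1)) :
    ∃ y : (X'.toCmp.cd₀ 1).X, ∀ g, (X'.toCmp.cd₀ 1).t y g = algebraMap O _ (tW g) := by
  have hne : ∀ t, (tv t : ℕ) ≠ p := fun t => (hT.ne t).symm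
  have hsq' : ∀ (j : Fin (m + 1)) (t : Fin m), j₀ ≤ j → ¬ (tv t : ℕ) * (tv t : ℕ) ∣ (X j).N :=
    fun j t hj h => hsq t (h.trans (chain_dvd hstep hj _ (Fin.le_last j)))
  have hsqX' : ∀ t, ¬ (tv t : ℕ) * (tv t : ℕ) ∣ X'.N := by
    intro t h
    rw [hstepp.hN] at h
    have hcop : Nat.Coprime ((tv t : ℕ) * (tv t : ℕ)) (pp : ℕ) := by
      have h1 : Nat.Coprime (tv t : ℕ) (pp : ℕ) :=
        (Nat.coprime_primes (tv t).2 pp.2).mpr (by rw [hpp]; exact hne t)
      exact h1.mul_left h1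
    exact hsq t (hcop.dvd_of_dvd_mul_right h)
  exact Sys.hardCase' (Y := sysH E X X') X'.B.hpO hϖ hT ε hε htr he
    cpx (fun j => rk O (X j).N F.a) (fun j n => mdT (xx X X') E (some j) n)
    (fun j => bdT (xx X X') E (some j)) j₀
    (fun t h => raiseD (X := xx X X') (i := some t.castSucc) (i' := some t.succ) E (hstep t h)
      hϖ hϖ0)
    (fun n j t hj hjt x g => (X j).unr n x (tv t).2 (hne t) (chain_not_dvd hstep hj hjt) (hD₀ t) g)
    (fun n j t hj _ x => (X j).t_eq_two n x (tv t).2 (hne t) (hsq' j t hj) (hD₀ t))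
    hst
    (fun t h n x => (hin t h).hTq n x)
    (fun t h y => (X t.succ).t_eq_two₀ y (tv t).2 (hne t)
      (hsq' _ t (h.trans (Fin.castSucc_lt_succ).le)))
    (fun t h y => by
      by_cases hq : (tv t : ℕ) ∣ (X t.succ).toCmp.lvl₀ 1 y
      · exact Or.inl ((X t.succ).sq₀ y (tv t).2 (hne t)
          (hsq' _ t (h.trans (Fin.castSucc_lt_succ).le)) hq)
      · obtain ⟨b, hb1, hb2⟩ := (hin t h).hnew y hq
        obtain ⟨b', hb'⟩ := pr_surj₀ E (xx X X') (some t.succ) hbad b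
        refine Or.inr ⟨b', ?_, fun x => ?_⟩
        · intro h0
          apply hb1
          have h1 := ((X t.succ).toCmp.hin₀ 1).e_evQ (X t.succ).B.hpO F.Ge y b
          rw [← h1]
          have h2 : ((X t.succ).toCmp.hin₀ 1).evQ (X t.succ).B.hpO F.Ge y b = 0 := by
            refine Eq.trans ?_ h0
            exact congrArg (((X t.succ).toCmp.cd₀ 1).ev y) hb'.symm
          rw [h2, map_zero]
        · obtain ⟨u, v, huv⟩ := hb2 x
          refine ⟨u, v, ?_⟩
          refine Eq.trans ?_ huv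
          exact congrArg (fun b => HT.toEnd (MoA0 (N := (X t.succ).N) ⊤ O F.a 1) b x) hb')
    (fun t h y => (X t.castSucc).bd₀ y (tv t).2 (hne t) (hstep t h).hqN)
    (X j₀).hd hpp (raiseP E X X' hstepp hϖ hϖ0)
    (fun n t x => X'.t_eq_two n x (tv t).2 (hne t) (hsqX' t) (hD₀ t))
    tp y e hy hTp hye hSelI (Sum.inr w) hSels xw tW hW hW1 hW2

end Fermat.Agent.H27.MH
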