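import Mathlib
import Fermat.Agent.H05_Frob

set_option autoImplicit false
set_option linter.unusedSectionVars false
set_option linter.style.haveILetI false

/-!
# Coefficient rings: completions of number rings at a given place of `ℂ`
-/

namespace Fermat.Agent.Z34

open IsLocalRing Module

section Hausdorff

variable {O : Type*} [CommRing O] [IsLocalRing O] [IsHausdorff (maximalIdeal O) O]

theorem exists_unit_mul_pow {ϖ : O} (h : maximalIdeal O = Ideal.span {ϖ}) {x : O} (hx : x ≠ 0) :
    ∃ (n : ℕ) (u : Oˣ), x = u * ϖ ^ n := by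
  classical
  have h1 : ∃ n, x ∉ maximalIdeal O ^ (n + 1) := by
    by_contra hcon
    push Not at hcon
    apply hx
    apply IsHausdorff.haus (inferInstance : IsHausdorff (maximalIdeal O) O)
    intro n
    rw [SModEq.zero, smul_eq_mul, Ideal.mul_top]
    rcases n with _ | n
    · simp
    · exact hcon n
  have h2 : x ∈ maximalIdeal O ^ Nat.find h1 := by
    rcases hn : Nat.find h1 with _ | n
    · simp
    · by_contra hcon
      exact Nat.find_min h1 (m := n) (by omega) hcon
  have h3 := Nat.find_spec h1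
  set n := Nat.find h1
  rw [h, Ideal.span_singleton_pow, Ideal.mem_span_singleton] at h2
  obtain ⟨y, hy⟩ := h2
  have hyu : IsUnit y := by
    by_contra hyn
    have h4 : y ∈ maximalIdeal O := (mem_maximalIdeal y).mpr hyn
    apply h3
    rw [hy, pow_succ]
    refine Ideal.mul_mem_mul ?_ h4
    rw [h]
    exact Ideal.pow_mem_pow (Ideal.mem_span_singleton_self ϖ) n
  obtain ⟨u, rfl⟩ := hyu
  exact ⟨n, u, by rw [hy, mul_comm]⟩

theorem isDomain_of_principal {ϖ : O} (h : maximalIdeal O = Ideal.span {ϖ})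
    (hn : ∀ n : ℕ, ϖ ^ n ≠ 0) : IsDomain O := by
  haveI : Nontrivial O := inferInstance
  haveI : NoZeroDivisors O := ⟨by
    intro a b hab
    by_contra hcon
    push Not at hcon
    obtain ⟨n, u, hu⟩ := exists_unit_mul_pow h hcon.1
    obtain ⟨m, v, hv⟩ := exists_unit_mul_pow h hcon.2
    apply hn (n + m)
    have h1 : (u : O) * v * ϖ ^ (n + m) = 0 := by
      rw [← hab, hu, hv, pow_add]; ring
    have h2 : ((u * v : Oˣ) : O) * ϖ ^ (n + m) = 0 := by rw [Units.val_mul]; exact h1
    exact (Units.mul_right_eq_zero _).mp h2⟩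
  exact NoZeroDivisors.to_isDomain O

theorem isDVR_of_principal [IsDomain O] {ϖ : O} (h : maximalIdeal O = Ideal.span {ϖ})
    (hn : ∀ n : ℕ, ϖ ^ n ≠ 0) : IsDiscreteValuationRing O := by
  apply IsDiscreteValuationRing.ofHasUnitMulPowIrreducibleFactorization
  have hϖ0 : ϖ ≠ 0 := by have := hn 1; rwa [pow_one] at this
  refine ⟨ϖ, ?_, ?_⟩
  · have hmem : ϖ ∈ maximalIdeal O := h ▸ Ideal.mem_span_singleton_self ϖ
    refine ⟨(mem_maximalIdeal ϖ).mp hmem, ?_⟩
    intro a b hab
    by_contra hcon
    push Not at hcon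
    have ha : a ∈ maximalIdeal O := (mem_maximalIdeal a).mpr hcon.1
    have hb : b ∈ maximalIdeal O := (mem_maximalIdeal b).mpr hcon.2
    rw [h, Ideal.mem_span_singleton] at ha hb
    obtain ⟨c, rfl⟩ := ha
    obtain ⟨d, rfl⟩ := hb
    have h1 : ϖ * (1 - ϖ * c * d) = 0 := by linear_combination hab
    have h2 := (mul_eq_zero.mp h1).resolve_left hϖ0
    have h3 : IsUnit ϖ := by
      refine IsUnit.of_mul_eq_one (c * d) ?_
      linear_combination -h2
    exact (mem_maximalIdeal ϖ).mp hmem h3
  · intro x hx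
    obtain ⟨n, u, hu⟩ := exists_unit_mul_pow h hx
    exact ⟨n, ⟨u, by rw [hu, mul_comm]⟩⟩

end Hausdorff

section Completion

variable (R : Type) [CommRing R] [IsDomain R] [IsDiscreteValuationRing R]

theorem exists_completion_dvr [CharZero R] [Finite (ResidueField R)] :
    ∃ (O : Type) (_ : CommRing O) (_ : IsDomain O) (_ : IsDiscreteValuationRing O)
      (_ : IsAdicComplete (maximalIdeal O) O) (_ : Finite (ResidueField O)) (_ : CharZero O)
      (f : R →+* O), Function.Injective f ∧ ∀ x, x ∈ maximalIdeal R → f x ∈ maximalIdeal O := by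
  let O := AdicCompletion (maximalIdeal R) R
  obtain ⟨ϖ, hϖ⟩ := IsDiscreteValuationRing.exists_irreducible R
  have hm : maximalIdeal R = Ideal.span {ϖ} :=
    (IsDiscreteValuationRing.irreducible_iff_uniformizer ϖ).mp hϖ
  have hinj : Function.Injective (algebraMap R O) := by
    intro x y hxy
    rw [AdicCompletion.algebraMap_apply, AdicCompletion.algebraMap_apply] at hxy
    exact AdicCompletion.of_injective (maximalIdeal R) R hxy
  have hmO : maximalIdeal O = Ideal.span {algebraMap R O ϖ} := by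
    have h1 : (maximalIdeal R).map (algebraMap R O) =
        (Ideal.span {ϖ}).map (algebraMap R O) := congrArg (Ideal.map (algebraMap R O)) hm
    rw [AdicCompletion.maximalIdeal_eq_map, h1, Ideal.map_span, Set.image_singleton]
  have hn : ∀ n : ℕ, (algebraMap R O ϖ) ^ n ≠ 0 := by
    intro n h
    rw [← map_pow, ← map_zero (algebraMap R O)] at h
    exact pow_ne_zero n hϖ.ne_zero (hinj h)
  haveI : IsDomain O := isDomain_of_principal hmO hn
  haveI : IsDiscreteValuationRing O := isDVR_of_principal hmO hn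
  refine ⟨O, inferInstance, inferInstance, inferInstance, inferInstance, ?_, ?_,
    algebraMap R O, hinj, ?_⟩
  · exact Finite.of_surjective _ (AdicCompletion.residueField_map_bijective R).2
  · exact charZero_of_injective_algebraMap hinj
  · intro x hx
    rw [AdicCompletion.maximalIdeal_eq_map]
    exact Ideal.mem_map_of_mem _ hx

end Completion

open NumberField in
/-- **Coefficient rings.** A finite set `s` of algebraic integers and a place `A` of `ℂ` of residue
characteristic `p`. -/
theorem exists_coeff_ring {A : ValuationSubring ℂ} {p : ℕ} (hp : p.Prime)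
    (hA : (p : ℂ) ∈ A.nonunits) (s : Set ℂ) (hs : s.Finite) (hint : ∀ x ∈ s, IsIntegral ℤ x) :
    ∃ (O : Type) (_ : CommRing O) (_ : IsDomain O) (_ : IsDiscreteValuationRing O)
      (_ : IsAdicComplete (maximalIdeal O) O) (_ : Finite (ResidueField O)) (_ : CharZero O)
      (R : Subring ℂ) (f : R →+* O), s ⊆ R ∧ Function.Injective f ∧
        ∀ x : R, (x : ℂ) ∈ A.nonunits → f x ∈ maximalIdeal O := by
  classical
  let K : IntermediateField ℚ ℂ := IntermediateField.adjoin ℚ s
  haveI : FiniteDimensional ℚ K := by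
    haveI := hs.to_subtype
    exact IntermediateField.finiteDimensional_adjoin (fun x hx => (hint x hx).tower_top)
  haveI : NumberField K := ⟨⟩
  let emb : 𝓞 K →+* ℂ := (algebraMap K ℂ).comp (algebraMap (𝓞 K) K)
  have hemb : Function.Injective emb :=
    (algebraMap K ℂ).injective.comp (FaithfulSMul.algebraMap_injective (𝓞 K) K)
  have hAint : ∀ x : 𝓞 K, emb x ∈ A := fun x =>
    H05.mem_of_isIntegral A (x.isIntegral_coe.map (IsScalarTower.toAlgHom ℤ K ℂ))
  let g : 𝓞 K →+* A := emb.codRestrict A.toSubring hAint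
  let 𝔭 : Ideal (𝓞 K) := (maximalIdeal A).comap g
  haveI h𝔭 : 𝔭.IsPrime := Ideal.IsPrime.comap g
  have hmem : ∀ x : 𝓞 K, x ∈ 𝔭 ↔ emb x ∈ A.nonunits := by
    intro x
    change g x ∈ maximalIdeal A ↔ _
    rw [← ValuationSubring.coe_mem_nonunits_iff]
    rfl
  have hp0 : 𝔭 ≠ ⊥ := by
    intro h
    have h1 : ((p : ℕ) : 𝓞 K) ∈ 𝔭 := by rw [hmem, map_natCast]; exact hA
    rw [h, Ideal.mem_bot] at h1
    exact hp.ne_zero (by exact_mod_cast h1)
  haveI : IsDiscreteValuationRing (Localization.AtPrime 𝔭) :=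
    IsLocalization.AtPrime.isDiscreteValuationRing_of_dedekind_domain (𝓞 K) hp0 _
  haveI hmax : 𝔭.IsMaximal := h𝔭.isMaximal hp0
  haveI : Finite (𝓞 K ⧸ 𝔭) := Ideal.finiteQuotientOfFreeOfNeBot 𝔭 hp0
  haveI : Finite (ResidueField (Localization.AtPrime 𝔭)) :=
    Finite.of_equiv _ (IsLocalization.AtPrime.equivQuotMaximalIdeal 𝔭
      (Localization.AtPrime 𝔭)).toEquiv
  have hinj1 : Function.Injective (algebraMap (𝓞 K) (Localization.AtPrime 𝔭)) :=
    IsLocalization.injective _ 𝔭.primeCompl_le_nonZeroDivisors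
  haveI : CharZero (Localization.AtPrime 𝔭) := charZero_of_injective_algebraMap hinj1
  obtain ⟨O, i1, i2, i3, i4, i5, i6, f, hf, hfm⟩ :=
    exists_completion_dvr (Localization.AtPrime 𝔭)
  let e : 𝓞 K ≃+* emb.range := RingEquiv.ofBijective emb.rangeRestrict
    ⟨fun x y h => hemb (congrArg (Subtype.val (p := (· ∈ emb.range))) h),
      emb.rangeRestrict_surjective⟩
  refine ⟨O, i1, i2, i3, i4, i5, i6, emb.range,
    (f.comp (algebraMap (𝓞 K) (Localization.AtPrime 𝔭))).comp e.symm.toRingHom, ?_, ?_, ?_⟩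
  · intro x hx
    have hxK : x ∈ K := IntermediateField.subset_adjoin ℚ s hx
    have hxi : IsIntegral ℤ (⟨x, hxK⟩ : K) := by
      have := hint x hx
      rwa [← isIntegral_algebraMap_iff (A := K) (B := ℂ) (algebraMap K ℂ).injective]
    exact ⟨⟨⟨x, hxK⟩, hxi⟩, rfl⟩
  · exact (hf.comp hinj1).comp e.symm.injective
  · intro x hx
    obtain ⟨y, rfl⟩ := e.surjective x
    have h1 : e.symm.toRingHom (e y) = y := e.symm_apply_apply y
    rw [RingHom.comp_apply, h1]
    apply hfm
    have h2 : y ∈ 𝔭 := (hmem y).mpr hx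
    rw [← Localization.AtPrime.map_eq_maximalIdeal]
    exact Ideal.mem_map_of_mem _ h2

end Fermat.Agent.Z34
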