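import Fermat.Agent.H27.ModRel
import Fermat.Agent.Igusa.Degree

set_option autoImplicit false

open Polynomial ModularCurve IntermediateField

namespace Fermat.Agent.H27

open Fermat.Agent.Igusa

noncomputable section

theorem sep_modPoly (p : ℕ) [hp : Fact p.Prime] (k : Type*) [Field k] [IsAlgClosed k]
    (hk : (p : k) ≠ 0) :
    (((modPoly p).map (mapRingHom (Int.castRingHom k))).map
      (algebraMap k[X] (RatFunc k))).Separable := by
  haveI : NeZero (p : k) := ⟨hk⟩
  obtain ⟨ζ, hζ⟩ := HasEnoughRootsOfUnity.exists_primitiveRoot k p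
  let u : kˣ := (hζ.isUnit hp.out.ne_zero).unit
  have hu : IsPrimitiveRoot u p := by
    rw [← IsPrimitiveRoot.coe_units_iff]; exact hζ
  have hmap : ((modPoly p).map (mapRingHom (Int.castRingHom k))).map (psiP p k) = rtPoly p u := by
    rw [Polynomial.map_map, psiP_comp, modPoly_map p hu]
  refine sep_of_map _ (psiP p k) (psiP_injective p k) ?_
  rw [hmap, rtPoly]
  exact Polynomial.separable_prod_X_sub_C_iff.mpr (rt_injective p hu)

theorem sep_map_of_injective {k L : Type*} [Field k] [Field L] (f : k[X][X]) (ψ : k[X] →+* L)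
    (hψ : Function.Injective ψ) (hf : (f.map (algebraMap k[X] (RatFunc k))).Separable) :
    (f.map ψ).Separable := by
  let Ψ : RatFunc k →+* L := IsFractionRing.lift hψ
  have hΨ : Ψ.comp (algebraMap k[X] (RatFunc k)) = ψ :=
    RingHom.ext fun g => IsFractionRing.lift_algebraMap hψ g
  have h1 : f.map ψ = (f.map (algebraMap k[X] (RatFunc k))).map Ψ := by
    rw [Polynomial.map_map, hΨ]
  rw [h1]
  exact hf.map

theorem sep_step {k E F' : Type*} [Field k] [IsAlgClosed k] [Field E] [Field F'] [Algebra E F']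
    (i : F' →+* LaurentSeries k) (p : ℕ) [hp : Fact p.Prime] (hpk : (p : k) ≠ 0) (d : ℕ)
    [NeZero d] [NeZero (d * p)] (y' : E) (y : F') (hy' : i (algebraMap E F' y') = jd k d)
    (hy : i y = jd k (d * p)) : IsSeparable E y := by
  let P : E[X] := (modPoly p).map (evZ y')
  have hPm : P.Monic := (modPoly_monic p).map _
  have hP0 : aeval y P = 0 := by
    apply i.injective
    rw [map_zero, aeval_def, eval₂_map, hom_eval₂, hy, ← RingHom.comp_assoc, ringHom_comp_evZ]
    rw [RingHom.comp_apply, hy']
    exact modPoly_eval p k d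
  have hPs : P.Separable := by
    rw [← Polynomial.separable_map (i.comp (algebraMap E F'))]
    have h1 : P.map (i.comp (algebraMap E F')) =
        ((modPoly p).map (mapRingHom (Int.castRingHom k))).map
          ((qExpand k d).comp (evJ k)) := by
      rw [Polynomial.map_map, Polynomial.map_map, ringHom_comp_evZ]
      congr 1
      ext
      · simp
      · simp [hy', jd]
    rw [h1]
    exact sep_map_of_injective _ _ ((qExpand_injective d).comp (evJ_injective k))
      (sep_modPoly p k hpk)
  exact hPs.of_dvd (minpoly.dvd E y hP0)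

variable (k : Type*) [Field k] (N : ℕ)

/-- `j` in the function field -/
def tK : modularFunctionFieldFullC k N := ⟨jqModC k, jqModC_mem_full k N⟩

/-- `j(q^d)` in the function field -/
def jdK {d : ℕ} [NeZero d] (hd : d ∣ N) : modularFunctionFieldFullC k N :=
  ⟨qExpand k d (jqModC k), jqModCd_mem_full k N hd⟩

theorem natCast_ne_zero_of_dvd' {k : Type*} [Field k] {d N : ℕ} (hd : d ∣ N) (hN : (N : k) ≠ 0) :
    (d : k) ≠ 0 := by
  obtain ⟨e, rfl⟩ := hd
  intro h0
  apply hN
  rw [Nat.cast_mul, h0, zero_mul]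

theorem sep_jdK [IsAlgClosed k] (hN : (N : k) ≠ 0) (d : ℕ) : ∀ [NeZero d] (hd : d ∣ N),
    IsSeparable k⟮tK k N⟯ (jdK k N hd) := by
  induction d using Nat.strong_induction_on with
  | _ d ih =>
    intro hd0 hd
    by_cases hd1 : d = 1
    · subst hd1
      have h1 : jdK k N hd = algebraMap k⟮tK k N⟯ _ (AdjoinSimple.gen k (tK k N)) := by
        apply Subtype.ext
        exact qExpand_one_apply _
      rw [h1]
      exact isSeparable_algebraMap _
    · have hp := Nat.minFac_prime hd1
      haveI : Fact d.minFac.Prime := ⟨hp⟩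
      set p := d.minFac with hpdef
      obtain ⟨e, he⟩ := Nat.minFac_dvd d
      rw [← hpdef, mul_comm] at he
      have he0 : e ≠ 0 := by rintro rfl; exact hd0.out (by rw [he, zero_mul])
      haveI : NeZero e := ⟨he0⟩
      have hpd : p ∣ d := ⟨e, by rw [he, mul_comm]⟩
      have hed : e ∣ d := ⟨p, he⟩
      have hlt : e < d := by
        conv_rhs => rw [he]
        exact lt_mul_of_one_lt_right (Nat.pos_of_ne_zero he0) hp.one_lt
      have h1 := ih e hlt (hed.trans hd)
      haveI : Algebra.IsSeparable k⟮tK k N⟯ k⟮tK k N⟯⟮jdK k N (hed.trans hd)⟯ :=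
        (isSeparable_adjoin_simple_iff_isSeparable _ _).mpr h1
      haveI : NeZero (e * p) := ⟨by rw [← he]; exact hd0.out⟩
      have h2 : IsSeparable k⟮tK k N⟯⟮jdK k N (hed.trans hd)⟯ (jdK k N hd) := by
        refine sep_step (modularFunctionFieldFullC k N).val.toRingHom p
          (natCast_ne_zero_of_dvd' (hpd.trans hd) hN) e
          (AdjoinSimple.gen _ (jdK k N (hed.trans hd))) _ rfl ?_
        exact jd_congr k he
      exact IsSeparable.of_algebra_isSeparable_of_isSeparable _ h2

/-- The modular function field is separable over `k(j)`. -/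
theorem isSeparable_Fk [IsAlgClosed k] (hN : (N : k) ≠ 0) :
    Algebra.IsSeparable k⟮tK k N⟯ (modularFunctionFieldFullC k N) := by
  rw [Algebra.isSeparable_def]
  rintro ⟨z, hz⟩
  induction hz using IntermediateField.adjoin_induction with
  | mem z hz =>
    obtain ⟨d, hd0, hd, rfl⟩ := hz
    exact sep_jdK k N hN d hd
  | algebraMap c =>
    have h1 : (⟨algebraMap k (LaurentSeries k) c, _⟩ : modularFunctionFieldFullC k N) =
      algebraMap k⟮tK k N⟯ _ (algebraMap k _ c) := rfl
    rw [h1]
    exact isSeparable_algebraMap _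
  | add x y hx hy h1 h2 =>
    exact (separableClosure k⟮tK k N⟯ (modularFunctionFieldFullC k N)).add_mem
      (x := ⟨x, hx⟩) (y := ⟨y, hy⟩) h1 h2
  | inv x hx h1 =>
    exact (separableClosure k⟮tK k N⟯ (modularFunctionFieldFullC k N)).inv_mem
      (x := ⟨x, hx⟩) h1
  | mul x y hx hy h1 h2 =>
    exact (separableClosure k⟮tK k N⟯ (modularFunctionFieldFullC k N)).mul_mem
      (x := ⟨x, hx⟩) (y := ⟨y, hy⟩) h1 h2

end

end Fermat.Agent.H27
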