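import Fermat.Agent.H28.Const
import Fermat.Agent.H27.SepK

set_option autoImplicit false

open Polynomial ModularCurve IntermediateField AlgebraicCurve IsDedekindDomain

namespace Fermat.Agent.H27

noncomputable section

section gen

variable {k F' : Type*} [Field k] [Field F'] [Algebra k F']

open scoped algebraAdjoinAdjoin in
theorem isAlgebraic_adjoin (t : F') [FiniteDimensional k⟮t⟯ F'] :
    Algebra.IsAlgebraic (Algebra.adjoin k {t}) F' := by
  have h1 : Algebra.IsAlgebraic k⟮t⟯ F' := inferInstance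
  exact Algebra.IsAlgebraic.trans (Algebra.adjoin k {t}) k⟮t⟯ F'

open scoped algebraAdjoinAdjoin in
theorem isDedekindDomain_CR (t : F') [FiniteDimensional k⟮t⟯ F']
    [Algebra.IsSeparable k⟮t⟯ F'] : IsDedekindDomain (H28.CR k t) := by
  haveI := H28.isPID_adjoin (K := k) (t := t)
  exact integralClosure.isDedekindDomain (Algebra.adjoin k {t}) k⟮t⟯ F'

theorem adjoin_inv (t : F') : k⟮t⁻¹⟯ = k⟮t⟯ := by
  apply le_antisymm
  · rw [adjoin_simple_le_iff]
    exact inv_mem (mem_adjoin_simple_self k t)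
  · rw [adjoin_simple_le_iff]
    have := inv_mem (mem_adjoin_simple_self k t⁻¹)
    rwa [inv_inv] at this

/-- functions with trivial divisor are constant -/
theorem const_of_ord [IsAlgClosed k] {t : F'} (ht : t ≠ 0) [hf : FiniteDimensional k⟮t⟯ F']
    [hs : Algebra.IsSeparable k⟮t⟯ F'] {u : F'} (hu : u ≠ 0)
    (h : ∀ P : Place k F', P.ord u = 0) : ∃ c : k, algebraMap k F' c = u := by
  haveI hf' : FiniteDimensional k⟮t⁻¹⟯ F' := by rw [adjoin_inv]; exact hf
  haveI hs' : Algebra.IsSeparable k⟮t⁻¹⟯ F' := by rw [adjoin_inv]; exact hs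
  haveI := isDedekindDomain_CR (k := k) t
  haveI := isDedekindDomain_CR (k := k) t⁻¹
  haveI := isAlgebraic_adjoin (k := k) t
  haveI := isAlgebraic_adjoin (k := k) t⁻¹
  haveI := H28.isFractionRing_CR (K := k) (t := t)
  haveI := H28.isFractionRing_CR (K := k) (t := t⁻¹)
  refine H28.isConst_of_valuations (t₁ := t) (t₂ := t⁻¹) (mul_inv_cancel₀ ht) (fun v => ?_)
    (fun v _ => ?_)
  · rw [← H18.mem_placeOfPrime k, H18.mem_iff, h]
  · rw [← H18.mem_placeOfPrime k, H18.mem_iff, h]

end gen

section mod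

variable (k : Type*) [Field k] (N : ℕ) [NeZero N]

theorem finite_divisorExpansionsC : (divisorExpansionsC k N).Finite := by
  classical
  have h1 : divisorExpansionsC k N ⊆ (Set.range fun d : {d : ℕ // d ∣ N ∧ d ≠ 0} =>
      haveI : NeZero d.1 := ⟨d.2.2⟩
      qExpand k d.1 (jqModC k)) := by
    rintro x ⟨d, hd0, hd, rfl⟩
    exact ⟨⟨d, hd, hd0.out⟩, rfl⟩
  have h2 : Finite {d : ℕ // d ∣ N ∧ d ≠ 0} := by
    apply Set.Finite.to_subtype
    exact (Nat.divisors N).finite_toSet.subset fun d hd => by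
      simp only [Finset.mem_coe, Nat.mem_divisors]
      exact ⟨hd.1, NeZero.ne N⟩
  exact (Set.finite_range _).subset h1

theorem finite_Fk [IsAlgClosed k] (hN : (N : k) ≠ 0) :
    FiniteDimensional k⟮tK k N⟯ (modularFunctionFieldFullC k N) := by
  haveI := isSeparable_Fk k N hN
  haveI h1 : Algebra.EssFiniteType k (modularFunctionFieldFullC k N) := by
    rw [IntermediateField.essFiniteType_iff]
    exact IntermediateField.fg_adjoin_of_finite (finite_divisorExpansionsC k N)
  haveI := Algebra.EssFiniteType.of_comp k k⟮tK k N⟯ (modularFunctionFieldFullC k N)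
  exact Algebra.finite_of_essFiniteType_of_isAlgebraic

theorem tK_ne_zero : tK k N ≠ 0 := fun h =>
  jqModC_ne_zero_of_nontrivial k (congrArg Subtype.val h)

theorem const_Fk [IsAlgClosed k] (hN : (N : k) ≠ 0) {u : modularFunctionFieldFullC k N}
    (hu : u ≠ 0) (h : ∀ P : Place k (modularFunctionFieldFullC k N), P.ord u = 0) :
    ∃ c : k, algebraMap k _ c = u := by
  haveI := isSeparable_Fk k N hN
  haveI := finite_Fk k N hN
  exact const_of_ord (tK_ne_zero k N) hu h

end mod

end

end Fermat.Agent.H27
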