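import Fermat.Agent.H27.KeyMod

set_option autoImplicit false

open Polynomial

namespace Fermat.Agent.H27

noncomputable section

variable {K : Type} [Field K] {A : ValuationSubring K}

theorem dvd_rootMultiplicity_of {P Q R : K[X]} {n : ℕ} (hP : P ≠ 0) (h : P = Q ^ n * R) {a : K}
    (hR : R.eval a ≠ 0) : n ∣ P.rootMultiplicity a := by
  classical
  have hQR : Q ^ n * R ≠ 0 := h ▸ hP
  have hR0 : R.rootMultiplicity a = 0 := rootMultiplicity_eq_zero hR
  rw [h, rootMultiplicity_mul hQR, hR0, add_zero, ← count_roots, roots_pow, Multiset.count_nsmul]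
  exact dvd_mul_right _ _

theorem gInd_of_ne {c : K} (h0 : c ≠ 0) (h1 : c ≠ 1728) : gInd c = 1 := by
  unfold gInd; rw [if_neg h0, if_neg h1]

variable {𝕂 : Type*} [Field 𝕂] [Algebra K 𝕂]

/-- branch data from factorizations -/
def BrData.of [CharZero K] (x J : 𝕂) (U T : K[X]) (cop : IsCoprime U T)
    (rel : J * aeval x T = aeval x U) (D : A[X]) (sq : Squarefree (redP A D))
    (Q₀ R₀ Q₁ R₁ : K[X]) (hU : U = Q₀ ^ 3 * R₀) (hU1 : U - C 1728 * T = Q₁ ^ 2 * R₁)
    (hUne : U ≠ 0) (hU1ne : U - C 1728 * T ≠ 0)
    (hD : ∀ a : K, (incP A D).eval a ≠ 0 → T.eval a ≠ 0 ∧ R₀.eval a ≠ 0 ∧ R₁.eval a ≠ 0) :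
    BrData A x J where
  U := U
  T := T
  cop := cop
  rel := rel
  D := D
  sq := sq
  br a _ hDa := by
    obtain ⟨h1, h2, h3⟩ := hD a hDa
    refine ⟨U.eval a / T.eval a, h1, (div_mul_cancel₀ _ h1).symm, ?_⟩
    have h1728 : (1728 : K) ≠ 0 := by norm_num
    by_cases hc0 : U.eval a / T.eval a = 0
    · rw [hc0, map_zero, zero_mul, sub_zero]
      unfold gInd
      rw [if_pos rfl]
      exact dvd_rootMultiplicity_of hUne hU h2
    by_cases hc1 : U.eval a / T.eval a = 1728
    · rw [hc1]
      unfold gInd
      rw [if_neg h1728, if_pos rfl]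
      exact dvd_rootMultiplicity_of hU1ne hU1 h3
    · rw [gInd_of_ne hc0 hc1]
      exact one_dvd _

/-! ### The hauptmodul of level two -/

theorem squarefree_X_mul {k : Type*} [Field k] (a b : k) (hb : b ≠ 0) :
    Squarefree (X * (C a * X + C b) : k[X]) := by
  have hcop : IsCoprime (X : k[X]) (C a * X + C b) := by
    refine ⟨-(C b⁻¹ * C a), C b⁻¹, ?_⟩
    have : (C b⁻¹ * C b : k[X]) = 1 := by rw [← C_mul, inv_mul_cancel₀ hb, C_1]
    linear_combination this
  rw [squarefree_mul_iff]
  refine ⟨hcop.isRelPrime, irreducible_X.squarefree, ?_⟩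
  by_cases ha : a = 0
  · rw [ha, C_0, zero_mul, zero_add]
    exact (isUnit_C.mpr (isUnit_iff_ne_zero.mpr hb)).squarefree
  · exact (irreducible_of_degree_eq_one (degree_linear ha)).squarefree

section two

variable [CharZero K] (A)

/-- `D = X (X + 64)` resp. `X (64 X + 1)` -/
def linD (a b : ℤ) : A[X] := X * (C (a : A) * X + C (b : A))

theorem linD_sq (a b : ℤ) (hb : (b : kk A) ≠ 0) : Squarefree (redP A (linD A a b)) := by
  have : redP A (linD A a b) = X * (C (a : kk A) * X + C (b : kk A)) := by
    simp [linD, redP]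
  rw [this]
  exact squarefree_X_mul _ _ hb

theorem linD_eval (a b : ℤ) (t : K) : (incP A (linD A a b)).eval t = t * (a * t + b) := by
  simp [linD, incP]

variable {A}

theorem cop_of_eval [IsAlgClosed K] {U T : K[X]} (h : ∀ a, T.eval a = 0 → U.eval a ≠ 0) :
    IsCoprime U T := by
  rw [isCoprime_comm, isCoprime_iff_aeval_ne_zero_of_isAlgClosed K K]
  intro a
  by_cases ha : T.eval a = 0
  · right; simpa using h a ha
  · left; simpa using ha

def brTwo [IsAlgClosed K] (h2 : (2 : kk A) ≠ 0) (x J : 𝕂) (hj : J * x ^ 2 = (x + 256) ^ 3) :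
    BrData A x J :=
  BrData.of x J ((X + 256) ^ 3) (X ^ 2)
    (cop_of_eval (by
      intro a ha
      have h0 : a = 0 := by simpa using ha
      subst h0
      simp))
    (by
      rw [map_pow, map_pow, map_add, aeval_X, map_ofNat]
      exact hj) (linD A 1 64)
    (linD_sq A 1 64 (by
      have : ((64 : ℤ) : kk A) = 2 ^ 6 := by norm_num
      rw [this]; exact pow_ne_zero _ h2))
    (X + 256) 1 (X - 512) (X + 64) (by ring)
    (by
      have : (C 1728 : K[X]) = 1728 := rfl
      rw [this]; ring)
    (by
      intro h0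
      have := congrArg (eval (0 : K)) h0
      norm_num at this)
    (by
      intro h0
      have := congrArg (eval (0 : K)) h0
      norm_num at this)
    (by
      intro a ha
      rw [linD_eval] at ha
      push_cast at ha
      rw [one_mul] at ha
      have h1 := left_ne_zero_of_mul ha
      have h3 := right_ne_zero_of_mul ha
      refine ⟨by simpa using h1, by simp, by simpa using h3⟩)

def brTwo' [IsAlgClosed K] (x J : 𝕂) (hx : x ≠ 0) (hj : J * x ^ 2 = (x + 256) ^ 3) :
    BrData A x⁻¹ J :=
  BrData.of x⁻¹ J ((1 + 256 * X) ^ 3) X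
    (cop_of_eval (by
      intro a ha
      have h0 : a = 0 := by simpa using ha
      subst h0
      simp))
    (by
      have : J = (x + 256) ^ 3 / x ^ 2 := by rw [← hj]; field_simp
      simp only [map_pow, map_add, map_one, map_mul, aeval_X, this]
      have h256 : (aeval x⁻¹ (256 : K[X]) : 𝕂) = 256 := map_ofNat _ _
      rw [h256]
      field_simp)
    (linD A 64 1) (linD_sq A 64 1 (by simp))
    (1 + 256 * X) 1 (1 - 512 * X) (1 + 64 * X) (by ring)
    (by
      have : (C 1728 : K[X]) = 1728 := rfl
      rw [this]; ring)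
    (by
      intro h0
      have := congrArg (eval (0 : K)) h0
      norm_num at this)
    (by
      intro h0
      have := congrArg (eval (0 : K)) h0
      norm_num at this)
    (by
      intro a ha
      rw [linD_eval] at ha
      push_cast at ha
      have h1 := left_ne_zero_of_mul ha
      have h3 := right_ne_zero_of_mul ha
      refine ⟨by simpa using h1, by simp, ?_⟩
      simpa [add_comm] using h3)

def brThree [IsAlgClosed K] (h3 : (3 : kk A) ≠ 0) (x J : 𝕂)
    (hj : J * x ^ 3 = (x + 27) * (x + 243) ^ 3) : BrData A x J :=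
  BrData.of x J ((X + 27) * (X + 243) ^ 3) (X ^ 3)
    (cop_of_eval (by
      intro a ha
      have h0 : a = 0 := by simpa using ha
      subst h0
      simp))
    (by
      rw [map_mul, map_pow, map_pow, map_add, map_add, aeval_X, map_ofNat, map_ofNat]
      exact hj) (linD A 1 27)
    (linD_sq A 1 27 (by
      have : ((27 : ℤ) : kk A) = 3 ^ 3 := by norm_num
      rw [this]; exact pow_ne_zero _ h3))
    (X + 243) (X + 27) (X ^ 2 - 486 * X - 19683) 1 (by ring)
    (by
      have : (C 1728 : K[X]) = 1728 := rfl
      rw [this]; ring)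
    (by
      intro h0
      have := congrArg (eval (0 : K)) h0
      norm_num at this)
    (by
      intro h0
      have := congrArg (eval (0 : K)) h0
      norm_num at this)
    (by
      intro a ha
      rw [linD_eval] at ha
      push_cast at ha
      rw [one_mul] at ha
      have h1 := left_ne_zero_of_mul ha
      have h3 := right_ne_zero_of_mul ha
      refine ⟨by simpa using h1, by simpa using h3, by simp⟩)

def brThree' [IsAlgClosed K] (x J : 𝕂) (hx : x ≠ 0)
    (hj : J * x ^ 3 = (x + 27) * (x + 243) ^ 3) : BrData A x⁻¹ J :=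
  BrData.of x⁻¹ J ((1 + 27 * X) * (1 + 243 * X) ^ 3) X
    (cop_of_eval (by
      intro a ha
      have h0 : a = 0 := by simpa using ha
      subst h0
      simp))
    (by
      have : J = (x + 27) * (x + 243) ^ 3 / x ^ 3 := by rw [← hj]; field_simp
      simp only [map_pow, map_add, map_one, map_mul, aeval_X, this]
      have h27 : (aeval x⁻¹ (27 : K[X]) : 𝕂) = 27 := map_ofNat _ _
      have h243 : (aeval x⁻¹ (243 : K[X]) : 𝕂) = 243 := map_ofNat _ _
      rw [h27, h243]
      field_simp)
    (linD A 27 1) (linD_sq A 27 1 (by simp))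
    (1 + 243 * X) (1 + 27 * X) (1 - 486 * X - 19683 * X ^ 2) 1 (by ring)
    (by
      have : (C 1728 : K[X]) = 1728 := rfl
      rw [this]; ring)
    (by
      intro h0
      have := congrArg (eval (0 : K)) h0
      norm_num at this)
    (by
      intro h0
      have := congrArg (eval (0 : K)) h0
      norm_num at this)
    (by
      intro a ha
      rw [linD_eval] at ha
      push_cast at ha
      have h1 := left_ne_zero_of_mul ha
      have h3 := right_ne_zero_of_mul ha
      refine ⟨by simpa using h1, ?_, by simp⟩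
      simpa [add_comm] using h3)

end two

end

end Fermat.Agent.H27
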