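import Fermat.Agent.H27.Lam

set_option autoImplicit false

open Polynomial

namespace Fermat.Agent.H27

noncomputable section

/-- a squarefree element divides `τ` as soon as its prime factors do -/
theorem dvd_of_squarefree {R : Type*} [CommRing R] [IsDomain R] [UniqueFactorizationMonoid R]
    (D τ : R) (hD : Squarefree D) (h : ∀ p, Prime p → p ∣ D → p ∣ τ) : D ∣ τ := by
  induction D using UniqueFactorizationMonoid.induction_on_prime with
  | h₁ => exact absurd hD not_squarefree_zero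
  | h₂ a ha => exact ha.dvd
  | h₃ a p ha hp ih =>
    have h1 : IsRelPrime p a := by
      intro d hd1 hd2
      by_contra hd
      obtain ⟨c, hc⟩ := hd1
      rcases (hp.irreducible.isUnit_or_isUnit hc) with h2 | h2
      · exact hd h2
      · have h3 : p ∣ a := by
          rw [hc, IsUnit.mul_right_dvd h2]
          exact hd2
        obtain ⟨b, rfl⟩ := h3
        exact hp.not_unit (hD p ⟨b, by ring⟩)
    exact h1.mul_dvd (h p hp (Dvd.intro _ rfl))
      (ih (hD.squarefree_of_dvd (Dvd.intro_left _ rfl))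
        fun q hq hqa => h q hq (hqa.mul_left _))

variable {K : Type*} [Field K] {A : ValuationSubring K}
variable {𝕂 : Type*} [Field 𝕂] [Algebra K 𝕂]
variable {E : Type*} [Field E] [Algebra 𝕂 E]
variable {x : 𝕂} (h : RatCoord K x)
variable {ι : Type} [Fintype ι] [DecidableEq ι]

theorem polE_incP (D : A[X]) : polE K x E (incP A D) = algebraMap 𝕂 E (evA A x D) := rfl

theorem rho_trace_dvd (e : EtBasis (gauss A h) E ι) (D : A[X]) (hD : Squarefree (redP A D))
    {z w : BV (gauss A h) E} (hz : IntMod h e z) (hw : (w : E) ∈ IK K x E (incP A D))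
    (htr : Algebra.trace 𝕂 E ((z : E) * w) ∈ gauss A h) :
    ∃ t : (kk A)[X], rho A h ⟨_, htr⟩ =
      algebraMap (kk A)[X] (RatFunc (kk A)) (redP A D * t) := by
  haveI := e.finite
  have hD0 : redP A D ≠ 0 := hD.ne_zero
  obtain ⟨hwO, M, w', hw'O, hwM⟩ := hw
  rw [polE_incP] at hwM
  have hDne : algebraMap 𝕂 E (evA A x D) ≠ 0 := by
    rw [ne_eq, map_eq_zero]; exact evA_ne_zero h hD0
  have hw'B : w' ∈ BV (gauss A h) E := by
    have h1 : w' = algebraMap 𝕂 E (evA A x D)⁻¹ * (w : E) ^ M := by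
      rw [hwM, map_inv₀, inv_mul_cancel_left₀ hDne]
    rw [h1]
    exact mul_mem (val_mem_BV (inv_evA_mem_gauss h hD0)) (pow_mem w.2 M)
  let w'' : BV (gauss A h) E := ⟨w', hw'B⟩
  have hzw : IntMod h e (z * w) := hz.mul h (IntMod.of_OK h hwO)
  have hzw' : IntMod h e (z ^ M * w'') := (hz.pow h M).mul h (IntMod.of_OK h hw'O)
  have hpow : (z * w) ^ M = polB A h E D * (z ^ M * w'') := by
    apply Subtype.ext
    show ((z : E) * w) ^ M = algebraMap 𝕂 E (evA A x D) * ((z : E) ^ M * w')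
    rw [mul_pow, hwM]; ring
  -- integrality of the trace
  have key : ∀ π : (kk A)[X], Prime π → π ∣ redP A D → ∃ t : (kk A)[X],
      (Lam h e (z * w)).trace = algebraMap (kk A)[X] (RatFunc (kk A)) (π * t) := by
    rintro π hπ ⟨q, hq⟩
    obtain ⟨f, rfl⟩ := redP_surjective (A := A) q
    refine trace_dvd _ (Lam h e (polB A h E f * (z ^ M * w''))) (hzw.isIntegral h)
      (((IntMod.polB h e f).mul h hzw').isIntegral h) π hπ M ?_
    rw [← map_pow, hpow, map_mul (Lam h e) (polB A h E D), map_mul (Lam h e) (polB A h E f),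
      Lam_polB, Lam_polB, hq, map_mul, mul_assoc, Algebra.smul_def]
  have h9 := trace_Lam h e (z * w) htr
  obtain ⟨τ, hτ⟩ := trace_mem (Lam h e (z * w)) (hzw.isIntegral h)
  have hdvd : redP A D ∣ τ := by
    refine dvd_of_squarefree _ _ hD fun p hp hpD => ?_
    obtain ⟨t, ht⟩ := key p hp hpD
    rw [hτ] at ht
    exact ⟨t, IsFractionRing.injective _ _ ht⟩
  obtain ⟨t, rfl⟩ := hdvd
  exact ⟨t, h9.symm.trans hτ⟩

/-! ### local computations -/

section

variable [CharZero K] [FiniteDimensional 𝕂 E]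

theorem le_exp_neg_one {t : WithZero (Multiplicative ℤ)} (ht : t < 1) :
    t ≤ WithZero.exp (-1 : ℤ) := by
  by_cases h0 : t = 0
  · rw [h0]; exact zero_le
  · obtain ⟨n, rfl⟩ : ∃ n : ℤ, t = WithZero.exp n := ⟨_, (WithZero.exp_log h0).symm⟩
    rw [← WithZero.exp_zero, WithZero.exp_lt_exp] at ht
    rw [WithZero.exp_le_exp]
    omega

include h in
theorem LocData.exists_IK_ram {a : K} (d : LocData x a E ι)
    (hcard : Fintype.card ι = Module.finrank 𝕂 E) (D D₁ : K[X]) (hD : D = (X - C a) * D₁)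
    (hD₁ : D₁.eval a ≠ 0) {y : E} (hy : ∀ i, d.v (d.φ i y) < 1) :
    ∃ s : K[X], s.eval a ≠ 0 ∧ polE K x E s * y ∈ IK K x E D := by
  obtain ⟨s₁, hs₁, hs₁y⟩ := d.exists_OK h hcard (y := y) fun i => (hy i).le
  have hxa : algebraMap 𝕂 E (x - algebraMap K 𝕂 a) ≠ 0 := by
    rw [ne_eq, map_eq_zero]; exact d.sub_ne
  obtain ⟨s₂, hs₂, hs₂y⟩ := d.exists_OK h hcard
    (y := y ^ d.e * (algebraMap 𝕂 E (x - algebraMap K 𝕂 a))⁻¹) fun i => by
      rw [map_mul, map_mul, map_inv₀, map_inv₀, d.ext, d.unif, map_pow, map_pow]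
      have h1 : d.v (d.φ i y) ^ d.e ≤ WithZero.exp (-(d.e : ℤ)) := by
        have h2 := pow_le_pow_left₀ zero_le (le_exp_neg_one (hy i)) d.e
        rw [← WithZero.exp_nsmul] at h2
        convert h2 using 2
        simp
      calc d.v (d.φ i y) ^ d.e * (WithZero.exp (-(d.e : ℤ)))⁻¹
          ≤ WithZero.exp (-(d.e : ℤ)) * (WithZero.exp (-(d.e : ℤ)))⁻¹ :=
            mul_le_mul_left h1 _
        _ = 1 := mul_inv_cancel₀ WithZero.exp_ne_zero
  refine ⟨s₁ * s₂ * D₁, by simp [hs₁, hs₂, hD₁], ?_, d.e,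
    polE K x E (s₁ ^ d.e * s₂ ^ (d.e - 1) * D₁ ^ (d.e - 1)) * (polE K x E s₂ *
      (y ^ d.e * (algebraMap 𝕂 E (x - algebraMap K 𝕂 a))⁻¹)), ?_, ?_⟩
  · have : polE K x E (s₁ * s₂ * D₁) * y = polE K x E (s₂ * D₁) * (polE K x E s₁ * y) := by
      simp only [map_mul]; ring
    rw [this]
    exact mul_mem (map_mem_intSub _ _) hs₁y
  · exact mul_mem (map_mem_intSub _ _) hs₂y
  · obtain ⟨e', he'⟩ : ∃ e', d.e = e' + 1 := ⟨d.e - 1, by have := d.e_pos; omega⟩
    have hX : polE K x E (X - C a) = algebraMap 𝕂 E (x - algebraMap K 𝕂 a) := by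
      show algebraMap 𝕂 E (aeval x (X - C a)) = _
      simp
    rw [hD, he']
    simp only [map_mul, map_pow, Nat.add_sub_cancel, hX]
    field_simp
    ring

include h in
theorem LocData.exists_IK_unr {a : K} (d : LocData x a E ι)
    (hcard : Fintype.card ι = Module.finrank 𝕂 E) (D : K[X])
    (hD : D.eval a ≠ 0) {y : E} (hy : ∀ i, d.v (d.φ i y) ≤ 1) :
    ∃ s : K[X], s.eval a ≠ 0 ∧ polE K x E s * y ∈ IK K x E D := by
  obtain ⟨s₁, hs₁, hs₁y⟩ := d.exists_OK h hcard (y := y) hy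
  refine ⟨s₁ * D, by simp [hs₁, hD], ?_⟩
  have : polE K x E (s₁ * D) * y = (polE K x E s₁ * y) * polE K x E D := by
    simp only [map_mul]; ring
  rw [this]
  exact IK_mul_left hs₁y IK_D

/-- local step : the candidate is integral at `a` -/
theorem LocData.candidate {a : K} (ha : a ∈ A) (d : LocData x a E ι)
    {e : EtBasis (gauss A h) E ι} {D : K[X]} (he : GoodBasis h e D)
    (hDa : D.eval a = 0 → ∃ D₁ : K[X], D = (X - C a) * D₁ ∧ D₁.eval a ≠ 0)
    (hDe : D.eval a ≠ 0 → d.e = 1) {z : E}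
    (hz : ∀ j, ∃ ψ : K[X], Algebra.trace 𝕂 E (z * e.b j) = aeval x (D * ψ)) :
    ∀ i, d.v (d.φ i z) ≤ 1 := by
  have hcard : Fintype.card ι = Module.finrank 𝕂 E := (Module.finrank_eq_card_basis e.b).symm
  choose ψ hψ using hz
  -- main computation
  have key : ∀ w ∈ IK K x E D, ∃ g H : K[X], g.eval a ≠ 0 ∧
      aeval x g * Algebra.trace 𝕂 E (z * w) = aeval x (D * H) := by
    intro w hw
    obtain ⟨g, hg, hG⟩ := exists_clear h he hw
    choose G hG using hG
    refine ⟨g, ∑ j, G j * ψ j, hg a ha, ?_⟩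
    have h1 : Algebra.trace 𝕂 E (z * w) = ∑ j, Algebra.trace 𝕂 E (w * e.bd j) *
        Algebra.trace 𝕂 E (z * e.b j) := by
      conv_lhs => rw [← e.sum_eq w]
      rw [Finset.mul_sum, map_sum]
      refine Finset.sum_congr rfl fun j _ => ?_
      rw [mul_smul_comm, map_smul, smul_eq_mul]
    rw [h1, Finset.mul_sum, Finset.mul_sum, map_sum]
    refine Finset.sum_congr rfl fun j _ => ?_
    rw [← mul_assoc, hG, hψ, ← map_mul]
    congr 1
    ring
  have hmulp : ∀ (g : K[X]) (t : E), polE K x E g * t = (aeval x g : 𝕂) • t := by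
    intro g t
    rw [Algebra.smul_def]; rfl
  refine d.duality hcard fun y hy => ?_
  by_cases h0 : D.eval a = 0
  · obtain ⟨D₁, hD₁, hD₁a⟩ := hDa h0
    obtain ⟨s, hs, hsy⟩ := d.exists_IK_ram (h := h) hcard D D₁ hD₁ hD₁a hy
    obtain ⟨g, H, hg, hgH⟩ := key _ hsy
    rw [hmulp, mul_smul_comm, map_smul, smul_eq_mul] at hgH
    have h2 := congrArg (fun t => d.v (d.θ t)) hgH
    simp only [map_mul] at h2
    rw [d.pol_unit hg, d.pol_unit hs, one_mul, one_mul] at h2
    rw [h2]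
    exact mul_lt_one_of_lt_of_le (d.pol_lt h0) (d.pol_le H)
  · have he1 := hDe h0
    have hxa : algebraMap 𝕂 E (x - algebraMap K 𝕂 a) ≠ 0 := by
      rw [ne_eq, map_eq_zero]; exact d.sub_ne
    let y' : E := y * (algebraMap 𝕂 E (x - algebraMap K 𝕂 a))⁻¹
    have hy' : ∀ i, d.v (d.φ i y') ≤ 1 := by
      intro i
      show d.v (d.φ i (y * (algebraMap 𝕂 E (x - algebraMap K 𝕂 a))⁻¹)) ≤ 1
      rw [map_mul, map_mul, map_inv₀, map_inv₀, d.ext, d.unif, he1]
      calc d.v (d.φ i y) * (WithZero.exp (-((1 : ℕ) : ℤ)))⁻¹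
          ≤ WithZero.exp (-1 : ℤ) * (WithZero.exp (-((1 : ℕ) : ℤ)))⁻¹ :=
            mul_le_mul_left (le_exp_neg_one (hy i)) _
        _ = 1 := by
            rw [Nat.cast_one, mul_inv_cancel₀ WithZero.exp_ne_zero]
    obtain ⟨s, hs, hsy⟩ := d.exists_IK_unr (h := h) hcard D h0 hy'
    obtain ⟨g, H, hg, hgH⟩ := key _ hsy
    rw [hmulp, mul_smul_comm, map_smul, smul_eq_mul] at hgH
    have h2 := congrArg (fun t => d.v (d.θ t)) hgH
    simp only [map_mul] at h2
    rw [d.pol_unit hg, d.pol_unit hs, one_mul, one_mul] at h2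
    have h3 : Algebra.trace 𝕂 E (z * y) =
        (x - algebraMap K 𝕂 a) * Algebra.trace 𝕂 E (z * y') := by
      have h4 : z * y = (x - algebraMap K 𝕂 a) • (z * y') := by
        rw [Algebra.smul_def]
        show z * y = _ * (z * (y * (algebraMap 𝕂 E (x - algebraMap K 𝕂 a))⁻¹))
        field_simp
      rw [h4, map_smul, smul_eq_mul]
    rw [h3, map_mul, map_mul, h2]
    exact mul_lt_one_of_lt_of_le d.unif_lt (mul_le_one' (d.pol_le D) (d.pol_le H))

end

/-- polynomials without zeros in `A` are, up to a constant, `≡ 1` -/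
theorem exists_one_form [IsAlgClosed K] {g : K[X]} (hg : ∀ a ∈ A, g.eval a ≠ 0) :
    ∃ (c : K) (s : A[X]), c ≠ 0 ∧ redP A s = 1 ∧ g = C c * incP A s := by
  have hg0 : g ≠ 0 := by
    rintro rfl
    exact hg 0 A.zero_mem (by simp)
  have hspl : g.Splits := IsAlgClosed.splits g
  have h1 := hspl.eq_prod_roots
  have key : ∀ m : Multiset K, (∀ a ∈ m, a ∉ A) → ∃ (c : K) (s : A[X]), c ≠ 0 ∧
      redP A s = 1 ∧ (m.map fun a => X - C a).prod = C c * incP A s := by
    intro m
    induction m using Multiset.induction_on with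
    | empty => intro _; exact ⟨1, 1, one_ne_zero, by simp, by simp⟩
    | cons a m ih =>
      intro hm
      obtain ⟨c, s, hc, hs, hprod⟩ := ih fun b hb => hm b (Multiset.mem_cons_of_mem hb)
      have ha : a ∉ A := hm a (Multiset.mem_cons_self _ _)
      have ha0 : a ≠ 0 := fun h0 => ha (h0 ▸ A.zero_mem)
      have hai : a⁻¹ ∈ A := (A.mem_or_inv_mem a).resolve_left ha
      have hres : IsLocalRing.residue A ⟨a⁻¹, hai⟩ = 0 := by
        by_contra hne
        have := inv_mem_of_residue_ne_zero hai hne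
        rw [inv_inv] at this
        exact ha this
      refine ⟨-a * c, (1 - C ⟨a⁻¹, hai⟩ * X) * s, mul_ne_zero (neg_ne_zero.mpr ha0) hc, ?_, ?_⟩
      · rw [map_mul, hs, mul_one, map_sub, map_one, map_mul,
          show redP A (C ⟨a⁻¹, hai⟩) = C (IsLocalRing.residue A ⟨a⁻¹, hai⟩) by
            rw [Polynomial.coe_mapRingHom, Polynomial.map_C], hres, C_0, zero_mul, sub_zero]
      · rw [Multiset.map_cons, Multiset.prod_cons, hprod, map_mul C (-a) c, map_mul (incP A) _ s, map_sub (incP A),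
          map_mul (incP A) _ X, map_one (incP A), show incP A (C ⟨a⁻¹, hai⟩) = C a⁻¹ by
            rw [Polynomial.coe_mapRingHom, Polynomial.map_C]; rfl,
          show incP A X = X by rw [Polynomial.coe_mapRingHom, Polynomial.map_X]]
        have h2 : (C a : K[X]) * C a⁻¹ = 1 := by
          rw [← C_mul, mul_inv_cancel₀ ha0, C_1]
        rw [C_neg]
        linear_combination (-(X : K[X]) * C c * incP A s) * h2
  obtain ⟨c, s, hc, hs, hprod⟩ := key g.roots fun a ha haA =>
    hg a haA (Polynomial.isRoot_of_mem_roots ha)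
  refine ⟨g.leadingCoeff * c, s, mul_ne_zero (leadingCoeff_ne_zero.mpr hg0) hc, hs, ?_⟩
  rw [C_mul, mul_assoc, ← hprod]
  exact h1

/-- **Normality of the special fibre** : elements of `B` which are integral mod `m_A` over
`A[x]` can be approximated mod `m_A` by elements integral over `K[x]`. -/
theorem normality [CharZero K] [IsAlgClosed K] (e : EtBasis (gauss A h) E ι) (D : A[X])
    (hD : Squarefree (redP A D))
    (hloc : ∀ a ∈ A, ∃ d : LocData x a E ι, (incP A D).eval a ≠ 0 → d.e = 1)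
    {z : BV (gauss A h) E} (hz : IntMod h e z) :
    ∃ z₀ : E, z₀ ∈ OK K x E ∧ z₀ ∈ BV (gauss A h) E ∧ Small A (gauss A h) (z₀ - z) := by
  haveI := e.finite
  have hD0 : redP A D ≠ 0 := hD.ne_zero
  have hD0' : incP A D ≠ 0 := by
    rw [ne_eq, map_eq_zero_iff _ (incP_injective A)]
    exact ne_zero_of_red hD0
  obtain ⟨e', hmem, hred⟩ := exists_good_basis h e hD0'
  have he' : GoodBasis h e' (incP A D) := ⟨hmem, hred⟩
  have htr : ∀ j, Algebra.trace 𝕂 E ((z : E) * e'.b j) ∈ gauss A h := fun j =>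
    trace_mem_V (mul_mem z.2 (e'.b_mem j))
  choose t ht using fun j => rho_trace_dvd h e D hD hz
    (w := ⟨e'.b j, e'.b_mem j⟩) (hmem j).1 (htr j)
  choose ψ hψ using fun j => redP_surjective (A := A) (t j)
  let z₁ : E := ∑ j, algebraMap 𝕂 E (evA A x (D * ψ j)) * e'.bd j
  have hz₁tr : ∀ j, Algebra.trace 𝕂 E (z₁ * e'.b j) = evA A x (D * ψ j) := by
    intro j
    simp only [z₁, Finset.sum_mul, map_sum]
    rw [Finset.sum_eq_single j]
    · rw [mul_assoc, ← Algebra.smul_def, map_smul, smul_eq_mul, mul_comm (e'.bd j), e'.dual,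
        if_pos rfl, mul_one]
    · intro i _ hi
      rw [mul_assoc, ← Algebra.smul_def, map_smul, smul_eq_mul, mul_comm (e'.bd i), e'.dual,
        if_neg (Ne.symm hi), mul_zero]
    · intro h0; exact absurd (Finset.mem_univ _) h0
  have hz₁B : z₁ ∈ BV (gauss A h) E :=
    sum_mem fun j _ => mul_mem (val_mem_BV (evA_mem_gauss h _)) (e'.bd_mem j)
  have hsmall : Small A (gauss A h) (z₁ - z) := by
    refine small_of_rho h e'.swap fun i => ?_
    rw [EtBasis.swap_bd]
    have h1 : Algebra.trace 𝕂 E ((z₁ - z) * e'.b i) =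
      evA A x (D * ψ i) - Algebra.trace 𝕂 E ((z : E) * e'.b i) := by
      rw [sub_mul, map_sub, hz₁tr]
    have h2 : Algebra.trace 𝕂 E ((z₁ - z) * e'.b i) ∈ gauss A h := by
      rw [h1]; exact sub_mem (evA_mem_gauss h _) (htr i)
    refine ⟨h2, ?_⟩
    have h3 : (⟨_, h2⟩ : gauss A h) = ⟨_, evA_mem_gauss h (D * ψ i)⟩ - ⟨_, htr i⟩ :=
      Subtype.ext h1
    rw [h3, map_sub, rho_evA, map_mul, hψ, ht, sub_self]
  -- local integrality
  have hloc' : ∀ a ∈ A, ∃ s : K[X], s.eval a ≠ 0 ∧ polE K x E s * z₁ ∈ OK K x E := by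
    intro a ha
    obtain ⟨d, hd⟩ := hloc a ha
    have hcard : Fintype.card ι = Module.finrank 𝕂 E := (Module.finrank_eq_card_basis e.b).symm
    refine d.exists_OK h hcard (d.candidate h ha he' ?_ hd fun j => ⟨incP A (ψ j), ?_⟩)
    · intro h0
      let a' : A := ⟨a, ha⟩
      have h1 : D.eval a' = 0 := by
        apply IsFractionRing.injective A K
        rw [map_zero, ← h0, Polynomial.coe_mapRingHom, Polynomial.eval_map]
        exact (Polynomial.eval₂_at_apply (algebraMap A K) a').symm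
      obtain ⟨D₁, hD₁⟩ := Polynomial.dvd_iff_isRoot.mpr (show D.IsRoot a' from h1)
      have hincX : incP A (X - C a') = X - C a := by
        rw [map_sub, Polynomial.coe_mapRingHom, Polynomial.map_X, Polynomial.map_C]; rfl
      refine ⟨incP A D₁, by rw [hD₁, map_mul, hincX], fun h2 => ?_⟩
      have h3 : D₁.eval a' = 0 := by
        apply IsFractionRing.injective A K
        rw [map_zero, ← h2, Polynomial.coe_mapRingHom, Polynomial.eval_map]
        exact (Polynomial.eval₂_at_apply (algebraMap A K) a').symm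
      obtain ⟨D₂, hD₂⟩ := Polynomial.dvd_iff_isRoot.mpr (show D₁.IsRoot a' from h3)
      have h4 : redP A (X - C a') * redP A (X - C a') ∣ redP A D := by
        refine ⟨redP A D₂, ?_⟩
        rw [hD₁, hD₂, map_mul, map_mul, mul_assoc]
      have h5 := hD _ h4
      rw [redP_X_sub_C] at h5
      exact Polynomial.not_isUnit_X_sub_C _ h5
    · rw [hz₁tr, evA_apply, map_mul]
  -- global integrality
  let T : Set K[X] := {s | s ≠ 0 ∧ polE K x E s * z₁ ∈ OK K x E}
  have hT : T.Nonempty := by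
    obtain ⟨s, hs, hsz⟩ := hloc' 0 A.zero_mem
    exact ⟨s, fun h0 => hs (by rw [h0]; simp), hsz⟩
  obtain ⟨g, hgT, hgmin⟩ : ∃ g ∈ T, ∀ g' ∈ T, g.natDegree ≤ g'.natDegree := by
    obtain ⟨g, hg, hmin⟩ := WellFounded.has_min (measure (fun g : K[X] => g.natDegree)).wf T hT
    exact ⟨g, hg, fun g' hg' => not_lt.mp (hmin g' hg')⟩
  have hgdvd : ∀ s : K[X], polE K x E s * z₁ ∈ OK K x E → g ∣ s := by
    intro s hs
    rw [← EuclideanDomain.mod_eq_zero]
    by_contra hr
    have h1 : polE K x E (s % g) * z₁ ∈ OK K x E := by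
      have h2 : s % g = s - g * (s / g) := by
        rw [eq_sub_iff_add_eq, add_comm]; exact EuclideanDomain.div_add_mod s g
      rw [h2, map_sub, sub_mul, map_mul]
      refine sub_mem hs ?_
      have h3 := mul_mem (map_mem_intSub (polE K x E) (s / g)) hgT.2
      have h4 : polE K x E (s / g) * (polE K x E g * z₁) =
        polE K x E g * polE K x E (s / g) * z₁ := by ring
      rw [h4] at h3
      exact h3
    have h5 := hgmin _ ⟨hr, h1⟩
    have h6 := Polynomial.natDegree_lt_natDegree hr (EuclideanDomain.mod_lt s hgT.1)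
    omega
  have hgA : ∀ a ∈ A, g.eval a ≠ 0 := by
    intro a ha h0
    obtain ⟨s, hs, hsz⟩ := hloc' a ha
    obtain ⟨q, rfl⟩ := hgdvd s hsz
    exact hs (by rw [eval_mul, h0, zero_mul])
  obtain ⟨c, s, hc, hs, hgs⟩ := exists_one_form hgA
  have hsz₁ : algebraMap 𝕂 E (evA A x s) * z₁ ∈ OK K x E := by
    have h1 := mul_mem (const_mem_OK (E := E) x c⁻¹) hgT.2
    have h2 : algebraMap 𝕂 E (algebraMap K 𝕂 c⁻¹) * (polE K x E g * z₁) =
        algebraMap 𝕂 E (evA A x s) * z₁ := by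
      rw [hgs, ← mul_assoc]
      congr 1
      show algebraMap 𝕂 E (algebraMap K 𝕂 c⁻¹) * algebraMap 𝕂 E (aeval x (C c * incP A s)) = _
      rw [map_mul (aeval x), aeval_C, ← map_mul, ← mul_assoc, ← map_mul (algebraMap K 𝕂),
        inv_mul_cancel₀ hc, map_one, one_mul, evA_apply]
    rw [h2] at h1
    exact h1
  refine ⟨algebraMap 𝕂 E (evA A x s) * z₁, hsz₁, mul_mem (val_mem_BV (evA_mem_gauss h _)) hz₁B, ?_⟩
  have h1 : algebraMap 𝕂 E (evA A x s) * z₁ - z =
      algebraMap 𝕂 E (evA A x (s - 1)) * z₁ + (z₁ - z) := by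
    rw [map_sub, map_one, map_sub, map_one]; ring
  rw [h1]
  refine Small.add (gauss_alg h) (Small.mul_right hz₁B ?_) hsmall
  have h2 : rho A h ⟨_, evA_mem_gauss h (s - 1)⟩ = 0 := by
    rw [rho_evA, map_sub, hs, map_one, sub_self, map_zero]
  obtain ⟨ϖ, c', h3, h4⟩ := (rho_eq_zero_iff h _).mp h2
  refine ⟨ϖ, algebraMap 𝕂 E c', h3, val_mem_BV c'.2, ?_⟩
  rw [← map_mul]
  congr 1

end

end Fermat.Agent.H27
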