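import Fermat.Agent.H27.Gauss

set_option autoImplicit false

open Polynomial

namespace Fermat.Agent.H27

noncomputable section

/-! ### integral elements along a ring hom -/

/-- Subring of elements integral along `f`. -/
def intSub {R S : Type*} [CommRing R] [CommRing S] (f : R →+* S) : Subring S where
  carrier := {y | f.IsIntegralElem y}
  mul_mem' := fun ha hb => ha.mul f hb
  one_mem' := f.isIntegralElem_one
  add_mem' := fun ha hb => ha.add f hb
  zero_mem' := f.isIntegralElem_zero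
  neg_mem' := fun ha => ha.neg f

theorem mem_intSub {R S : Type*} [CommRing R] [CommRing S] {f : R →+* S} {y : S} :
    y ∈ intSub f ↔ f.IsIntegralElem y := Iff.rfl

theorem map_mem_intSub {R S : Type*} [CommRing R] [CommRing S] (f : R →+* S) (r : R) :
    f r ∈ intSub f := f.isIntegralElem_map

section

variable {R L F : Type*} [CommRing R] [Field L] [Field F] [Algebra L F]

theorem trace_mem_intSub [FiniteDimensional L F] (f : R →+* L) {y : F}
    (hy : y ∈ intSub ((algebraMap L F).comp f)) : Algebra.trace L F y ∈ intSub f := by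
  letI := f.toAlgebra
  letI := ((algebraMap L F).comp f).toAlgebra
  haveI : IsScalarTower R L F := IsScalarTower.of_algebraMap_eq (fun _ => rfl)
  exact Algebra.isIntegral_trace hy

theorem minpoly_coeff_mem (f : R →+* L) {y : F}
    (hy : y ∈ intSub ((algebraMap L F).comp f)) (i : ℕ) : (minpoly L y).coeff i ∈ intSub f := by
  letI := f.toAlgebra
  obtain ⟨p, hp, hpy⟩ := hy
  have hint : IsIntegral L y := ⟨p.map f, hp.map f, by rw [eval₂_map]; exact hpy⟩
  have hdvd : minpoly L y ∣ p.map (algebraMap R L) := by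
    apply minpoly.dvd
    rw [aeval_def, eval₂_map]
    exact hpy
  have := integralClosure.mem_lifts_of_monic_of_dvd_map L hp (minpoly.monic hint) hdvd
  rw [Polynomial.lifts_iff_coeff_lifts] at this
  obtain ⟨c, hc⟩ := this i
  rw [← hc]
  exact c.2

end

section

variable {K : Type*} [Field K] {𝕂 : Type*} [Field 𝕂] [Algebra K 𝕂]

/-- `K[x] → 𝕂`. -/
abbrev polK (K : Type*) [Field K] {𝕂 : Type*} [Field 𝕂] [Algebra K 𝕂] (x : 𝕂) : K[X] →+* 𝕂 :=
  ((aeval x : K[X] →ₐ[K] 𝕂) : K[X] →+* 𝕂)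

theorem isFractionRing_aeval {x : 𝕂} (h : RatCoord K x) :
    letI := (polK K x).toAlgebra
    IsFractionRing K[X] 𝕂 := by
  letI := (polK K x).toAlgebra
  haveI : FaithfulSMul K[X] 𝕂 :=
    (faithfulSMul_iff_algebraMap_injective _ _).mpr (aeval_injective h)
  refine IsFractionRing.of_field _ _ fun z => ?_
  obtain ⟨f, g, hg, hfg⟩ := h.gen z
  refine ⟨f, g, ?_⟩
  have hg' : aeval x g ≠ 0 := by
    rw [ne_eq, map_eq_zero_iff _ (aeval_injective h)]; exact hg
  exact (eq_div_iff hg').mpr hfg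

theorem closed_aeval {x : 𝕂} (h : RatCoord K x) {y : 𝕂} (hy : y ∈ intSub (polK K x)) :
    ∃ p : K[X], aeval x p = y := by
  letI := (polK K x).toAlgebra
  haveI := isFractionRing_aeval h
  exact IsIntegrallyClosed.algebraMap_eq_of_integral hy

theorem closed_val (V : ValuationSubring 𝕂) {y : 𝕂} (hy : y ∈ intSub V.subtype) :
    y ∈ V := by
  obtain ⟨c, hc⟩ := IsIntegrallyClosed.algebraMap_eq_of_integral (R := V) (K := 𝕂) (x := y) hy
  rw [← hc]
  exact c.2

/-- `K[x] → E`. -/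
abbrev polE (K : Type*) [Field K] {𝕂 : Type*} [Field 𝕂] [Algebra K 𝕂] (x : 𝕂)
    (E : Type*) [Field E] [Algebra 𝕂 E] : K[X] →+* E :=
  (algebraMap 𝕂 E).comp (polK K x)

/-- integral closure of `K[x]` in `E` -/
abbrev OK (K : Type*) [Field K] {𝕂 : Type*} [Field 𝕂] [Algebra K 𝕂] (x : 𝕂)
    (E : Type*) [Field E] [Algebra 𝕂 E] : Subring E := intSub (polE K x E)

/-- integral closure of the valuation ring `V` in `E` -/
abbrev BV {𝕂 : Type*} [Field 𝕂] (V : ValuationSubring 𝕂)
    (E : Type*) [Field E] [Algebra 𝕂 E] : Subring E := intSub ((algebraMap 𝕂 E).comp V.subtype)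

variable {E : Type*} [Field E] [Algebra 𝕂 E]

theorem pol_mem_OK (x : 𝕂) (p : K[X]) : algebraMap 𝕂 E (aeval x p) ∈ OK K x E :=
  map_mem_intSub (polE K x E) p

theorem const_mem_OK (x : 𝕂) (c : K) : algebraMap 𝕂 E (algebraMap K 𝕂 c) ∈ OK K x E := by
  have := pol_mem_OK (E := E) x (C c)
  rwa [aeval_C] at this

theorem val_mem_BV {V : ValuationSubring 𝕂} {c : 𝕂} (hc : c ∈ V) : algebraMap 𝕂 E c ∈ BV V E :=
  map_mem_intSub ((algebraMap 𝕂 E).comp V.subtype) ⟨c, hc⟩

theorem trace_mem_V [FiniteDimensional 𝕂 E] {V : ValuationSubring 𝕂} {y : E} (hy : y ∈ BV V E) :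
    Algebra.trace 𝕂 E y ∈ V := closed_val V (trace_mem_intSub V.subtype hy)

theorem trace_mem_pol [FiniteDimensional 𝕂 E] {x : 𝕂} (h : RatCoord K x) {y : E}
    (hy : y ∈ OK K x E) : ∃ p : K[X], aeval x p = Algebra.trace 𝕂 E y :=
  closed_aeval h (trace_mem_intSub (polK K x) hy)

theorem minpoly_coeff_mem_V {V : ValuationSubring 𝕂} {y : E} (hy : y ∈ BV V E) (i : ℕ) :
    (minpoly 𝕂 y).coeff i ∈ V := closed_val V (minpoly_coeff_mem V.subtype hy i)

theorem minpoly_coeff_mem_pol {x : 𝕂} (h : RatCoord K x) {y : E}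
    (hy : y ∈ OK K x E) (i : ℕ) : ∃ p : K[X], aeval x p = (minpoly 𝕂 y).coeff i :=
  closed_aeval h (minpoly_coeff_mem (polK K x) hy i)

variable (A : ValuationSubring K)

theorem trace_mem_A [FiniteDimensional 𝕂 E] {x : 𝕂} (h : RatCoord K x) {y : E}
    (hy : y ∈ OK K x E) (hyB : y ∈ BV (gauss A h) E) :
    ∃ p : A[X], evA A x p = Algebra.trace 𝕂 E y := by
  obtain ⟨p, hp⟩ := trace_mem_pol h hy
  have h1 := trace_mem_V hyB
  rw [← hp] at h1
  obtain ⟨f, hf⟩ := exists_incP_of_aeval_mem_gauss h h1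
  exact ⟨f, by rw [← hp, evA_apply, hf]⟩

/-- elements integral over `K[x]` and over `V` satisfy a monic equation over `A[x]` -/
theorem exists_monic_A [FiniteDimensional 𝕂 E] {x : 𝕂} (h : RatCoord K x) {y : E}
    (hy : y ∈ OK K x E) (hyB : y ∈ BV (gauss A h) E) :
    ∃ P : A[X][X], P.Monic ∧ P.eval₂ ((algebraMap 𝕂 E).comp (evA A x)) y = 0 := by
  have hint : IsIntegral 𝕂 y := Algebra.IsIntegral.isIntegral y
  have hl : minpoly 𝕂 y ∈ Polynomial.lifts (evA A x) := by
    rw [Polynomial.lifts_iff_coeff_lifts]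
    intro i
    obtain ⟨p, hp⟩ := minpoly_coeff_mem_pol h hy i
    have h1 := minpoly_coeff_mem_V hyB i
    rw [← hp] at h1
    obtain ⟨f, hf⟩ := exists_incP_of_aeval_mem_gauss h h1
    exact ⟨f, by rw [← hp, evA_apply, hf]⟩
  obtain ⟨P, hP, -, hPm⟩ := Polynomial.lifts_and_degree_eq_and_monic hl (minpoly.monic hint)
  refine ⟨P, hPm, ?_⟩
  rw [← eval₂_map, hP, ← aeval_def, minpoly.aeval]

/-- scaling into `OK` -/
theorem exists_scale_OK [FiniteDimensional 𝕂 E] {x : 𝕂} (h : RatCoord K x) (y : E) :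
    ∃ s : A[X], redP A s ≠ 0 ∧ algebraMap 𝕂 E (evA A x s) * y ∈ OK K x E := by
  letI := (polK K x).toAlgebra
  haveI := isFractionRing_aeval h
  letI := (polE K x E).toAlgebra
  haveI : IsScalarTower K[X] 𝕂 E := IsScalarTower.of_algebraMap_eq (fun _ => rfl)
  have h1 : IsAlgebraic K[X] y :=
    (IsFractionRing.isAlgebraic_iff K[X] 𝕂 E).mpr (Algebra.IsAlgebraic.isAlgebraic y)
  obtain ⟨g, hg, hgy⟩ := h1.exists_integral_multiple
  obtain ⟨c, s, hc, hs, hs'⟩ := exists_scale A g hg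
  refine ⟨s, hs', ?_⟩
  have h2 : algebraMap 𝕂 E (aeval x g) * y ∈ OK K x E := by
    have : g • y = algebraMap 𝕂 E (aeval x g) * y := by
      rw [Algebra.smul_def]; rfl
    rw [← this]; exact hgy
  have h3 := mul_mem (const_mem_OK (E := E) x c⁻¹) h2
  have h4 : algebraMap K 𝕂 c⁻¹ * aeval x g = evA A x s := by
    rw [hs, map_mul, aeval_C, ← mul_assoc, ← map_mul, inv_mul_cancel₀ hc, map_one, one_mul,
      evA_apply]
  rw [← mul_assoc, ← map_mul, h4] at h3
  exact h3

end

end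

end Fermat.Agent.H27
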