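import Fermat.Agent.H27.Hensel
import Fermat.Agent.H27.Integral

set_option autoImplicit false

open Polynomial

namespace Fermat.Agent.H27

noncomputable section

variable {K : Type*} [Field K]

/-- the valuation of `K((s))` -/
def lv (K : Type*) [Field K] : Valuation (LaurentSeries K) (WithZero (Multiplicative ℤ)) where
  toFun y := open Classical in if y = 0 then 0 else WithZero.exp (-y.order)
  map_zero' := by simp
  map_one' := by
    rw [if_neg one_ne_zero, HahnSeries.order_one, neg_zero, WithZero.exp_zero]
  map_mul' x y := by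
    by_cases hx : x = 0
    · simp [hx]
    by_cases hy : y = 0
    · simp [hy]
    rw [if_neg (mul_ne_zero hx hy), if_neg hx, if_neg hy, HahnSeries.order_mul hx hy,
      ← WithZero.exp_add]
    congr 1
    ring
  map_add_le_max' x y := by
    by_cases hx : x = 0
    · subst hx; rw [zero_add]; exact le_max_right _ _
    by_cases hy : y = 0
    · subst hy; rw [add_zero]; exact le_max_left _ _
    by_cases hxy : x + y = 0
    · rw [if_pos hxy]; exact zero_le
    rw [if_neg hxy, if_neg hx, if_neg hy, le_max_iff, WithZero.exp_le_exp, WithZero.exp_le_exp]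
    have := HahnSeries.min_order_le_order_add hxy
    rcases min_le_iff.mp this with h | h
    · left; omega
    · right; omega

theorem lv_apply {y : LaurentSeries K} (hy : y ≠ 0) : lv K y = WithZero.exp (-y.order) :=
  if_neg hy

theorem algebraMap_eq_C (c : K) : algebraMap K (LaurentSeries K) c = HahnSeries.C c := by
  rw [HahnSeries.algebraMap_apply']
  simp [HahnSeries.C_apply]

theorem order_C (c : K) : (HahnSeries.C c : LaurentSeries K).order = 0 := by
  by_cases hc : c = 0
  · rw [hc, map_zero, HahnSeries.order_zero]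
  · rw [HahnSeries.C_apply, HahnSeries.order_single hc]

theorem lv_const {c : K} (hc : c ≠ 0) : lv K (algebraMap K (LaurentSeries K) c) = 1 := by
  rw [algebraMap_eq_C, lv_apply, order_C, neg_zero, WithZero.exp_zero]
  rw [ne_eq, map_eq_zero]; exact hc

/-- power series embed -/
abbrev ofP (K : Type*) [Field K] : PowerSeries K →+* LaurentSeries K := HahnSeries.ofPowerSeries ℤ K

theorem ofP_injective : Function.Injective (ofP K) := HahnSeries.ofPowerSeries_injective

theorem ofP_C (c : K) : ofP K (PowerSeries.C c) = HahnSeries.C c := HahnSeries.ofPowerSeries_C _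

/-- the power `s ^ n` -/
abbrev spow (K : Type*) [Field K] (n : ℤ) : LaurentSeries K := HahnSeries.single n 1

theorem spow_ne (n : ℤ) : spow K n ≠ 0 := HahnSeries.single_ne_zero one_ne_zero

theorem spow_add (m n : ℤ) : spow K (m + n) = spow K m * spow K n := by
  rw [spow, HahnSeries.single_mul_single, one_mul]

theorem order_spow (n : ℤ) : (spow K n).order = n := HahnSeries.order_single one_ne_zero

theorem ofP_order_of_ct {u : PowerSeries K} (hu : PowerSeries.constantCoeff u ≠ 0) :
    (ofP K u).order = 0 := by
  have h1 : IsUnit u := ps_isUnit_iff.mpr hu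
  obtain ⟨w, hw⟩ := h1.exists_right_inv
  have hu0 : u ≠ 0 := by rintro rfl; simp at hu
  have hw0 : w ≠ 0 := by rintro rfl; simp at hw
  have h2 : ofP K u * ofP K w = 1 := by rw [← map_mul, hw, map_one]
  have hu' : ofP K u ≠ 0 := by rw [ne_eq, map_eq_zero_iff _ ofP_injective]; exact hu0
  have hw' : ofP K w ≠ 0 := by rw [ne_eq, map_eq_zero_iff _ ofP_injective]; exact hw0
  have h3 := congrArg HahnSeries.order h2
  rw [HahnSeries.order_mul hu' hw', HahnSeries.order_one] at h3
  have hnn : ∀ {t : PowerSeries K}, t ≠ 0 → 0 ≤ (ofP K t).order := by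
    intro t ht
    by_contra hlt
    push Not at hlt
    have ht' : ofP K t ≠ 0 := by rw [ne_eq, map_eq_zero_iff _ ofP_injective]; exact ht
    have h4 := mt HahnSeries.coeff_order_eq_zero.mp ht'
    apply h4
    rw [HahnSeries.ofPowerSeries_apply]
    refine HahnSeries.embDomain_notin_range ?_
    rintro ⟨m, hm⟩
    have h5 : (m : ℤ) = (ofP K t).order := hm
    omega
  have := hnn hu0
  have := hnn hw0
  omega

theorem exists_form {w : LaurentSeries K} (hw : w ≠ 0) :
    ∃ u : PowerSeries K, PowerSeries.constantCoeff u ≠ 0 ∧ w = spow K w.order * ofP K u := by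
  refine ⟨w.powerSeriesPart, ?_, (LaurentSeries.single_order_mul_powerSeriesPart w).symm⟩
  rw [← PowerSeries.coeff_zero_eq_constantCoeff_apply, LaurentSeries.powerSeriesPart_coeff]
  simp only [Nat.cast_zero, add_zero]
  exact mt HahnSeries.coeff_order_eq_zero.mp hw

/-- `p`-th roots -/
theorem exists_root [IsAlgClosed K] {p : ℕ} (hp : 0 < p) (hpK : (p : K) ≠ 0) {w : LaurentSeries K}
    (hw : w ≠ 0) (hord : (p : ℤ) ∣ w.order) : ∃ u : LaurentSeries K, u ^ p = w := by
  obtain ⟨u, hu, hwu⟩ := exists_form hw
  obtain ⟨m, hm⟩ := hord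
  obtain ⟨c, hc⟩ := IsAlgClosed.exists_pow_nat_eq (PowerSeries.constantCoeff u) hp
  have hc0 : c ≠ 0 := by
    rintro rfl
    rw [zero_pow hp.ne'] at hc
    exact hu hc.symm
  obtain ⟨z, hz, -⟩ := hensel_monic (X ^ p - C u) (monic_X_pow_sub_C u hp.ne') (PowerSeries.C c)
    (by simp [hc]) (by
      simp only [derivative_sub, derivative_X_pow, derivative_C, sub_zero, eval_mul, eval_C,
        eval_pow, eval_X, map_mul, map_pow, PowerSeries.constantCoeff_C, map_natCast,
        eval_natCast]
      exact mul_ne_zero hpK (pow_ne_zero _ hc0))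
  refine ⟨spow K m * ofP K z, ?_⟩
  have hz' : z ^ p = u := by
    simp only [eval_sub, eval_pow, eval_X, eval_C] at hz
    exact sub_eq_zero.mp hz
  rw [mul_pow, ← map_pow (ofP K), hz', hwu, hm]
  congr 1
  rw [spow, HahnSeries.single_pow, one_pow]
  congr 1

/-- algebraic elements are constant -/
theorem exists_const_of_algebraic [IsAlgClosed K] {R : Type*} [Field R] [Algebra K R] {y : R}
    (hy : IsAlgebraic K y) : ∃ c : K, algebraMap K R c = y := by
  have hint : IsIntegral K y := hy.isIntegral
  have hspl : (minpoly K y).Splits := IsAlgClosed.splits _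
  have h1 := minpoly.aeval K y
  rw [hspl.eq_prod_roots_of_monic (minpoly.monic hint), map_multiset_prod, Multiset.map_map,
    Multiset.prod_eq_zero_iff] at h1
  obtain ⟨c, -, hc⟩ := Multiset.mem_map.mp h1
  simp only [Function.comp, map_sub, aeval_X, aeval_C] at hc
  exact ⟨c, (sub_eq_zero.mp hc).symm⟩

theorem transcendental_of_order [IsAlgClosed K] {w : LaurentSeries K} (hw : w.order ≠ 0) :
    Transcendental K w := by
  intro h
  obtain ⟨c, hc⟩ := exists_const_of_algebraic h
  rw [algebraMap_eq_C] at hc
  rw [← hc, order_C] at hw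
  exact hw rfl

variable {𝕂 : Type*} [Field 𝕂] [Algebra K 𝕂]

/-- ring homs out of `K(x)` -/
theorem exists_lift {x : 𝕂} (h : RatCoord K x) {L : Type*} [Field L] [Algebra K L] {w : L}
    (hw : Transcendental K w) : ∃ θ : 𝕂 →+* L, (∀ f : K[X], θ (aeval x f) = aeval w f) := by
  letI := (polK K x).toAlgebra
  haveI := isFractionRing_aeval h
  have hinj : Function.Injective ((aeval w : K[X] →ₐ[K] L) : K[X] →+* L) :=
    (transcendental_iff_injective).mp hw
  refine ⟨IsFractionRing.lift hinj, fun f => ?_⟩
  exact IsFractionRing.lift_algebraMap hinj f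

/-- **local solution**: lift a power series for `j'` to one for the coordinate `y` -/
theorem exists_theta [IsAlgClosed K] [CharZero K] {y : 𝕂} (h : RatCoord K y) {j' : 𝕂}
    {U T G : K[X]} {a : K} {r k : ℕ} (hr : 0 < r) (hk : 0 < k)
    (hj : j' * aeval y T = aeval y U) (hU : U = (X - C a) ^ r * G) (hG : G.eval a ≠ 0)
    (hT : T.eval a ≠ 0) (w : LaurentSeries K) (hw : w ≠ 0) (hord : w.order = (k * r : ℕ)) :
    ∃ θ : 𝕂 →+* LaurentSeries K, (∀ c : K, θ (algebraMap K 𝕂 c) = algebraMap K _ c) ∧
      θ (y - algebraMap K 𝕂 a) ≠ 0 ∧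
      (θ (y - algebraMap K 𝕂 a)).order = k ∧ θ j' = w := by
  obtain ⟨u, hu, hwu⟩ := exists_form hw
  rw [hord] at hwu
  -- the equation
  let sk : PowerSeries K := PowerSeries.X ^ k
  let Y : (PowerSeries K)[X] := C (PowerSeries.C a) + C sk * X
  let ev : K[X] →+* (PowerSeries K)[X] :=
    eval₂RingHom ((C : PowerSeries K →+* (PowerSeries K)[X]).comp PowerSeries.C) Y
  let F : (PowerSeries K)[X] := X ^ r * ev G - C u * ev T
  have hcteval : ∀ (P : K[X]) (z : PowerSeries K), PowerSeries.constantCoeff ((ev P).eval z) =
      P.eval a := by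
    intro P z
    show PowerSeries.constantCoeff ((P.eval₂ ((C : PowerSeries K →+* (PowerSeries K)[X]).comp
      PowerSeries.C) Y).eval z) = _
    rw [← coe_evalRingHom, hom_eval₂, hom_eval₂]
    have h1 : (PowerSeries.constantCoeff (R := K)).comp ((evalRingHom z).comp
        ((C : PowerSeries K →+* (PowerSeries K)[X]).comp PowerSeries.C)) = RingHom.id K := by
      ext c; simp
    have h2 : PowerSeries.constantCoeff (evalRingHom z Y) = a := by
      simp [Y, sk, hk.ne']
    rw [h1, h2]
    rfl
  obtain ⟨c, hc⟩ := IsAlgClosed.exists_pow_nat_eq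
    (PowerSeries.constantCoeff u * T.eval a / G.eval a) hr
  have hc0 : c ≠ 0 := by
    rintro rfl
    rw [zero_pow hr.ne'] at hc
    exact (div_ne_zero (mul_ne_zero hu hT) hG) hc.symm
  have hderc : ∀ (P : K[X]) (z : PowerSeries K),
      PowerSeries.constantCoeff ((derivative (ev P)).eval z) = 0 := by
    intro P z
    have h1 : derivative (ev P) = C sk * ev (derivative P) := by
      induction P using Polynomial.induction_on' with
      | add p q hp hq => rw [map_add, map_add, map_add, map_add, hp, hq, mul_add]
      | monomial n b =>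
        have h2 : ∀ (n : ℕ) (b : K), ev (monomial n b) = C (PowerSeries.C b) * Y ^ n := by
          intro n b
          show (monomial n b).eval₂ _ _ = _
          rw [eval₂_monomial]; rfl
        rw [h2, derivative_monomial, h2, derivative_mul, derivative_C, zero_mul, zero_add,
          derivative_pow]
        simp only [Y, derivative_add, derivative_C, derivative_mul, derivative_X, zero_mul,
          zero_add, mul_one, map_mul, map_natCast]
        ring
    rw [h1, eval_mul, eval_C, map_mul]
    simp [sk, hk.ne']
  obtain ⟨z, hz, hzc⟩ := hensel_root F c (by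
    simp only [F, eval_sub, eval_mul, eval_pow, eval_X, eval_C, map_sub, map_mul, map_pow,
      hcteval, PowerSeries.constantCoeff_C]
    rw [hc]
    field_simp
    ring) (by
    simp only [F, derivative_sub, derivative_mul, derivative_X_pow, derivative_C, zero_mul,
      zero_add, eval_sub, eval_add, eval_mul, eval_pow, eval_X, eval_C, map_sub, map_add, map_mul,
      map_pow, hcteval, hderc, PowerSeries.constantCoeff_C, mul_zero, add_zero, sub_zero,
      map_natCast, eval_natCast]
    refine mul_ne_zero (mul_ne_zero ?_ (pow_ne_zero _ hc0)) hG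
    exact_mod_cast hr.ne')
  -- the series of `y`
  let ys : PowerSeries K := PowerSeries.C a + sk * z
  have hevz : ∀ P : K[X], (ev P).eval z = P.eval₂ PowerSeries.C ys := by
    intro P
    show (P.eval₂ ((C : PowerSeries K →+* (PowerSeries K)[X]).comp PowerSeries.C) Y).eval z = _
    rw [← coe_evalRingHom, hom_eval₂]
    congr 1
    · ext c; simp
    · simp [Y, ys]
  let yL : LaurentSeries K := ofP K ys
  have haev : ∀ P : K[X], aeval yL P = ofP K ((ev P).eval z) := by
    intro P
    rw [hevz, hom_eval₂, aeval_def]
    congr 1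
  have hdiff : yL - algebraMap K _ a = spow K k * ofP K z := by
    show ofP K (PowerSeries.C a + sk * z) - _ = _
    rw [map_add, map_mul, ofP_C, algebraMap_eq_C, add_sub_cancel_left]
    congr 1
    show ofP K (PowerSeries.X ^ k) = _
    rw [map_pow, ofP, HahnSeries.ofPowerSeries_X, HahnSeries.single_pow, one_pow]
    simp [spow]
  have hz0 : z ≠ 0 := by
    rintro rfl
    rw [map_zero] at hzc
    exact hc0 hzc.symm
  have hzL : ofP K z ≠ 0 := by rw [ne_eq, map_eq_zero_iff _ ofP_injective]; exact hz0
  have hordz : (ofP K z).order = 0 := ofP_order_of_ct (by rw [hzc]; exact hc0)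
  have hne : yL - algebraMap K _ a ≠ 0 := by rw [hdiff]; exact mul_ne_zero (spow_ne _) hzL
  have horder : (yL - algebraMap K _ a).order = k := by
    rw [hdiff, HahnSeries.order_mul (spow_ne _) hzL, order_spow, hordz, add_zero]
  have htr : Transcendental K yL := by
    intro halg
    have h1 : Transcendental K (yL - algebraMap K _ a) := transcendental_of_order (by
      rw [horder]; exact_mod_cast hk.ne')
    exact h1 (halg.sub (isAlgebraic_algebraMap a))
  obtain ⟨θ, hθ⟩ := exists_lift h htr
  have hθy : θ y = yL := by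
    have := hθ X
    rwa [aeval_X, aeval_X] at this
  have hθc : ∀ c : K, θ (algebraMap K 𝕂 c) = algebraMap K _ c := by
    intro c
    have := hθ (C c)
    rwa [aeval_C, aeval_C] at this
  refine ⟨θ, hθc, ?_, ?_, ?_⟩
  · rw [map_sub, hθy, hθc]; exact hne
  · rw [map_sub, hθy, hθc]; exact horder
  · -- value of `j'`
    have h1 := congrArg θ hj
    rw [map_mul, hθ, hθ, hU, map_mul, map_pow, map_sub, aeval_X, aeval_C, hdiff, haev T,
      haev G] at h1
    have h2 : z ^ r * (ev G).eval z = u * (ev T).eval z := by
      have := hz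
      simp only [F, eval_sub, eval_mul, eval_pow, eval_X, eval_C] at this
      exact sub_eq_zero.mp this
    have hTne : ofP K ((ev T).eval z) ≠ 0 := by
      rw [ne_eq, map_eq_zero_iff _ ofP_injective]
      intro h0
      have := hcteval T z
      rw [h0, map_zero] at this
      exact hT this.symm
    apply mul_right_cancel₀ hTne
    rw [h1, mul_pow, mul_assoc, ← map_pow (ofP K), ← map_mul (ofP K), h2, map_mul (ofP K),
      ← mul_assoc, hwu]
    congr 2
    rw [spow, HahnSeries.single_pow, one_pow]
    congr 1
    push_cast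
    simp only [nsmul_eq_mul]
    ring

end

end Fermat.Agent.H27
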