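import Fermat.Agent.H27.HauptMk
import Fermat.Agent.H27.Branch
import Fermat.Agent.H27.LaurTools

set_option autoImplicit false
set_option synthInstance.maxHeartbeats 400000

open Polynomial ModularCurve IntermediateField AlgebraicCurve IsLocalRing

namespace Fermat.Agent.H27

noncomputable section

open Fermat.Agent.Igusa (cc)

theorem cc_cc {R S : Type*} [CommRing R] [CommRing S] (g : R →+* S) (y : LaurentSeries ℤ) :
    coeffMap g (cc R y) = cc S y := by
  rw [cc, coeffMap_coeffMap]
  congr 2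
  exact RingHom.ext_int _ _

theorem order_cc {k : Type*} [Field k] {f : LaurentSeries ℤ} (h1 : f.coeff (-1) = 1)
    (h2 : ∀ n, n < -1 → f.coeff n = 0) : (cc k f).order = -1 := by
  apply H18.order_eq_of
  · rw [cc, coeffMap_coeff, h1, map_one]
    exact one_ne_zero
  · intro n hn
    rw [cc, coeffMap_coeff, h2 n hn, map_zero]

theorem trans_coe {k L : Type*} [Field k] [Field L] [Algebra k L] {F₁ : IntermediateField k L}
    {x : F₁} (hx : Transcendental k (x : L)) : Transcendental k x := by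
  intro h
  exact hx (h.algHom F₁.val)

/-- separability over a bigger simple subfield -/
theorem isSeparable_of_mem {k F' : Type*} [Field k] [Field F'] [Algebra k F'] {a b : F'}
    (h : a ∈ k⟮b⟯) [hs : Algebra.IsSeparable k⟮a⟯ F'] : Algebra.IsSeparable k⟮b⟯ F' := by
  have hle : k⟮a⟯ ≤ k⟮b⟯ := by rw [adjoin_simple_le_iff]; exact h
  letI : Algebra k⟮a⟯ k⟮b⟯ := (inclusion hle).toAlgebra
  haveI : IsScalarTower k⟮a⟯ k⟮b⟯ F' := IsScalarTower.of_algebraMap_eq fun _ => rfl
  refine ⟨fun x => ?_⟩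
  exact (hs.isSeparable' x).tower_top k⟮b⟯

variable {M : ℕ} [NeZero M] {A : ValuationSubring (AlgebraicClosure ℚ)}

/-- common part of the construction -/
theorem hauptLevel_of {r : ℕ} (hr : r.Prime) (hrM : r ∣ M) (hM : (M : ResidueField A) ≠ 0)
    (f : LaurentSeries ℤ) (h1 : f.coeff (-1) = 1) (h2 : ∀ n, n < -1 → f.coeff n = 0)
    (hf : ∀ (k : Type) [Field k], (r : k) ≠ 0 → modularFunctionFieldFullC k r = k⟮cc k f⟯)
    (hj : ∀ (k : Type) [Field k], jqModC k ∈ k⟮cc k f⟯)
    (hB : ∀ (F₁ : IntermediateField (AlgebraicClosure ℚ) (LaurentSeries (AlgebraicClosure ℚ)))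
      (t : F₁) (_ : (t : LaurentSeries (AlgebraicClosure ℚ)) = cc (AlgebraicClosure ℚ) f)
      (j : F₁) (_ : (j : LaurentSeries (AlgebraicClosure ℚ)) = jqModC (AlgebraicClosure ℚ))
      (x J : (AlgebraicClosure ℚ)⟮t⟯), (x : F₁) = t → (J : F₁) = j →
      Nonempty (BrData A x J) ∧ Nonempty (BrData A x⁻¹ J)) :
    Nonempty (HauptLevel M A) := by
  haveI : NeZero r := ⟨hr.ne_zero⟩
  haveI := H11Q.isAlgClosed_residueField A
  have hrk : (r : ResidueField A) ≠ 0 := natCast_ne_zero_of_dvd' hrM hM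
  have hrK : (r : AlgebraicClosure ℚ) ≠ 0 := Nat.cast_ne_zero.mpr hr.ne_zero
  have hMK : (M : AlgebraicClosure ℚ) ≠ 0 := Nat.cast_ne_zero.mpr (NeZero.ne M)
  have hbar : modularFunctionFieldBar M = modularFunctionFieldFullC (AlgebraicClosure ℚ) M :=
    H05.laurentBaseChange_full (AlgebraicClosure ℚ) M
  have hmemK : cc (AlgebraicClosure ℚ) f ∈ modularFunctionFieldBar M := by
    rw [hbar]
    apply full_degeneracyC_le _ hrM
    rw [hf _ hrK]
    exact mem_adjoin_simple_self _ _
  have hmemk : cc (ResidueField A) f ∈ modularFunctionFieldFullC (ResidueField A) M := by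
    apply full_degeneracyC_le _ hrM
    rw [hf _ hrk]
    exact mem_adjoin_simple_self _ _
  have hZ : (⟨cc (AlgebraicClosure ℚ) f, hmemK⟩ : modularFunctionFieldBar M) ∈
      (H28.modRed M A).Z := by
    rw [H28.mem_laurentRed]
    refine ⟨cc A f, cc_cc _ f, ?_⟩
    rw [cc_cc]
    exact hmemk
  let t : (H28.modRed M A).Z := ⟨_, hZ⟩
  have hρt : (((H28.modRed M A).ρ t : modularFunctionFieldFullC (ResidueField A) M) :
      LaurentSeries (ResidueField A)) = cc (ResidueField A) f := by
    rw [H28.laurentRed_ρ t (y := cc A f) (cc_cc _ f), cc_cc]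
  have hJ : H28.jBar M ∈ (AlgebraicClosure ℚ)⟮(t : modularFunctionFieldBar M)⟯ := by
    have h3 : lift (AlgebraicClosure ℚ)⟮(t : modularFunctionFieldBar M)⟯ =
        (AlgebraicClosure ℚ)⟮cc (AlgebraicClosure ℚ) f⟯ :=
      lift_adjoin_simple (AlgebraicClosure ℚ) (modularFunctionFieldBar M)
        (t : modularFunctionFieldBar M)
    have h4 := hj (AlgebraicClosure ℚ)
    rw [← h3] at h4
    obtain ⟨y, hy, hyj⟩ := h4
    have : y = H28.jBar M := Subtype.ext hyj
    rw [← this]
    exact hy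
  have hpos : 0 < (modularFunctionFieldFullC (ResidueField A) r).relfinrank
      (modularFunctionFieldFullC (ResidueField A) M) := by
    have h3 := relfinrank_level (ResidueField A) M hr hrM hM
    have h4 := Igusa.dedekindPsi_pos (NeZero.ne M)
    rw [← h3] at h4
    exact Nat.pos_of_mul_pos_left h4 |> fun h => by
      first
      | exact h
      | exact Nat.pos_of_ne_zero (fun h0 => by rw [h0, mul_zero] at h4; exact lt_irrefl _ h4)
  refine hauptLevel_mk t (trans_coe ?_) (trans_coe ?_) hpos ?_ ?_ ?_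
    (fun x J hx hJ' => hB _ (t : modularFunctionFieldBar M) rfl (H28.jBar M) rfl x J hx hJ') hJ
  · apply transcendental_of_order
    show (cc (AlgebraicClosure ℚ) f).order ≠ 0
    rw [order_cc h1 h2]
    norm_num
  · apply transcendental_of_order
    rw [hρt, order_cc h1 h2]
    norm_num
  · rw [finrank_adjoin_eq]
    have h3 : (AlgebraicClosure ℚ)⟮((t : modularFunctionFieldBar M) :
        LaurentSeries (AlgebraicClosure ℚ))⟯ = modularFunctionFieldFullC (AlgebraicClosure ℚ) r :=
      (hf _ hrK).symm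
    rw [h3, hbar]
    have h4 := relfinrank_level (AlgebraicClosure ℚ) M hr hrM hMK
    have h5 := relfinrank_level (ResidueField A) M hr hrM hM
    rw [← h5] at h4
    exact Nat.eq_of_mul_eq_mul_left (Nat.succ_pos r) h4
  · rw [finrank_adjoin_eq, hρt, ← hf _ hrk]
  · haveI := isSeparable_Fk (ResidueField A) M hM
    refine isSeparable_of_mem (a := tK (ResidueField A) M) ?_
    have h3 : lift (ResidueField A)⟮(H28.modRed M A).ρ t⟯ =
        (ResidueField A)⟮cc (ResidueField A) f⟯ := by
      rw [← hρt]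
      exact lift_adjoin_simple (ResidueField A) (modularFunctionFieldFullC (ResidueField A) M)
        ((H28.modRed M A).ρ t)
    have h4 := hj (ResidueField A)
    rw [← h3] at h4
    obtain ⟨y, hy, hyj⟩ := h4
    have : y = tK (ResidueField A) M := Subtype.ext hyj
    rw [← this]
    exact hy

theorem j_mem_two (k : Type) [Field k] : jqModC k ∈ k⟮cc k H29.f2⟯ := by
  have hf := mem_adjoin_simple_self k (cc k H29.f2)
  have : jqModC k = (cc k H29.f2 + 256) ^ 3 / cc k H29.f2 ^ 2 := by
    rw [← H29.F2_j, mul_div_cancel_right₀ _ (pow_ne_zero 2 (H29.F2_ne k))]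
  rw [this]
  exact div_mem (pow_mem (add_mem hf (H29.ofNat_mem _ 256)) 3) (pow_mem hf 2)

theorem j_mem_three (k : Type) [Field k] : jqModC k ∈ k⟮cc k H29.f3⟯ := by
  have hf := mem_adjoin_simple_self k (cc k H29.f3)
  have : jqModC k = ((cc k H29.f3 + 27) * (cc k H29.f3 + 243) ^ 3) / cc k H29.f3 ^ 3 := by
    rw [← H29.F3_j, mul_div_cancel_right₀ _ (pow_ne_zero 3 (H29.F3_ne k))]
  rw [this]
  exact div_mem (mul_mem (add_mem hf (H29.ofNat_mem _ 27))
    (pow_mem (add_mem hf (H29.ofNat_mem _ 243)) 3)) (pow_mem hf 3)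

/-- **Levels with a hauptmodul of good reduction** -/
theorem hauptLevel_exists {ℓ : ℕ} (hℓ : ℓ.Prime) (hA : A.LiesOverPrime ℓ) (hyp : Hyp M ℓ) :
    Nonempty (HauptLevel M A) := by
  haveI := H11Q.isAlgClosed_residueField A
  have hM : (M : ResidueField A) ≠ 0 := natCast_residue_ne_zero hℓ hA hyp.1
  rcases hyp.2 with ⟨h2, hℓ2⟩ | ⟨h3, hℓ3⟩
  · have h2k : (2 : ResidueField A) ≠ 0 := by
      have := natCast_residue_ne_zero hℓ hA (n := 2) (fun h =>
        hℓ2 ((Nat.prime_dvd_prime_iff_eq hℓ Nat.prime_two).mp h))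
      exact_mod_cast this
    refine hauptLevel_of Nat.prime_two h2 hM H29.f2 H29.f2_coeff_neg_one
      (fun n hn => H29.f2_coeff_of_lt hn)
      (fun k _ hk => H29.full_two_eq (by exact_mod_cast hk)) j_mem_two ?_
    intro F₁ t ht j hj x J hx hJ
    have hrel : J * x ^ 2 = (x + 256) ^ 3 := by
      apply Subtype.ext
      apply Subtype.ext
      have h4 : ((x : F₁) : LaurentSeries (AlgebraicClosure ℚ)) = cc _ H29.f2 := by rw [hx, ht]
      have h5 : ((J : F₁) : LaurentSeries (AlgebraicClosure ℚ)) = jqModC _ := by rw [hJ, hj]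
      have := H29.F2_j (AlgebraicClosure ℚ)
      rw [← h4, ← h5] at this
      exact this
    have hx0 : x ≠ 0 := by
      intro h0
      have h4 : ((x : F₁) : LaurentSeries (AlgebraicClosure ℚ)) = cc _ H29.f2 := by rw [hx, ht]
      rw [h0] at h4
      exact H29.F2_ne (AlgebraicClosure ℚ) h4.symm
    exact ⟨⟨brTwo h2k x J hrel⟩, ⟨brTwo' x J hx0 hrel⟩⟩
  · have h3k : (3 : ResidueField A) ≠ 0 := by
      have := natCast_residue_ne_zero hℓ hA (n := 3) (fun h =>
        hℓ3 ((Nat.prime_dvd_prime_iff_eq hℓ Nat.prime_three).mp h))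
      exact_mod_cast this
    refine hauptLevel_of Nat.prime_three h3 hM H29.f3 H29.f3_coeff_neg_one
      (fun n hn => H29.f3_coeff_of_lt hn)
      (fun k _ hk => H29.full_three_eq (by exact_mod_cast hk)) j_mem_three ?_
    intro F₁ t ht j hj x J hx hJ
    have hrel : J * x ^ 3 = (x + 27) * (x + 243) ^ 3 := by
      apply Subtype.ext
      apply Subtype.ext
      have h4 : ((x : F₁) : LaurentSeries (AlgebraicClosure ℚ)) = cc _ H29.f3 := by rw [hx, ht]
      have h5 : ((J : F₁) : LaurentSeries (AlgebraicClosure ℚ)) = jqModC _ := by rw [hJ, hj]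
      have := H29.F3_j (AlgebraicClosure ℚ)
      rw [← h4, ← h5] at this
      exact this
    have hx0 : x ≠ 0 := by
      intro h0
      have h4 : ((x : F₁) : LaurentSeries (AlgebraicClosure ℚ)) = cc _ H29.f3 := by rw [hx, ht]
      rw [h0] at h4
      exact H29.F3_ne (AlgebraicClosure ℚ) h4.symm
    exact ⟨⟨brThree h3k x J hrel⟩, ⟨brThree' x J hx0 hrel⟩⟩

end

end Fermat.Agent.H27
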