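import Fermat.Agent.H27.S18Final
import Fermat.Agent.H28.Inj

set_option autoImplicit false
set_option synthInstance.maxHeartbeats 400000

open Polynomial ModularCurve IntermediateField AlgebraicCurve IsLocalRing

namespace Fermat.Agent.H27

noncomputable section

/-- **Key lemma** in the form of `H28` (any exponent prime to `ℓ`, level with a hauptmodul). -/
theorem keyLemma_of_haupt {M : ℕ} [NeZero M] {A : ValuationSubring (AlgebraicClosure ℚ)} {ℓ : ℕ}
    (hℓ : ℓ.Prime) (hA : A.LiesOverPrime ℓ) (H : HauptLevel M A) (t : (H28.modRed M A).Z) {m : ℕ}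
    (hm : ¬ ℓ ∣ m) : H28.KeyLemma (H28.modRed M A) t m := by
  intro a b _ _ hab hne hdiv
  have hs := H.R.small_div_sub_one a b hab (hab ▸ hne)
  letI : Algebra (AlgebraicClosure ℚ) ℂ :=
    (IsAlgClosed.lift (R := ℚ) (S := AlgebraicClosure ℚ) (M := ℂ)).toRingHom.toAlgebra
  have hJ : algebraMap H.𝕂 (H18.Fb (AlgebraicClosure ℚ) M) H.J =
      H18.jB (AlgebraicClosure ℚ) M := by
    rw [H.hJ]
    apply Subtype.ext
    rw [H18.coe_jB]
    rfl
  obtain ⟨w, hw, -⟩ := key_pow H.h H.B H.B' hJ H.e (rankOne_of hℓ hA) m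
    (natCast_residue_ne_zero hℓ hA hm) _ hs hdiv
  exact ⟨1, w, by rw [map_one, one_mul, hw]⟩

end

end Fermat.Agent.H27
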