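import Mathlib
import Fermat.Agent.H27.ZComp
import Fermat.Agent.H12.Tame
import Fermat.Agent.H51.QbarGalois

set_option autoImplicit false
set_option linter.unusedSectionVars false
set_option linter.style.haveILetI false

/-!
# PROGRAM Z: the line at an odd prime
-/

namespace Fermat.Agent.Z34

open Matrix Fermat.Agent.CC IsLocalRing Module
open scoped Pointwise

section Alg

variable {O : Type*} [CommRing O]

/-- polarised Cayley–Hamilton for `2 × 2` matrices -/
theorem ch_polar (A B : M2 O) : A * B + B * A =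
    A.trace • B + B.trace • A + ((A * B).trace - A.trace * B.trace) • 1 := by
  ext i j
  fin_cases i <;> fin_cases j <;>
    simp [Matrix.mul_apply, Fin.sum_univ_two, Matrix.trace_fin_two] <;> ring

theorem ch_self (A : M2 O) : A * A = A.trace • A - A.det • 1 := by
  ext i j
  fin_cases i <;> fin_cases j <;>
    simp [Matrix.mul_apply, Fin.sum_univ_two, Matrix.trace_fin_two, Matrix.det_fin_two] <;> ring

/-- nilpotent matrices: `(1 + N) ^ k = 1 + k N` -/
theorem one_add_pow_of_sq {N : M2 O} (hN : N * N = 0) (k : ℕ) : (1 + N) ^ k = 1 + (k : O) • N := by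
  induction k with
  | zero => simp
  | succ k ih =>
    rw [pow_succ, ih, mul_add, mul_one, add_mul, one_mul, smul_mul_assoc, hN, smul_zero, add_zero,
      Nat.cast_succ, add_smul, one_smul, add_assoc]

theorem sq_zero_of_trace {U : M2 O} (ht : U.trace = 2) (hd : U.det = 1) :
    (U - 1) * (U - 1) = 0 := by
  have h := ch_self U
  rw [ht, hd] at h
  rw [sub_mul, mul_sub, mul_sub, h]
  ext i j
  fin_cases i <;> fin_cases j <;> simp <;> ring

variable [IsDomain O]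

theorem cr_eq_zero_of_smul {c : O} (hc : c ≠ 0) {ℓ w : Fin 2 → O} (h : cr (c • ℓ) w = 0) :
    cr ℓ w = 0 := by
  have : cr (c • ℓ) w = c * cr ℓ w := by simp only [cr, Pi.smul_apply, smul_eq_mul]; ring
  rw [this] at h
  exact (mul_eq_zero.mp h).resolve_left hc

/-- primitive vectors -/
theorem exists_primitive [IsDiscreteValuationRing O] {v : Fin 2 → O} (hv : v ≠ 0) :
    ∃ (c : O) (ℓ : Fin 2 → O), c ≠ 0 ∧ (∃ i, IsUnit (ℓ i)) ∧ v = c • ℓ := by
  have key : ∀ a b : O, a ≠ 0 → a ∣ b → ∃ c : O, b = a * c := fun a b _ h => h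
  by_cases h0 : v 0 = 0
  · have h1 : v 1 ≠ 0 := fun h1 => hv (funext fun i => by fin_cases i <;> assumption)
    refine ⟨v 1, ![0, 1], h1, ⟨1, by simp⟩, funext fun i => ?_⟩
    fin_cases i <;> simp [h0]
  · rcases ValuationRing.dvd_total (v 0) (v 1) with h | h
    · obtain ⟨c, hc⟩ := h
      refine ⟨v 0, ![1, c], h0, ⟨0, by simp⟩, funext fun i => ?_⟩
      fin_cases i <;> simp [hc]
    · obtain ⟨c, hc⟩ := h
      have h1 : v 1 ≠ 0 := by
        intro h1
        rw [h1, zero_mul] at hc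
        exact h0 hc
      refine ⟨v 1, ![c, 1], h1, ⟨1, by simp⟩, funext fun i => ?_⟩
      fin_cases i <;> simp [hc]

/-- **The line**, algebraic version. -/
theorem exists_line_odd [IsDiscreteValuationRing O] [CharZero O] {q : ℕ} (hq : 1 < q)
    {Φ : M2 O} (hdet : Φ.det = q) (htr : Φ.trace ^ 2 = ((q : O) + 1) ^ 2) :
    ∃ (ℓ : Fin 2 → O) (u : O), (∃ i, IsUnit (ℓ i)) ∧ u * u = 1 ∧
      (∀ w : Fin 2 → O, ∃ c : O, Φ *ᵥ w - u • w = c • ℓ) ∧
      ∀ U : M2 O, U.trace = 2 → U.det = 1 → Φ * U = U ^ q * Φ →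
        ∀ w : Fin 2 → O, ∃ c : O, U *ᵥ w - w = c • ℓ := by
  have hq1 : ((q : O) - 1) ≠ 0 := by
    intro h
    have h1 : (q : O) = ((1 : ℕ) : O) := by rw [Nat.cast_one]; exact sub_eq_zero.mp h
    exact hq.ne' (by exact_mod_cast h1)
  have hq2 : ((q : O) + 1) ≠ 0 := by
    intro h
    have h1 : ((q + 1 : ℕ) : O) = 0 := by push_cast; exact h
    exact absurd (Nat.cast_eq_zero.mp h1) (Nat.succ_ne_zero q)
  obtain ⟨ε, hε, htr'⟩ : ∃ ε : O, ε * ε = 1 ∧ Φ.trace = ε * ((q : O) + 1) := by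
    rcases sq_eq_sq_iff_eq_or_eq_neg.mp htr with h | h
    · exact ⟨1, one_mul 1, by rw [h, one_mul]⟩
    · exact ⟨-1, by ring, by rw [h]; ring⟩
  have hCH : Φ * Φ = (ε * ((q : O) + 1)) • Φ - (q : O) • 1 := by rw [ch_self, htr', hdet]
  -- `E = Φ - ε` is nonzero
  set E : M2 O := Φ - ε • 1 with hE
  have hE0 : E ≠ 0 := by
    intro h
    have h1 : Φ = ε • 1 := sub_eq_zero.mp h
    have h2 : Φ.trace = 2 * ε := by rw [h1]; simp; ring
    rw [htr'] at h2
    have h3 : ε * ((q : O) - 1) = 0 := by linear_combination h2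
    rcases mul_eq_zero.mp h3 with h4 | h4
    · rw [h4, zero_mul] at hε; exact zero_ne_one hε
    · exact hq1 h4
  have hEdet : E.det = 0 := by
    have h1 := hdet
    have h2 := htr'
    rw [Matrix.det_fin_two] at h1 ⊢
    rw [Matrix.trace_fin_two] at h2
    simp only [hE, Matrix.sub_apply, Matrix.smul_apply, Matrix.one_apply_eq, smul_eq_mul,
      Matrix.one_apply_ne (show (0 : Fin 2) ≠ 1 by decide),
      Matrix.one_apply_ne (show (1 : Fin 2) ≠ 0 by decide)]
    linear_combination h1 - ε * h2 - (q : O) * hε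
  obtain ⟨j, hj⟩ : ∃ j : Fin 2, E *ᵥ (Pi.single j 1) ≠ 0 := by
    by_contra hcon
    push Not at hcon
    apply hE0
    ext i j
    have := congrFun (hcon j) i
    rwa [Matrix.mulVec_single_one] at this
  obtain ⟨c, ℓ, hc, hℓ, hcℓ⟩ := exists_primitive hj
  have hfrob : ∀ w, cr ℓ (E *ᵥ w) = 0 := by
    intro w
    apply cr_eq_zero_of_smul hc
    rw [← hcℓ, cr_mulVec, hEdet, zero_mul]
  refine ⟨ℓ, ε, hℓ, hε, ?_, ?_⟩
  · intro w
    rw [← cr_eq_zero_iff hℓ]
    have h1 := hfrob w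
    rwa [hE, Matrix.sub_mulVec, Matrix.smul_mulVec, Matrix.one_mulVec] at h1
  · intro U hUt hUd hUq w
    set N : M2 O := U - 1 with hN
    have hNN : N * N = 0 := sq_zero_of_trace hUt hUd
    have hU : U = 1 + N := by rw [hN]; abel
    have hNt : N.trace = 0 := by rw [hN, Matrix.trace_sub, hUt, Matrix.trace_one]; simp
    have h1 : Φ * N = (q : O) • (N * Φ) := by
      rw [hU, one_add_pow_of_sq hNN, mul_add, mul_one, add_mul, one_mul, smul_mul_assoc] at hUq
      exact add_left_cancel hUq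
    have h2 : (Φ * N).trace = 0 := by
      have h3 := congrArg Matrix.trace h1
      rw [Matrix.trace_smul, smul_eq_mul, Matrix.trace_mul_comm N Φ] at h3
      have h4 : ((q : O) - 1) * (Φ * N).trace = 0 := by linear_combination -h3
      exact (mul_eq_zero.mp h4).resolve_left hq1
    have h3 := ch_polar Φ N
    rw [hNt, h2, zero_smul, mul_zero, sub_zero, zero_smul, add_zero, add_zero, h1, htr'] at h3
    have h4 : N * Φ = ε • N := by
      have h5 : ((q : O) + 1) • (N * Φ) = ((q : O) + 1) • (ε • N) := by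
        rw [smul_smul, mul_comm ((q : O) + 1) ε, ← h3, add_smul, one_smul]
      ext i j
      have h6 := congrFun (congrFun h5 i) j
      simp only [Matrix.smul_apply, smul_eq_mul] at h6 ⊢
      exact mul_left_cancel₀ hq2 h6
    -- `(Φ - ε q) N = 0`
    have h5 : Φ * N = (ε * q) • N := by rw [h1, h4, smul_smul, mul_comm]
    have h6 : E * N = (ε * q - ε) • N := by
      rw [hE, sub_mul, h5, smul_mul_assoc, one_mul, sub_smul]
    rw [← cr_eq_zero_iff hℓ]
    have h7 : cr ℓ (E *ᵥ (N *ᵥ w)) = 0 := hfrob _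
    rw [Matrix.mulVec_mulVec, h6, Matrix.smul_mulVec, cr_smul] at h7
    have h8 : ε * (q : O) - ε ≠ 0 := by
      intro h9
      have h10 : ε * ((q : O) - 1) = 0 := by linear_combination h9
      rcases mul_eq_zero.mp h10 with h11 | h11
      · rw [h11, zero_mul] at hε; exact zero_ne_one hε
      · exact hq1 h11
    have h9 := (mul_eq_zero.mp h7).resolve_left h8
    rwa [hN, Matrix.sub_mulVec, Matrix.one_mulVec] at h9

end Alg

section Tame

variable {O : Type} [CommRing O] [IsDomain O] [IsDiscreteValuationRing O]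
  [IsAdicComplete (maximalIdeal O) O] [Finite (ResidueField O)] [CharZero O]

/-- reduction of a matrix representation modulo an ideal, with values in units -/
noncomputable def redU (ρ : GQ →* M2 O) (J : Ideal O) : GQ →* (M2 (O ⧸ J))ˣ :=
  ((Ideal.Quotient.mk J).mapMatrix.toMonoidHom.comp ρ).toHomUnits

theorem coe_redU (ρ : GQ →* M2 O) (J : Ideal O) (g : GQ) :
    ((redU ρ J g : (M2 (O ⧸ J))ˣ) : M2 (O ⧸ J)) = (ρ g).map (Ideal.Quotient.mk J) := rfl

theorem inM_iff_map_eq {J : Ideal O} {M M' : M2 O} :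
    M.map (Ideal.Quotient.mk J) = M'.map (Ideal.Quotient.mk J) ↔ InM J (M - M') := by
  constructor
  · intro h i j
    have h1 := congrFun (congrFun h i) j
    rw [Matrix.map_apply, Matrix.map_apply, Ideal.Quotient.eq] at h1
    exact h1
  · intro h
    ext i j
    rw [Matrix.map_apply, Matrix.map_apply, Ideal.Quotient.eq]
    exact h i j

theorem conj_mem_inertia {A : ValuationSubring Qb} {q : ℕ} {φ σ : GQ}
    (hφ : A.IsFrobeniusAt φ q) (hσ : σ ∈ A.inertiaSubgroupIn ℚ) :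
    φ * σ * φ⁻¹ ∈ A.inertiaSubgroupIn ℚ := by
  have h1 : φ⁻¹ • A = A := (A.decompositionSubgroup ℚ).inv_mem hφ.mem_decompositionSubgroup
  have h2 := H09.inertia_conj (A := A) (g := φ⁻¹) (σ := σ) (by rw [h1]; exact hσ)
  rwa [inv_inv] at h2

/-- **The tame relation** for representations with unipotent inertia. -/
theorem tame_relation {p : ℕ} (hp : p.Prime) (hpO : (p : O) ∈ maximalIdeal O) (ρ : GQ →* M2 O)
    (hcont : ∀ n : ℕ, ∃ U : Subgroup GQ, IsOpen (U : Set GQ) ∧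
      ∀ u ∈ U, InM (maximalIdeal O ^ n) (ρ u - 1))
    {q : ℕ} (hq : q.Prime) (hqp : q ≠ p) {A : ValuationSubring Qb} (hA : A.LiesOverPrime q)
    {φ : GQ} (hφ : A.IsFrobeniusAt φ q)
    (hI : ∀ σ ∈ A.inertiaSubgroupIn ℚ, (ρ σ).trace = 2 ∧ (ρ σ).det = 1)
    {σ : GQ} (hσ : σ ∈ A.inertiaSubgroupIn ℚ) :
    ρ (φ * σ * φ⁻¹) = ρ σ ^ q := by
  haveI := H51.isGalois_Qbar
  rw [← sub_eq_zero]
  have hH : IsHausdorff (maximalIdeal O) O := inferInstance
  ext i j
  apply hH.haus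
  intro n
  rw [SModEq.zero, smul_eq_mul, Ideal.mul_top]
  revert i j
  change InM (maximalIdeal O ^ n) (ρ (φ * σ * φ⁻¹) - ρ σ ^ q)
  obtain ⟨U, hU, hUn⟩ := hcont n
  haveI : Finite (O ⧸ maximalIdeal O ^ n) := IsLocalRing.finite_quotient_iff.mpr ⟨n, le_rfl⟩
  let P := (M2 (O ⧸ maximalIdeal O ^ n))ˣ
  haveI : Finite P := inferInstance
  obtain ⟨π₁, hπ₁⟩ : ∃ π₁ : Qb, π₁ ^ p = (q : Qb) := IsAlgClosed.exists_pow_nat_eq _ hp.pos
  obtain ⟨τ, hτI, hτ⟩ := H12.exists_inertia_move hq hA hp.one_lt π₁ hπ₁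
  let r : ↥(A.inertiaSubgroupIn ℚ) →* P := (redU ρ (maximalIdeal O ^ n)).comp (Subgroup.subtype _)
  have hr : ∀ σ, ∃ k : ℕ, r σ ^ p ^ k = 1 := by
    intro σ
    refine ⟨n, ?_⟩
    apply Units.ext
    rw [Units.val_pow_eq_pow_val, Units.val_one]
    change ((ρ σ).map (Ideal.Quotient.mk (maximalIdeal O ^ n))) ^ p ^ n = 1
    have h1 : ((ρ σ).map (Ideal.Quotient.mk (maximalIdeal O ^ n))) ^ p ^ n =
        (ρ σ ^ p ^ n).map (Ideal.Quotient.mk (maximalIdeal O ^ n)) :=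
      (map_pow (Ideal.Quotient.mk (maximalIdeal O ^ n)).mapMatrix (ρ σ) _).symm
    have h2 : (1 : M2 (O ⧸ maximalIdeal O ^ n)) =
        (1 : M2 O).map (Ideal.Quotient.mk (maximalIdeal O ^ n)) :=
      (map_one (Ideal.Quotient.mk (maximalIdeal O ^ n)).mapMatrix).symm
    rw [h1, h2, inM_iff_map_eq]
    obtain ⟨h3, h4⟩ := hI σ σ.2
    have h5 := one_add_pow_of_sq (sq_zero_of_trace h3 h4) (p ^ n)
    rw [add_sub_cancel] at h5
    rw [h5, add_sub_cancel_left]
    intro i j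
    rw [Matrix.smul_apply, smul_eq_mul]
    apply Ideal.mul_mem_right
    rw [Nat.cast_pow]
    exact Ideal.pow_mem_pow hpO n
  have hrU : ∀ σ : ↥(A.inertiaSubgroupIn ℚ), (σ : GQ) ∈ U → r σ = 1 := by
    intro σ hσU
    apply Units.ext
    have h2 : (1 : M2 (O ⧸ maximalIdeal O ^ n)) =
        (1 : M2 O).map (Ideal.Quotient.mk (maximalIdeal O ^ n)) :=
      (map_one (Ideal.Quotient.mk (maximalIdeal O ^ n)).mapMatrix).symm
    change ((ρ σ).map (Ideal.Quotient.mk (maximalIdeal O ^ n))) = 1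
    rw [h2, inM_iff_map_eq]
    exact hUn σ hσU
  have key := (H12.tame_inertia hq hA hp (Ne.symm hqp) π₁ hπ₁ τ hτI hτ r hr U hU hrU).2 φ hφ σ hσ
    (conj_mem_inertia hφ hσ)
  have key2 := congrArg Units.val key
  rw [Units.val_pow_eq_pow_val] at key2
  change (ρ (φ * σ * φ⁻¹)).map (Ideal.Quotient.mk (maximalIdeal O ^ n)) =
    ((ρ σ).map (Ideal.Quotient.mk (maximalIdeal O ^ n))) ^ q at key2
  have h1 : ((ρ σ).map (Ideal.Quotient.mk (maximalIdeal O ^ n))) ^ q =
        (ρ σ ^ q).map (Ideal.Quotient.mk (maximalIdeal O ^ n)) :=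
      (map_pow (Ideal.Quotient.mk (maximalIdeal O ^ n)).mapMatrix (ρ σ) _).symm
  rw [h1, inM_iff_map_eq] at key2
  exact key2

/-- **The line at `q ≠ p`.** -/
theorem exists_isLine_odd {p : ℕ} (hp : p.Prime) (hpO : (p : O) ∈ maximalIdeal O)
    (ρ : GQ →* M2 O)
    (hcont : ∀ n : ℕ, ∃ U : Subgroup GQ, IsOpen (U : Set GQ) ∧
      ∀ u ∈ U, InM (maximalIdeal O ^ n) (ρ u - 1))
    {q : ℕ} (hq : q.Prime) (hqp : q ≠ p) {A : ValuationSubring Qb} (hA : A.LiesOverPrime q)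
    {φ : GQ} (hφ : A.IsFrobeniusAt φ q)
    (hI : ∀ σ ∈ A.inertiaSubgroupIn ℚ, (ρ σ).trace = 2 ∧ (ρ σ).det = 1)
    (hdet : (ρ φ).det = q) (htr : (ρ φ).trace ^ 2 = ((q : O) + 1) ^ 2) :
    ∃ ℓ u, IsLine A φ ρ ℓ u := by
  obtain ⟨ℓ, u, h1, h2, h3, h4⟩ := exists_line_odd hq.one_lt hdet htr
  refine ⟨ℓ, u, h1, h2, fun σ hσ => ?_, h3⟩
  obtain ⟨h5, h6⟩ := hI σ hσ
  refine h4 (ρ σ) h5 h6 ?_
  rw [← tame_relation hp hpO ρ hcont hq hqp hA hφ hI hσ, ← map_mul, ← map_mul,
    inv_mul_cancel_right]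

end Tame

end Fermat.Agent.Z34
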