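import Mathlib
import Fermat.Agent.H27.NFOdd
import Fermat.Agent.H25.Density
import Fermat.Agent.H05.Local

set_option autoImplicit false
set_option linter.unusedSectionVars false
set_option linter.style.haveILetI false

/-!
# PROGRAM Z: the cyclotomic character with values in `O`
-/

namespace Fermat.Agent.Z34

open Matrix Fermat.Agent.CC IsLocalRing Module
open scoped Pointwise

section PadicHom

variable {O : Type*} [CommRing O] [IsLocalRing O] [IsAdicComplete (maximalIdeal O) O]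
  {p : ℕ} [hp : Fact p.Prime]

theorem natCast_pow_eq_zero (hpO : (p : O) ∈ maximalIdeal O) (n : ℕ) :
    ((p ^ n : ℕ) : O ⧸ maximalIdeal O ^ n) = 0 := by
  have h1 : ((p ^ n : ℕ) : O ⧸ maximalIdeal O ^ n) =
      Ideal.Quotient.mk (maximalIdeal O ^ n) ((p : O) ^ n) := by
    rw [map_pow, map_natCast, Nat.cast_pow]
  rw [h1, Ideal.Quotient.eq_zero_iff_mem]
  exact Ideal.pow_mem_pow hpO n

theorem natCast_eq_of_modEq {R : Type*} [CommRing R] {N a b : ℕ} (hN : (N : R) = 0)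
    (h : a ≡ b [MOD N]) : (a : R) = b := by
  have h1 : (N : ℤ) ∣ (b : ℤ) - a := (Nat.modEq_iff_dvd).mp h
  obtain ⟨c, hc⟩ := h1
  have h2 : ((b : ℤ) : R) - ((a : ℤ) : R) = ((N : ℤ) : R) * (c : R) := by
    rw [← Int.cast_sub, hc, Int.cast_mul]
  rw [Int.cast_natCast, Int.cast_natCast, Int.cast_natCast, hN, zero_mul, sub_eq_zero] at h2
  exact h2.symm

theorem val_modEq {N : ℕ} (a : ZMod N) (b : ℕ) (h : a = (b : ZMod N)) : a.val ≡ b [MOD N] := by
  subst h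
  rw [ZMod.val_natCast]
  exact Nat.mod_modEq b N

/-- the map `ℤ_p → O / m ^ n` -/
noncomputable def padicHomN (hpO : (p : O) ∈ maximalIdeal O) (n : ℕ) :
    ℤ_[p] →+* O ⧸ maximalIdeal O ^ n where
  toFun x := ((PadicInt.toZModPow n x).val : ℕ)
  map_one' := by
    have h := natCast_eq_of_modEq (natCast_pow_eq_zero hpO n)
      (val_modEq (PadicInt.toZModPow n (1 : ℤ_[p])) 1 (by rw [map_one, Nat.cast_one]))
    rw [h, Nat.cast_one]
  map_zero' := by
    rw [map_zero, ZMod.val_zero, Nat.cast_zero]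
  map_mul' x y := by
    haveI : NeZero (p ^ n) := ⟨pow_ne_zero _ hp.out.ne_zero⟩
    rw [← Nat.cast_mul]
    apply natCast_eq_of_modEq (natCast_pow_eq_zero hpO n)
    apply val_modEq
    rw [Nat.cast_mul, ZMod.natCast_zmod_val, ZMod.natCast_zmod_val, map_mul]
  map_add' x y := by
    haveI : NeZero (p ^ n) := ⟨pow_ne_zero _ hp.out.ne_zero⟩
    rw [← Nat.cast_add]
    apply natCast_eq_of_modEq (natCast_pow_eq_zero hpO n)
    apply val_modEq
    rw [Nat.cast_add, ZMod.natCast_zmod_val, ZMod.natCast_zmod_val, map_add]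

theorem padicHomN_apply (hpO : (p : O) ∈ maximalIdeal O) (n : ℕ) (x : ℤ_[p]) (a : ℕ)
    (h : PadicInt.toZModPow n x = (a : ZMod (p ^ n))) : padicHomN hpO n x = (a : O ⧸ _) :=
  natCast_eq_of_modEq (natCast_pow_eq_zero hpO n) (val_modEq _ _ h)

theorem padicHomN_comp (hpO : (p : O) ∈ maximalIdeal O) {m n : ℕ} (hmn : m ≤ n) :
    (Ideal.Quotient.factorPow (maximalIdeal O) hmn).comp (padicHomN hpO n) = padicHomN hpO m := by
  haveI : NeZero (p ^ n) := ⟨pow_ne_zero _ hp.out.ne_zero⟩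
  refine RingHom.ext fun x => ?_
  set a := (PadicInt.toZModPow n x).val with ha
  have h1 : PadicInt.toZModPow n x = (a : ZMod (p ^ n)) := by rw [ha, ZMod.natCast_zmod_val]
  have h2 : PadicInt.toZModPow m x = (a : ZMod (p ^ m)) := by
    rw [← PadicInt.cast_toZModPow m n hmn x, h1, ZMod.cast_natCast (pow_dvd_pow p hmn)]
  rw [RingHom.comp_apply, padicHomN_apply hpO n x a h1, padicHomN_apply hpO m x a h2, map_natCast]

/-- the map `ℤ_p → O` -/
noncomputable def padicHom (hpO : (p : O) ∈ maximalIdeal O) : ℤ_[p] →+* O :=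
  IsAdicComplete.liftRingHom (maximalIdeal O) (padicHomN hpO) (padicHomN_comp hpO)

theorem padicHom_sub_mem (hpO : (p : O) ∈ maximalIdeal O) (n : ℕ) (x : ℤ_[p]) (a : ℕ)
    (h : PadicInt.toZModPow n x = (a : ZMod (p ^ n))) :
    ∃ y : O, padicHom hpO x - a = (p : O) ^ n * y := by
  have h1 : x - a ∈ Ideal.span {((p : ℤ_[p]) ^ n)} := by
    rw [← PadicInt.ker_toZModPow, RingHom.mem_ker, map_sub, h, map_natCast, sub_self]
  obtain ⟨y, hy⟩ := Ideal.mem_span_singleton.mp h1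
  refine ⟨padicHom hpO y, ?_⟩
  have h2 := congrArg (padicHom hpO) hy
  rwa [map_sub, map_natCast, map_mul, map_pow, map_natCast] at h2

end PadicHom

section Cyc

instance hasEnough (n : ℕ) [NeZero n] : HasEnoughRootsOfUnity Qb n := inferInstance

variable {O : Type*} [CommRing O] [IsLocalRing O] [IsAdicComplete (maximalIdeal O) O]
  {p : ℕ} [hp : Fact p.Prime]

/-- the `p`-adic cyclotomic character with values in `O` -/
noncomputable def cyc (hpO : (p : O) ∈ maximalIdeal O) : GQ →* O :=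
  (padicHom hpO).toMonoidHom.comp ((Units.coeHom ℤ_[p]).comp
    ((cyclotomicCharacter Qb p).comp (MulSemiringAction.toRingAut GQ Qb)))

theorem cyc_apply (hpO : (p : O) ∈ maximalIdeal O) (g : GQ) :
    cyc hpO g = padicHom hpO
      (cyclotomicCharacter Qb p (MulSemiringAction.toRingAut GQ Qb g) : ℤ_[p]ˣ) := rfl

theorem cyc_spec (hpO : (p : O) ∈ maximalIdeal O) (n : ℕ) (g : GQ) (a : ℕ)
    (h : ∀ μ : Qb, μ ^ p ^ n = 1 → g μ = μ ^ a) : ∃ y : O, cyc hpO g - a = (p : O) ^ n * y := by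
  rw [cyc_apply]
  apply padicHom_sub_mem
  haveI : NeZero (p ^ n) := ⟨pow_ne_zero _ hp.out.ne_zero⟩
  haveI : ∀ i, HasEnoughRootsOfUnity Qb (p ^ i) := fun i => by
    haveI : NeZero (p ^ i) := ⟨pow_ne_zero _ hp.out.ne_zero⟩
    infer_instance
  haveI : NeZero ((p ^ n : ℕ) : Qb) :=
    ⟨by exact_mod_cast pow_ne_zero n hp.out.ne_zero⟩
  obtain ⟨ζ, hζ⟩ : ∃ ζ : Qb, IsPrimitiveRoot ζ (p ^ n) :=
    HasEnoughRootsOfUnity.exists_primitiveRoot Qb (p ^ n)
  have h1 := cyclotomicCharacter.spec (L := Qb) p (n := n) (MulSemiringAction.toRingAut GQ Qb g) ζ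
    hζ.pow_eq_one
  have h2 : (MulSemiringAction.toRingAut GQ Qb g) ζ = g ζ := rfl
  rw [h2, h ζ hζ.pow_eq_one] at h1
  set b := PadicInt.toZModPow n
    ((cyclotomicCharacter Qb p (MulSemiringAction.toRingAut GQ Qb g) : ℤ_[p]ˣ) : ℤ_[p]) with hb
  have h3 : a ≡ b.val [MOD p ^ n] := by
    have hpos : 0 < p ^ n := pow_pos hp.out.pos n
    have h5 : ζ ^ (a % p ^ n) = ζ ^ b.val := by
      rw [← h1]
      conv_rhs => rw [← Nat.div_add_mod a (p ^ n), pow_add, pow_mul, hζ.pow_eq_one, one_pow,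
        one_mul]
    have h6 := hζ.pow_inj (Nat.mod_lt a hpos) (ZMod.val_lt b) h5
    rw [Nat.ModEq, h6]
    exact (Nat.mod_eq_of_lt (ZMod.val_lt b)).symm
  have h4 := (ZMod.natCast_eq_natCast_iff a b.val (p ^ n)).mpr h3
  rw [h4, ZMod.natCast_zmod_val]

theorem eq_zero_of_forall_pow (hpO : (p : O) ∈ maximalIdeal O)
    {x : O} (h : ∀ n : ℕ, ∃ y : O, x = (p : O) ^ n * y) : x = 0 := by
  apply IsHausdorff.haus (inferInstance : IsHausdorff (maximalIdeal O) O)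
  intro n
  rw [SModEq.zero, smul_eq_mul, Ideal.mul_top]
  obtain ⟨y, hy⟩ := h n
  rw [hy]
  exact Ideal.mul_mem_right _ _ (Ideal.pow_mem_pow hpO n)

theorem cyc_inertia (hpO : (p : O) ∈ maximalIdeal O) {q : ℕ} (hq : q.Prime) (hqp : q ≠ p)
    {A : ValuationSubring Qb} (hA : A.LiesOverPrime q) {σ : GQ}
    (hσ : σ ∈ A.inertiaSubgroupIn ℚ) : cyc hpO σ = 1 := by
  rw [← sub_eq_zero]
  apply eq_zero_of_forall_pow hpO
  intro n
  have := cyc_spec hpO n σ 1 (fun μ hμ => by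
    rw [pow_one]
    exact H05.inertia_apply_rootOfUnity hq hA
      (fun h => hqp ((Nat.prime_dvd_prime_iff_eq hq hp.out).mp (hq.dvd_of_dvd_pow h))) hσ hμ)
  rwa [Nat.cast_one] at this

theorem cyc_frob (hpO : (p : O) ∈ maximalIdeal O) {q : ℕ} (hq : q.Prime) (hqp : q ≠ p)
    {A : ValuationSubring Qb} (hA : A.LiesOverPrime q) {φ : GQ}
    (hφ : A.IsFrobeniusAt φ q) : cyc hpO φ = q := by
  rw [← sub_eq_zero]
  apply eq_zero_of_forall_pow hpO
  intro n
  exact cyc_spec hpO n φ q (fun μ hμ => H05.IsFrobeniusAt.apply_rootOfUnity hq hA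
      (fun h => hqp ((Nat.prime_dvd_prime_iff_eq hq hp.out).mp (hq.dvd_of_dvd_pow h))) hφ hμ)

theorem cyc_sub_one_mem (h2O : (2 : O) ∈ maximalIdeal O) (g : GQ) :
    cyc (p := 2) (by exact_mod_cast h2O) g - 1 ∈ maximalIdeal O := by
  have h2 : ((2 : ℕ) : O) ∈ maximalIdeal O := by exact_mod_cast h2O
  obtain ⟨y, hy⟩ := cyc_spec (p := 2) h2 1 g 1 (fun μ hμ => by
    rw [pow_one] at hμ ⊢
    rw [pow_two] at hμ
    rcases mul_self_eq_one_iff.mp hμ with h | h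
    · rw [h, map_one]
    · rw [h, map_neg, map_one])
  rw [Nat.cast_one] at hy
  rw [hy, pow_one]
  exact Ideal.mul_mem_right _ _ h2

/-- continuity of the cyclotomic character -/
theorem cyc_cont (hpO : (p : O) ∈ maximalIdeal O) (n : ℕ) (ζ : Qb) (hζ : IsPrimitiveRoot ζ (p ^ n))
    {u : GQ} (hu : u ζ = ζ) (g : GQ) :
    ∃ y : O, cyc hpO (u * g) - cyc hpO g = (p : O) ^ n * y := by
  haveI : NeZero (p ^ n) := ⟨pow_ne_zero _ hp.out.ne_zero⟩
  have h1 : ∀ μ : Qb, μ ^ p ^ n = 1 → u μ = μ ^ 1 := by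
    intro μ hμ
    obtain ⟨i, -, rfl⟩ := hζ.eq_pow_of_pow_eq_one hμ
    rw [map_pow, hu, pow_one]
  obtain ⟨y, hy⟩ := cyc_spec hpO n u 1 h1
  refine ⟨y * cyc hpO g, ?_⟩
  rw [map_mul]
  rw [Nat.cast_one] at hy
  linear_combination (cyc hpO g) * hy

end Cyc

section Det

variable {O : Type} [CommRing O] [IsLocalRing O] [IsAdicComplete (maximalIdeal O) O]
  {p : ℕ} [hp : Fact p.Prime]

/-- **The determinant is cyclotomic.** -/
theorem det_eq_cyc (hpO : (p : O) ∈ maximalIdeal O) (ρ : GQ →* M2 O)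
    (hcont : ∀ n : ℕ, ∃ F : IntermediateField ℚ Qb, FiniteDimensional ℚ F ∧
      ∀ u ∈ F.fixingSubgroup, InM (maximalIdeal O ^ n) (ρ u - 1)) (S : Finset ℕ) (hpS : p ∈ S)
    (hfrob : ∀ ℓ : ℕ, ℓ.Prime → ℓ ∉ S → ∀ A : ValuationSubring Qb, A.LiesOverPrime ℓ →
      ∀ φ : GQ, A.IsFrobeniusAt φ ℓ → (ρ φ).det = ℓ) (g : GQ) : (ρ g).det = cyc hpO g := by
  rw [← sub_eq_zero]
  apply IsHausdorff.haus (inferInstance : IsHausdorff (maximalIdeal O) O)
  intro n
  rw [SModEq.zero, smul_eq_mul, Ideal.mul_top]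
  obtain ⟨F, hF, hFn⟩ := hcont n
  haveI := hF
  haveI : NeZero ((p ^ n : ℕ) : Qb) :=
    ⟨by exact_mod_cast pow_ne_zero n hp.out.ne_zero⟩
  obtain ⟨ζ, hζ⟩ : ∃ ζ : Qb, IsPrimitiveRoot ζ (p ^ n) :=
    HasEnoughRootsOfUnity.exists_primitiveRoot Qb (p ^ n)
  let F' : IntermediateField ℚ Qb := IntermediateField.adjoin ℚ {ζ}
  haveI : FiniteDimensional ℚ F' :=
    IntermediateField.adjoin.finiteDimensional (Algebra.IsIntegral.isIntegral ζ)
  haveI : FiniteDimensional ℚ (F ⊔ F' : IntermediateField ℚ Qb) := inferInstance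
  obtain ⟨ℓ, hℓ, hℓS, A, hA, φ, hφ, _, k, -, hk⟩ := H25.exists_frobenius (F ⊔ F') S g
  have hℓp : ℓ ≠ p := fun h => hℓS (h ▸ hpS)
  -- `g = φ ^ k * u`
  obtain ⟨u, hu⟩ : ∃ u : GQ, u = (φ ^ k)⁻¹ * g := ⟨_, rfl⟩
  have hgu : g = φ ^ k * u := by rw [hu, mul_inv_cancel_left]
  have hufix : ∀ x ∈ (F ⊔ F' : IntermediateField ℚ Qb), u x = x := by
    intro x hx
    rw [hu, AlgEquiv.mul_apply, hk x hx]
    change ((φ ^ k)⁻¹ * φ ^ k) x = x
    rw [inv_mul_cancel]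
    rfl
  have huF : u ∈ F.fixingSubgroup := by
    rw [IntermediateField.mem_fixingSubgroup_iff]
    exact fun x hx => hufix x (le_sup_left (a := F) hx)
  have huζ : u ζ = ζ := hufix ζ (le_sup_right (a := F) (IntermediateField.mem_adjoin_simple_self ℚ ζ))
  have e1 : (ρ (φ ^ k)).det = (ℓ : O) ^ k := by
    rw [map_pow, Matrix.det_pow, hfrob ℓ hℓ hℓS A hA φ hφ]
  have e2 : cyc hpO (φ ^ k) = (ℓ : O) ^ k := by rw [map_pow, cyc_frob hpO hℓ hℓp hA hφ]
  have e3 : (ρ u).det - 1 ∈ maximalIdeal O ^ n := by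
    have h := hFn u huF
    have e : (ρ u).det - 1 = (ρ u - 1) 0 0 * (ρ u) 1 1 + (ρ u - 1) 1 1 - (ρ u - 1) 0 1 * (ρ u) 1 0
        := by
      rw [Matrix.det_fin_two]
      simp only [Matrix.sub_apply, Matrix.one_apply_eq,
        Matrix.one_apply_ne (show (0 : Fin 2) ≠ 1 by decide)]
      ring
    rw [e]
    exact Ideal.sub_mem _ (Ideal.add_mem _ (Ideal.mul_mem_right _ _ (h 0 0)) (h 1 1))
      (Ideal.mul_mem_right _ _ (h 0 1))
  have e4 : cyc hpO u - 1 ∈ maximalIdeal O ^ n := by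
    obtain ⟨y, hy⟩ := cyc_cont hpO n ζ hζ huζ 1
    rw [mul_one, map_one] at hy
    rw [hy]
    exact Ideal.mul_mem_right _ _ (Ideal.pow_mem_pow hpO n)
  have e5 : (ρ g).det - cyc hpO g =
      (ℓ : O) ^ k * ((ρ u).det - 1) - (ℓ : O) ^ k * (cyc hpO u - 1) := by
    conv_lhs => rw [hgu]
    rw [map_mul, Matrix.det_mul, e1, map_mul, e2]
    ring
  rw [e5]
  exact Ideal.sub_mem _ (Ideal.mul_mem_left _ _ e3) (Ideal.mul_mem_left _ _ e4)

end Det

end Fermat.Agent.Z34
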