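import Mathlib
import Fermat.Agent.H27.NFCyc
import Fermat.Agent.H05.Geom

set_option autoImplicit false
set_option linter.unusedSectionVars false
set_option linter.style.haveILetI false
set_option maxSynthPendingDepth 3

/-!
# PROGRAM Z: the representation of a character of the Hecke algebra
-/

namespace Fermat.Agent.Z34

open Matrix Fermat.Agent.CC IsLocalRing Module Polynomial
open scoped Pointwise

/-- openness in `levS` -/
theorem levS_isOpen {Sg : Finset Nat.Primes} {H : Subgroup GQ}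
    (hH : ∃ F : IntermediateField ℚ Qb, FiniteDimensional ℚ F ∧ F.fixingSubgroup ≤ H)
    (hI : ∀ q : Nat.Primes, q ∉ Sg → ∀ A : ValuationSubring Qb, A.LiesOverPrime (q : ℕ) →
      A.inertiaSubgroupIn ℚ ≤ H) : (levS Sg).isOpen H := by
  haveI := H51.isGalois_Qbar
  obtain ⟨F, hF, hFH⟩ := hH
  have hopen : IsOpen (H : Set GQ) :=
    Subgroup.isOpen_mono hFH (IntermediateField.fixingSubgroup_isOpen F)
  let Hc : ClosedSubgroup GQ := ⟨H, Subgroup.isClosed_of_isOpen H hopen⟩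
  let F' : IntermediateField ℚ Qb := IntermediateField.fixedField H
  have hfix : F'.fixingSubgroup = H := InfiniteGalois.fixingSubgroup_fixedField Hc
  haveI hfin : FiniteDimensional ℚ F' := by
    rw [← InfiniteGalois.isOpen_iff_finite, hfix]
    exact hopen
  refine ⟨F', ⟨hfin, fun q hq A hA => ?_⟩, hfix.le⟩
  rw [hfix]
  exact hI q hq A hA

section Mat

variable {O : Type} [CommRing O] [IsLocalRing O]

/-- the matrix representation in a basis -/
noncomputable def matRep (ρ : GaloisRepAdic O) (b : Basis (Fin 2) O ρ.V) : GQ →* M2 O :=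
  (LinearMap.toMatrixAlgEquiv b).toAlgHom.toRingHom.toMonoidHom.comp ρ.ρ

theorem matRep_apply (ρ : GaloisRepAdic O) (b : Basis (Fin 2) O ρ.V) (g : GQ) :
    matRep ρ b g = LinearMap.toMatrix b b (ρ.ρ g) := rfl

theorem matRep_trace (ρ : GaloisRepAdic O) (b : Basis (Fin 2) O ρ.V) (g : GQ) :
    (matRep ρ b g).trace = LinearMap.trace O ρ.V (ρ.ρ g) := by
  rw [matRep_apply, ← LinearMap.trace_eq_matrix_trace]

theorem matRep_det (ρ : GaloisRepAdic O) (b : Basis (Fin 2) O ρ.V) (g : GQ) :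
    (matRep ρ b g).det = LinearMap.det (ρ.ρ g) := by
  rw [matRep_apply, LinearMap.det_toMatrix]

theorem matRep_cont (ρ : GaloisRepAdic O) (b : Basis (Fin 2) O ρ.V) (n : ℕ) :
    ∃ F : IntermediateField ℚ Qb, FiniteDimensional ℚ F ∧
      ∀ u ∈ F.fixingSubgroup, InM (maximalIdeal O ^ n) (matRep ρ b u - 1) := by
  obtain ⟨F, hF, h1⟩ := ρ.isAdicContinuous n
  refine ⟨F, hF, fun u hu i j => ?_⟩
  rw [IntermediateField.mem_fixingSubgroup_iff] at hu
  have h2 := h1 u hu (b j)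
  have hmem : ∀ x ∈ maximalIdeal O ^ n • (⊤ : Submodule O ρ.V), b.repr x i ∈ maximalIdeal O ^ n := by
    intro x hx
    refine Submodule.smul_induction_on (p := fun x => b.repr x i ∈ maximalIdeal O ^ n) hx ?_ ?_
    · intro r hr w _
      rw [map_smul, Finsupp.smul_apply, smul_eq_mul]
      exact Ideal.mul_mem_right _ _ hr
    · intro x y hx hy
      rw [map_add, Finsupp.add_apply]
      exact add_mem hx hy
  have h3 := hmem _ h2
  rw [map_sub, Finsupp.sub_apply, Basis.repr_self, Finsupp.single_apply] at h3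
  rw [Matrix.sub_apply, matRep_apply, LinearMap.toMatrix_apply, Matrix.one_apply]
  by_cases hij : i = j
  · subst hij
    simpa using h3
  · rw [if_neg (Ne.symm hij)] at h3
    rw [if_neg hij]
    exact h3

/-- the subgroup of elements congruent to `1` -/
def congSub (ρ : GQ →* M2 O) (J : Ideal O) : Subgroup GQ where
  carrier := {g | InM J (ρ g - 1)}
  one_mem' := by
    intro i j
    rw [map_one, sub_self]
    exact J.zero_mem
  mul_mem' := by
    intro a b ha hb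
    have h1 : ρ (a * b) - 1 = ρ a * (ρ b - 1) + (ρ a - 1) := by rw [map_mul, mul_sub, mul_one]; abel
    change InM J _
    rw [h1]
    exact (InM.mul_left hb _).add ha
  inv_mem' := by
    intro a ha
    have h1 : ρ a⁻¹ - 1 = -(ρ a⁻¹ * (ρ a - 1)) := by
      rw [mul_sub, ← map_mul, inv_mul_cancel, map_one, mul_one]; abel
    change InM J _
    rw [h1]
    intro i j
    exact J.neg_mem ((InM.mul_left ha _) i j)

theorem mem_congSub {ρ : GQ →* M2 O} {J : Ideal O} {g : GQ} :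
    g ∈ congSub ρ J ↔ InM J (ρ g - 1) := Iff.rfl

end Mat

section Input

open Fermat.Agent.H05

/-- unipotence of inertia, trace version -/
theorem trace_inertia_of_input {p N : ℕ} [NeZero N]
    {S : Finset ℕ} {T : Type} [CommRing T] [IsLocalRing T]
    [IsHausdorff (IsLocalRing.maximalIdeal T) T] (hp : p.Prime)
    (hpT : (p : T) ∈ IsLocalRing.maximalIdeal T) (hpS : p ∈ S)
    (hNS : ∀ q : ℕ, q.Prime → q ∣ N → q ∈ S)
    (ρ : GaloisRepAdic T)
    (π : CuspForm.heckeAlgebra N 2 (↑S : Set ℕ) →+* T)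
    (hfrob : ∀ (ℓ : ℕ) (hℓ : ℓ.Prime) (hℓN : ¬ ℓ ∣ N) (hℓS : ℓ ∉ (↑S : Set ℕ)),
      ∀ A : ValuationSubring (AlgebraicClosure ℚ), A.LiesOverPrime ℓ →
        ∀ σ : GQ, A.IsFrobeniusAt σ ℓ → LinearMap.charpoly (ρ.ρ σ) =
          X ^ 2 - C (π (CuspForm.heckeAlgebra.T hℓ hℓN hℓS)) * X + C ((ℓ : T)))
    (q : ℕ) (hq : q.Prime) (hqp : q ≠ p)
    (hinput : UnipotentInput p N (↑S : Set ℕ) q)
    {A : ValuationSubring Qb} (hA : A.LiesOverPrime q) {τ : GQ}
    (hτ : τ ∈ A.inertiaSubgroupIn ℚ) :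
    LinearMap.trace T ρ.V (ρ.ρ τ) = 2 ∧ LinearMap.det (ρ.ρ τ) = 1 := by
  have key : ∀ n : ℕ, LinearMap.trace T ρ.V (ρ.ρ τ) - 2 ∈ IsLocalRing.maximalIdeal T ^ n ∧
      LinearMap.det (ρ.ρ τ) - 1 ∈ IsLocalRing.maximalIdeal T ^ n := by
    intro n
    obtain ⟨W, instW, act, r, m, hW, hr, hES, huni⟩ := hinput n
    have hprim : ∃ ζ : AlgebraicClosure ℚ, IsPrimitiveRoot ζ (p ^ (m + n)) := by
      haveI : NeZero ((p ^ (m + n) : ℕ) : AlgebraicClosure ℚ) :=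
        ⟨by exact_mod_cast (pow_pos hp.pos (m + n)).ne'⟩
      exact HasEnoughRootsOfUnity.exists_primitiveRoot (AlgebraicClosure ℚ) (p ^ (m + n))
    obtain ⟨ζ, hζ⟩ := hprim
    obtain ⟨s, c, hs1, hs2, hs3, hs4⟩ := exists_hecke_trace_det H25.weakChebotarev hp hpS hNS ρ π
      hfrob act r hr hES n (m + n) ζ hζ.pow_eq_one τ
    have hτζ : τ ζ = ζ := inertia_apply_rootOfUnity hq hA
      (fun h => hqp ((Nat.prime_dvd_prime_iff_eq hq hp).mp (hq.dvd_of_dvd_pow h))) hτ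
      hζ.pow_eq_one
    have hcc : ((p ^ (m + n) : ℕ) : ℤ) ∣ (c : ℤ) - 1 := by
      have h1 : ζ ^ c = ζ := by rw [← hs4, hτζ]
      have hζ0 : ζ ≠ 0 := hζ.ne_zero (pow_pos hp.pos _).ne'
      rw [← hζ.zpow_eq_one_iff_dvd, zpow_sub₀ hζ0, zpow_natCast, zpow_one, h1, div_self hζ0]
    obtain ⟨d, hd⟩ := hcc
    have hs3' : ∀ w, act s w = r τ w + r τ⁻¹ w := by
      intro w
      rw [hs3]
      congr 1
      have : (c : ℤ) • r τ⁻¹ w = r τ⁻¹ w := by
        have h2 : (c : ℤ) = 1 + (p ^ (m + n) : ℕ) * d := by omega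
        rw [h2, add_smul, one_smul, mul_comm, mul_smul, natCast_zsmul, pow_add, mul_comm (p ^ m),
          mul_smul, hW, smul_zero, smul_zero, add_zero]
      rwa [natCast_zsmul] at this
    obtain ⟨t, ht⟩ := huni A hA τ hτ s hs3'
    constructor
    · have h2 : π s - 2 ∈ IsLocalRing.maximalIdeal T ^ n := by
        have h3 : π s - 2 = π (s - 2) := by rw [map_sub, map_ofNat]
        rw [h3, ht, nsmul_eq_mul, map_mul, Nat.cast_pow, map_pow, map_natCast]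
        exact Ideal.mul_mem_right _ _ (Ideal.pow_mem_pow hpT n)
      have h4 : LinearMap.trace T ρ.V (ρ.ρ τ) - 2 =
          (LinearMap.trace T ρ.V (ρ.ρ τ) - π s) + (π s - 2) := by ring
      rw [h4]
      exact add_mem hs1 h2
    · have h2 : (c : T) - 1 ∈ IsLocalRing.maximalIdeal T ^ n := by
        have h3 : ((c : ℤ) - 1 : T) = ((p ^ (m + n) : ℕ) : T) * (d : T) := by
          have := congrArg (Int.cast (R := T)) hd
          push_cast at this ⊢
          exact this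
        have h4 : (c : T) - 1 = ((p ^ (m + n) : ℕ) : T) * (d : T) := by
          rw [← h3]; push_cast; rfl
        rw [h4]
        apply Ideal.mul_mem_right
        rw [Nat.cast_pow]
        exact Ideal.pow_le_pow_right (Nat.le_add_left n m) (Ideal.pow_mem_pow hpT (m + n))
      have h4 : LinearMap.det (ρ.ρ τ) - 1 =
          (LinearMap.det (ρ.ρ τ) - (c : T)) + ((c : T) - 1) := by ring
      rw [h4]
      exact add_mem hs2 h2
  constructor
  · rw [← sub_eq_zero]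
    apply IsHausdorff.haus (inferInstance : IsHausdorff (IsLocalRing.maximalIdeal T) T)
    intro n
    rw [SModEq.zero, smul_eq_mul, Ideal.mul_top]
    exact (key n).1
  · rw [← sub_eq_zero]
    apply IsHausdorff.haus (inferInstance : IsHausdorff (IsLocalRing.maximalIdeal T) T)
    intro n
    rw [SModEq.zero, smul_eq_mul, Ideal.mul_top]
    exact (key n).2

theorem unipotentInput_dvd {p : ℕ} (hp : p.Prime) {N : ℕ} [NeZero N] (S : Set ℕ) {q : ℕ}
    (hq : q.Prime) (hqp : q ≠ p) (hqN : q ∣ N) (hq2 : ¬ q ^ 2 ∣ N) :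
    UnipotentInput p N S q := by
  refine unipotentInput_of hp _ ?_ (esAt_of_geom esHyp hp N)
  haveI : Fact q.Prime := ⟨hq⟩
  obtain ⟨M, hM0, hcop, hN⟩ := exists_factor hq hqN hq2
  haveI : NeZero M := ⟨hM0⟩
  have key := uniAt_of_hyp hp hqp (fun M _ h hyp => toricHyp p hp q hqp M h hyp) hcop
  subst hN
  exact key

theorem newFrobInput_dvd {p : ℕ} (hp : p.Prime) {N : ℕ} [NeZero N]
    {g : CuspForm (CongruenceSubgroup.Gamma0 N) 2} (hg : g.IsNewform) {S : Finset ℕ}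
    (hNS : ∀ q : ℕ, q.Prime → q ∣ N → q ∈ S)
    {O : Type} [CommRing O] [IsDomain O] [IsDiscreteValuationRing O] [CharZero O]
    (hpO : (p : O) ∈ IsLocalRing.maximalIdeal O)
    (chig : CuspForm.heckeAlgebra N 2 (↑S : Set ℕ) →+* ℂ)
    (hchig : ∀ (ℓ : ℕ) (hℓ : ℓ.Prime) (hℓM : ¬ ℓ ∣ N) (hℓS : ℓ ∉ (↑S : Set ℕ)),
      chig (CuspForm.heckeAlgebra.T hℓ hℓM hℓS) = ModularFormClass.qCoeff g ℓ)
    (π : CuspForm.heckeAlgebra N 2 (↑S : Set ℕ) →+* O)
    (hπ : ∀ t, chig t ≠ 0 → π t ≠ 0) {q : ℕ}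
    (hq : q.Prime) (hqp : q ≠ p) (hqN : q ∣ N) (hq2 : ¬ q ^ 2 ∣ N) :
    NewFrobInput p N (↑S : Set ℕ) q π := by
  haveI : Fact q.Prime := ⟨hq⟩
  obtain ⟨M', hM'0, hcop, hM⟩ := exists_factor hq hqN hq2
  haveI : NeZero M' := ⟨hM'0⟩
  have hne : M' ≠ N := by
    rw [hM]
    intro h
    have : M' * 1 = M' * q := by rw [mul_one]; exact h
    exact hq.one_lt.ne (Nat.eq_of_mul_eq_mul_left (Nat.pos_of_ne_zero hM'0) this)
  obtain ⟨t₀, ht₀S, ht₀, ht₀g⟩ := exists_separating hg (M := M') ⟨q, hM⟩ hne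
    (S := (↑S : Set ℕ)) S.finite_toSet
  have hπ : π (awayEval N (↑S : Set ℕ) ⟨t₀, ht₀S⟩) ≠ 0 := by
    apply hπ
    rw [chig_awayEval chig hchig hNS]
    exact ht₀g
  have hqS : q ∈ (↑S : Set ℕ) := by exact_mod_cast hNS q hq hqN
  have hNew := newAt_of_hyp hp hqp (fun M _ h hyp => toricHyp p hp q hqp M h hyp) hcop
  have hES := esAt_of_geom esHyp hp N
  clear hchig hg ht₀g
  subst hM
  exact newFrobInput_of hp hq hcop _ hqS hpO π ⟨t₀, ht₀S⟩ ht₀ hπ hNew hES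

end Input

section Main

open Fermat.Agent.H05

/-- the relation between the representation and modules over the Hecke algebra satisfying the
Eichler–Shimura relation -/
def NFRel {N : ℕ} [NeZero N] {S : Finset ℕ} {O : Type} [CommRing O] [IsLocalRing O]
    (π : CuspForm.heckeAlgebra N 2 (↑S : Set ℕ) →+* O) (ρ : GQ →* M2 O) : Prop :=
  ∀ (W : Type) [AddCommGroup W]
    (act : CuspForm.heckeAlgebra N 2 (↑S : Set ℕ) →+* Module.End ℤ W)
    (r : GQ →* Module.End ℤ W), GaloisFactorsThroughFiniteLevel r →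
    (∀ (ℓ : ℕ) (hℓ : ℓ.Prime) (hℓN : ¬ ℓ ∣ N) (hℓS : ℓ ∉ (↑S : Set ℕ)), ℓ ≠ 2 →
      ∀ A : ValuationSubring (AlgebraicClosure ℚ), A.LiesOverPrime ℓ →
      ∀ φ : GQ, A.IsFrobeniusAt φ ℓ → ∀ w : W,
        r φ (r φ w) - act (CuspForm.heckeAlgebra.T hℓ hℓN hℓS) (r φ w) + ℓ • w = 0) →
    ∀ (n : ℕ) (g : GQ), ∃ (s : CuspForm.heckeAlgebra N 2 (↑S : Set ℕ)) (c : ℕ),
      (ρ g).trace - π s ∈ maximalIdeal O ^ n ∧ (ρ g).det - (c : O) ∈ maximalIdeal O ^ n ∧
      ∀ w, act s w = r g w + c • r g⁻¹ w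

/-- **The representation attached to a newform**, with values in `M2 O`. -/
theorem exists_nfRep {N : ℕ} [NeZero N]
    {g : CuspForm (CongruenceSubgroup.Gamma0 N) 2} (hg : g.IsNewform) {S : Finset ℕ}
    (h2S : 2 ∈ S) (hNS : ∀ q : ℕ, q.Prime → q ∣ N → q ∈ S)
    {O : Type} [CommRing O] [IsDomain O] [IsDiscreteValuationRing O]
    [IsAdicComplete (maximalIdeal O) O] [CharZero O]
    (h2O : (2 : O) ∈ IsLocalRing.maximalIdeal O)
    (chig : CuspForm.heckeAlgebra N 2 (↑S : Set ℕ) →+* ℂ)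
    (hchig : ∀ (ℓ : ℕ) (hℓ : ℓ.Prime) (hℓM : ¬ ℓ ∣ N) (hℓS : ℓ ∉ (↑S : Set ℕ)),
      chig (CuspForm.heckeAlgebra.T hℓ hℓM hℓS) = ModularFormClass.qCoeff g ℓ)
    (π : CuspForm.heckeAlgebra N 2 (↑S : Set ℕ) →+* O)
    (hπ : ∀ t, chig t ≠ 0 → π t ≠ 0) :
    ∃ ρ : GQ →* M2 O,
      (∀ n : ℕ, ∃ F : IntermediateField ℚ Qb, FiniteDimensional ℚ F ∧
        ∀ u ∈ F.fixingSubgroup, InM (maximalIdeal O ^ n) (ρ u - 1)) ∧
      (∀ (ℓ : ℕ) (hℓ : ℓ.Prime) (hℓM : ¬ ℓ ∣ N) (hℓS : ℓ ∉ (↑S : Set ℕ)),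
        ∀ A : ValuationSubring Qb, A.LiesOverPrime ℓ → ∀ φ : GQ, A.IsFrobeniusAt φ ℓ →
          (ρ φ).trace = π (CuspForm.heckeAlgebra.T hℓ hℓM hℓS) ∧ (ρ φ).det = ℓ) ∧
      (∀ q : ℕ, q.Prime → ¬ q ∣ N → q ≠ 2 → ∀ A : ValuationSubring Qb, A.LiesOverPrime q →
        ∀ σ ∈ A.inertiaSubgroupIn ℚ, ρ σ = 1) ∧
      (∀ q : ℕ, q.Prime → q ≠ 2 → q ∣ N → ¬ q ^ 2 ∣ N →
        ∀ A : ValuationSubring Qb, A.LiesOverPrime q →
        (∀ σ ∈ A.inertiaSubgroupIn ℚ, (ρ σ).trace = 2 ∧ (ρ σ).det = 1) ∧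
        ∀ φ : GQ, A.IsFrobeniusAt φ q →
          (ρ φ).det = q ∧ (ρ φ).trace ^ 2 = ((q : O) + 1) ^ 2) := by
  haveI : Fact (Nat.Prime 2) := ⟨Nat.prime_two⟩
  have h2O' : ((2 : ℕ) : O) ∈ maximalIdeal O := by exact_mod_cast h2O
  obtain ⟨ρ, h1, h2, -⟩ := H25.exists_galoisRepAdic h2S
    (H25.heckeInput_of_heckeGaloisInput h2S hNS (heckeGaloisInput Nat.prime_two N _)) h2O' π
  have hfrob : ∀ (ℓ : ℕ) (hℓ : ℓ.Prime) (hℓN : ¬ ℓ ∣ N) (hℓS : ℓ ∉ (↑S : Set ℕ)),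
      ∀ A : ValuationSubring (AlgebraicClosure ℚ), A.LiesOverPrime ℓ →
        ∀ σ : GQ, A.IsFrobeniusAt σ ℓ → LinearMap.charpoly (ρ.ρ σ) =
          X ^ 2 - C (π (CuspForm.heckeAlgebra.T hℓ hℓN hℓS)) * X + C ((ℓ : O)) := by
    intro ℓ hℓ hℓN hℓS A hA σ hσ
    have h3 := h1 ℓ hℓ (fun h => hℓS (by exact_mod_cast h)) A hA σ hσ
    rwa [H25.heckeT_eq hℓ hℓN hℓS] at h3
  let b : Basis (Fin 2) O ρ.V := (Module.finBasis O ρ.V).reindex (finCongr ρ.finrank_eq)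
  refine ⟨matRep ρ b, matRep_cont ρ b, ?_, ?_, ?_⟩
  · intro ℓ hℓ hℓM hℓS A hA φ hφ
    rw [matRep_trace, matRep_det]
    exact ⟨trace_eq_of_charpoly ρ.finrank_eq _ _ _ (hfrob ℓ hℓ hℓM hℓS A hA φ hφ),
      det_eq_of_charpoly ρ.finrank_eq _ _ _ (hfrob ℓ hℓ hℓM hℓS A hA φ hφ)⟩
  · intro q hq hqN hq2 A hA σ hσ
    rw [matRep_apply, h2 q hqN hq hq2 A hA σ hσ]
    exact LinearMap.toMatrix_one b
  · intro q hq hq2 hqN hqq A hA
    refine ⟨fun σ hσ => ?_, fun φ hφ => ?_⟩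
    · rw [matRep_trace, matRep_det]
      exact trace_inertia_of_input Nat.prime_two h2O' h2S hNS ρ π hfrob q hq hq2
        (unipotentInput_dvd Nat.prime_two _ hq hq2 hqN hqq) hA hσ
    · rw [matRep_trace, matRep_det]
      rcases charpoly_frobenius_of_input H25.weakChebotarev Nat.prime_two h2S hNS h2O' ρ π hfrob q
        hq hq2 (newFrobInput_dvd Nat.prime_two hg hNS h2O' chig hchig π hπ hq hq2 hqN hqq) A hA φ hφ
        with h | h
      · exact ⟨det_eq_of_charpoly ρ.finrank_eq _ _ _ h, by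
          rw [trace_eq_of_charpoly ρ.finrank_eq _ _ _ h]⟩
      · have h' : LinearMap.charpoly (ρ.ρ φ) =
            X ^ 2 - C (-((q : O) + 1)) * X + C ((q : O)) := by
          rw [h, map_neg]; ring
        exact ⟨det_eq_of_charpoly ρ.finrank_eq _ _ _ h', by
          rw [trace_eq_of_charpoly ρ.finrank_eq _ _ _ h', neg_sq]⟩

end Main

end Fermat.Agent.Z34
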