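import Mathlib
import Fermat.Agent.Descent.Input2
import Fermat.Agent.H27.NFRep

set_option autoImplicit false
set_option linter.unusedSectionVars false
set_option linter.style.haveILetI false
set_option maxSynthPendingDepth 3

/-!
# PROGRAM Z: eigenvectors in the torsion of `J₀(N)` (coinduced form)
-/

noncomputable section

namespace Fermat.Agent.Z34

open IsLocalRing Module CongruenceSubgroup ModularCurve
open Fermat.Agent.H26

section Theta

/-- an equivariant additive map to the fraction field -/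
theorem exists_theta {R : Subring ℂ} {O : Type} [CommRing O] [IsDomain O] (φ : R →+* O)
    (hφ : Function.Injective φ) {c : ℂ} (hc : c ≠ 0) :
    ∃ θ : ℂ →+ FractionRing O, θ c ≠ 0 ∧
      ∀ (r : R) (z : ℂ), θ (r * z) = algebraMap O (FractionRing O) (φ r) * θ z := by
  letI : Algebra (FractionRing R) ℂ := FractionRing.liftAlgebra R ℂ
  haveI : IsScalarTower R (FractionRing R) ℂ := FractionRing.isScalarTower_liftAlgebra R ℂ
  have h1 : ¬ ∀ f : Module.Dual (FractionRing R) ℂ, f c = 0 := by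
    rw [Module.forall_dual_apply_eq_zero_iff]
    exact hc
  push Not at h1
  obtain ⟨f, hf⟩ := h1
  have hinj : Function.Injective ((algebraMap O (FractionRing O)).comp φ) :=
    (IsFractionRing.injective O (FractionRing O)).comp hφ
  let ι : FractionRing R →+* FractionRing O := IsFractionRing.lift hinj
  refine ⟨ι.toAddMonoidHom.comp f.toAddMonoidHom, ?_, fun r z => ?_⟩
  · change ι (f c) ≠ 0
    exact (map_ne_zero ι).mpr hf
  · change ι (f (r * z)) = _ * ι (f z)
    have h2 : (r : ℂ) * z = algebraMap R (FractionRing R) r • z := by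
      rw [Algebra.smul_def, ← IsScalarTower.algebraMap_apply]
      rfl
    rw [h2, map_smul, smul_eq_mul, map_mul]
    congr 1
    exact IsFractionRing.lift_algebraMap hinj r

/-- primitive homomorphisms -/
theorem exists_primitive_hom {G : Type*} [Group G] [Group.FG G] {O : Type} [CommRing O]
    [IsDomain O] [IsDiscreteValuationRing O] (w : Additive G →+ FractionRing O) (hw : w ≠ 0) :
    ∃ z : FractionRing O, z ≠ 0 ∧ ∃ u : Additive G →+ O,
      (∀ γ, w γ = z * algebraMap O (FractionRing O) (u γ)) ∧ ∃ γ, IsUnit (u γ) := by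
  obtain ⟨s, hs⟩ := (AddGroup.fg_def.mp (inferInstance : AddGroup.FG (Additive G)) :
    (⊤ : AddSubgroup (Additive G)).FG)
  set v := ValuationRing.valuation O (FractionRing O) with hv
  have hne : s.Nonempty := by
    rw [Finset.nonempty_iff_ne_empty]
    rintro rfl
    apply hw
    refine AddMonoidHom.ext fun γ => ?_
    have h1 : γ ∈ AddSubgroup.closure ((∅ : Finset (Additive G)) : Set (Additive G)) := by
      rw [hs]; trivial
    rw [Finset.coe_empty, AddSubgroup.closure_empty, AddSubgroup.mem_bot] at h1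
    rw [h1, map_zero, map_zero]
  obtain ⟨g0, hg0, hmax⟩ := s.exists_max_image (fun g => v (w g)) hne
  have hz : w g0 ≠ 0 := by
    intro h0
    apply hw
    have h1 : ∀ g ∈ s, w g = 0 := by
      intro g hg
      have := hmax g hg
      simp only [h0, map_zero] at this
      exact (Valuation.zero_iff v).mp (le_antisymm this (zero_le))
    refine AddMonoidHom.ext fun γ => ?_
    have h2 : γ ∈ AddSubgroup.closure (s : Set (Additive G)) := by rw [hs]; trivial
    have h3 : AddSubgroup.closure (s : Set (Additive G)) ≤ w.ker := by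
      rw [AddSubgroup.closure_le]
      intro g hg
      exact h1 g hg
    exact h3 h2
  have hint : ∀ γ, ∃ o : O, w γ = w g0 * algebraMap O (FractionRing O) o := by
    intro γ
    have h2 : γ ∈ AddSubgroup.closure (s : Set (Additive G)) := by rw [hs]; trivial
    induction h2 using AddSubgroup.closure_induction with
    | mem g hg =>
      have h3 : v (w g / w g0) ≤ 1 := by
        rw [map_div₀]
        exact div_le_one_of_le₀ (hmax g hg) zero_le
      rw [← Valuation.mem_integer_iff, ValuationRing.mem_integer_iff] at h3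
      obtain ⟨o, ho⟩ := h3
      exact ⟨o, by rw [ho, mul_div_cancel₀ _ hz]⟩
    | zero => exact ⟨0, by rw [map_zero, map_zero, mul_zero]⟩
    | add a b _ _ ha hb =>
      obtain ⟨o, ho⟩ := ha
      obtain ⟨o', ho'⟩ := hb
      exact ⟨o + o', by rw [map_add, map_add, ho, ho', mul_add]⟩
    | neg a _ ha =>
      obtain ⟨o, ho⟩ := ha
      exact ⟨-o, by rw [map_neg, map_neg, ho, mul_neg]⟩
  choose o ho using hint
  have hinj := IsFractionRing.injective O (FractionRing O)
  refine ⟨w g0, hz, ⟨⟨o, ?_⟩, ?_⟩, ho, g0, ?_⟩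
  · apply hinj
    apply mul_left_cancel₀ hz
    rw [← ho, map_zero, map_zero, mul_zero]
  · intro a b
    apply hinj
    apply mul_left_cancel₀ hz
    rw [← ho, map_add, map_add, mul_add, ← ho, ← ho]
  · have h3 : o g0 = 1 := by
      apply hinj
      apply mul_left_cancel₀ hz
      rw [← ho, map_one, mul_one]
    change IsUnit (o g0)
    rw [h3]
    exact isUnit_one

/-- additive characters with exact conductor -/
theorem exists_addChar {O : Type} [CommRing O] [IsDomain O] [IsDiscreteValuationRing O]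
    [Finite (ResidueField O)] (n : ℕ) :
    ∃ Λ : O →+ Additive ℂˣ, (∀ x ∈ maximalIdeal O ^ n, Λ x = 0) ∧
      ∀ b, (∀ c, Λ (c * b) = 0) → b ∈ maximalIdeal O ^ n := by
  obtain _ | n := n
  · exact ⟨0, fun _ _ => rfl, fun b _ => by rw [pow_zero, Ideal.one_eq_top]; trivial⟩
  obtain ⟨ϖ, hϖ⟩ := IsDiscreteValuationRing.exists_irreducible O
  have hm : maximalIdeal O = Ideal.span {ϖ} := hϖ.maximalIdeal_eq
  haveI : Finite (O ⧸ maximalIdeal O) := (inferInstance : Finite (ResidueField O))
  haveI : Finite (O ⧸ maximalIdeal O ^ (n + 1)) :=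
    Ideal.finite_quotient_pow (by rw [hm]; exact ⟨{ϖ}, by simp⟩) _
  have ha : (Ideal.Quotient.mk (maximalIdeal O ^ (n + 1)) (ϖ ^ n)) ≠ 0 := by
    rw [Ne, Ideal.Quotient.eq_zero_iff_mem, hm, Ideal.span_singleton_pow,
      Ideal.mem_span_singleton, pow_dvd_pow_iff hϖ.ne_zero hϖ.not_isUnit]
    omega
  obtain ⟨ψ, hψ⟩ := AddChar.exists_apply_ne_zero.mpr ha
  let Ψ : (O ⧸ maximalIdeal O ^ (n + 1)) →+ Additive ℂˣ :=
    MonoidHom.toAdditiveRight (ψ.toMonoidHom.toHomUnits)
  have hΨ : ∀ x, Ψ x = 0 → ψ x = 1 := by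
    intro x hx
    have h1 : ψ.toMonoidHom.toHomUnits (Multiplicative.ofAdd x) = 1 := hx
    have h2 := congrArg (fun u : ℂˣ => (u : ℂ)) h1
    exact h2
  refine ⟨Ψ.comp (Ideal.Quotient.mk (maximalIdeal O ^ (n + 1))).toAddMonoidHom, ?_, ?_⟩
  · intro x hx
    change Ψ (Ideal.Quotient.mk (maximalIdeal O ^ (n + 1)) x) = 0
    rw [Ideal.Quotient.eq_zero_iff_mem.mpr hx, map_zero]
  · intro b hb
    by_contra hcon
    have hb0 : b ≠ 0 := by
      rintro rfl
      exact hcon (Ideal.zero_mem _)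
    obtain ⟨k, u, hk⟩ := IsDiscreteValuationRing.eq_unit_mul_pow_irreducible hb0 hϖ
    have hkn : k ≤ n := by
      by_contra hlt
      apply hcon
      rw [hm, Ideal.span_singleton_pow, Ideal.mem_span_singleton, hk]
      exact (pow_dvd_pow ϖ (by omega)).mul_left _
    apply hψ
    have h3 := hb (ϖ ^ (n - k) * ((u⁻¹ : Oˣ) : O))
    have h4 : ϖ ^ (n - k) * ((u⁻¹ : Oˣ) : O) * b = ϖ ^ n := by
      rw [hk, mul_assoc, ← mul_assoc ((u⁻¹ : Oˣ) : O), Units.inv_mul, one_mul, ← pow_add,
        Nat.sub_add_cancel hkn]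
    rw [h4] at h3
    exact hΨ _ h3

end Theta

section Prim

open Fermat.Agent.H22

variable {N : ℕ} [NeZero N] {R : Subring ℂ} {O : Type} [CommRing O] [IsDomain O]

/-- the primitive eigenvector over `O` -/
theorem exists_prim_eigen [IsDiscreteValuationRing O] [CharZero O] (φ : R →+* O)
    (hφ : Function.Injective φ) {g : CuspForm (Gamma0 N) 2} (hg : g ≠ 0) :
    ∃ u : Additive (Gamma0 N) →+ O, (∃ γ, IsUnit (u γ)) ∧
      (∀ γ : Gamma0 N, ((γ : Matrix.SpecialLinearGroup (Fin 2) ℤ) :
        Matrix (Fin 2) (Fin 2) ℤ).trace ^ 2 ≤ 4 → u (Additive.ofMul γ) = 0) ∧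
      ∀ (T : HeckeAlg) (c : R),
        (CuspForm.heckeEvalForms N 2 T : Module.End ℂ (CuspForm (Gamma0 N) 2)) g = (c : ℂ) • g →
        heckeAct ℤ N O T u = (AddMonoidHom.mulLeft (φ c)).comp u := by
  have h0 : esMap N g ≠ 0 := by
    intro h0
    exact hg (esMap_injective (by rw [h0, map_zero]))
  have h1 : ∃ γ, esMap N g γ ≠ 0 := by
    by_contra hcon
    push Not at hcon
    exact h0 (AddMonoidHom.ext hcon)
  obtain ⟨γ0, hγ0⟩ := h1
  obtain ⟨θ, hθ0, hθ⟩ := exists_theta φ hφ hγ0
  obtain ⟨z, hz, u, hu, hunit⟩ := exists_primitive_hom (θ.comp (esMap N g)) (by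
    intro h2
    exact hθ0 (DFunLike.congr_fun h2 γ0))
  have hinj := IsFractionRing.injective O (FractionRing O)
  refine ⟨u, hunit, fun γ hγ => ?_, fun T c hT => ?_⟩
  · apply hinj
    apply mul_left_cancel₀ hz
    rw [← hu, map_zero, mul_zero, AddMonoidHom.comp_apply,
      killsParEll_of_mem (esMap_mem g) γ hγ, map_zero]
  · -- compare after composing with `z * algebraMap`
    let μ : O →+ FractionRing O :=
      (AddMonoidHom.mulLeft z).comp (algebraMap O (FractionRing O)).toAddMonoidHom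
    have hμ : Function.Injective μ := fun a b hab => hinj (mul_left_cancel₀ hz hab)
    have hμu : μ.comp u = θ.comp (esMap N g) := AddMonoidHom.ext fun γ => (hu γ).symm
    have h2 : heckeAct ℤ N (FractionRing O) T (μ.comp u) = μ.comp (heckeAct ℤ N O T u) :=
      heckeAct_map (R := ℤ) (R' := ℤ) μ T u
    have h3 : heckeAct ℤ N (FractionRing O) T (θ.comp (esMap N g)) =
        θ.comp (heckeAct ℂ N ℂ T (esMap N g)) :=
      heckeAct_map (R := ℂ) (R' := ℤ) θ T (esMap N g)
    rw [hμu, h3, ← esMap_hecke, hT, map_smul] at h2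
    refine AddMonoidHom.ext fun γ => hμ ?_
    have h4 := DFunLike.congr_fun h2 γ
    rw [AddMonoidHom.comp_apply, AddMonoidHom.comp_apply] at h4
    rw [← h4]
    have h5 : ((c : ℂ) • esMap N g) γ = (c : ℂ) * esMap N g γ := rfl
    rw [h5, hθ]
    have h6 : θ (esMap N g γ) = z * algebraMap O (FractionRing O) (u γ) := hu γ
    rw [h6]
    change _ = z * algebraMap O (FractionRing O) (φ c * u γ)
    rw [map_mul]
    ring

end Prim

section Ev

open Fermat.Agent.H22

variable {N : ℕ} [NeZero N] {R : Subring ℂ} {O : Type} [CommRing O] [IsDomain O]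

theorem kappa_torAct [Algebra (AlgebraicClosure ℚ) ℂ] (m : ℕ) [hm0 : NeZero m] (T : HeckeAlg)
    (x : Tor N m) : kappa N m (torAct N m T x) = heckeAct ℤ N (Additive ℂˣ) T (kappa N m x) := by
  have hΦ : ∀ (ℓ : Nat.Primes) (w : Tor N m), kappa N m (torAct N m (heckeGen ℓ) w) =
      heckeOpL ℤ N (Additive ℂˣ) ℓ (kappa N m w) := fun ℓ w => by
    rw [torAct_heckeGen, kappa_heckeTor]
  exact intertwine_heckeAct (N := N) (torAct N m) (kappa N m) hΦ T x

set_option maxHeartbeats 1000000 in
/-- **Proposition EV** -/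
theorem exists_ev_tor [Algebra (AlgebraicClosure ℚ) ℂ] [IsDiscreteValuationRing O] [CharZero O]
    [Finite (ResidueField O)] (φ : R →+* O)
    (hφ : Function.Injective φ) {g : CuspForm (Gamma0 N) 2} (hg : g ≠ 0) (n m : ℕ) [hm0 : NeZero m]
    (hm : (m : O) ∈ maximalIdeal O ^ n) :
    ∃ h : O →+ Tor N m,
      (∀ (T : HeckeAlg) (c : R),
        (CuspForm.heckeEvalForms N 2 T : Module.End ℂ (CuspForm (Gamma0 N) 2)) g = (c : ℂ) • g →
        ∀ b, torAct N m T (h b) = h (φ c * b)) ∧
      (∀ b, b ∈ maximalIdeal O ^ n → h b = 0) ∧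
      ∀ b, (∀ c, h (c * b) = 0) → b ∈ maximalIdeal O ^ n := by
  obtain ⟨u, ⟨γ0, hγ0⟩, hpar, hT⟩ := exists_prim_eigen (N := N) φ hφ hg
  obtain ⟨Λ, hΛ, hΛ'⟩ := exists_addChar (O := O) n
  -- the characters
  let L : O → (Additive (Gamma0 N) →+ Additive ℂˣ) := fun b =>
    Λ.comp ((AddMonoidHom.mulLeft b).comp u)
  have hL : ∀ b γ, L b γ = Λ (b * u γ) := fun _ _ => rfl
  have hex : ∀ b, ∃ w : Tor N m, kappa N m w = L b := by
    intro b
    let χ : Gamma0 N →* ℂˣ := MonoidHom.toAdditive.symm (L b)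
    have hχ : ∀ γ, χ γ = (Λ (b * u (Additive.ofMul γ))).toMul := fun γ => rfl
    obtain ⟨x, hx, hxχ, hdvd⟩ := surjC N hm0.out χ (fun γ => by
        have h1 : m • Λ (b * u (Additive.ofMul γ)) = 0 := by
          rw [← map_nsmul, nsmul_eq_mul]
          exact hΛ _ (Ideal.mul_mem_right _ _ hm)
        rw [hχ]
        exact h1) (fun γ hγ => by
        rw [hχ, hpar γ hγ, mul_zero, map_zero]
        rfl)
    obtain ⟨P, hP⟩ := exists_kchar_of_complex hm0.out hx hxχ hdvd
    have hPm : m • P = 0 := by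
      obtain ⟨f, hf, -⟩ := hP
      exact hf.nsmul_eq_zero
    refine ⟨⟨P, mem_tor.mpr hPm⟩, ?_⟩
    rw [kappa_apply, kap_eq (ψ := χ) hP]
    rfl
  choose w hw using hex
  have hadd : ∀ a b, w (a + b) = w a + w b := by
    intro a b
    apply kappa_injective
    rw [hw, map_add, hw, hw]
    refine AddMonoidHom.ext fun γ => ?_
    rw [AddMonoidHom.add_apply, hL, hL, hL, add_mul, map_add]
  let h : O →+ Tor N m := AddMonoidHom.mk' w hadd
  refine ⟨h, fun T c hc b => ?_, fun b hb => ?_, fun b hb => ?_⟩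
  · apply kappa_injective
    rw [kappa_torAct]
    have e1 : kappa N m (h b) = L b := hw b
    have e2 : kappa N m (h (φ c * b)) = L (φ c * b) := hw _
    rw [e1, e2]
    have h2 : heckeAct ℤ N (Additive ℂˣ) T (L b) =
        (Λ.comp (AddMonoidHom.mulLeft b)).comp (heckeAct ℤ N O T u) :=
      heckeAct_map (R := ℤ) (R' := ℤ) (Λ.comp (AddMonoidHom.mulLeft b)) T u
    rw [h2, hT T c hc]
    refine AddMonoidHom.ext fun γ => ?_
    rw [hL]
    change Λ (b * (φ c * u γ)) = _
    congr 1
    ring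
  · have e1 : kappa N m (h b) = L b := hw b
    have e2 : L b = 0 := by
      refine AddMonoidHom.ext fun γ => ?_
      rw [hL]
      exact hΛ _ (Ideal.mul_mem_right _ _ hb)
    have e3 : kappa N m (h b) = kappa N m 0 := by
      rw [e1, e2]
      exact (AddMonoidHom.map_zero (kappa N m)).symm
    exact kappa_injective e3
  · apply hΛ'
    intro c
    obtain ⟨v, hv⟩ := hγ0
    have h0 : w (((v⁻¹ : Oˣ) : O) * c * b) = 0 := hb _
    have h1 : L (((v⁻¹ : Oˣ) : O) * c * b) = 0 := by
      rw [← hw, h0]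
      exact AddMonoidHom.map_zero (kappa N m)
    have h2 := DFunLike.congr_fun h1 γ0
    rw [hL, ← hv] at h2
    have h3 : ((v⁻¹ : Oˣ) : O) * c * b * (v : O) = c * b := by
      calc ((v⁻¹ : Oˣ) : O) * c * b * (v : O) = (((v⁻¹ : Oˣ) : O) * v) * (c * b) := by ring
        _ = c * b := by rw [Units.inv_mul, one_mul]
    rwa [h3] at h2

end Ev

end Fermat.Agent.Z34
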