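import Mathlib
import Fermat.Agent.H27.ZComp

set_option autoImplicit false
set_option linter.unusedSectionVars false
set_option linter.style.haveILetI false

/-!
# PROGRAM Z: Cayley–Hamilton representations
-/

namespace Fermat.Agent.Z34

open Matrix IsLocalRing

section Alg

variable {G : Type*} [Group G] {O : Type*} [CommRing O] {B : Type*} [Ring B] [Algebra O B]
  {ρ : G →* M2 O} {r : G →* B}

/-- the Cayley–Hamilton relation -/
def CHRel (ρ : G →* M2 O) (r : G →* B) : Prop :=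
  ∀ g, r g + (ρ g).det • r g⁻¹ = (ρ g).trace • (1 : B)

theorem two_smul_one : (2 : O) • (1 : B) = 2 := by
  rw [← Algebra.algebraMap_eq_smul_one, map_ofNat]

namespace CHRel

variable (hCH : CHRel ρ r) {σ τ : G} (hσ : (ρ σ).trace = 2) (hσd : (ρ σ).det = 1)

include hCH hσ hσd

theorem inv_eq : r σ⁻¹ = 2 - r σ := by
  have h := hCH σ
  rw [hσ, hσd, one_smul, two_smul_one] at h
  rw [← h]
  abel

theorem nn : (r σ - 1) * (r σ - 1) = 0 := by
  have h1 : r σ * r σ⁻¹ = 1 := by rw [← map_mul, mul_inv_cancel, map_one]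
  rw [hCH.inv_eq hσ hσd] at h1
  have h2 : (r σ - 1) * (r σ - 1) = 1 - r σ * (2 - r σ) := by noncomm_ring
  rw [h2, h1, sub_self]

theorem A2 (g : G) : r g * (r σ - 1) - (ρ g).det • ((r σ - 1) * r g⁻¹) =
    (ρ g * (ρ σ - 1)).trace • (1 : B) := by
  have h1 := hCH (g * σ)
  have h2 := hCH g
  rw [map_mul ρ, Matrix.det_mul, hσd, mul_one, _root_.mul_inv_rev, map_mul r, map_mul r,
    hCH.inv_eq hσ hσd] at h1
  rw [mul_sub (ρ g), mul_one (ρ g), Matrix.trace_sub, sub_smul, ← h1, ← h2]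
  have h3 : (2 : B) = 1 + 1 := by norm_num
  simp only [h3, sub_mul, mul_sub, add_mul, one_mul, mul_one, smul_sub, smul_add]
  abel

theorem A3 (g : G) : (r σ - 1) * r g * (r σ - 1) =
    (ρ g * (ρ σ - 1)).trace • (r σ - 1) := by
  have h1 := hCH.A2 hσ hσd g
  have h2 : r g * (r σ - 1) = (ρ g * (ρ σ - 1)).trace • (1 : B) +
      (ρ g).det • ((r σ - 1) * r g⁻¹) := by
    rw [← h1]; abel
  rw [mul_assoc, h2, mul_add, mul_smul_comm, mul_one, mul_smul_comm, ← mul_assoc,
    hCH.nn hσ hσd, zero_mul, smul_zero, add_zero]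

theorem A4 (τ : G) : r τ * (r σ - 1) + (r σ - 1) * r τ - (ρ τ).trace • (r σ - 1) =
    (ρ τ * (ρ σ - 1)).trace • (1 : B) := by
  rw [← hCH.A2 hσ hσd τ]
  have h1 : (ρ τ).det • r τ⁻¹ = (ρ τ).trace • (1 : B) - r τ := by
    rw [← hCH τ]; abel
  rw [← mul_smul_comm, h1, mul_sub (r σ - 1), mul_smul_comm, mul_one]
  abel

theorem A5 (τ g : G) : (ρ τ * (ρ σ - 1)).trace • (r g * (r σ - 1)) =
    (ρ g * (ρ σ - 1)).trace • (r τ * (r σ - 1)) +
      ((ρ (τ * g) * (ρ σ - 1)).trace - (ρ τ).trace * (ρ g * (ρ σ - 1)).trace) • (r σ - 1) := by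
  have h1 : (ρ τ * (ρ σ - 1)).trace • (r g * (r σ - 1)) =
      ((ρ τ * (ρ σ - 1)).trace • (1 : B)) * (r g * (r σ - 1)) := by
    rw [smul_mul_assoc, one_mul]
  rw [h1, ← hCH.A4 hσ hσd τ]
  have h2 := hCH.A3 hσ hσd g
  have h3 := hCH.A3 hσ hσd (τ * g)
  rw [map_mul r] at h3
  have h4 : (r τ * (r σ - 1) + (r σ - 1) * r τ - (ρ τ).trace • (r σ - 1)) * (r g * (r σ - 1)) =
      r τ * ((r σ - 1) * r g * (r σ - 1)) + (r σ - 1) * (r τ * r g) * (r σ - 1) -
        (ρ τ).trace • ((r σ - 1) * r g * (r σ - 1)) := by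
    rw [sub_mul, add_mul, smul_mul_assoc]
    simp only [mul_assoc]
  rw [h4, h2, h3, mul_smul_comm, smul_smul, sub_smul]
  abel

end CHRel

theorem chRel_self (ρ : G →* M2 O) : CHRel ρ ρ := by
  intro g
  have h1 : (ρ g).det • ρ g⁻¹ = (ρ g).adjugate := by
    have h2 : (ρ g).adjugate * (ρ g * ρ g⁻¹) = (ρ g).adjugate := by
      rw [← map_mul, mul_inv_cancel, map_one, mul_one]
    rw [← h2, ← mul_assoc, Matrix.adjugate_mul, smul_mul_assoc, one_mul]
  rw [h1, Matrix.adjugate_fin_two]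
  ext i j
  fin_cases i <;> fin_cases j <;>
    simp [Matrix.trace_fin_two, Matrix.add_apply, Matrix.smul_apply, add_comm]

end Alg

section Lat

variable {O : Type*} [CommRing O]

/-- `cr` as a linear form in the first variable -/
def crL (z : Fin 2 → O) : (Fin 2 → O) →ₗ[O] O where
  toFun v := cr v z
  map_add' v w := by simp only [cr, Pi.add_apply]; ring
  map_smul' c v := by simp only [cr, Pi.smul_apply, smul_eq_mul, RingHom.id_apply]; ring

/-- `cr` as a linear form in the second variable -/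
def crR (y : Fin 2 → O) : (Fin 2 → O) →ₗ[O] O where
  toFun v := cr y v
  map_add' v w := cr_add _ _ _
  map_smul' c v := by simp only [cr, Pi.smul_apply, smul_eq_mul, RingHom.id_apply]; ring

theorem cramer (y z v : Fin 2 → O) : cr y z • v = cr v z • y + cr y v • z := by
  funext i
  simp only [cr, Pi.smul_apply, Pi.add_apply, smul_eq_mul]
  fin_cases i <;> simp only [Fin.zero_eta, Fin.mk_one, Fin.isValue] <;> ring

/-- a good vector -/
theorem exists_good_vec [IsLocalRing O] {N T : M2 O} (hN : N.trace = 0) (hNd : N.det = 0)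
    (hT : IsUnit (T * N).trace) : ∃ y0 : Fin 2 → O, IsUnit (cr (N *ᵥ y0) (T *ᵥ (N *ᵥ y0))) := by
  rw [Matrix.trace_fin_two] at hN
  rw [Matrix.det_fin_two] at hNd
  have ht : (T * N).trace = T 0 0 * N 0 0 + T 0 1 * N 1 0 + (T 1 0 * N 0 1 + T 1 1 * N 1 1) := by
    rw [Matrix.trace_fin_two, Matrix.mul_apply, Matrix.mul_apply, Fin.sum_univ_two,
      Fin.sum_univ_two]
  have e11 : N 1 1 = - N 0 0 := by linear_combination hN
  have hc1 : cr (N *ᵥ ![1, 0]) (T *ᵥ (N *ᵥ ![1, 0])) = -(N 1 0) * (T * N).trace := by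
    rw [ht]
    simp only [cr, Matrix.mulVec, dotProduct, Fin.sum_univ_two, Matrix.cons_val_zero,
      Matrix.cons_val_one, mul_one, mul_zero, add_zero]
    rw [e11] at hNd ⊢
    linear_combination (-T 1 0) * hNd
  have hc2 : cr (N *ᵥ ![0, 1]) (T *ᵥ (N *ᵥ ![0, 1])) = N 0 1 * (T * N).trace := by
    rw [ht]
    simp only [cr, Matrix.mulVec, dotProduct, Fin.sum_univ_two, Matrix.cons_val_zero,
      Matrix.cons_val_one, mul_one, mul_zero, zero_add]
    rw [e11] at hNd ⊢
    linear_combination (T 0 1) * hNd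
  by_cases h1 : IsUnit (N 1 0)
  · exact ⟨_, by rw [hc1]; exact h1.neg.mul hT⟩
  by_cases h2 : IsUnit (N 0 1)
  · exact ⟨_, by rw [hc2]; exact h2.mul hT⟩
  exfalso
  have m1 : N 1 0 ∈ maximalIdeal O := h1
  have m2 : N 0 1 ∈ maximalIdeal O := h2
  have m3 : N 0 0 * N 0 0 ∈ maximalIdeal O := by
    have : N 0 0 * N 0 0 = -(N 0 1 * N 1 0) := by
      rw [e11] at hNd
      linear_combination -hNd
    rw [this]
    exact neg_mem (Ideal.mul_mem_left _ _ m1)
  have m4 : N 0 0 ∈ maximalIdeal O := by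
    rcases (Ideal.IsPrime.mem_or_mem inferInstance m3) with h | h <;> exact h
  have : (T * N).trace ∈ maximalIdeal O := by
    rw [ht, e11]
    exact add_mem (add_mem (Ideal.mul_mem_left _ _ m4) (Ideal.mul_mem_left _ _ m1))
      (add_mem (Ideal.mul_mem_left _ _ m2) (Ideal.mul_mem_left _ _ (neg_mem m4)))
  exact this hT

variable {G : Type*} [Group G] {E : Type*} [AddCommGroup E] [Module O E]
  {ρ : G →* M2 O} {r : G →* Module.End O E} (hCH : CHRel ρ r)
  {σ τ : G} (hσ : (ρ σ).trace = 2) (hσd : (ρ σ).det = 1)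
  (hτ : IsUnit (ρ τ * (ρ σ - 1)).trace)

include hCH hσ hσd hτ

theorem CHRel.exists_lattice {y0 : Fin 2 → O}
    (hy0 : IsUnit (cr ((ρ σ - 1) *ᵥ y0) (ρ τ *ᵥ ((ρ σ - 1) *ᵥ y0)))) (e : E) :
    ∃ j : (Fin 2 → O) →ₗ[O] E, (∀ g v, j (ρ g *ᵥ v) = r g (j v)) ∧
      ∀ v, j v = 0 ↔ ∀ i, v i • ((r σ - 1) e) = 0 := by
  set y := (ρ σ - 1) *ᵥ y0 with hy
  set z := ρ τ *ᵥ y with hz
  obtain ⟨c, hc⟩ := hy0.exists_left_inv
  let j : (Fin 2 → O) →ₗ[O] E :=
    c • ((crL z).smulRight ((r σ - 1) e) + (crR y).smulRight (r τ ((r σ - 1) e)))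
  have hj : ∀ v, j v = c • (cr v z • ((r σ - 1) e) + cr y v • (r τ ((r σ - 1) e))) :=
    fun v => rfl
  have hjy : j y = (r σ - 1) e := by
    rw [hj, cr_self, zero_smul, add_zero, smul_smul, hc, one_smul]
  have hjz : j z = r τ ((r σ - 1) e) := by
    rw [hj, cr_self, zero_smul, zero_add, smul_smul, hc, one_smul]
  have hv : ∀ v : Fin 2 → O, v = (c * cr v z) • y + (c * cr y v) • z := by
    intro v
    rw [mul_smul, mul_smul, ← smul_add, ← cramer, smul_smul, hc, one_smul]
  -- the basic case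
  have hb : ∀ x, j (ρ x *ᵥ y) = r x ((r σ - 1) e) := by
    intro x
    have h1 := congrArg (fun M : M2 O => M *ᵥ y0) ((chRel_self ρ).A5 hσ hσd τ x)
    have h2 := LinearMap.congr_fun (hCH.A5 hσ hσd τ x) e
    simp only [Matrix.add_mulVec, Matrix.smul_mulVec, ← Matrix.mulVec_mulVec] at h1
    rw [← hy, ← hz] at h1
    have h3 := congrArg j h1
    rw [map_smul, map_add, map_smul, map_smul, hjy, hjz] at h3
    obtain ⟨d, hd⟩ := hτ.exists_left_inv
    have h4 : (ρ τ * (ρ σ - 1)).trace • j (ρ x *ᵥ y) =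
        (ρ τ * (ρ σ - 1)).trace • r x ((r σ - 1) e) := by
      rw [h3]
      exact h2.symm
    have h5 := congrArg (fun w => d • w) h4
    simp only [smul_smul, hd, one_smul] at h5
    exact h5
  refine ⟨j, fun g v => ?_, fun v => ?_⟩
  · have h1 : ρ g *ᵥ v = (c * cr v z) • (ρ g *ᵥ y) + (c * cr y v) • (ρ (g * τ) *ᵥ y) := by
      conv_lhs => rw [hv v]
      have h7 : ρ g *ᵥ z = ρ (g * τ) *ᵥ y := by
        rw [hz, Matrix.mulVec_mulVec, ← map_mul]
      rw [Matrix.mulVec_add, Matrix.mulVec_smul, Matrix.mulVec_smul, h7]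
    have h2 : j v = (c * cr v z) • ((r σ - 1) e) + (c * cr y v) • (r τ ((r σ - 1) e)) := by
      rw [hj, smul_add, smul_smul, smul_smul]
    rw [h1, map_add, map_smul, map_smul, hb, hb, h2, map_add, map_smul, map_smul, map_mul]
    rfl
  · set n : Module.End O E := r σ - 1 with hn
    have hnn : ∀ x : E, n (n x) = 0 := fun x => LinearMap.congr_fun (hCH.nn hσ hσd) x
    have hntn : n (r τ (n e)) = (ρ τ * (ρ σ - 1)).trace • n e :=
      LinearMap.congr_fun (hCH.A3 hσ hσd τ) e
    constructor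
    · intro h
      have h2 : (c * cr v z) • (n e) + (c * cr y v) • (r τ (n e)) = 0 := by
        rw [← h, hj, smul_add, smul_smul, smul_smul]
      have h3 := congrArg n h2
      rw [map_add, map_smul, map_smul, hnn, smul_zero, zero_add, hntn, map_zero, smul_smul] at h3
      obtain ⟨d, hd⟩ := hτ.exists_left_inv
      have h4 : (c * cr y v) • n e = 0 := by
        have h5 := congrArg (fun w => d • w) h3
        simp only [smul_smul, smul_zero] at h5
        have h6 : d * (c * cr y v * (ρ τ * (ρ σ - 1)).trace) = c * cr y v := by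
          calc d * (c * cr y v * (ρ τ * (ρ σ - 1)).trace) =
              (d * (ρ τ * (ρ σ - 1)).trace) * (c * cr y v) := by ring
            _ = c * cr y v := by rw [hd, one_mul]
        rwa [h6] at h5
      have h5 : (c * cr v z) • n e = 0 := by
        rw [← map_smul (r τ), h4, map_zero, add_zero] at h2
        exact h2
      intro i
      have h6 : v i = (c * cr v z) * y i + (c * cr y v) * z i := congrFun (hv v) i
      have h7 : (c * cr v z * y i) • n e = 0 := by
        rw [mul_comm (c * cr v z) (y i), mul_smul (y i), h5, smul_zero]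
      have h8 : (c * cr y v * z i) • n e = 0 := by
        rw [mul_comm (c * cr y v) (z i), mul_smul (z i), h4, smul_zero]
      rw [h6, add_smul, h7, h8, add_zero]
    · intro h
      have h1 : ∀ w : Fin 2 → O, cr v w • n e = 0 := by
        intro w
        simp only [cr]
        rw [sub_smul, mul_comm, mul_smul, h, smul_zero, mul_comm, mul_smul, h, smul_zero,
          sub_zero]
      have h2 : ∀ w : Fin 2 → O, cr w v • n e = 0 := by
        intro w
        simp only [cr]
        rw [sub_smul, mul_smul, h, smul_zero, mul_smul, h, smul_zero, sub_zero]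
      rw [hj, h1, ← map_smul (r τ), h2, map_zero, add_zero, smul_zero]

end Lat

end Fermat.Agent.Z34
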