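import Mathlib
import Fermat.Agent.H27.NFCH

set_option autoImplicit false
set_option linter.unusedSectionVars false
set_option linter.style.haveILetI false

/-!
# PROGRAM Z: the lattice attached to a coinduced eigenvector
-/

namespace Fermat.Agent.Z34

open Matrix IsLocalRing

/-- coinduced module -/
def CI (O W : Type*) [CommRing O] [AddCommGroup W] : Type _ := O →+ W

namespace CI

variable {O W : Type*} [CommRing O] [AddCommGroup W]

instance : AddCommGroup (CI O W) := inferInstanceAs (AddCommGroup (O →+ W))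
instance : FunLike (CI O W) O W := inferInstanceAs (FunLike (O →+ W) O W)
instance : AddMonoidHomClass (CI O W) O W := inferInstanceAs (AddMonoidHomClass (O →+ W) O W)

theorem ext {y y' : CI O W} (h : ∀ b, y b = y' b) : y = y' := AddMonoidHom.ext h

instance : SMul O (CI O W) :=
  ⟨fun c y => (AddMonoidHom.comp (y : O →+ W) (AddMonoidHom.mulRight c) : O →+ W)⟩

theorem smul_apply (c b : O) (y : CI O W) : (c • y) b = y (b * c) := rfl

theorem add_apply (b : O) (y z : CI O W) : (y + z) b = y b + z b := rfl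

theorem zero_apply (b : O) : (0 : CI O W) b = 0 := rfl

instance : Module O (CI O W) where
  one_smul y := ext fun b => by rw [smul_apply, mul_one]
  mul_smul c d y := ext fun b => by rw [smul_apply, smul_apply, smul_apply, mul_assoc]
  smul_zero c := rfl
  smul_add c x y := rfl
  add_smul c d y := ext fun b => by
    rw [smul_apply, add_apply, smul_apply, smul_apply, mul_add, map_add]
  zero_smul y := ext fun b => by rw [smul_apply, mul_zero, map_zero]; rfl

/-- functoriality -/
def mapE (f : Module.End ℤ W) : Module.End O (CI O W) where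
  toFun y := (f.toAddMonoidHom.comp (y : O →+ W) : O →+ W)
  map_add' _ _ := ext fun _ => map_add f _ _
  map_smul' _ _ := rfl

theorem mapE_apply (f : Module.End ℤ W) (y : CI O W) (b : O) : mapE f y b = f (y b) := rfl

variable {𝕋 : Type*} [CommRing 𝕋] (act : 𝕋 →+* Module.End ℤ W) (π : 𝕋 →+* O) (I : Ideal O)

/-- the eigenspace -/
def eig : Submodule O (CI O W) where
  carrier := {y | (∀ b ∈ I, y b = 0) ∧ ∀ t b, act t (y b) = y (π t * b)}
  zero_mem' := ⟨fun _ _ => rfl, fun t b => map_zero _⟩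
  add_mem' {x y} hx hy := ⟨fun b hb => by rw [add_apply, hx.1 b hb, hy.1 b hb, add_zero],
    fun t b => by rw [add_apply, add_apply, map_add, hx.2, hy.2]⟩
  smul_mem' c y hy := ⟨fun b hb => by
    rw [smul_apply]; exact hy.1 _ (Ideal.mul_mem_right _ _ hb), fun t b => by
    rw [smul_apply, smul_apply, hy.2, mul_assoc]⟩

variable {act π I}

theorem mem_eig {y : CI O W} : y ∈ eig act π I ↔
    (∀ b ∈ I, y b = 0) ∧ ∀ t b, act t (y b) = y (π t * b) := Iff.rfl

variable {G : Type*} [Group G] {r : G →* Module.End ℤ W}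
  (hcomm : ∀ g t w, r g (act t w) = act t (r g w))

include hcomm in
theorem mapE_mem (g : G) {y : CI O W} (hy : y ∈ eig act π I) : mapE (r g) y ∈ eig act π I :=
  ⟨fun b hb => by rw [mapE_apply, hy.1 b hb, map_zero], fun t b => by
    rw [mapE_apply, mapE_apply, ← hcomm, hy.2]⟩

/-- the action of the group on the eigenspace -/
def repE : G →* Module.End O (eig act π I) where
  toFun g := (mapE (r g)).restrict fun _ hy => mapE_mem hcomm g hy
  map_one' := LinearMap.ext fun y => Subtype.ext (ext fun b => by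
    change r 1 ((y : CI O W) b) = _
    rw [map_one]; rfl)
  map_mul' g h := LinearMap.ext fun y => Subtype.ext (ext fun b => by
    change r (g * h) ((y : CI O W) b) = r g (r h ((y : CI O W) b))
    rw [map_mul]; rfl)

theorem repE_apply (g : G) (y : eig act π I) (b : O) :
    ((repE hcomm g y : eig act π I) : CI O W) b = r g ((y : CI O W) b) := rfl

theorem repE_CH {ρ : G →* M2 O} (hrel : ∀ g, ∃ (s : 𝕋) (c : ℕ), (ρ g).trace - π s ∈ I ∧
    (ρ g).det - (c : O) ∈ I ∧ ∀ w, act s w = r g w + c • r g⁻¹ w) :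
    CHRel ρ (repE (π := π) (I := I) hcomm) := by
  intro g
  refine LinearMap.ext fun y => Subtype.ext (ext fun b => ?_)
  obtain ⟨s, c, h1, h2, h3⟩ := hrel g
  have hy := y.2
  have e1 : (y : CI O W) (b * (ρ g).trace) = (y : CI O W) (π s * b) := by
    rw [← sub_eq_zero, ← map_sub]
    apply hy.1
    have : b * (ρ g).trace - π s * b = b * ((ρ g).trace - π s) := by ring
    rw [this]
    exact Ideal.mul_mem_left _ _ h1
  have e2 : (y : CI O W) (b * (ρ g).det) = c • (y : CI O W) b := by
    rw [← map_nsmul, ← sub_eq_zero, ← map_sub]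
    apply hy.1
    have : b * (ρ g).det - c • b = b * ((ρ g).det - c) := by rw [nsmul_eq_mul]; ring
    rw [this]
    exact Ideal.mul_mem_left _ _ h2
  change r g ((y : CI O W) b) + r g⁻¹ ((y : CI O W) (b * (ρ g).det)) =
    (y : CI O W) (b * (ρ g).trace)
  rw [e1, e2, ← hy.2, h3, map_nsmul]

end CI

section Main

variable {O : Type*} [CommRing O] [IsDomain O] [IsDiscreteValuationRing O]
  {W : Type*} [AddCommGroup W] {𝕋 : Type*} [CommRing 𝕋] {act : 𝕋 →+* Module.End ℤ W}
  {π : 𝕋 →+* O} {G : Type*} [Group G] {r : G →* Module.End ℤ W} {ρ : G →* M2 O}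

theorem mem_of_smul_mem {n : ℕ} {ϖ : O} (hϖ : Irreducible ϖ) {a : O}
    (h : a ∉ maximalIdeal O ^ (n + 1)) : ∃ c, c * a = ϖ ^ n := by
  have hm : maximalIdeal O = Ideal.span {ϖ} := hϖ.maximalIdeal_eq
  have ha0 : a ≠ 0 := by
    rintro rfl
    exact h (Ideal.zero_mem _)
  obtain ⟨k, u, hk⟩ := IsDiscreteValuationRing.eq_unit_mul_pow_irreducible ha0 hϖ
  have hkn : k ≤ n := by
    by_contra hlt
    apply h
    rw [hm, Ideal.span_singleton_pow, Ideal.mem_span_singleton, hk]
    exact (pow_dvd_pow ϖ (by omega)).mul_left _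
  refine ⟨ϖ ^ (n - k) * ((u⁻¹ : Oˣ) : O), ?_⟩
  rw [hk, mul_assoc, ← mul_assoc ((u⁻¹ : Oˣ) : O), Units.inv_mul, one_mul, ← pow_add,
    Nat.sub_add_cancel hkn]

/-- **The lattice attached to a coinduced eigenvector.** -/
theorem exists_lattice_map (hcomm : ∀ g t w, r g (act t w) = act t (r g w)) (n : ℕ)
    (hrel : ∀ g, ∃ (s : 𝕋) (c : ℕ), (ρ g).trace - π s ∈ maximalIdeal O ^ n ∧
      (ρ g).det - (c : O) ∈ maximalIdeal O ^ n ∧ ∀ w, act s w = r g w + c • r g⁻¹ w)
    {σ τ : G} (hσ : (ρ σ).trace = 2) (hσd : (ρ σ).det = 1)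
    (hτ : IsUnit (ρ τ * (ρ σ - 1)).trace) (h : O →+ W)
    (h1 : ∀ b ∈ maximalIdeal O ^ n, h b = 0) (h2 : ∀ t b, act t (h b) = h (π t * b))
    (h3 : ∀ b, (∀ c, h (c * b) = 0) → b ∈ maximalIdeal O ^ n) :
    ∃ j : (Fin 2 → O) →+ W, (∀ g v, j (ρ g *ᵥ v) = r g (j v)) ∧
      (∀ t v, act t (j v) = j (π t • v)) ∧
      ∀ v, (∀ c : O, j (c • v) = 0) ↔ ∀ i, v i ∈ maximalIdeal O ^ n := by
  obtain _ | n := n
  · refine ⟨0, fun g v => (map_zero _).symm, fun t v => map_zero _, fun v => ?_⟩
    rw [pow_zero, Ideal.one_eq_top]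
    exact ⟨fun _ _ => trivial, fun _ _ => rfl⟩
  obtain ⟨ϖ, hϖ⟩ := IsDiscreteValuationRing.exists_irreducible O
  set I := maximalIdeal O ^ (n + 1) with hI
  have hCH := CI.repE_CH (π := π) (I := I) hcomm hrel
  set R : G →* Module.End O (CI.eig act π I) := CI.repE hcomm with hR
  -- the eigenvector
  let e0 : CI.eig act π I := ⟨h, h1, h2⟩
  have he0 : ∀ b : O, b • e0 = 0 → b ∈ I := by
    intro b hb
    apply h3
    intro c
    have h4 := congrArg (fun y : CI.eig act π I => (y : CI O W) c) hb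
    exact h4
  have hkill : ∀ b ∈ I, ∀ e : CI.eig act π I, b • e = 0 := by
    intro b hb e
    refine Subtype.ext (CI.ext fun c => ?_)
    exact e.2.1 _ (Ideal.mul_mem_left _ _ hb)
  -- a good vector with exact annihilator
  have hex : ∃ e : CI.eig act π I, ϖ ^ n • ((R σ - 1) e) ≠ 0 := by
    by_contra hcon
    push Not at hcon
    have h4 := LinearMap.congr_fun (hCH.A4 hσ hσd τ) e0
    have h5 := congrArg (fun w => ϖ ^ n • w) h4
    have h6 : ϖ ^ n • (ρ τ * (ρ σ - 1)).trace • e0 = 0 := by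
      have h7 : (R τ * (R σ - 1) + (R σ - 1) * R τ - (ρ τ).trace • (R σ - 1)) e0 =
        R τ ((R σ - 1) e0) + (R σ - 1) (R τ e0) - (ρ τ).trace • ((R σ - 1) e0) := rfl
      have h8 : ((ρ τ * (ρ σ - 1)).trace • (1 : Module.End O (CI.eig act π I))) e0 =
        (ρ τ * (ρ σ - 1)).trace • e0 := rfl
      rw [h7, h8] at h5
      rw [← h5, smul_sub, smul_add, ← map_smul (R τ), hcon, map_zero, hcon, smul_smul, mul_comm,
        mul_smul, hcon, smul_zero, add_zero, sub_zero]
    rw [smul_smul] at h6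
    have h7 := he0 _ h6
    obtain ⟨d, hd⟩ := hτ.exists_left_inv
    have h8 : ϖ ^ n ∈ I := by
      have : ϖ ^ n = (ϖ ^ n * (ρ τ * (ρ σ - 1)).trace) * d := by
        rw [mul_assoc, mul_comm _ d, hd, mul_one]
      rw [this]
      exact Ideal.mul_mem_right _ _ h7
    rw [hI, hϖ.maximalIdeal_eq, Ideal.span_singleton_pow, Ideal.mem_span_singleton,
      pow_dvd_pow_iff hϖ.ne_zero hϖ.not_isUnit] at h8
    omega
  obtain ⟨e, he⟩ := hex
  have hann : ∀ b : O, b • ((R σ - 1) e) = 0 ↔ b ∈ I := by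
    intro b
    refine ⟨fun hb => ?_, fun hb => hkill b hb _⟩
    by_contra hcon
    obtain ⟨c, hc⟩ := mem_of_smul_mem hϖ hcon
    apply he
    rw [← hc, mul_smul, hb, smul_zero]
  obtain ⟨y0, hy0⟩ := exists_good_vec (N := ρ σ - 1) (T := ρ τ)
    (by rw [Matrix.trace_sub, hσ, Matrix.trace_one, Fintype.card_fin]; norm_num)
    (by
      have := hσd
      rw [Matrix.det_fin_two] at this ⊢
      rw [Matrix.trace_fin_two] at hσ
      simp only [Matrix.sub_apply, Matrix.one_apply_eq, Matrix.one_apply_ne, Ne, zero_ne_one,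
        not_false_eq_true, one_ne_zero, sub_zero]
      linear_combination this - hσ) hτ
  obtain ⟨J, hJ1, hJ2⟩ := hCH.exists_lattice hσ hσd hτ hy0 e
  let j : (Fin 2 → O) →+ W := AddMonoidHom.mk' (fun v => ((J v : CI.eig act π I) : CI O W) 1)
    (fun v w => by rw [map_add]; rfl)
  have hj : ∀ (c : O) v, j (c • v) = ((J v : CI.eig act π I) : CI O W) c := by
    intro c v
    change ((J (c • v) : CI.eig act π I) : CI O W) 1 = _
    rw [map_smul]
    change ((J v : CI.eig act π I) : CI O W) (1 * c) = _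
    rw [one_mul]
  refine ⟨j, fun g v => ?_, fun t v => ?_, fun v => ?_⟩
  · change ((J (ρ g *ᵥ v) : CI.eig act π I) : CI O W) 1 = _
    rw [hJ1]
    rfl
  · rw [hj]
    change act t (((J v : CI.eig act π I) : CI O W) 1) = _
    rw [(J v).2.2, mul_one]
  · have h4 : (∀ c : O, j (c • v) = 0) ↔ J v = 0 := by
      constructor
      · intro h5
        refine Subtype.ext (CI.ext fun c => ?_)
        rw [← hj, h5]
        rfl
      · intro h5 c
        rw [hj, h5]
        rfl
    rw [h4, hJ2]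
    exact forall_congr' fun i => hann _

end Main

end Fermat.Agent.Z34
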