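import Mathlib
import Fermat.Agent.H27.NFLat

set_option autoImplicit false
set_option linter.unusedSectionVars false
set_option linter.style.haveILetI false

/-!
# PROGRAM Z: the line at `2` from the lattices in the torsion of the Jacobian
-/

namespace Fermat.Agent.Z34

open Matrix IsLocalRing

variable {G : Type*} [Group G] {O : Type*} [CommRing O] [IsDomain O] [IsDiscreteValuationRing O]

/-- the data at finite level -/
def LatData (ρ : G →* M2 O) (I : Subgroup G) (φ : G) (p n : ℕ) : Prop :=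
  ∃ (J : Type) (_ : AddCommGroup J) (r : G →* Module.End ℤ J) (j : (Fin 2 → O) →+ J)
    (T : AddSubgroup J), (∀ g v, j (ρ g *ᵥ v) = r g (j v)) ∧
    (∀ v, (∀ c : O, j (c • v) = 0) ↔ ∀ i, v i ∈ maximalIdeal O ^ n) ∧
    (∀ σ ∈ I, ∀ v, r σ (j v) - j v ∈ T) ∧ (∀ v, r φ (r φ (j v)) - j v ∈ T) ∧
    ∀ v, j v ∈ T → p • j v = 0 → ∀ σ ∈ I, r σ (j v) = j v

theorem LatData.cr_mem {ρ : G →* M2 O} {I : Subgroup G} {φ : G} {p n : ℕ}
    (hp : (p : O) ∈ maximalIdeal O) (h : LatData ρ I φ p (n + 1)) {σ0 : G} (hσ0 : σ0 ∈ I)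
    {x0 : Fin 2 → O} (hunit : ∃ i, IsUnit ((ρ σ0 *ᵥ x0 - x0) i)) :
    (∀ σ ∈ I, ∀ w, cr (ρ σ0 *ᵥ x0 - x0) (ρ σ *ᵥ w - w) ∈ maximalIdeal O ^ (n + 1)) ∧
    ∀ w, cr (ρ σ0 *ᵥ x0 - x0) (ρ φ *ᵥ (ρ φ *ᵥ w) - w) ∈ maximalIdeal O ^ (n + 1) := by
  obtain ⟨J, instJ, r, j, T, hj, hker, hI, hφ, hT⟩ := h
  obtain ⟨ϖ, hϖ⟩ := IsDiscreteValuationRing.exists_irreducible O
  obtain ⟨ℓ, hℓ⟩ : ∃ ℓ, ℓ = ρ σ0 *ᵥ x0 - x0 := ⟨_, rfl⟩
  rw [← hℓ] at hunit ⊢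
  obtain ⟨w0, hw0⟩ := exists_cr_eq_one hunit
  have hsub : ∀ (g : G) (w : Fin 2 → O) (c : O), j (c • (ρ g *ᵥ w - w)) =
      r g (j (c • w)) - j (c • w) := by
    intro g w c
    rw [smul_sub, ← Matrix.mulVec_smul, map_sub, hj]
  have hℓL : ∀ c : O, j (c • ℓ) ∈ T := by
    intro c
    rw [hℓ, hsub]
    exact hI σ0 hσ0 _
  have hm : maximalIdeal O = Ideal.span {ϖ} := hϖ.maximalIdeal_eq
  -- elements of `L` killed by `p`
  have hsmall : ∀ v : Fin 2 → O, (∀ c : O, j (c • ϖ ^ n • v) ∈ T) →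
      ∀ i, (ρ σ0 *ᵥ v - v) i ∈ maximalIdeal O := by
    intro v hv i
    have h1 : ∀ c : O, j (c • (ρ σ0 *ᵥ (ϖ ^ n • v) - ϖ ^ n • v)) = 0 := by
      intro c
      rw [hsub]
      have h2 := hT (c • ϖ ^ n • v) (hv c) (by
        have h3 : p • j (c • ϖ ^ n • v) = j (c • (((p : O) * ϖ ^ n) • v)) := by
          rw [← map_nsmul, mul_smul, Nat.cast_smul_eq_nsmul, smul_comm]
        rw [h3]
        refine (hker (((p : O) * ϖ ^ n) • v)).mpr (fun i => ?_) c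
        rw [Pi.smul_apply, smul_eq_mul, pow_succ, mul_comm (p : O)]
        refine Ideal.mul_mem_right _ _ (Ideal.mul_mem_mul ?_ hp)
        rw [hm, Ideal.span_singleton_pow]
        exact Ideal.mem_span_singleton_self _) σ0 hσ0
      rw [h2, sub_self]
    rw [hker] at h1
    have h2 := h1 i
    rw [Matrix.mulVec_smul, ← smul_sub, Pi.smul_apply, smul_eq_mul, hm,
      Ideal.span_singleton_pow, Ideal.mem_span_singleton, pow_succ] at h2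
    rw [hm, Ideal.mem_span_singleton]
    exact (mul_dvd_mul_iff_left (pow_ne_zero n hϖ.ne_zero)).mp h2
  -- the key claim
  have key : ∀ z : Fin 2 → O, (∀ c : O, j (c • z) ∈ T) → cr ℓ z ∈ maximalIdeal O ^ (n + 1) := by
    intro z hz
    by_contra hcon
    obtain ⟨c, hc⟩ := mem_of_smul_mem hϖ hcon
    have h1 : cr ℓ (c • z - ϖ ^ n • w0) = 0 := by
      rw [cr_sub, cr_smul, cr_smul, hw0, hc, mul_one, sub_self]
    obtain ⟨a, ha⟩ := (cr_eq_zero_iff hunit).mp h1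
    have h2 : ∀ d : O, j (d • ϖ ^ n • w0) ∈ T := by
      intro d
      have h3 : ϖ ^ n • w0 = c • z - a • ℓ := by rw [← ha]; abel
      rw [h3, smul_sub, map_sub, smul_smul, smul_smul]
      exact sub_mem (hz _) (hℓL _)
    have h3 := hsmall w0 h2
    have h4 := hsmall ℓ (fun d => by rw [smul_smul]; exact hℓL _)
    -- every vector is fixed modulo the maximal ideal
    have h5 : ∀ i, (ρ σ0 *ᵥ x0 - x0) i ∈ maximalIdeal O := by
      intro i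
      have h6 := cramer ℓ w0 x0
      rw [hw0, one_smul] at h6
      have h7 : (ρ σ0 *ᵥ x0 - x0) i = cr x0 w0 * (ρ σ0 *ᵥ ℓ - ℓ) i +
          cr ℓ x0 * (ρ σ0 *ᵥ w0 - w0) i := by
        have h8 : ρ σ0 *ᵥ x0 - x0 = cr x0 w0 • (ρ σ0 *ᵥ ℓ - ℓ) +
            cr ℓ x0 • (ρ σ0 *ᵥ w0 - w0) := by
          conv_lhs => rw [h6]
          rw [Matrix.mulVec_add, Matrix.mulVec_smul, Matrix.mulVec_smul, smul_sub, smul_sub]
          abel
        rw [h8]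
        rfl
      rw [h7]
      exact add_mem (Ideal.mul_mem_left _ _ (h4 i)) (Ideal.mul_mem_left _ _ (h3 i))
    obtain ⟨i, hi⟩ := hunit
    rw [hℓ] at hi
    exact (h5 i) hi
  refine ⟨fun σ hσ w => key _ fun c => ?_, fun w => key _ fun c => ?_⟩
  · rw [hsub]
    exact hI σ hσ _
  · have h1 : j (c • (ρ φ *ᵥ (ρ φ *ᵥ w) - w)) = r φ (r φ (j (c • w))) - j (c • w) := by
      rw [smul_sub, ← Matrix.mulVec_smul, ← Matrix.mulVec_smul, map_sub, hj, hj]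
    rw [h1]
    exact hφ _

theorem eq_zero_of_forall_mem {a : O} (h : ∀ n, a ∈ maximalIdeal O ^ (n + 1)) : a = 0 := by
  have h1 : (⨅ n : ℕ, maximalIdeal O ^ n) = ⊥ :=
    Ideal.iInf_pow_eq_bot_of_isLocalRing _ (IsLocalRing.maximalIdeal.isMaximal O).ne_top
  have h2 : a ∈ (⨅ n : ℕ, maximalIdeal O ^ n) := by
    rw [Ideal.mem_iInf]
    intro n
    exact Ideal.pow_le_pow_right (Nat.le_succ n) (h n)
  rw [h1] at h2
  exact h2

/-- **The line from the lattices.** -/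
theorem exists_line_of_latData {ρ : G →* M2 O} {I : Subgroup G} {φ : G} {p : ℕ}
    (hp : (p : O) ∈ maximalIdeal O) (h : ∀ n, LatData ρ I φ p (n + 1)) {σ0 : G} (hσ0 : σ0 ∈ I)
    (hne : ¬ InM (maximalIdeal O) (ρ σ0 - 1)) (hconj : φ * σ0 * φ⁻¹ ∈ I) :
    ∃ (ℓ : Fin 2 → O) (u : O), (∃ i, IsUnit (ℓ i)) ∧ u * u = 1 ∧
      (∀ σ ∈ I, ∀ w, ∃ c : O, ρ σ *ᵥ w - w = c • ℓ) ∧
      ∀ w, ∃ c : O, ρ φ *ᵥ w - u • w = c • ℓ := by
  obtain ⟨x0, hunit⟩ : ∃ x0 : Fin 2 → O, ∃ i, IsUnit ((ρ σ0 *ᵥ x0 - x0) i) := by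
    unfold InM at hne
    push Not at hne
    obtain ⟨i, k, hik⟩ := hne
    refine ⟨Pi.single k 1, i, ?_⟩
    have h1 : (ρ σ0 *ᵥ (Pi.single k 1) - Pi.single k 1 : Fin 2 → O) i = (ρ σ0 - 1) i k := by
      rw [Matrix.mulVec_single_one, Pi.sub_apply, Matrix.col_apply, Matrix.sub_apply,
        Matrix.one_apply, Pi.single_apply]
    rw [h1]
    by_contra hcon
    exact hik hcon
  set ℓ := ρ σ0 *ᵥ x0 - x0 with hℓ
  have h1 : ∀ σ ∈ I, ∀ w, cr ℓ (ρ σ *ᵥ w - w) = 0 := fun σ hσ w =>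
    eq_zero_of_forall_mem fun n => ((h n).cr_mem hp hσ0 hunit).1 σ hσ w
  have h2 : ∀ w, cr ℓ (ρ φ *ᵥ (ρ φ *ᵥ w) - w) = 0 := fun w =>
    eq_zero_of_forall_mem fun n => ((h n).cr_mem hp hσ0 hunit).2 w
  obtain ⟨w0, hw0⟩ := exists_cr_eq_one hunit
  have h3 : cr ℓ (ρ φ *ᵥ ℓ) = 0 := by
    have h4 : ρ φ *ᵥ ℓ = ρ (φ * σ0 * φ⁻¹) *ᵥ (ρ φ *ᵥ x0) - ρ φ *ᵥ x0 := by
      rw [hℓ, Matrix.mulVec_sub, Matrix.mulVec_mulVec, Matrix.mulVec_mulVec, ← map_mul, ← map_mul,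
        inv_mul_cancel_right]
    rw [h4]
    exact h1 _ hconj _
  set u := cr ℓ (ρ φ *ᵥ w0) with hu
  have h5 : ∀ w, cr ℓ (ρ φ *ᵥ w) = u * cr ℓ w := by
    intro w
    have h6 := cramer ℓ w0 w
    rw [hw0, one_smul] at h6
    conv_lhs => rw [h6]
    rw [Matrix.mulVec_add, Matrix.mulVec_smul, Matrix.mulVec_smul, cr_add, cr_smul, cr_smul, h3,
      mul_zero, zero_add, mul_comm]
  refine ⟨ℓ, u, hunit, ?_, fun σ hσ w => (cr_eq_zero_iff hunit).mp (h1 σ hσ w), fun w => ?_⟩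
  · have h6 := h2 w0
    rw [cr_sub, h5, h5, hw0, mul_one] at h6
    exact sub_eq_zero.mp h6
  · apply (cr_eq_zero_iff hunit).mp
    rw [cr_sub, cr_smul, h5, sub_self]

end Fermat.Agent.Z34
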