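import Mathlib
import Fermat.Agent.H27.NFEv
import Fermat.Agent.H27.NFLine
import Fermat.Agent.H01.P.GeoNew

set_option autoImplicit false
set_option linter.unusedSectionVars false
set_option linter.style.haveILetI false
set_option maxSynthPendingDepth 3

/-!
# PROGRAM Z: the line at `2`
-/

noncomputable section

namespace Fermat.Agent.Z34

open Matrix IsLocalRing Module CongruenceSubgroup ModularCurve
open Fermat.Agent.H26 Fermat.Agent.H05 Fermat.Agent.CC

theorem exists_val_iff {T : Type*} [CommRing T] [IsDomain T] [IsDiscreteValuationRing T]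
    {a : T} (ha : a ≠ 0) : ∃ v : ℕ, ∀ (x : T) (n : ℕ),
      a * x ∈ maximalIdeal T ^ (n + v) ↔ x ∈ maximalIdeal T ^ n := by
  obtain ⟨ϖ, hϖ⟩ := IsDiscreteValuationRing.exists_irreducible T
  obtain ⟨v, u, hu⟩ := IsDiscreteValuationRing.eq_unit_mul_pow_irreducible ha hϖ
  refine ⟨v, fun x n => ?_⟩
  have hm : maximalIdeal T = Ideal.span {ϖ} := hϖ.maximalIdeal_eq
  rw [hm, Ideal.span_singleton_pow, Ideal.span_singleton_pow, Ideal.mem_span_singleton,
    Ideal.mem_span_singleton, hu, pow_add, mul_assoc, Units.dvd_mul_left, mul_comm (ϖ ^ n),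
    mul_dvd_mul_iff_left (pow_ne_zero v hϖ.ne_zero)]

section Geo

variable {M : ℕ} [NeZero M] (hM : Nat.Coprime 2 M)

/-- the toric part, as a subgroup of the new part -/
def newIncl (m : ℕ) [Algebra (AlgebraicClosure ℚ) ℂ] [NeZero m] :
    newSub M 2 m hM →+ JZero (M * 2) where
  toFun w := ((w : torForms (M * 2) m) : Tor (M * 2) m)
  map_zero' := rfl
  map_add' _ _ := rfl

variable [Algebra (AlgebraicClosure ℚ) ℂ] {m : ℕ} [NeZero m]

theorem newIncl_injective : Function.Injective (newIncl hM m) := fun _ _ h =>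
  Subtype.ext (Subtype.ext (Subtype.ext h))

theorem newIncl_gal (σ : GQ) (w : newSub M 2 m hM) :
    newIncl hM m (restrictMon (formsGal (M * 2) m) (newSub M 2 m hM) (galois_mem_newSub hM) σ w) =
      σ • newIncl hM m w := rfl

theorem newIncl_nsmul (w : newSub M 2 m hM) : m • newIncl hM m w = 0 :=
  tor_nsmul ((w : torForms (M * 2) m) : Tor (M * 2) m)

theorem newIncl_new [Fact (Nat.Prime 2)] (w : newSub M 2 m hM) :
    Q.aStar M 2 (newIncl hM m w) = 0 ∧ Q.aStar M 2 (Q.wS M 2 hM • newIncl hM m w) = 0 := by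
  have hw := (mem_newSub hM).mp w.2
  have e1 : Q.aStar M 2 (newIncl hM m w) = ((degTor M 2 m
      ((w : torForms (M * 2) m) : Tor (M * 2) m) : Tor M m) : JZero M) :=
    aStar_eq_degPush M 2 _
  have e2 : Q.aStar M 2 (Q.wS M 2 hM • newIncl hM m w) = ((degTor M 2 m
      (wTor M 2 m hM ((w : torForms (M * 2) m) : Tor (M * 2) m)) : Tor M m) : JZero M) :=
    aStar_eq_degPush M 2 _
  exact ⟨e1.trans ((congrArg (fun z : Tor M m => (z : JZero M)) hw.1).trans
    (AddSubgroup.coe_zero _)), e2.trans ((congrArg (fun z : Tor M m => (z : JZero M)) hw.2).trans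
    (AddSubgroup.coe_zero _))⟩

omit [Algebra (AlgebraicClosure ℚ) ℂ] [NeZero m] in
theorem frob_sq_mem' [Fact (Nat.Prime 2)] (hm : m ≠ 0) {A : ValuationSubring Qb}
    (hA : A.LiesOverPrime 2) {φ : GQ} (hφ : A.IsFrobeniusAt φ 2) {x : JZero (M * 2)}
    (hx : m • x = 0) (h1 : Q.aStar M 2 x = 0) (h2 : Q.aStar M 2 (Q.wS M 2 hM • x) = 0) :
    φ • φ • x - x ∈ Q.TSub A M 2 m hM := by
  rw [aStar_eq_degPush] at h1 h2
  set wS := Q.wS M 2 hM with hw
  have key : ∀ y : JZero (M * 2), m • y = 0 → degPush Qb M 2 y = 0 →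
      degPush Qb M 2 (wS • y) = 0 → y + φ • wS • y ∈ Q.TSub A M 2 m hM :=
    fun y hy hy1 hy2 => Q.frobenius_mem_TSub (M := M) (r := 2) hA hM hm φ hφ hy
      ((aStar_eq_degPush M 2 y).trans hy1) ((aStar_eq_degPush M 2 _).trans hy2)
  have ht1 : m • wS • x = 0 := by
    rw [Q.nsmul_wS, hx, smul_zero]
  have hww : wS • wS • x = x := Q.wS_wS M 2 hM x
  have ht2 : m • φ • wS • x = 0 := by
    have h3 := map_nsmul (DistribSMul.toAddMonoidHom (JZero (M * 2)) φ) m (wS • x)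
    rw [ht1, map_zero] at h3
    exact h3.symm
  have k2 := key (φ • wS • x) ht2 (by rw [degPush_galois, h2, smul_zero]) (by
    rw [← Q.galois_wS, hww, degPush_galois, h1, smul_zero])
  rw [← Q.galois_wS, hww] at k2
  have k3 := key x hx h1 h2
  have h4 : φ • φ • x - x = (φ • wS • x + φ • φ • x) - (x + φ • wS • x) := by abel
  rw [h4]
  exact sub_mem k2 k3

theorem frob_sq_mem [Fact (Nat.Prime 2)] (hm : m ≠ 0) {A : ValuationSubring Qb}
    (hA : A.LiesOverPrime 2) {φ : GQ} (hφ : A.IsFrobeniusAt φ 2) (w : newSub M 2 m hM) :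
    φ • φ • newIncl hM m w - newIncl hM m w ∈ Q.TSub A M 2 m hM :=
  frob_sq_mem' hM hm hA hφ (newIncl_nsmul hM w) (newIncl_new hM w).1 (newIncl_new hM w).2

omit [Algebra (AlgebraicClosure ℚ) ℂ] [NeZero m] in
theorem inertia_fix' [Fact (Nat.Prime 2)] {k : ℕ}
    {A : ValuationSubring Qb} (hA : A.LiesOverPrime 2) {x : JZero (M * 2)}
    (hw : x ∈ Q.TSub A M 2 (2 ^ (k + 1)) hM) (h2 : 2 • x = 0)
    (h3 : Q.aStar M 2 x = 0) (h4 : Q.aStar M 2 (Q.wS M 2 hM • x) = 0)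
    {σ : GQ} (hσ : σ ∈ A.inertiaSubgroupIn ℚ) : σ • x = x := by
  have h5 : x ∈ Q.KInf A M 2 2 := by
    have h6 : x ∈ Q.KInf A M 2 (2 * 2 ^ k) := by
      rw [← pow_succ']
      exact hw.1
    exact (Q.mem_KInf_mul_iff hA hM two_ne_zero (pow_ne_zero k two_ne_zero) h2).mp h6
  have hζ : IsPrimitiveRoot (-1 : AlgebraicClosure ℚ) 2 := by
    refine IsPrimitiveRoot.mk_of_lt _ two_pos (by norm_num) ?_
    intro l hl0 hl2
    have : l = 1 := by omega
    subst this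
    rw [pow_one]
    norm_num
  have h7 := P.inertia_new hM hA hζ h5 h3 h4 hσ (a := 1) (by rw [pow_one, map_neg, map_one])
  rw [h7, one_smul]

theorem inertia_fix [Fact (Nat.Prime 2)] {k : ℕ} [NeZero (2 ^ (k + 1))]
    {A : ValuationSubring Qb} (hA : A.LiesOverPrime 2) (w : newSub M 2 (2 ^ (k + 1)) hM)
    (hw : newIncl hM (2 ^ (k + 1)) w ∈ Q.TSub A M 2 (2 ^ (k + 1)) hM)
    (h2 : 2 • newIncl hM (2 ^ (k + 1)) w = 0) {σ : GQ} (hσ : σ ∈ A.inertiaSubgroupIn ℚ) :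
    σ • newIncl hM (2 ^ (k + 1)) w = newIncl hM (2 ^ (k + 1)) w :=
  inertia_fix' hM hA hw h2 (newIncl_new hM w).1 (newIncl_new hM w).2 hσ

end Geo


section Forms

variable {N : ℕ} [NeZero N] {g : CuspForm (Gamma0 N) 2} (hg : g ≠ 0)
  {S : Finset ℕ}
  {O : Type} [CommRing O] [IsDomain O] [IsDiscreteValuationRing O] [CharZero O]
  [Finite (ResidueField O)]
  {R : Subring ℂ} (φ0 : R →+* O) (hφ0 : Function.Injective φ0)
  (chi : CuspForm.heckeAlgebra N 2 (↑S : Set ℕ) →+* ℂ) (hR : ∀ t, chi t ∈ R)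
  (hchi : ∀ t : CuspForm.heckeAlgebra N 2 (↑S : Set ℕ),
    (t : Module.End ℂ (CuspForm (Gamma0 N) 2)) g = chi t • g)

set_option maxHeartbeats 4000000 in
include hg hφ0 hchi in
/-- the eigenvectors in the forms part -/
theorem exists_ev_forms [Algebra (AlgebraicClosure ℚ) ℂ] (n m : ℕ) [NeZero m]
    (hm : (m : O) ∈ maximalIdeal O ^ n) :
    ∃ h : O →+ torForms N m,
      (∀ b ∈ maximalIdeal O ^ n, h b = 0) ∧
      (∀ t b, H22.formsPartActAway N (torAct N m) (↑S : Set ℕ) t (h b) =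
          h (φ0 ⟨chi t, hR t⟩ * b)) ∧
      ∀ b, (∀ c, h (c * b) = 0) → b ∈ maximalIdeal O ^ n := by
  have key := exists_ev_tor (N := N) φ0 hφ0 hg n m hm
  obtain ⟨h₀, key1⟩ := key
  obtain ⟨hT, key2⟩ := key1
  obtain ⟨hz, hz'⟩ := key2
  have hforms : ∀ b, h₀ b ∈ torForms N m := by
    intro b T hT0
    have h1 := hT T 0 (by
      rw [hT0]
      simp) b
    have e1 : φ0 0 * b = 0 := by rw [map_zero φ0, zero_mul]
    rw [e1] at h1
    exact h1.trans (AddMonoidHom.map_zero h₀)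
  refine ⟨h₀.codRestrict (torForms N m) hforms, fun b hb => ?_, fun t b => ?_, fun b hb => ?_⟩
  · exact Subtype.ext (hz b hb)
  · obtain ⟨T, hTt⟩ := H22.heckeEvalForms_surjective (N := N)
      (H22.awayIncl N (↑S : Set ℕ) t)
    have hTt' : (CuspForm.heckeEvalForms N 2 T :
        Module.End ℂ (CuspForm (Gamma0 N) 2)) = t := by
      rw [hTt, H22.coe_awayIncl]
    apply Subtype.ext
    rw [H22.formsPartActAway_apply (torAct N m) t T hTt']
    exact hT T ⟨chi t, hR t⟩ (by rw [hTt', hchi t]) b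
  · exact hz' b fun c => congrArg Subtype.val (hb c)

end Forms

section Lat

variable {M : ℕ} [NeZero M] (hM : Nat.Coprime 2 M) {g : CuspForm (Gamma0 (M * 2)) 2} (hg : g ≠ 0)
  {S : Finset ℕ} (h2S : 2 ∈ (↑S : Set ℕ))
  {O : Type} [CommRing O] [IsDomain O] [IsDiscreteValuationRing O] [CharZero O]
  [Finite (ResidueField O)] (h2O : (2 : O) ∈ maximalIdeal O)
  {R : Subring ℂ} (φ0 : R →+* O) (hφ0 : Function.Injective φ0)
  (chi : CuspForm.heckeAlgebra (M * 2) 2 (↑S : Set ℕ) →+* ℂ) (hR : ∀ t, chi t ∈ R)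
  (hchi : ∀ t : CuspForm.heckeAlgebra (M * 2) 2 (↑S : Set ℕ),
    (t : Module.End ℂ (CuspForm (Gamma0 (M * 2)) 2)) g = chi t • g)

/-- the character with values in `O` -/
def piR {N : ℕ} [NeZero N] {S : Set ℕ} (φ0 : R →+* O)
    (chi : CuspForm.heckeAlgebra N 2 S →+* ℂ) (hR : ∀ t, chi t ∈ R) :
    CuspForm.heckeAlgebra N 2 S →+* O := φ0.comp (chi.codRestrict R hR)

set_option maxHeartbeats 1000000 in
include hg h2O hφ0 hchi in
/-- the eigenvectors in the new part -/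
theorem exists_ev_new [Algebra (AlgebraicClosure ℚ) ℂ] (t₀ : awayPoly (↑S : Set ℕ))
    (ht₀ : CuspForm.heckeEvalForms M 2 (t₀ : HeckeAlg) = 0)
    (hne : chi (awayEval (M * 2) (↑S : Set ℕ) t₀) ≠ 0) (n : ℕ) :
    ∃ k, ∃ _ : NeZero (2 ^ (k + 1)), ∃ h : O →+ newSub M 2 (2 ^ (k + 1)) hM,
      (∀ b ∈ maximalIdeal O ^ n, h b = 0) ∧
      (∀ t b, restrictRing (H22.formsPartActAway (M * 2) (torAct (M * 2) (2 ^ (k + 1)))
        (↑S : Set ℕ)) (newSub M 2 (2 ^ (k + 1)) hM)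
        (hecke_mem_newSub Nat.prime_two hM h2S) t (h b) =
          h (piR φ0 chi hR t * b)) ∧
      ∀ b, (∀ c, h (c * b) = 0) → b ∈ maximalIdeal O ^ n := by
  have key0 := exists_bound_torAct (N := M)
  obtain ⟨e, he, hbound⟩ := key0
  have key0 : ∃ a : O, a = (e : O) * φ0 ⟨chi (awayEval (M * 2) (↑S : Set ℕ) t₀), hR _⟩ :=
    ⟨_, rfl⟩
  obtain ⟨a, ha⟩ := key0
  have ha0 : a ≠ 0 := by
    rw [ha]
    refine mul_ne_zero (by exact_mod_cast he.ne') ?_
    intro h0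
    apply hne
    have h1 : (⟨chi (awayEval (M * 2) (↑S : Set ℕ) t₀), hR _⟩ : R) = 0 := hφ0 (by
      rw [map_zero]; exact h0)
    exact congrArg Subtype.val h1
  have key0 := exists_val_iff ha0
  obtain ⟨v, hv⟩ := key0
  have hk0 : 2 ^ (n + v + 1) ≠ 0 := pow_ne_zero _ two_ne_zero
  haveI inst : NeZero (2 ^ (n + v + 1)) := ⟨hk0⟩
  have hk : ((2 ^ (n + v + 1) : ℕ) : O) ∈ maximalIdeal O ^ (n + v) := by
    rw [Nat.cast_pow]
    exact Ideal.pow_le_pow_right (Nat.le_succ (n + v))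
      (Ideal.pow_mem_pow (by exact_mod_cast h2O) _)
  have key := exists_ev_forms (N := M * 2) hg φ0 hφ0 chi hR hchi (n + v) (2 ^ (n + v + 1)) hk
  obtain ⟨h₀, key1⟩ := key
  obtain ⟨hz, key2⟩ := key1
  obtain ⟨hT, hz'⟩ := key2
  have hT : ∀ (t : CuspForm.heckeAlgebra (M * 2) 2 (↑S : Set ℕ)) (b : O),
      H22.formsPartActAway (M * 2) (torAct (M * 2) (2 ^ (n + v + 1))) (↑S : Set ℕ) t (h₀ b) =
        h₀ (piR φ0 chi hR t * b) := hT
  have h2 : piR φ0 chi hR ((e : CuspForm.heckeAlgebra (M * 2) 2 (↑S : Set ℕ)) *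
      awayEval (M * 2) (↑S : Set ℕ) t₀) = a := by
    rw [map_mul, map_natCast, ha]
    rfl
  have hnew : ∀ b, h₀ (a * b) ∈ newSub M 2 (2 ^ (n + v + 1)) hM := by
    intro b
    have h1 := bound_mem_newSub (m := 2 ^ (n + v + 1)) Nat.prime_two hM (S := (↑S : Set ℕ))
      h2S t₀ (fun x => hbound (2 ^ (n + v + 1)) x _ ht₀) (h₀ b)
    rw [hT, h2] at h1
    exact h1
  let h₁ : O →+ torForms (M * 2) (2 ^ (n + v + 1)) := h₀.comp (AddMonoidHom.mulLeft a)
  refine ⟨n + v, inst, h₁.codRestrict (newSub M 2 (2 ^ (n + v + 1)) hM) hnew, fun b hb => ?_,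
    fun t b => ?_, fun b hb => ?_⟩
  · exact Subtype.ext (hz _ ((hv b n).mpr hb))
  · have e1 : a * (piR φ0 chi hR t * b) = piR φ0 chi hR t * (a * b) := by ring
    have e2 := hT t (a * b)
    rw [← e1] at e2
    exact Subtype.ext e2
  · refine (hv b n).mp (hz' (a * b) fun c => ?_)
    have h1 : h₀ (a * (c * b)) = 0 := congrArg Subtype.val (hb c)
    have e1 : c * (a * b) = a * (c * b) := by ring
    exact (congrArg h₀ e1).trans h1


omit [NeZero M] in
theorem formsGal_comm [Algebra (AlgebraicClosure ℚ) ℂ] {N : ℕ} [NeZero N] (m : ℕ) [NeZero m]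
    (S : Set ℕ) (σ : GQ) (t : CuspForm.heckeAlgebra N 2 S) (w : torForms N m) :
    formsGal N m σ (H22.formsPartActAway N (torAct N m) S t w) =
      H22.formsPartActAway N (torAct N m) S t (formsGal N m σ w) := by
  have key := H22.heckeEvalForms_surjective (N := N) (H22.awayIncl N S t)
  obtain ⟨T, hTt⟩ := key
  have hTt' : (CuspForm.heckeEvalForms N 2 T :
      Module.End ℂ (CuspForm (Gamma0 N) 2)) = t := by
    rw [hTt, H22.coe_awayIncl]
  have h1 := H22.formsPartActAway_apply (torAct N m) t T hTt' w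
  have h2 := H22.formsPartActAway_apply (torAct N m) t T hTt' (formsGal N m σ w)
  have h3 : ((formsGal N m σ (H22.formsPartActAway N (torAct N m) S t w) : torForms N m) :
      Tor N m) = torGal N m σ
        ((H22.formsPartActAway N (torAct N m) S t w : torForms N m) : Tor N m) := rfl
  have h4 := congrArg (fun z : Tor N m => torGal N m σ z) h1
  have h5 := torGal_torAct N m σ T (w : Tor N m)
  exact Subtype.ext (h3.trans (h4.trans (h5.trans h2.symm)))

set_option maxHeartbeats 1000000 in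
include hM hg h2S h2O hφ0 hchi in
/-- **The lattices at `2`.** -/
theorem latData_two (t₀ : awayPoly (↑S : Set ℕ))
    (ht₀ : CuspForm.heckeEvalForms M 2 (t₀ : HeckeAlg) = 0)
    (hne : chi (awayEval (M * 2) (↑S : Set ℕ) t₀) ≠ 0) {ρ : GQ →* M2 O}
    (hCH : NFRel (piR φ0 chi hR) ρ) {σ τ : GQ} (hσ : (ρ σ).trace = 2) (hσd : (ρ σ).det = 1)
    (hτ : IsUnit (ρ τ * (ρ σ - 1)).trace) {A : ValuationSubring Qb} (hA : A.LiesOverPrime 2)
    {φ : GQ} (hφ : A.IsFrobeniusAt φ 2) (n : ℕ) :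
    LatData ρ (A.inertiaSubgroupIn ℚ) φ 2 (n + 1) := by
  letI : Algebra (AlgebraicClosure ℚ) ℂ :=
    (IsAlgClosed.lift : AlgebraicClosure ℚ →ₐ[ℚ] ℂ).toRingHom.toAlgebra
  have key := exists_ev_new hM hg h2S h2O φ0 hφ0 chi hR hchi t₀ ht₀ hne (n + 1)
  obtain ⟨k, inst, h, hz, hT, hz'⟩ := key
  have hr : GaloisFactorsThroughFiniteLevel (restrictMon (formsGal (M * 2) (2 ^ (k + 1)))
      (newSub M 2 (2 ^ (k + 1)) hM) (galois_mem_newSub hM)) :=
    finiteLevel_restrictMon _ _ _ (formsGal_finiteLevel (M * 2) (2 ^ (k + 1)))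
  have hES := esAt_of_geom esHyp Nat.prime_two (M * 2)
  have hrel := hCH (newSub M 2 (2 ^ (k + 1)) hM)
    (restrictRing (H22.formsPartActAway (M * 2) (torAct (M * 2) (2 ^ (k + 1)))
        (↑S : Set ℕ)) (newSub M 2 (2 ^ (k + 1)) hM)
        (hecke_mem_newSub Nat.prime_two hM h2S)) (restrictMon (formsGal (M * 2) (2 ^ (k + 1)))
      (newSub M 2 (2 ^ (k + 1)) hM) (galois_mem_newSub hM)) hr
      (fun ℓ hℓ hℓN hℓS hℓp A hA φ hφ => es_restrict _ _ _ _ _ _ φ ℓ
        (es_forms hES (k + 1) hℓ hℓN hℓS hℓp A hA φ hφ)) (n + 1)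
  have hcomm : ∀ g t w, restrictMon (formsGal (M * 2) (2 ^ (k + 1)))
      (newSub M 2 (2 ^ (k + 1)) hM) (galois_mem_newSub hM) g
      (restrictRing (H22.formsPartActAway (M * 2) (torAct (M * 2) (2 ^ (k + 1)))
        (↑S : Set ℕ)) (newSub M 2 (2 ^ (k + 1)) hM)
        (hecke_mem_newSub Nat.prime_two hM h2S) t w) =
      restrictRing (H22.formsPartActAway (M * 2) (torAct (M * 2) (2 ^ (k + 1)))
        (↑S : Set ℕ)) (newSub M 2 (2 ^ (k + 1)) hM)
        (hecke_mem_newSub Nat.prime_two hM h2S) t (restrictMon (formsGal (M * 2) (2 ^ (k + 1)))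
      (newSub M 2 (2 ^ (k + 1)) hM) (galois_mem_newSub hM) g w) := fun g t w =>
    Subtype.ext (formsGal_comm _ _ g t (w : torForms (M * 2) (2 ^ (k + 1))))
  have lat := exists_lattice_map hcomm (n + 1) hrel hσ hσd hτ h hz hT hz'
  obtain ⟨j, hj1, hj2, hj3⟩ := lat
  refine ⟨newSub M 2 (2 ^ (k + 1)) hM, inferInstance, _, j,
    (Q.TSub A M 2 (2 ^ (k + 1)) hM).comap (newIncl hM (2 ^ (k + 1))), hj1, hj3, ?_, ?_, ?_⟩
  · intro s hs v
    exact Q.inertia_mem_TSub hA hM s hs (newIncl_nsmul hM (j v))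
  · intro v
    exact frob_sq_mem hM (pow_ne_zero _ two_ne_zero) hA hφ (j v)
  · intro v hv h2v s hs
    apply newIncl_injective hM
    refine inertia_fix hM hA (j v) hv ?_ hs
    have h3 := congrArg (newIncl hM (2 ^ (k + 1))) h2v
    have h4 := AddMonoidHom.map_nsmul (newIncl hM (2 ^ (k + 1))) 2 (j v)
    exact h4.symm.trans (h3.trans (AddMonoidHom.map_zero _))

end Lat

end Fermat.Agent.Z34
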