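import Mathlib
import Fermat.Agent.H27.NFTwo
import Fermat.Agent.H27.NFOdd
import Fermat.Agent.H23.EigenChar

set_option autoImplicit false
set_option linter.unusedSectionVars false
set_option linter.style.haveILetI false
set_option maxSynthPendingDepth 3

/-!
# PROGRAM Z: the line at `2` of a newform
-/

noncomputable section

namespace Fermat.Agent.Z34

open Matrix IsLocalRing Module CongruenceSubgroup ModularCurve Polynomial
open Fermat.Agent.H26 Fermat.Agent.H05 Fermat.Agent.CC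
open ModularFormClass (qCoeff)

section ToRep

variable {O : Type} [CommRing O] [IsLocalRing O]

/-- the adic representation attached to a continuous matrix representation -/
def matToRep (ρ : GQ →* M2 O)
    (hcont : ∀ n : ℕ, ∃ F : IntermediateField ℚ Qb, FiniteDimensional ℚ F ∧
        ∀ u ∈ F.fixingSubgroup, InM (maximalIdeal O ^ n) (ρ u - 1)) : GaloisRepAdic O where
  V := Fin 2 → O
  finrank_eq := by rw [Module.finrank_fintype_fun_eq_card, Fintype.card_fin]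
  ρ := (Matrix.toLinAlgEquiv' : M2 O ≃ₐ[O] _).toAlgHom.toRingHom.toMonoidHom.comp ρ
  isAdicContinuous := by
    intro n
    obtain ⟨F, hF, h⟩ := hcont n
    refine ⟨F, hF, fun σ hσ v => ?_⟩
    have h1 := h σ (by rw [IntermediateField.mem_fixingSubgroup_iff]; exact hσ)
    change ρ σ *ᵥ v - v ∈ _
    have h2 : ρ σ *ᵥ v - v = (ρ σ - 1) *ᵥ v := by
      rw [Matrix.sub_mulVec, Matrix.one_mulVec]
    rw [h2, pi_eq_sum_univ ((ρ σ - 1) *ᵥ v)]
    refine Submodule.sum_mem _ fun i _ => Submodule.smul_mem_smul ?_ trivial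
    rw [Matrix.mulVec, dotProduct]
    exact Ideal.sum_mem _ fun j _ => Ideal.mul_mem_right _ _ (h1 i j)

variable {ρ : GQ →* M2 O}
  (hcont : ∀ n : ℕ, ∃ F : IntermediateField ℚ Qb, FiniteDimensional ℚ F ∧
        ∀ u ∈ F.fixingSubgroup, InM (maximalIdeal O ^ n) (ρ u - 1))

theorem matToRep_apply (g : GQ) : (matToRep ρ hcont).ρ g = Matrix.toLin' (ρ g) := rfl

theorem matToRep_trace (g : GQ) :
    LinearMap.trace O (matToRep ρ hcont).V ((matToRep ρ hcont).ρ g) = (ρ g).trace :=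
  Matrix.trace_toLin'_eq (ρ g)

theorem matToRep_det (g : GQ) : LinearMap.det ((matToRep ρ hcont).ρ g) = (ρ g).det :=
  LinearMap.det_toLin' (ρ g)

theorem matToRep_charpoly (g : GQ) :
    LinearMap.charpoly ((matToRep ρ hcont).ρ g) =
      X ^ 2 - C (ρ g).trace * X + C (ρ g).det := by
  have h1 := LinearMap.charpoly_toMatrix (Matrix.toLin' (ρ g)) (Pi.basisFun O (Fin 2))
  have h2 : LinearMap.toMatrix (Pi.basisFun O (Fin 2)) (Pi.basisFun O (Fin 2))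
      (Matrix.toLin' (ρ g)) = ρ g := by
    rw [LinearMap.toMatrix_eq_toMatrix', LinearMap.toMatrix'_toLin']
  rw [h2, Matrix.charpoly_fin_two] at h1
  exact h1.symm

include hcont in
/-- the trace relation from continuity and the Frobenius elements -/
theorem nfRel_of {N : ℕ} [NeZero N] {S : Finset ℕ} (h2S : 2 ∈ S)
    (hNS : ∀ q : ℕ, q.Prime → q ∣ N → q ∈ S)
    (π : CuspForm.heckeAlgebra N 2 (↑S : Set ℕ) →+* O)
    (hfrob : ∀ (ℓ : ℕ) (hℓ : ℓ.Prime) (hℓM : ¬ ℓ ∣ N) (hℓS : ℓ ∉ (↑S : Set ℕ)),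
        ∀ A : ValuationSubring Qb, A.LiesOverPrime ℓ → ∀ φ : GQ, A.IsFrobeniusAt φ ℓ →
          (ρ φ).trace = π (CuspForm.heckeAlgebra.T hℓ hℓM hℓS) ∧ (ρ φ).det = ℓ) :
    NFRel π ρ := by
  intro W _ act r hr hES n g
  obtain ⟨s, c, hs1, hs2, hs3, -⟩ := exists_hecke_trace_det H25.weakChebotarev Nat.prime_two h2S
    hNS (matToRep ρ hcont) π (by
      intro ℓ hℓ hℓN hℓS A hA σ hσ
      obtain ⟨h1, h2⟩ := hfrob ℓ hℓ hℓN hℓS A hA σ hσ
      rw [matToRep_charpoly, h1, h2]) act r hr hES n 0 1 (one_pow _) g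
  refine ⟨s, c, ?_, ?_, hs3⟩
  · rwa [matToRep_trace] at hs1
  · rwa [matToRep_det] at hs2

end ToRep

section Resid

variable {O : Type} [CommRing O] [IsLocalRing O]

theorem val_eq_of_sub_mem {a b : ZMod 2}
    (h : ((a.val : ℕ) : O) - ((b.val : ℕ) : O) ∈ maximalIdeal O) : a = b := by
  have h1 : (1 : O) ∉ maximalIdeal O := fun h =>
    (Ideal.ne_top_iff_one _).mp (maximalIdeal.isMaximal O).ne_top h
  fin_cases a <;> fin_cases b
  · rfl
  · exfalso; apply h1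
    have h3 : ((((0 : Fin 2) : ZMod 2).val : ℕ) : O) - (((1 : ZMod 2).val : ℕ) : O) = -1 := by
      have e0 : (0 : ZMod 2).val = 0 := rfl
      have e1 : (1 : ZMod 2).val = 1 := rfl
      change (((0 : ZMod 2).val : ℕ) : O) - (((1 : ZMod 2).val : ℕ) : O) = -1
      rw [e0, e1]; simp
    have h4 : (-1 : O) ∈ maximalIdeal O := by
      rw [← h3]; exact h
    exact neg_mem_iff.mp h4
  · exfalso; apply h1
    have e0 : (0 : ZMod 2).val = 0 := rfl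
    have e1 : (1 : ZMod 2).val = 1 := rfl
    have h3 : (((1 : ZMod 2).val : ℕ) : O) - (((0 : ZMod 2).val : ℕ) : O) ∈ maximalIdeal O := h
    rw [e0, e1] at h3
    simp at h3
  · rfl

theorem one_of_traces_aux : ∀ a b c d : ZMod 2, a + d = 0 → a + c + d = 0 → c + b = 0 →
    c + b + d = 1 → a = 1 ∧ b = 0 ∧ c = 0 ∧ d = 1 := by
  decide

theorem one_of_traces {M : M2 (ZMod 2)} (h1 : M.trace = (1 : M2 (ZMod 2)).trace)
    (h2 : ((!![1, 1; 0, 1] : M2 (ZMod 2)) * M).trace = (!![1, 1; 0, 1] : M2 (ZMod 2)).trace)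
    (h3 : ((!![0, 1; 1, 0] : M2 (ZMod 2)) * M).trace = (!![0, 1; 1, 0] : M2 (ZMod 2)).trace)
    (h4 : ((!![0, 1; 1, 0] : M2 (ZMod 2)) * !![1, 1; 0, 1] * M).trace =
      ((!![0, 1; 1, 0] : M2 (ZMod 2)) * !![1, 1; 0, 1]).trace) : M = 1 := by
  have e0 : (1 : M2 (ZMod 2)).trace = 0 := by decide
  have e1 : (!![1, 1; 0, 1] : M2 (ZMod 2)).trace = 0 := by decide
  have e2 : (!![0, 1; 1, 0] : M2 (ZMod 2)).trace = 0 := by decide
  have e3 : ((!![0, 1; 1, 0] : M2 (ZMod 2)) * !![1, 1; 0, 1]) = !![0, 1; 1, 1] := by decide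
  have e4 : (!![0, 1; 1, 1] : M2 (ZMod 2)).trace = 1 := by decide
  rw [e0, Matrix.trace_fin_two] at h1
  rw [e1, Matrix.trace_fin_two, Matrix.mul_apply, Matrix.mul_apply, Fin.sum_univ_two,
    Fin.sum_univ_two] at h2
  rw [e2, Matrix.trace_fin_two, Matrix.mul_apply, Matrix.mul_apply, Fin.sum_univ_two,
    Fin.sum_univ_two] at h3
  rw [e3, e4, Matrix.trace_fin_two, Matrix.mul_apply, Matrix.mul_apply, Fin.sum_univ_two,
    Fin.sum_univ_two] at h4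
  simp at h2 h3 h4
  obtain ⟨a1, a2, a3, a4⟩ := one_of_traces_aux (M 0 0) (M 0 1) (M 1 0) (M 1 1) h1
    (by rw [← h2]) (by rw [← h3]) (by rw [← h4]; ring)
  ext i j
  fin_cases i <;> fin_cases j <;> simp [a1, a2, a3, a4]

variable {ρ : GQ →* M2 O} {ρ0 : GQ →* M2 (ZMod 2)} (h2 : (2 : O) ∈ maximalIdeal O)
  (hres : ∀ s, (ρ s).trace - (((ρ0 s).trace.val : ℕ) : O) ∈ maximalIdeal O)

include h2 hres

theorem residual_ne {σ τ σ0 : GQ} (hσ : ρ0 σ = !![1, 1; 0, 1]) (hτ : ρ0 τ = !![0, 1; 1, 0])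
    (hσ0 : ρ0 σ0 ≠ 1) : ¬ InM (maximalIdeal O) (ρ σ0 - 1) := by
  intro h
  apply hσ0
  have key : ∀ x : GQ, (ρ0 x * ρ0 σ0).trace = (ρ0 x).trace := by
    intro x
    have h3 : (ρ (x * σ0)).trace - (ρ x).trace ∈ maximalIdeal O := by
      have h4 : (ρ (x * σ0)).trace - (ρ x).trace = (ρ x * (ρ σ0 - 1)).trace := by
        rw [map_mul, mul_sub, mul_one, Matrix.trace_sub]
      rw [h4, Matrix.trace_fin_two]
      exact add_mem (h.mul_left _ 0 0) (h.mul_left _ 1 1)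
    have h5 := hres (x * σ0)
    have h6 := hres x
    rw [← map_mul]
    apply val_eq_of_sub_mem (O := O)
    have h7 : (((ρ0 (x * σ0)).trace.val : ℕ) : O) - (((ρ0 x).trace.val : ℕ) : O) =
        ((ρ (x * σ0)).trace - (ρ x).trace) -
          ((ρ (x * σ0)).trace - (((ρ0 (x * σ0)).trace.val : ℕ) : O)) +
          ((ρ x).trace - (((ρ0 x).trace.val : ℕ) : O)) := by ring
    rw [h7]
    exact add_mem (sub_mem h3 h5) h6
  have h1 := key 1
  have h3 := key σ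
  have h4 := key τ
  have h5 := key (τ * σ)
  rw [map_one, one_mul] at h1
  rw [hσ] at h3
  rw [hτ] at h4
  rw [map_mul, hσ, hτ] at h5
  exact one_of_traces h1 h3 h4 h5

theorem unit_trace {σ τ : GQ} (hσ : ρ0 σ = !![1, 1; 0, 1]) (hτ : ρ0 τ = !![0, 1; 1, 0]) :
    IsUnit (ρ τ * (ρ σ - 1)).trace := by
  have h4 : (ρ τ * (ρ σ - 1)).trace = (ρ (τ * σ)).trace - (ρ τ).trace := by
    rw [map_mul, mul_sub, mul_one, Matrix.trace_sub]
  have h5 := hres (τ * σ)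
  have h6 := hres τ
  have e1 : (ρ0 (τ * σ)).trace.val = 1 := by
    rw [map_mul, hσ, hτ]; decide
  have e2 : (ρ0 τ).trace.val = 0 := by rw [hτ]; decide
  rw [e1] at h5
  rw [e2] at h6
  by_contra hcon
  have h7 : (ρ τ * (ρ σ - 1)).trace ∈ maximalIdeal O := hcon
  apply (Ideal.ne_top_iff_one _).mp (maximalIdeal.isMaximal O).ne_top
  have h8 : (1 : O) = (ρ τ * (ρ σ - 1)).trace - ((ρ (τ * σ)).trace - ((1 : ℕ) : O)) +
      ((ρ τ).trace - ((0 : ℕ) : O)) := by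
    rw [h4]; push_cast; ring
  rw [h8]
  exact add_mem (sub_mem h7 h5) h6

end Resid

section Main

/-- **The line at `2` of a newform.** -/
theorem isLine_two {N : ℕ} [NeZero N] (h2N : 2 ∣ N) (hsq : ¬ 2 ^ 2 ∣ N)
    {g : CuspForm (Gamma0 N) 2} (hg : g.IsNewform) {S : Finset ℕ} (h2S : 2 ∈ S)
    (hNS : ∀ q : ℕ, q.Prime → q ∣ N → q ∈ S)
    {O : Type} [CommRing O] [IsDomain O] [IsDiscreteValuationRing O]
    [Finite (ResidueField O)] [CharZero O] (h2O : (2 : O) ∈ maximalIdeal O) {R : Subring ℂ}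
    (f : R →+* O) (hf : Function.Injective f)
    (hR : ∀ t, H23.eigenCharC hg.1 (↑S : Set ℕ) t ∈ R) (ρ : GQ →* M2 O)
    (hcont : ∀ n : ℕ, ∃ F : IntermediateField ℚ Qb, FiniteDimensional ℚ F ∧
        ∀ u ∈ F.fixingSubgroup, InM (maximalIdeal O ^ n) (ρ u - 1))
    (hfrob : ∀ (ℓ : ℕ) (hℓ : ℓ.Prime) (hℓM : ¬ ℓ ∣ N) (hℓS : ℓ ∉ (↑S : Set ℕ)),
        ∀ A : ValuationSubring Qb, A.LiesOverPrime ℓ → ∀ φ : GQ, A.IsFrobeniusAt φ ℓ →
          (ρ φ).trace = f ⟨H23.eigenCharC hg.1 (↑S : Set ℕ)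
            (CuspForm.heckeAlgebra.T hℓ hℓM hℓS), hR _⟩ ∧ (ρ φ).det = ℓ)
    (ρ0 : GQ →* M2 (ZMod 2))
    (hres : ∀ s, (ρ s).trace - (((ρ0 s).trace.val : ℕ) : O) ∈ maximalIdeal O)
    (hσ : ∃ s, ρ0 s = !![1, 1; 0, 1] ∧ (ρ s).trace = 2 ∧ (ρ s).det = 1)
    (hτ : ∃ t, ρ0 t = !![0, 1; 1, 0]) {A : ValuationSubring Qb} (hA : A.LiesOverPrime 2)
    (hI : ∃ s ∈ A.inertiaSubgroupIn ℚ, ρ0 s ≠ 1) {φ : GQ} (hφ : A.IsFrobeniusAt φ 2) :
    ∃ ℓ u, IsLine A φ ρ ℓ u := by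
  obtain ⟨σ, hσ0, hσt, hσd⟩ := hσ
  obtain ⟨τ, hτ0⟩ := hτ
  obtain ⟨s, hs, hs0⟩ := hI
  obtain ⟨M, hM0, hcop, hM⟩ := exists_factor Nat.prime_two h2N hsq
  haveI : NeZero M := ⟨hM0⟩
  have hne : M ≠ N := by
    rw [hM]
    intro h
    omega
  obtain ⟨t₀, ht₀S, ht₀, ht₀g⟩ := exists_separating hg (M := M) ⟨2, hM⟩ hne
    (S := (↑S : Set ℕ)) S.finite_toSet
  have hchi0 : H23.eigenCharC hg.1 (↑S : Set ℕ) (awayEval N (↑S : Set ℕ) ⟨t₀, ht₀S⟩) ≠ 0 := by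
    rw [chig_awayEval (g := g) (H23.eigenCharC hg.1 (↑S : Set ℕ))
      (fun ℓ hℓ hℓM hℓS => H23.eigenCharC_T hg.1 hℓ hℓM hℓS) hNS]
    exact ht₀g
  have hg0 : g ≠ 0 := by
    intro h0
    have h1 := hg.1.qCoeff_one
    have h2 : qCoeff ⇑(0 : CuspForm (Gamma0 N) 2) 1 = 0 := map_zero (H22.qCoeffLin N 2 1)
    rw [h0, h2] at h1
    exact zero_ne_one h1
  have hrel : NFRel (piR f (H23.eigenCharC hg.1 (↑S : Set ℕ)) hR) ρ :=
    nfRel_of hcont h2S hNS _ hfrob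
  have happ : ∀ t : CuspForm.heckeAlgebra N 2 (↑S : Set ℕ),
      (t : Module.End ℂ (CuspForm (Gamma0 N) 2)) g = H23.eigenCharC hg.1 (↑S : Set ℕ) t • g :=
    fun t => H23.apply_eq_smul hg.1 (↑S : Set ℕ) t
  have hlat : ∀ n, LatData ρ (A.inertiaSubgroupIn ℚ) φ 2 (n + 1) := by
    intro n
    generalize H23.eigenCharC hg.1 (↑S : Set ℕ) = chi at *
    clear hg ht₀g
    subst hM
    exact latData_two hcop hg0 (by exact_mod_cast h2S) h2O f hf chi hR happ ⟨t₀, ht₀S⟩ ht₀ hchi0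
      hrel hσt hσd (unit_trace h2O hres hσ0 hτ0) hA hφ n
  obtain ⟨ℓ, u, hu1, hu2, hu3, hu4⟩ := exists_line_of_latData (p := 2)
    (by exact_mod_cast h2O) hlat hs (residual_ne h2O hres hσ0 hτ0 hs0)
    (conj_mem_inertia hφ hs)
  exact ⟨ℓ, u, hu1, hu2, hu3, hu4⟩

end Main

end Fermat.Agent.Z34
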