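import Fermat.Agent.H27.M2e
import Fermat.Agent.NN.ModI

/-!
# Ramification over `j = 0` in the special fibre
-/

set_option autoImplicit false
set_option linter.style.haveILetI false
set_option linter.unusedSectionVars false
set_option maxSynthPendingDepth 3

noncomputable section

attribute [-instance] HahnSeries.instModule HahnSeries.instSMul HahnSeries.instDistribMulAction
  HahnSeries.instSMulZeroClass

attribute [local instance 10000] Fermat.Agent.H29.instLS Fermat.Agent.H29.instIF
  Fermat.Agent.H29.instIF2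

namespace Fermat.Agent.N9

open ModularCurve HahnSeries AlgebraicCurve IsLocalRing Fermat.Agent.H28 Fermat.Agent.H02F

section Red

variable {M : ℕ} [NeZero M] {A : ValuationSubring (AlgebraicClosure ℚ)} {ℓ : ℕ}

/-- **Lemma (A)** -/
theorem three_dvd_ord_jbar_of (hℓ : ℓ.Prime) (hA : A.LiesOverPrime ℓ)
    (hyp : ¬ ℓ ∣ M ∧ ((2 ∣ M ∧ ℓ ≠ 2) ∨ (3 ∣ M ∧ ℓ ≠ 3))) (h3 : nuThree M = 0)
    (v : Place (ResidueField A) (modularFunctionFieldFullC (ResidueField A) M))
    (hv : 0 < v.ord (⟨jqModC (ResidueField A), jqModC_mem_full (ResidueField A) M⟩ :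
      modularFunctionFieldFullC (ResidueField A) M)) :
    (3 : ℤ) ∣ v.ord (⟨jqModC (ResidueField A), jqModC_mem_full (ResidueField A) M⟩ :
      modularFunctionFieldFullC (ResidueField A) M) := by
  classical
  haveI : IsAlgClosed (ResidueField A) := H28.isAlgClosed_residueField A
  haveI : FF.FunField (ResidueField A) (modularFunctionFieldFullC (ResidueField A) M) :=
    H05.funField_full (ResidueField A) M
  have hρ : (modRed M A).ρ (jZ M A) =
      ⟨jqModC (ResidueField A), jqModC_mem_full (ResidueField A) M⟩ := Subtype.ext (ρ_jZ M A)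
  rw [← hρ] at hv ⊢
  let C : TwoCharts (modRed M A) :=
    modCharts M A (H29.isChart_j hℓ hA hyp) (H29.isChart_jinv hℓ hA hyp)
  have hCt : C.t₁ = jZ M A := rfl
  have hne : (modRed M A).ρ (jZ M A) ≠ 0 := by
    intro h0
    rw [h0, Place.ord_zero] at hv
    exact lt_irrefl _ hv
  have h1 := congrArg (fun D => D v) (mapDomain_redPl_dv C (z := jZ M A) hne)
  simp only [dv_apply] at h1
  rw [← h1, Finsupp.mapDomain, Finsupp.sum_apply, Finsupp.sum]
  refine Finset.dvd_sum fun P hP => ?_
  rw [Finsupp.single_apply]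
  split_ifs with hPv
  · rw [dv_apply]
    have h2 : Reg P ((jZ M A : (modRed M A).Z) : modularFunctionFieldBar M) := by
      have h3 : Reg (C.redPl P) ((modRed M A).ρ C.t₁) := by
        rw [hPv, hCt]
        exact reg_iff.mpr hv.le
      exact reg_of_reg_redPl C h3
    have h4 := reg_iff.mp h2
    rw [Finsupp.mem_support_iff, dv_apply] at hP
    have h5 : 0 < P.ord (jBar M) := lt_of_le_of_ne h4 (Ne.symm hP)
    have h6 := ord_jBar_eq_three h3 P h5
    change (3 : ℤ) ∣ P.ord (jBar M)
    rw [h6]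
  · exact dvd_zero _

/-- **Lemma (A)**, at `2`. -/
theorem three_dvd_ord_jbar {s : ℕ} (hs : s.Prime) (hs3 : s % 3 = 2) (hsM : s ∣ M) (h3 : 3 ∣ M)
    (hrM : Nat.Coprime 2 M) (hA : A.LiesOverPrime 2)
    (v : Place (ResidueField A) (modularFunctionFieldFullC (ResidueField A) M))
    (hv : 0 < v.ord (⟨jqModC (ResidueField A), jqModC_mem_full (ResidueField A) M⟩ :
      modularFunctionFieldFullC (ResidueField A) M)) :
    (3 : ℤ) ∣ v.ord (⟨jqModC (ResidueField A), jqModC_mem_full (ResidueField A) M⟩ :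
      modularFunctionFieldFullC (ResidueField A) M) :=
  three_dvd_ord_jbar_of Nat.prime_two hA
    ⟨(Nat.Prime.coprime_iff_not_dvd Nat.prime_two).mp hrM, Or.inr ⟨h3, by norm_num⟩⟩
    (nuThree_eq_zero_of hs hs3 hsM) v hv

end Red

end Fermat.Agent.N9
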