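import Mathlib
import Fermat.Agent.Igusa.ZTrace

/-!
# `t(q^2)` is integral over `K[t]`, for the hauptmodul `t` of level 9
-/

set_option autoImplicit false
set_option linter.unusedSectionVars false
set_option linter.style.haveILetI false

noncomputable section

open ModularCurve Polynomial Fermat.Agent.Igusa

namespace Fermat.Agent.N9

section Val

variable {L : Type*} [Field L] (O : ValuationSubring L)

theorem val_add_big {x : L} (hx : 1 < O.valuation x) {n : L} (hn : O.valuation n = 1) :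
    O.valuation (x + n) = O.valuation x :=
  Valuation.map_add_eq_of_lt_left O.valuation (by rw [hn]; exact hx)

theorem val_add_small {x : L} (hx : O.valuation x < 1) {n : L} (hn : O.valuation n = 1) :
    O.valuation (x + n) = 1 := by
  rw [Valuation.map_add_eq_of_lt_right O.valuation (by rw [hn]; exact hx), hn]

/-- the dichotomy at `2` -/
theorem dich_two (h2 : O.valuation (2 : L) = 1) {u a b : L} (ha : a * u ^ 2 = (u + 256) ^ 3)
    (hb : b * u = (u + 16) ^ 3) (hbO : 1 < O.valuation b) :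
    1 < O.valuation a ∧ (O.valuation a = O.valuation b ^ 2 ∨ O.valuation a ^ 2 = O.valuation b) := by
  have v16 : O.valuation (16 : L) = 1 := by
    rw [show (16 : L) = 2 ^ 4 by norm_num, map_pow, h2, one_pow]
  have v256 : O.valuation (256 : L) = 1 := by
    rw [show (256 : L) = 2 ^ 8 by norm_num, map_pow, h2, one_pow]
  have fa := congrArg O.valuation ha
  have fb := congrArg O.valuation hb
  simp only [map_mul, map_pow] at fa fb
  rcases lt_trichotomy (O.valuation u) 1 with hu | hu | hu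
  · rw [val_add_small O hu v256, one_pow] at fa
    rw [val_add_small O hu v16, one_pow] at fb
    have hu0 : O.valuation u ≠ 0 := by
      intro h0; rw [h0, mul_zero] at fb; exact zero_ne_one fb
    have h3 : O.valuation a = O.valuation b ^ 2 := by
      apply mul_right_cancel₀ (pow_ne_zero 2 hu0)
      rw [fa, ← mul_pow, fb, one_pow]
    refine ⟨?_, Or.inl h3⟩
    rw [h3]
    exact one_lt_pow₀ hbO (by norm_num)
  · exfalso
    rw [hu, mul_one] at fb
    have h3 : O.valuation (u + 16) ≤ 1 :=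
      (Valuation.map_add _ _ _).trans (max_le hu.le v16.le)
    have h4 := pow_le_one' h3 3
    rw [← fb] at h4
    exact absurd hbO (not_lt.mpr h4)
  · rw [val_add_big O hu v256] at fa
    rw [val_add_big O hu v16] at fb
    have hu0 : O.valuation u ≠ 0 := (zero_lt_one.trans hu).ne'
    have h3 : O.valuation a = O.valuation u := by
      apply mul_right_cancel₀ (pow_ne_zero 2 hu0)
      rw [fa, ← pow_succ']
    have h4 : O.valuation b = O.valuation u ^ 2 := by
      apply mul_right_cancel₀ hu0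
      rw [fb, ← pow_succ]
    rw [h3, h4]
    exact ⟨hu, Or.inr rfl⟩

theorem combin9 {Γ : Type*} [LinearOrderedCommGroupWithZero Γ] {g1 g9 Y : Γ}
    (hY : 1 < Y) (h1 : g1 = Y ^ 2 ∨ g1 ^ 2 = Y)
    (h9 : g9 = (Y ^ 9) ^ 2 ∨ g9 ^ 2 = Y ^ 9) (h : g1 = g9 ^ 9 ∨ g1 = g9) : False := by
  rcases h with h | h
  · rcases h1 with h1 | h1 <;> rcases h9 with h9 | h9
    · have h5 : Y ^ 2 = Y ^ 162 := by
        calc Y ^ 2 = g1 := h1.symm
          _ = ((Y ^ 9) ^ 2) ^ 9 := by rw [h, h9]
          _ = Y ^ 162 := by rw [← pow_mul, ← pow_mul]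
      have := pow_eq_pow_iff_of_one_lt hY h5
      omega
    · have h5 : Y ^ 4 = Y ^ 81 := by
        calc Y ^ 4 = g1 ^ 2 := by rw [h1, ← pow_mul]
          _ = (g9 ^ 2) ^ 9 := by rw [h, ← pow_mul, ← pow_mul]
          _ = Y ^ 81 := by rw [h9, ← pow_mul]
      have := pow_eq_pow_iff_of_one_lt hY h5
      omega
    · have h5 : Y ^ 1 = Y ^ 324 := by
        calc Y ^ 1 = g1 ^ 2 := by rw [h1, pow_one]
          _ = (((Y ^ 9) ^ 2) ^ 9) ^ 2 := by rw [h, h9]
          _ = Y ^ 324 := by rw [← pow_mul, ← pow_mul, ← pow_mul]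
      have := pow_eq_pow_iff_of_one_lt hY h5
      omega
    · have h5 : Y ^ 1 = Y ^ 81 := by
        calc Y ^ 1 = g1 ^ 2 := by rw [h1, pow_one]
          _ = (g9 ^ 2) ^ 9 := by rw [h, ← pow_mul, ← pow_mul]
          _ = Y ^ 81 := by rw [h9, ← pow_mul]
      have := pow_eq_pow_iff_of_one_lt hY h5
      omega
  · subst h
    rcases h1 with h1 | h1 <;> rcases h9 with h9 | h9
    · have h5 : Y ^ 2 = Y ^ 18 := by
        rw [← h1, h9, ← pow_mul]
      have := pow_eq_pow_iff_of_one_lt hY h5
      omega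
    · have h5 : Y ^ 4 = Y ^ 9 := by
        calc Y ^ 4 = (Y ^ 2) ^ 2 := by rw [← pow_mul]
          _ = Y ^ 9 := by rw [← h1, h9]
      have := pow_eq_pow_iff_of_one_lt hY h5
      omega
    · have h5 : Y ^ 1 = Y ^ 36 := by
        calc Y ^ 1 = g1 ^ 2 := by rw [h1, pow_one]
          _ = ((Y ^ 9) ^ 2) ^ 2 := by rw [h9]
          _ = Y ^ 36 := by rw [← pow_mul, ← pow_mul]
      have := pow_eq_pow_iff_of_one_lt hY h5
      omega
    · have h5 : Y ^ 1 = Y ^ 9 := by
        rw [pow_one, ← h9, h1]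
      have := pow_eq_pow_iff_of_one_lt hY h5
      omega

/-- the values at the two kinds of cusps at level `9` -/
theorem case9 (h3 : O.valuation (3 : L) = 1) {t a b : L} (ht : O.valuation t ≤ 1)
    (ha : a * (t ^ 9 * (t ^ 2 + 9 * t + 27)) =
      ((t + 9) * (t ^ 3 + 243 * t ^ 2 + 2187 * t + 6561)) ^ 3)
    (hb : b * (t * (t ^ 2 + 9 * t + 27)) = ((t + 3) * (t ^ 3 + 9 * t ^ 2 + 27 * t + 3)) ^ 3)
    (hbO : 1 < O.valuation b) :
    O.valuation a = O.valuation b ^ 9 ∨ O.valuation a = O.valuation b := by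
  have h3k : ∀ k : ℕ, O.valuation ((3 : L) ^ k) = 1 := fun k => by rw [map_pow, h3, one_pow]
  have v9 : O.valuation (9 : L) = 1 := by
    rw [show (9 : L) = 3 ^ 2 by norm_num]; exact h3k 2
  have v27 : O.valuation (27 : L) = 1 := by
    rw [show (27 : L) = 3 ^ 3 by norm_num]; exact h3k 3
  have v243 : O.valuation (243 : L) = 1 := by
    rw [show (243 : L) = 3 ^ 5 by norm_num]; exact h3k 5
  have v6561 : O.valuation (6561 : L) = 1 := by
    rw [show (6561 : L) = 3 ^ 8 by norm_num]; exact h3k 8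
  have hint : ∀ n : ℕ, O.valuation (n : L) ≤ 1 := fun n => by
    have := val_intCast_le O (n : ℤ)
    rwa [Int.cast_natCast] at this
  have hle : ∀ {x y : L}, O.valuation x ≤ 1 → O.valuation y ≤ 1 → O.valuation (x + y) ≤ 1 :=
    fun hx hy => (Valuation.map_add _ _ _).trans (max_le hx hy)
  have hmle : ∀ {x y : L}, O.valuation x ≤ 1 → O.valuation y ≤ 1 → O.valuation (x * y) ≤ 1 :=
    fun {x y} hx hy => by
      rw [map_mul]
      exact mul_le_one' hx hy
  have hmlt : ∀ {x y : L}, O.valuation x < 1 → O.valuation y ≤ 1 → O.valuation (x * y) < 1 :=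
    fun {x y} hx hy => by
      rw [map_mul]
      calc O.valuation x * O.valuation y ≤ O.valuation x * 1 := mul_le_mul_right hy _
        _ = O.valuation x := mul_one _
        _ < 1 := hx
  have fa := congrArg O.valuation ha
  have fb := congrArg O.valuation hb
  rw [map_mul, map_mul, map_pow, map_pow] at fa
  rw [map_mul, map_mul, map_pow] at fb
  set c := t ^ 2 + 9 * t + 27 with hc
  rcases lt_or_eq_of_le ht with hlt | heq
  · left
    have wc : O.valuation c = 1 := by
      rw [hc, show t ^ 2 + 9 * t + 27 = t * (t + ((9 : ℕ) : L)) + 27 by push_cast; ring]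
      exact val_add_small O (hmlt hlt (hle ht (hint 9))) v27
    have w1 : O.valuation ((t + 9) * (t ^ 3 + 243 * t ^ 2 + 2187 * t + 6561)) = 1 := by
      rw [map_mul, val_add_small O hlt v9, one_mul,
        show t ^ 3 + 243 * t ^ 2 + 2187 * t + 6561 =
          t * (t * (t + ((243 : ℕ) : L)) + ((2187 : ℕ) : L)) + 6561 by push_cast; ring]
      exact val_add_small O (hmlt hlt (hle (hmle ht (hle ht (hint 243))) (hint 2187))) v6561
    have w3 : O.valuation ((t + 3) * (t ^ 3 + 9 * t ^ 2 + 27 * t + 3)) = 1 := by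
      rw [map_mul, val_add_small O hlt h3, one_mul,
        show t ^ 3 + 9 * t ^ 2 + 27 * t + 3 =
          t * (t * (t + ((9 : ℕ) : L)) + ((27 : ℕ) : L)) + 3 by push_cast; ring]
      exact val_add_small O (hmlt hlt (hle (hmle ht (hle ht (hint 9))) (hint 27))) h3
    rw [wc, w1, one_pow, mul_one] at fa
    rw [wc, w3, one_pow, mul_one] at fb
    have ht0 : O.valuation t ≠ 0 := by
      intro h0; rw [h0, mul_zero] at fb; exact zero_ne_one fb
    apply mul_right_cancel₀ (pow_ne_zero 9 ht0)
    rw [fa, ← mul_pow, fb, one_pow]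
  · right
    have wc0 : O.valuation c ≤ 1 := by
      rw [hc, show t ^ 2 + 9 * t + 27 = t * (t + ((9 : ℕ) : L)) + 27 by push_cast; ring]
      exact hle (hmle ht (hle ht (hint 9))) v27.le
    have wc : O.valuation c < 1 := by
      rcases lt_or_eq_of_le wc0 with h | h
      · exact h
      · exfalso
        rw [heq, h, one_mul, mul_one] at fb
        have h5 : O.valuation ((t + 3) * (t ^ 3 + 9 * t ^ 2 + 27 * t + 3)) ≤ 1 := by
          refine hmle (hle ht h3.le) ?_
          rw [show t ^ 3 + 9 * t ^ 2 + 27 * t + 3 =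
            t * (t * (t + ((9 : ℕ) : L)) + ((27 : ℕ) : L)) + 3 by push_cast; ring]
          exact hle (hmle ht (hle (hmle ht (hle ht (hint 9))) (hint 27))) h3.le
        have h6 := pow_le_one' h5 3
        rw [← fb] at h6
        exact absurd hbO (not_lt.mpr h6)
    have w33 : O.valuation ((t + 3) * (t + 6)) = 1 := by
      rw [show (t + 3) * (t + 6) = c + (-9) by rw [hc]; ring]
      exact val_add_small O wc (by rw [Valuation.map_neg, v9])
    have w3 : O.valuation (t + 3) = 1 := by
      have h5 : O.valuation (t + 3) ≤ 1 := hle ht h3.le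
      have h6 : O.valuation (t + 6) ≤ 1 := by
        have := hle ht (hint 6)
        rwa [Nat.cast_ofNat] at this
      rcases lt_or_eq_of_le h5 with h7 | h7
      · exact absurd w33 (hmlt h7 h6).ne
      · exact h7
    have w1 : O.valuation ((t + 9) * (t ^ 3 + 243 * t ^ 2 + 2187 * t + 6561)) = 1 := by
      rw [show (t + 9) * (t ^ 3 + 243 * t ^ 2 + 2187 * t + 6561) =
        c * (t * (t + ((243 : ℕ) : L)) + ((2160 : ℕ) : L)) + 243 * (t + 3) by
          rw [hc]; push_cast; ring]
      refine val_add_small O (hmlt wc (hle (hmle ht (hle ht (hint 243))) (hint 2160))) ?_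
      rw [map_mul, v243, w3, one_mul]
    have w9 : O.valuation ((t + 3) * (t ^ 3 + 9 * t ^ 2 + 27 * t + 3)) = 1 := by
      rw [map_mul, w3, one_mul, show t ^ 3 + 9 * t ^ 2 + 27 * t + 3 = c * t + 3 by rw [hc]; ring]
      exact val_add_small O (hmlt wc ht) h3
    rw [w1, heq, one_pow, one_pow, one_mul] at fa
    rw [w9, heq, one_pow, one_mul] at fb
    have hc0 : O.valuation c ≠ 0 := by
      intro h0; rw [h0, mul_zero] at fb; exact zero_ne_one fb
    exact mul_right_cancel₀ hc0 (fa.trans fb.symm)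

end Val

section Main

variable {K : Type*} [Field K] [CharZero K]

open Fermat.Agent.H29 (f2 f2_j f2_jr)

theorem f2_j_K : jd K 1 * coeffMap (Int.castRingHom K) f2 ^ 2 =
    (coeffMap (Int.castRingHom K) f2 + 256) ^ 3 := by
  have h := congrArg (coeffMap (Int.castRingHom K)) f2_j
  simp only [map_mul, map_pow, map_add, map_ofNat] at h
  rw [jd_one]
  rwa [coeffMap_jqModC] at h

theorem f2_jr_K : jd K 2 * coeffMap (Int.castRingHom K) f2 =
    (coeffMap (Int.castRingHom K) f2 + 16) ^ 3 := by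
  have h := congrArg (coeffMap (Int.castRingHom K)) f2_jr
  simp only [map_mul, map_pow, map_add, map_ofNat] at h
  have h2 : coeffMap (Int.castRingHom K) (qExpand ℤ 2 (jqModC ℤ)) = jd K 2 :=
    coeffMap_jd (Int.castRingHom K) 2
  rwa [h2] at h

theorem t1_mem9 (O : ValuationSubring (LaurentSeries K))
    (hC : ∀ c : K, (HahnSeries.C c : LaurentSeries K) ∈ O) (ht : H9.tq K ∈ O) :
    qExpand K 2 (H9.tq K) ∈ O := by
  by_contra hcon
  set v := O.valuation with hv
  set t := H9.tq K with htdef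
  set t1 := qExpand K 2 t with ht1
  set Y := v t1 with hYdef
  have hY : 1 < Y := by
    rw [hYdef, ← not_le, hv, O.valuation_le_one_iff]; exact hcon
  have hunit : ∀ n : ℕ, n ≠ 0 → v (n : LaurentSeries K) = 1 := by
    intro n hn
    have hn' : (n : K) ≠ 0 := by exact_mod_cast hn
    have h1 : (n : LaurentSeries K) = HahnSeries.C (n : K) := (map_natCast _ n).symm
    have h2 : (HahnSeries.C (n : K) : LaurentSeries K) * HahnSeries.C (n : K)⁻¹ = 1 := by
      rw [← map_mul, mul_inv_cancel₀ hn', map_one]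
    rw [h1]
    apply le_antisymm ((O.valuation_le_one_iff _).mpr (hC _))
    have h3 := congrArg v h2
    rw [map_mul, map_one] at h3
    have h4 : v (HahnSeries.C (n : K)⁻¹ : LaurentSeries K) ≤ 1 :=
      (O.valuation_le_one_iff _).mpr (hC _)
    rw [← h3]
    calc v (HahnSeries.C (n : K) : LaurentSeries K) * v (HahnSeries.C (n : K)⁻¹) ≤
        v (HahnSeries.C (n : K)) * 1 := mul_le_mul_right h4 _
      _ = _ := mul_one _
  have hv2 : v (2 : LaurentSeries K) = 1 := by
    have := hunit 2 (by norm_num); rwa [Nat.cast_ofNat] at this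
  have hv3 : v (3 : LaurentSeries K) = 1 := by
    have := hunit 3 (by norm_num); rwa [Nat.cast_ofNat] at this
  have key : ∀ (d : ℕ) [NeZero d] [NeZero (d * 2)] (_ : d ∣ 9),
      v (jd K (d * 2)) * Y ^ (H9.b d) = Y ^ (H9.a d) := by
    intro d _ _ hd
    have h3 := congrArg (qExpand K 2) (H9.jd_mul K d hd)
    rw [map_mul, qExpand_jd, ringHom_evZ, ringHom_evZ] at h3
    have h4 := congrArg v h3
    rw [map_mul, val_evZ O hcon (H9.hW d hd), val_evZ O hcon (H9.hU d hd)] at h4
    rw [← jd_congr K (mul_comm 2 d)]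
    exact h4
  have hY0 : Y ≠ 0 := (zero_lt_one.trans hY).ne'
  have k1 : v (jd K (1 * 2)) = Y := by
    have h3 := key 1 (by norm_num)
    change v (jd K (1 * 2)) * Y ^ 11 = Y ^ 12 at h3
    rw [pow_succ' Y 11] at h3
    exact mul_right_cancel₀ (pow_ne_zero 11 hY0) h3
  have k9 : v (jd K (9 * 2)) = Y ^ 9 := by
    have h3 := key 9 dvd_rfl
    change v (jd K (9 * 2)) * Y ^ 3 = Y ^ 12 at h3
    have h4 : Y ^ 12 = Y ^ 9 * Y ^ 3 := by rw [← pow_add]
    rw [h4] at h3
    exact mul_right_cancel₀ (pow_ne_zero 3 hY0) h3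
  have d1 := dich_two O hv2 (f2_j_K (K := K)) (f2_jr_K (K := K)) (by
    have h := k1
    rw [jd_congr K (show 1 * 2 = 2 by norm_num)] at h
    rw [← hv, h]; exact hY)
  have hj9 : qExpand K 9 (jd K 1) = jd K 9 := by
    rw [qExpand_jd]
  have hj18 : qExpand K 9 (jd K 2) = jd K (9 * 2) := by
    rw [qExpand_jd]
  have d9 := dich_two O hv2 (u := qExpand K 9 (coeffMap (Int.castRingHom K) f2)) (a := jd K 9)
    (b := jd K (9 * 2)) (by
      have h := congrArg (qExpand K 9) (f2_j_K (K := K))
      simp only [map_mul, map_pow, map_add, map_ofNat, hj9] at h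
      exact h) (by
      have h := congrArg (qExpand K 9) (f2_jr_K (K := K))
      simp only [map_mul, map_pow, map_add, map_ofNat, hj18] at h
      exact h) (by rw [← hv, k9]; exact one_lt_pow₀ hY (by norm_num))
  rw [← hv, jd_congr K (show 2 = 1 * 2 by norm_num), k1] at d1
  rw [← hv, k9] at d9
  -- the equations
  have e1 : jd K 1 * (t ^ 9 * (t ^ 2 + 9 * t + 27)) =
      ((t + 9) * (t ^ 3 + 243 * t ^ 2 + 2187 * t + 6561)) ^ 3 := by
    have := H9.jd_mul K 1 (by norm_num)
    change jd K 1 * evZ t (W9 1) = evZ t (U9 1) at this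
    simpa only [W9, U9, map_mul, map_pow, map_add, map_ofNat, evZ_X] using this
  have e9 : jd K 9 * (t * (t ^ 2 + 9 * t + 27)) =
      ((t + 3) * (t ^ 3 + 9 * t ^ 2 + 27 * t + 3)) ^ 3 := by
    have := H9.jd_mul K 9 dvd_rfl
    change jd K 9 * evZ t (W9 9) = evZ t (U9 9) at this
    simpa only [W9, U9, map_mul, map_pow, map_add, map_ofNat, evZ_X] using this
  exact combin9 hY d1.2 d9.2 (case9 O hv3 ((O.valuation_le_one_iff _).mpr ht) e1 e9 d9.1)

theorem t1_mem9' (l : ℕ) [Fact l.Prime] (hl : l = 2) (O : ValuationSubring (LaurentSeries K))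
    (hC : ∀ c : K, (HahnSeries.C c : LaurentSeries K) ∈ O) (ht : H9.tq K ∈ O) :
    qExpand K l (H9.tq K) ∈ O := by
  subst hl
  exact t1_mem9 O hC ht

end Main

section Z

variable (l : ℕ) [hl : Fact l.Prime]

theorem coprime_nine (hl2 : l = 2) : Nat.Coprime l 9 := by
  subst hl2
  norm_num

theorem nine_ne : ((9 : ℕ) : Qb') ≠ 0 := by norm_num

theorem t9_mem : H9.tq Qb' ∈ modularFunctionFieldFullC Qb' 9 := H9.tq_mem Qb' nine_ne

theorem exists_zPoly9 (hl2 : l = 2) {H : LaurentSeries ℤ}
    (hH : qExpand ℤ l t9 = t9 ^ l + (l : LaurentSeries ℤ) * H) :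
    ∃ Z : ℤ[X], evZ t9 Z = H * (t9 - qExpand ℤ l t9 ^ l) +
      l • uOp l (H * (t9 - qExpand ℤ l t9 ^ l)) := by
  obtain ⟨ζ, hζ⟩ := exists_prim l
  have hco := coprime_nine l hl2
  set E := modularFunctionFieldFullC Qb' 9 with hE
  set B := modularFunctionFieldFullC Qb' (9 * l) with hB
  set t := H9.tq Qb' with htdef
  have ht : t ∈ E := t9_mem
  have hmn : Mn t (-1) := H9.mn_tq Qb'
  set tB : B := ⟨t, Q.mem_of_mem Qb' t ht⟩ with htB
  set t1B : B := ⟨qExpand Qb' l t, Q.qExpand_mem Qb' t ht⟩ with ht1B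
  have hl0 : (l : B) ≠ 0 := natCast_ne l B
  set z : B := (t1B - tB ^ l) * (tB - t1B ^ l) / l with hz
  set zZ : LaurentSeries ℤ := H * (t9 - qExpand ℤ l t9 ^ l) with hzZ
  have hcz : (z : LaurentSeries Qb') = coeffMap (Int.castRingHom Qb') zZ := by
    have hlL : (l : LaurentSeries Qb') ≠ 0 := natCast_ne l _
    have h1 := congrArg (coeffMap (Int.castRingHom Qb')) hH
    rw [coeffMap_qExpand, map_add, map_pow, map_mul, map_natCast] at h1
    have h2 : (z : LaurentSeries Qb') = (qExpand Qb' l t - t ^ l) * (t - qExpand Qb' l t ^ l) / l := by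
      rw [hz]
      push_cast
      rfl
    have h3 : coeffMap (Int.castRingHom Qb') t9 = t := rfl
    rw [h3] at h1
    rw [h2, h1, hzZ, map_mul, map_sub, map_pow, coeffMap_qExpand, h3, h1, div_eq_iff hlL]
    ring
  have hwz : (Q.wQ Qb' hco z : LaurentSeries Qb') = z := by
    have h1 : (Q.wQ Qb' hco tB : LaurentSeries Qb') = t1B := Q.coe_wQ_of_mem Qb' hco t ht
    have h2 : (Q.wQ Qb' hco t1B : LaurentSeries Qb') = tB := Q.coe_wQ_qExpand Qb' hco t ht
    have h1' : Q.wQ Qb' hco tB = t1B := Subtype.ext h1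
    have h2' : Q.wQ Qb' hco t1B = tB := Subtype.ext h2
    have h3 : Q.wQ Qb' hco z = z := by
      rw [hz, map_div₀, map_mul, map_sub, map_sub, map_pow, map_pow, map_natCast, h1', h2',
        mul_comm (tB - t1B ^ l)]
    rw [h3]
  -- integrality
  have hint : ((IntermediateField.inclusion (full_degeneracyC_le Qb' (dvd_mul_right 9 l))).toRingHom.comp
      (phi E t ht)).IsIntegralElem z := by
    have h1 : (evC t).IsIntegralElem (qExpand Qb' l t) := by
      apply isIntegralElem_of_forall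
      intro V hV
      refine t1_mem9' l hl2 V (fun c => ?_) ?_
      · have h2 := hV (C c)
        rwa [evC_C] at h2
      · have h2 := hV X
        rwa [evC_X] at h2
    set f := (IntermediateField.inclusion (full_degeneracyC_le Qb' (dvd_mul_right 9 l))).toRingHom.comp
      (phi E t ht) with hf
    have hfc : ∀ p, (f p : LaurentSeries Qb') = evC t p := fun p => rfl
    letI : Algebra Qb'[X] B := f.toAlgebra
    have h2 : IsIntegral Qb'[X] t1B := by
      obtain ⟨p, hp, hp0⟩ := h1
      refine ⟨p, hp, ?_⟩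
      apply Subtype.ext
      have h3 : B.val.toRingHom (eval₂ f t1B p) = eval₂ (B.val.toRingHom.comp f) (B.val t1B) p :=
        hom_eval₂ p f B.val.toRingHom t1B
      exact h3.trans hp0
    have h3 : IsIntegral Qb'[X] tB := by
      have h4 : tB = algebraMap Qb'[X] B X := Subtype.ext (evC_X t).symm
      rw [h4]
      exact isIntegral_algebraMap
    have h4 : IsIntegral Qb'[X] ((l : B)⁻¹) := by
      have h5 : (l : B)⁻¹ = algebraMap Qb'[X] B (C ((l : Qb')⁻¹)) := by
        rw [inv_eq_iff_eq_inv, ← map_natCast (algebraMap Qb'[X] B), ← map_natCast (C : Qb' →+* Qb'[X])]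
        rw [eq_comm, inv_eq_iff_eq_inv]
        have h6 : algebraMap Qb'[X] B (C ((l : Qb')⁻¹)) * algebraMap Qb'[X] B (C (l : Qb')) = 1 := by
          rw [← map_mul, ← C_mul, inv_mul_cancel₀ (by exact_mod_cast hl.out.ne_zero), C_1, map_one]
        exact eq_inv_of_mul_eq_one_left h6
      rw [h5]
      exact isIntegral_algebraMap
    have h5 : IsIntegral Qb'[X] z := by
      rw [hz, div_eq_mul_inv]
      exact ((h2.sub (h3.pow l)).mul (h3.sub (h2.pow l))).mul h4
    exact h5
  obtain ⟨p, hp⟩ := sum_tau_poly E B (full_degeneracyC_le Qb' (dvd_mul_right 9 l))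
    (none : Option (ZMod l)) (Q.tau Qb' 9 hco ζ) (Q.tau_injective Qb' 9 hco hζ) (fun i x => by
      have h1 := Q.tau_incl Qb' 9 hco hζ.pow_eq_one i x
      have h2 := Q.tau_incl Qb' 9 hco hζ.pow_eq_one none x
      exact h1.trans h2.symm)
    (by
      have h4l : ¬ l ∣ 9 := by
        rw [← hl.out.coprime_iff_not_dvd]; exact hco
      rw [Q.relrank_incl Qb' 9 l h4l, Fintype.card_option, ZMod.card])
    (phi E t ht) (phi_injective E ht hmn)
    (phi_frac E ht hmn (H9.full_eq Qb' nine_ne)) z hint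
  rw [Fintype.sum_option] at hp
  have h1 : ∀ b : ZMod l, Q.tau Qb' 9 hco ζ (some b) z = twist (ζ ^ b.val) (z : LaurentSeries Qb') := by
    intro b
    rw [Q.tau_some, hwz]
  have h2 : Q.tau Qb' 9 hco ζ none z = qExpand Qb' l (z : LaurentSeries Qb') := rfl
  have h3 : Q.tau Qb' 9 hco ζ none (IntermediateField.inclusion
      (full_degeneracyC_le Qb' (dvd_mul_right 9 l)) (phi E t ht p)) =
      qExpand Qb' l (evC t p) := rfl
  rw [Finset.sum_congr rfl fun b _ => h1 b, h2, h3, sum_twist hζ, ← map_add] at hp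
  have hp' := (qExpand_injective l) hp
  rw [hcz] at hp'
  have h4 : coeffMap (Int.castRingHom Qb') (zZ + l • uOp l zZ) = evC t p := by
    rw [map_add, map_nsmul, ← uOp_coeffMap]
    exact hp'
  have h5 := coeff_mem_of_evC hmn (Int.castRingHom Qb').range (fun n => by
      rw [htdef, HData.tq, coeffMap_coeff]
      exact ⟨_, rfl⟩) p.natDegree p le_rfl (fun n => by
      rw [← h4, coeffMap_coeff]
      exact ⟨_, rfl⟩)
  have h6 : p ∈ Polynomial.lifts (Int.castRingHom Qb') := by
    rw [Polynomial.lifts_iff_coeff_lifts]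
    exact h5
  obtain ⟨Z, hZ⟩ := (Polynomial.mem_lifts p).mp h6
  refine ⟨Z, ?_⟩
  apply coeffMap_injective (Int.castRingHom Qb') Int.cast_injective
  rw [h4, ringHom_evZ, ← hZ, evC_map]
  rfl

end Z

end Fermat.Agent.N9
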