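import Fermat.Agent.NN.Mod
import Fermat.Agent.H27.M2c

/-!
# Theorem N1 for the modular curves `X₀(2 M)`, `9 ∣ M`
-/

set_option autoImplicit false
set_option linter.style.haveILetI false
set_option linter.unusedSectionVars false
set_option maxSynthPendingDepth 3

noncomputable section

attribute [-instance] HahnSeries.instModule HahnSeries.instSMul HahnSeries.instDistribMulAction
  HahnSeries.instSMulZeroClass

attribute [local instance 10000] Fermat.Agent.H29.instLS Fermat.Agent.H29.instIF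
  Fermat.Agent.H29.instIF2

namespace Fermat.Agent.N9

open Fermat.Agent.NN

open ModularCurve HahnSeries Fermat.Agent.Igusa AlgebraicCurve Fermat.Agent.FF Fermat.Agent.H11Q
  Fermat.Agent.Q Module IntermediateField

local notation "kk" => IsLocalRing.ResidueField
local notation "Qb" => AlgebraicClosure ℚ

variable {M r : ℕ} [NeZero M] [hr : Fact r.Prime] {A : ValuationSubring Qb}

/-- the two charts -/
theorem exists_charts9 (hrM : Nat.Coprime r M) (h3 : 3 ∣ M) (hr2 : r = 2)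
    (hA : A.LiesOverPrime r) : ∃ C : H28.TwoCharts (H28.modRed M A),
      (C.t₁ : modularFunctionFieldBar M) = H28.jBar M := by
  have hyp : ¬ r ∣ M ∧ ((2 ∣ M ∧ r ≠ 2) ∨ (3 ∣ M ∧ r ≠ 3)) :=
    ⟨(Nat.Prime.coprime_iff_not_dvd hr.out).1 hrM, Or.inr ⟨h3, by rw [hr2]; norm_num⟩⟩
  exact ⟨H28.modCharts M A (H29.isChart_j hr.out hA hyp) (H29.isChart_jinv hr.out hA hyp), rfl⟩

/-- **Theorem N1.** -/
theorem node_mod9 (hrM : Nat.Coprime r M) (h9 : 9 ∣ M) (hr2 : r = 2)
    (hA : A.LiesOverPrime r) :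
    ∃ T : Divisor (kk A) (modularFunctionFieldFullC (kk A) M), NodeRel hrM A T := by
  haveI : IsAlgClosed (kk A) := H11Q.isAlgClosed_residueField A
  have hMk : (M : kk A) ≠ 0 := Q.natCast_residue_ne_zero hr.out hA hrM
  have h3M : 3 ∣ M := (by norm_num : 3 ∣ 9).trans h9
  have hrM' : ¬ r ∣ M := (Nat.Prime.coprime_iff_not_dvd hr.out).1 hrM
  haveI : SepFF (kk A) (modularFunctionFieldFullC (kk A) M) := sepFF_full hMk
  haveI := SepFF.hasPrincipalDivisors (k := kk A) (κ := modularFunctionFieldFullC (kk A) M)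
  obtain ⟨P, hP⟩ := exists_placeInf (kk A) M
  obtain ⟨C, hC⟩ := exists_charts9 (M := M) hrM h3M hr2 hA
  obtain ⟨lp, hO⟩ := exists_levelPack_reg hr.out hA hMk C hC P hP
  obtain ⟨Z, hZ1, hZ2⟩ := exists_zdat_mod9 hrM h9 hr2 hA
  obtain ⟨T, hT⟩ := Z.exists_T hP
  refine ⟨T, ?_⟩
  have hZ1' : Z.tb = ⟨H9.tq (kk A), tq_mem_full9 (kk A) h9 hMk⟩ := Subtype.ext hZ1
  have hdeg := degree_T9 h9 hMk Z.S T (fun v => by
    rw [hT, hZ1']
    rfl)
  have hS : (genusFF Qb (modularFunctionFieldBar (M * r)) : ℤ) + 1 ≤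
      2 * lp.g' + Divisor.degree T := by
    have h1 := genusFormula_rel9 (NeZero.ne M) hr.out hrM' h9
    have h3 := genusHyp (M * r)
    have h4 := genusHyp M
    have h5 : (lp.g' : ℚ) = genusFormula M := by rw [lp.g'_eq, ← h4]
    have h6 : (12 : ℚ) * (Divisor.degree T : ℤ) = ((r : ℚ) - 1) * dedekindPsi M := by
      have h7 : 12 * Divisor.degree T = ((r : ℤ) - 1) * dedekindPsi M := by
        rw [hdeg, hZ2, hr2]
        push_cast
        ring
      exact_mod_cast h7
    have h7 : ((genusFF Qb (modularFunctionFieldBar (M * r)) : ℤ) : ℚ) + 1 ≤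
        2 * ((lp.g' : ℤ) : ℚ) + ((Divisor.degree T : ℤ) : ℚ) := by
      push_cast
      rw [h3, h5]
      linarith
    exact_mod_cast h7
  intro m hm f hf0 hf hdvd n φ hval v
  exact node_triv (inertData hrM hA) (redHyp hrM hA) lp Z P hP hO T hT hS hm hf0 hf hdvd hval v


/-- **Theorem N1 at `2`.** -/
theorem node_two (hrM : Nat.Coprime 2 M) (h9 : 9 ∣ M) (hA : A.LiesOverPrime 2) :
    ∃ T : Divisor (kk A) (modularFunctionFieldFullC (kk A) M), NodeRel (r := 2) hrM A T :=
  node_mod9 hrM h9 rfl hA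

end Fermat.Agent.N9
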