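import Fermat.Agent.H27.Kummer

set_option autoImplicit false

open Polynomial

namespace Fermat.Agent.H27

noncomputable section

variable {K : Type*} [Field K] {A : ValuationSubring K}
variable {𝕂 : Type*} [Field 𝕂] [Algebra K 𝕂]
variable {F : Type*} [Field F] [Algebra 𝕂 F]
variable {κ : Type*} [Field κ] [Algebra (kk A) κ]
variable {ι : Type} [Fintype ι] [DecidableEq ι]

/-- a reduction map on a subring `S` of `F`, compatible with the étale basis -/
structure RedMap {x : 𝕂} (h : RatCoord K x) (e : EtBasis (gauss A h) F ι) (S : Subring F)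
    (ρ : S →+* κ) : Prop where
  alg_mem : ∀ a : A, cE K 𝕂 F a ∈ S
  alg : ∀ a : A, ρ ⟨cE K 𝕂 F a, alg_mem a⟩ = algebraMap (kk A) κ (IsLocalRing.residue A a)
  x_mem : algebraMap 𝕂 F x ∈ S
  trans : Transcendental (kk A) (ρ ⟨algebraMap 𝕂 F x, x_mem⟩)
  b_mem : ∀ i, e.b i ∈ S
  indep : ∀ Q : ι → (kk A)[X],
    ∑ i, aeval (ρ ⟨algebraMap 𝕂 F x, x_mem⟩) (Q i) * ρ ⟨e.b i, b_mem i⟩ = 0 → ∀ i, Q i = 0

variable {x : 𝕂} {h : RatCoord K x} {e : EtBasis (gauss A h) F ι} {S : Subring F} {ρ : S →+* κ}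

namespace RedMap

variable (R : RedMap h e S ρ)

theorem ev_mem (R : RedMap h e S ρ) (P : A[X]) : algebraMap 𝕂 F (evA A x P) ∈ S := by
  rw [evA_apply, aeval_eq_sum_range, map_sum]
  refine sum_mem fun i _ => ?_
  rw [Algebra.smul_def, map_mul, map_pow]
  refine mul_mem ?_ (pow_mem R.x_mem i)
  rw [incP, coe_mapRingHom, coeff_map]
  exact R.alg_mem _

theorem ρ_ev (P : A[X]) : ρ ⟨algebraMap 𝕂 F (evA A x P), R.ev_mem P⟩ =
    aeval (ρ ⟨algebraMap 𝕂 F x, R.x_mem⟩) (redP A P) := by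
  let g : A[X] →+* κ := ρ.comp (((algebraMap 𝕂 F).comp (evA A x)).codRestrict S R.ev_mem)
  let g' : A[X] →+* κ := ((aeval (ρ ⟨algebraMap 𝕂 F x, R.x_mem⟩) : (kk A)[X] →ₐ[kk A] κ) :
    (kk A)[X] →+* κ).comp (redP A)
  have hg : g = g' := by
    apply Polynomial.ringHom_ext
    · intro a
      show ρ ⟨algebraMap 𝕂 F (evA A x (C a)), _⟩ = aeval _ (redP A (C a))
      have h1 : (⟨algebraMap 𝕂 F (evA A x (C a)), R.ev_mem (C a)⟩ : S) =
          ⟨cE K 𝕂 F a, R.alg_mem a⟩ := Subtype.ext (by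
            show algebraMap 𝕂 F (evA A x (C a)) = _
            rw [evA_C]; rfl)
      rw [h1, R.alg, redP, coe_mapRingHom, map_C, aeval_C]
    · show ρ ⟨algebraMap 𝕂 F (evA A x X), _⟩ = aeval _ (redP A X)
      have h1 : (⟨algebraMap 𝕂 F (evA A x X), R.ev_mem X⟩ : S) =
          ⟨algebraMap 𝕂 F x, R.x_mem⟩ := Subtype.ext (by
            show algebraMap 𝕂 F (evA A x X) = _
            rw [evA_X])
      rw [h1, redP, coe_mapRingHom, map_X, aeval_X]
  exact congrArg (fun f : A[X] →+* κ => f P) hg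

/-- normal form of elements of `F` -/
theorem exists_nf (R : RedMap h e S ρ) (y : F) : ∃ (G : A[X]) (P : ι → A[X]), G ≠ 0 ∧
    algebraMap 𝕂 F (evA A x G) * y = ∑ i, algebraMap 𝕂 F (evA A x (P i)) * e.b i ∧
    (redP A G = 0 → ∃ i, redP A (P i) ≠ 0) := by
  classical
  -- common denominators
  have hc : ∀ i, ∃ f g : K[X], g ≠ 0 ∧ e.b.repr y i * aeval x g = aeval x f := fun i =>
    h.gen _
  choose f g hg hfg using hc
  let q : K[X] := ∏ i, g i
  have hq : q ≠ 0 := Finset.prod_ne_zero_iff.mpr fun i _ => hg i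
  let r : ι → K[X] := fun i => (∏ j ∈ Finset.univ.erase i, g j) * f i
  have hr : ∀ i, e.b.repr y i * aeval x q = aeval x (r i) := by
    intro i
    show _ * aeval x (∏ i, g i) = aeval x (_ * f i)
    rw [map_mul (aeval x), ← hfg i, ← Finset.mul_prod_erase _ _ (Finset.mem_univ i),
      map_mul (aeval x)]
    ring
  -- scale
  let fam : Option ι → K[X] := fun o => o.elim q r
  obtain ⟨c, hc0, P, hP, o, ho⟩ : ∃ c : K, c ≠ 0 ∧ ∃ P : Option ι → A[X],
      (∀ o, C c * fam o = incP A (P o)) ∧ ∃ o, redP A (P o) ≠ 0 := by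
    -- maximal coefficient
    let s : Finset (Σ _ : Option ι, ℕ) := Finset.univ.sigma fun o => (fam o).support
    have hs : s.Nonempty := by
      obtain ⟨n, hn⟩ := Polynomial.support_nonempty.mpr hq
      exact ⟨⟨none, n⟩, Finset.mem_sigma.mpr ⟨Finset.mem_univ _, hn⟩⟩
    obtain ⟨⟨o, n⟩, hon, hmax⟩ := Finset.exists_max_image s
      (fun t => A.valuation ((fam t.1).coeff t.2)) hs
    have hne : (fam o).coeff n ≠ 0 := by
      rw [Finset.mem_sigma] at hon
      exact Polynomial.mem_support_iff.mp hon.2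
    have hle : ∀ o' n', A.valuation ((fam o').coeff n') ≤ A.valuation ((fam o).coeff n) := by
      intro o' n'
      by_cases h0 : (fam o').coeff n' = 0
      · rw [h0, map_zero]; exact zero_le
      · exact hmax ⟨o', n'⟩ (Finset.mem_sigma.mpr ⟨Finset.mem_univ _,
          Polynomial.mem_support_iff.mpr h0⟩)
    have hmem : ∀ o' n', ((fam o).coeff n)⁻¹ * (fam o').coeff n' ∈ A := by
      intro o' n'
      rw [← A.valuation_le_one_iff, map_mul, map_inv₀]
      have hv : A.valuation ((fam o).coeff n) ≠ 0 := by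
        rwa [ne_eq, map_eq_zero]
      calc (A.valuation ((fam o).coeff n))⁻¹ * A.valuation ((fam o').coeff n')
          ≤ (A.valuation ((fam o).coeff n))⁻¹ * A.valuation ((fam o).coeff n) := by
            gcongr; exact hle o' n'
        _ = 1 := inv_mul_cancel₀ hv
    have hlift : ∀ o', ∃ P : A[X], C ((fam o).coeff n)⁻¹ * fam o' = incP A P := by
      intro o'
      have h1 : C ((fam o).coeff n)⁻¹ * fam o' ∈ Polynomial.lifts (A.subtype) := by
        rw [Polynomial.lifts_iff_coeff_lifts]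
        intro k
        exact ⟨⟨_, hmem o' k⟩, by rw [coeff_C_mul]; rfl⟩
      obtain ⟨P, hP⟩ := h1
      exact ⟨P, hP.symm⟩
    choose P hP using hlift
    refine ⟨((fam o).coeff n)⁻¹, inv_ne_zero hne, P, hP, o, ?_⟩
    intro h0
    have h1 : (P o).coeff n = 1 := by
      apply Subtype.ext
      have := congrArg (fun p => p.coeff n) (hP o)
      simp only [coeff_C_mul] at this
      rw [inv_mul_cancel₀ hne] at this
      rw [incP, coe_mapRingHom, coeff_map] at this
      exact this.symm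
    have h2 := congrArg (fun p => p.coeff n) h0
    simp only [redP, coe_mapRingHom, coeff_map, h1, map_one, coeff_zero] at h2
    exact one_ne_zero h2
  refine ⟨P none, fun i => P (some i), ?_, ?_, ?_⟩
  · intro h0
    have := hP none
    rw [h0, map_zero] at this
    exact mul_ne_zero (C_ne_zero.mpr hc0) hq this
  · have h1 : evA A x (P none) = algebraMap K 𝕂 c * aeval x q := by
      rw [evA_apply, ← hP none, map_mul (aeval x), aeval_C]; rfl
    have h2 : ∀ i, evA A x (P (some i)) = algebraMap K 𝕂 c * aeval x (r i) := by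
      intro i
      rw [evA_apply, ← hP (some i), map_mul (aeval x), aeval_C]; rfl
    rw [h1]
    conv_lhs => rw [← e.b.sum_repr y]
    rw [Finset.mul_sum]
    refine Finset.sum_congr rfl fun i _ => ?_
    rw [h2, ← hr i, Algebra.smul_def, map_mul, map_mul, map_mul]
    ring
  · intro h0
    rcases o with _ | i
    · exact absurd h0 ho
    · exact ⟨i, ho⟩

theorem ρ_sum (P : ι → A[X]) (hS : ∑ i, algebraMap 𝕂 F (evA A x (P i)) * e.b i ∈ S) :
    ρ ⟨_, hS⟩ = ∑ i, aeval (ρ ⟨algebraMap 𝕂 F x, R.x_mem⟩) (redP A (P i)) *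
      ρ ⟨e.b i, R.b_mem i⟩ := by
  have h1 : (⟨_, hS⟩ : S) = ∑ i, (⟨algebraMap 𝕂 F (evA A x (P i)), R.ev_mem _⟩ : S) *
      ⟨e.b i, R.b_mem i⟩ := by
    apply Subtype.ext
    rw [AddSubmonoidClass.coe_finset_sum]
    rfl
  rw [h1, map_sum]
  refine Finset.sum_congr rfl fun i _ => ?_
  rw [map_mul, R.ρ_ev]

theorem sum_mem_S (R : RedMap h e S ρ) (P : ι → A[X]) :
    ∑ i, algebraMap 𝕂 F (evA A x (P i)) * e.b i ∈ S :=
  sum_mem fun i _ => mul_mem (R.ev_mem _) (R.b_mem i)

theorem exists_nf_S (y : S) : ∃ (G : A[X]) (P : ι → A[X]), redP A G ≠ 0 ∧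
    algebraMap 𝕂 F (evA A x G) * y = ∑ i, algebraMap 𝕂 F (evA A x (P i)) * e.b i ∧
    aeval (ρ ⟨algebraMap 𝕂 F x, R.x_mem⟩) (redP A G) * ρ y =
      ∑ i, aeval (ρ ⟨algebraMap 𝕂 F x, R.x_mem⟩) (redP A (P i)) * ρ ⟨e.b i, R.b_mem i⟩ := by
  obtain ⟨G, P, hG, hy, hred⟩ := R.exists_nf (y : F)
  have h1 : (⟨algebraMap 𝕂 F (evA A x G), R.ev_mem G⟩ : S) * y =
      ⟨_, R.sum_mem_S P⟩ := Subtype.ext hy
  have h2 := congrArg ρ h1
  rw [map_mul, R.ρ_sum, R.ρ_ev] at h2
  refine ⟨G, P, ?_, hy, h2⟩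
  intro h0
  rw [h0, map_zero, zero_mul] at h2
  obtain ⟨i, hi⟩ := hred h0
  exact hi (R.indep _ h2.symm i)

theorem evG_ne (R : RedMap h e S ρ) {G : A[X]} (hG : redP A G ≠ 0) :
    aeval (ρ ⟨algebraMap 𝕂 F x, R.x_mem⟩) (redP A G) ≠ 0 := fun h0 =>
  hG ((transcendental_iff.mp R.trans) _ h0)

theorem inv_ev_mem (h : RatCoord K x) {G : A[X]} (hG : redP A G ≠ 0) :
    (algebraMap 𝕂 F (evA A x G))⁻¹ ∈ BV (gauss A h) F := by
  rw [← map_inv₀]
  exact val_mem_BV (inv_evA_mem_gauss h hG)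

include R in
theorem mem_BV (y : S) : (y : F) ∈ BV (gauss A h) F := by
  obtain ⟨G, P, hG, hy, -⟩ := R.exists_nf_S y
  have hG0 : algebraMap 𝕂 F (evA A x G) ≠ 0 := by
    rw [ne_eq, map_eq_zero]; exact evA_ne_zero h hG
  have h1 : (y : F) = (algebraMap 𝕂 F (evA A x G))⁻¹ *
      ∑ i, algebraMap 𝕂 F (evA A x (P i)) * e.b i := by
    rw [← hy, inv_mul_cancel_left₀ hG0]
  rw [h1]
  exact mul_mem (inv_ev_mem h hG) (sum_mem fun i _ =>
    mul_mem (val_mem_BV (evA_mem_gauss h _)) (e.b_mem i))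

theorem small_sum (P : ι → A[X]) (hP : ∀ i, redP A (P i) = 0) :
    Small A (gauss A h) (∑ i, algebraMap 𝕂 F (evA A x (P i)) * e.b i) := by
  refine Small.sum (gauss_alg h) _ _ fun i _ => ?_
  -- a polynomial with zero reduction is small
  have h1 : Small A (gauss A h) (algebraMap 𝕂 F (evA A x (P i))) := by
    rw [evA_apply, aeval_eq_sum_range, map_sum]
    refine Small.sum (gauss_alg h) _ _ fun j _ => ?_
    refine ⟨(P i).coeff j, algebraMap 𝕂 F (x ^ j), ?_, val_mem_BV (pow_mem (H27.x_mem h) _), ?_⟩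
    · have := congrArg (fun p => p.coeff j) (hP i)
      simpa [redP] using this
    · rw [Algebra.smul_def, map_mul, incP, coe_mapRingHom, coeff_map]
      rfl
  exact Small.mul_right (e.b_mem i) h1

theorem small_of_ρ (R : RedMap h e S ρ) (y : S) (hy0 : ρ y = 0) : Small A (gauss A h) (y : F) := by
  obtain ⟨G, P, hG, hy, hρ⟩ := R.exists_nf_S y
  rw [hy0, mul_zero] at hρ
  have hP := R.indep _ hρ.symm
  have hG0 : algebraMap 𝕂 F (evA A x G) ≠ 0 := by
    rw [ne_eq, map_eq_zero]; exact evA_ne_zero h hG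
  have h1 : (y : F) = (algebraMap 𝕂 F (evA A x G))⁻¹ *
      ∑ i, algebraMap 𝕂 F (evA A x (P i)) * e.b i := by
    rw [← hy, inv_mul_cancel_left₀ hG0]
  rw [h1]
  exact Small.mul_left (inv_ev_mem h hG) (small_sum P hP)

/-- elements of `B` in the form of quotients -/
theorem exists_mul_mem (R : RedMap h e S ρ) {y : F} (hy : y ∈ BV (gauss A h) F) :
    ∃ (G : A[X]) (P : ι → A[X]), redP A G ≠ 0 ∧
      algebraMap 𝕂 F (evA A x G) * y = ∑ i, algebraMap 𝕂 F (evA A x (P i)) * e.b i := by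
  obtain ⟨G, P, hG, hy', hred⟩ := R.exists_nf y
  by_cases h0 : redP A G = 0
  · exfalso
    obtain ⟨i, hi⟩ := hred h0
    haveI := e.finite
    -- take traces against the dual basis
    have h1 : ∀ j, Algebra.trace 𝕂 F ((algebraMap 𝕂 F (evA A x G) * y) * e.bd j) =
        evA A x (P j) := by
      intro j
      rw [hy', Finset.sum_mul, map_sum]
      have : ∀ k, Algebra.trace 𝕂 F (algebraMap 𝕂 F (evA A x (P k)) * e.b k * e.bd j) =
          evA A x (P k) * if k = j then 1 else 0 := by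
        intro k
        rw [← e.dual, ← Algebra.smul_def, EtBasis.trace_smul_mul]
      simp only [this]
      simp
    have h2 := h1 i
    rw [← Algebra.smul_def, EtBasis.trace_smul_mul] at h2
    have h3 : Algebra.trace 𝕂 F (y * e.bd i) ∈ gauss A h := trace_mem_V (mul_mem hy (e.bd_mem i))
    have h4 : rho A h (⟨evA A x G, evA_mem_gauss h G⟩ * ⟨_, h3⟩) =
        rho A h ⟨evA A x (P i), evA_mem_gauss h _⟩ := congrArg (rho A h) (Subtype.ext h2)
    rw [map_mul, rho_evA, rho_evA, h0, map_zero, zero_mul] at h4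
    have h5 : algebraMap (kk A)[X] (RatFunc (kk A)) (redP A (P i)) = 0 := h4.symm
    rw [map_eq_zero_iff _ (IsFractionRing.injective _ _)] at h5
    exact hi h5
  · exact ⟨G, P, h0, hy'⟩

theorem ρ_of_small (R : RedMap h e S ρ) (y : S) (hy : Small A (gauss A h) (y : F)) : ρ y = 0 := by
  obtain ⟨ϖ, y', h1, h2, h3⟩ := hy
  obtain ⟨G, P, hG, hGP⟩ := R.exists_mul_mem h2
  have h4 : (⟨algebraMap 𝕂 F (evA A x G), R.ev_mem G⟩ : S) * y =
      ⟨cE K 𝕂 F ϖ, R.alg_mem ϖ⟩ * ⟨_, R.sum_mem_S P⟩ := by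
    apply Subtype.ext
    show algebraMap 𝕂 F (evA A x G) * (y : F) = cE K 𝕂 F ϖ *
      ∑ i, algebraMap 𝕂 F (evA A x (P i)) * e.b i
    rw [h3, ← hGP]
    show _ * (cE K 𝕂 F ϖ * y') = _
    ring
  have h5 := congrArg ρ h4
  rw [map_mul, map_mul, R.alg, h1, map_zero, zero_mul, R.ρ_ev] at h5
  exact (mul_eq_zero.mp h5).resolve_left (R.evG_ne hG)

/-- `B/m_A B` is a domain -/
theorem small_or_small (R : RedMap h e S ρ) {y z : F} (hy : y ∈ BV (gauss A h) F)
    (hz : z ∈ BV (gauss A h) F) (hyz : Small A (gauss A h) (y * z)) :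
    Small A (gauss A h) y ∨ Small A (gauss A h) z := by
  obtain ⟨G, P, hG, hGP⟩ := R.exists_mul_mem hy
  obtain ⟨H, Q, hH, hHQ⟩ := R.exists_mul_mem hz
  have h1 : ρ (⟨_, R.sum_mem_S P⟩ * ⟨_, R.sum_mem_S Q⟩) = 0 := by
    apply R.ρ_of_small
    show Small A (gauss A h) ((∑ i, algebraMap 𝕂 F (evA A x (P i)) * e.b i) *
      (∑ i, algebraMap 𝕂 F (evA A x (Q i)) * e.b i))
    rw [← hGP, ← hHQ]
    have : algebraMap 𝕂 F (evA A x G) * y * (algebraMap 𝕂 F (evA A x H) * z) =
        (algebraMap 𝕂 F (evA A x G) * algebraMap 𝕂 F (evA A x H)) * (y * z) := by ring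
    rw [this]
    exact Small.mul_left (mul_mem (val_mem_BV (evA_mem_gauss h _))
      (val_mem_BV (evA_mem_gauss h _))) hyz
  have hG0 : algebraMap 𝕂 F (evA A x G) ≠ 0 := by
    rw [ne_eq, map_eq_zero]; exact evA_ne_zero h hG
  have hH0 : algebraMap 𝕂 F (evA A x H) ≠ 0 := by
    rw [ne_eq, map_eq_zero]; exact evA_ne_zero h hH
  rw [map_mul] at h1
  rcases mul_eq_zero.mp h1 with h2 | h2
  · left
    have h3 := R.small_of_ρ _ h2
    have h4 : y = (algebraMap 𝕂 F (evA A x G))⁻¹ *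
        ∑ i, algebraMap 𝕂 F (evA A x (P i)) * e.b i := by
      rw [← hGP, inv_mul_cancel_left₀ hG0]
    rw [h4]
    exact Small.mul_left (inv_ev_mem h hG) h3
  · right
    have h3 := R.small_of_ρ _ h2
    have h4 : z = (algebraMap 𝕂 F (evA A x H))⁻¹ *
        ∑ i, algebraMap 𝕂 F (evA A x (Q i)) * e.b i := by
      rw [← hHQ, inv_mul_cancel_left₀ hH0]
    rw [h4]
    exact Small.mul_left (inv_ev_mem h hH) h3

/-- non-small elements of `B` are units. -/
theorem isUnit_of_not_small (R : RedMap h e S ρ) (y : BV (gauss A h) F)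
    (hy : ¬ Small A (gauss A h) (y : F)) : IsUnit y := by
  have hV := gauss_alg (A := A) h
  let I : Ideal (BV (gauss A h) F) := smallI A (gauss A h) F hV
  haveI hprime : I.IsPrime := by
    refine ⟨?_, ?_⟩
    · rw [Ideal.ne_top_iff_one]; exact not_small_one h
    · intro a b hab
      exact R.small_or_small a.2 b.2 hab
  let g : gauss A h →+* BV (gauss A h) F :=
    ((algebraMap 𝕂 F).comp (gauss A h).subtype).codRestrict _ fun c => val_mem_BV c.2
  letI := g.toAlgebra
  haveI hint : Algebra.IsIntegral (gauss A h) (BV (gauss A h) F) := by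
    refine ⟨fun z => ?_⟩
    letI := ((algebraMap 𝕂 F).comp (gauss A h).subtype).toAlgebra
    haveI : IsScalarTower (gauss A h) (BV (gauss A h) F) F :=
      IsScalarTower.of_algebraMap_eq fun _ => rfl
    have h1 : IsIntegral (gauss A h) ((BV (gauss A h) F).subtype z) := z.2
    exact (isIntegral_algebraMap_iff (R := gauss A h) (A := BV (gauss A h) F) (B := F)
      Subtype.val_injective).mp h1
  -- `I` is maximal since its contraction to `V` is maximal
  have hcomap : (I.comap (algebraMap (gauss A h) (BV (gauss A h) F))).IsMaximal := by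
    have h1 : I.comap (algebraMap (gauss A h) (BV (gauss A h) F)) =
        IsLocalRing.maximalIdeal (gauss A h) := by
      apply le_antisymm
      · apply IsLocalRing.le_maximalIdeal
        rw [Ideal.ne_top_iff_one]
        intro h2
        rw [Ideal.mem_comap, map_one] at h2
        exact not_small_one h (E := F) h2
      · intro c hc
        rw [Ideal.mem_comap]
        show Small A (gauss A h) (algebraMap 𝕂 F (c : 𝕂))
        have h3 : rho A h c = 0 := by
          by_contra hne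
          exact (IsLocalRing.mem_maximalIdeal _).mp hc (isUnit_of_rho h c hne)
        obtain ⟨ϖ, y', h4, h6⟩ := (rho_eq_zero_iff h c).mp h3
        exact ⟨ϖ, algebraMap 𝕂 F y', h4, val_mem_BV y'.2, by rw [h6, map_mul]⟩
    rw [h1]
    exact IsLocalRing.maximalIdeal.isMaximal _
  have hImax : I.IsMaximal := Ideal.isMaximal_of_isIntegral_of_isMaximal_comap I hcomap
  refine isUnit_of_forall_notMem fun 𝔪 h𝔪 hmem => ?_
  have hle : I ≤ 𝔪 := by
    intro z hz
    obtain ⟨ϖ, z', h1, h2, h3⟩ := (hz : Small A (gauss A h) (z : F))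
    have h4 := mem_of_residue h (W := F) h𝔪 ϖ h1
    have h5 := 𝔪.mul_mem_left (⟨z', h2⟩ : BV (gauss A h) F) h4
    have h6 : (⟨z', h2⟩ : BV (gauss A h) F) * AtoB A h F ϖ = z := by
      apply Subtype.ext
      show z' * algebraMap 𝕂 F (algebraMap K 𝕂 ϖ) = (z : F)
      rw [h3, mul_comm]
    rwa [h6] at h5
  have heq := hImax.eq_of_le h𝔪.ne_top hle
  rw [← heq] at hmem
  exact hy hmem

theorem isUnit_of_ρ (R : RedMap h e S ρ) (y : S) (hy : ρ y ≠ 0) : IsUnit (⟨y, R.mem_BV y⟩ : BV (gauss A h) F) :=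
  R.isUnit_of_not_small _ fun hs => hy (R.ρ_of_small y hs)

/-- quotients of elements with the same nonzero reduction are `≡ 1`. -/
theorem small_div_sub_one (R : RedMap h e S ρ) (a b : S) (hab : ρ a = ρ b) (hb : ρ b ≠ 0) :
    Small A (gauss A h) ((a : F) / b - 1) := by
  have h1 : Small A (gauss A h) ((a : F) - b) := by
    have := R.small_of_ρ (a - b) (by rw [map_sub, hab, sub_self])
    exact this
  have hb0 : (b : F) ≠ 0 := by
    intro h0
    apply hb
    rw [show b = 0 from Subtype.ext h0, map_zero]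
  have h2 : (b : F)⁻¹ ∈ BV (gauss A h) F := inv_mem_of_isUnit (R.isUnit_of_ρ b hb)
  have h3 : (a : F) / b - 1 = (b : F)⁻¹ * ((a : F) - b) := by field_simp
  rw [h3]
  exact Small.mul_left h2 h1

end RedMap

end

end Fermat.Agent.H27
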