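import Fermat.Agent.H27.KeyTransfer
import Fermat.Agent.H27.KeyMod
import Fermat.Agent.H08.RankOne
import Fermat.Agent.H11Q.Residue
import Fermat.Agent.H05_Frob

set_option autoImplicit false
set_option synthInstance.maxHeartbeats 400000

open Polynomial ModularCurve IntermediateField AlgebraicCurve IsLocalRing

namespace Fermat.Agent.H27

noncomputable section

/-- valuation rings of `Qbar` have rank one -/
theorem rankOne_of {q : ℕ} (hq : q.Prime) {A : ValuationSubring (AlgebraicClosure ℚ)}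
    (hA : A.LiesOverPrime q) : RankOne A := by
  intro ϖ hϖ c hc hc0
  haveI := H08.mulArchimedean_valueGroup (A := A) hq hA
  have hϖ1 : A.valuation (ϖ : AlgebraicClosure ℚ) < 1 := by
    rw [residue_eq_zero_iff] at hϖ
    exact (A.valuation_lt_one_iff ϖ).mp hϖ
  by_cases hϖ0 : (ϖ : AlgebraicClosure ℚ) = 0
  · refine ⟨1, 0, by simp, ?_⟩
    rw [hϖ0]; simp
  have hvϖ : A.valuation (ϖ : AlgebraicClosure ℚ) ≠ 0 := by
    rwa [ne_eq, map_eq_zero]
  have hvc : A.valuation c ≠ 0 := by rwa [ne_eq, map_eq_zero]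
  have h1 : 1 < (A.valuation (ϖ : AlgebraicClosure ℚ))⁻¹ :=
    (one_lt_inv₀ (zero_lt_iff.mpr hvϖ)).mpr hϖ1
  obtain ⟨n, hn⟩ := MulArchimedean.arch (A.valuation c)⁻¹ h1
  have h2 : A.valuation (ϖ : AlgebraicClosure ℚ) ^ n ≤ A.valuation c := by
    rw [inv_pow] at hn
    exact (inv_le_inv₀ (zero_lt_iff.mpr hvc) (zero_lt_iff.mpr (pow_ne_zero _ hvϖ))).mp hn
  have h3 : A.valuation ((ϖ : AlgebraicClosure ℚ) ^ (n + 1) / c) < 1 := by
    rw [map_div₀, map_pow, pow_succ]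
    calc A.valuation (ϖ : AlgebraicClosure ℚ) ^ n * A.valuation (ϖ : AlgebraicClosure ℚ) /
          A.valuation c
        ≤ A.valuation c * A.valuation (ϖ : AlgebraicClosure ℚ) / A.valuation c := by
          gcongr
          exact zero_le
      _ = A.valuation (ϖ : AlgebraicClosure ℚ) := by
          rw [mul_div_assoc, mul_div_cancel₀ _ hvc]
      _ < 1 := hϖ1
  have h4 : (ϖ : AlgebraicClosure ℚ) ^ (n + 1) / c ∈ A :=
    (A.valuation_le_one_iff _).mp h3.le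
  refine ⟨n + 1, ⟨_, h4⟩, ?_, ?_⟩
  · rw [residue_eq_zero_iff]
    exact (A.valuation_lt_one_iff ⟨_, h4⟩).mpr h3
  · show _ = c * (_ / c)
    rw [mul_div_cancel₀ _ hc0]

/-- the data at a level with a hauptmodul -/
structure HauptLevel (M : ℕ) (A : ValuationSubring (AlgebraicClosure ℚ)) where
  𝕂 : Type
  [f : Field 𝕂]
  [a₁ : Algebra (AlgebraicClosure ℚ) 𝕂]
  [a₂ : Algebra 𝕂 (modularFunctionFieldBar M)]
  [tw : IsScalarTower (AlgebraicClosure ℚ) 𝕂 (modularFunctionFieldBar M)]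
  x : 𝕂
  J : 𝕂
  h : RatCoord (AlgebraicClosure ℚ) x
  B : BrData A x J
  B' : BrData A x⁻¹ J
  hJ : algebraMap 𝕂 (modularFunctionFieldBar M) J = H28.jBar M
  ι : Type
  [fι : Fintype ι]
  [dι : DecidableEq ι]
  e : EtBasis (gauss A h) (modularFunctionFieldBar M) ι
  R : RedMap h e (H28.modRed M A).Z (H28.modRed M A).ρ

attribute [instance] HauptLevel.f HauptLevel.a₁ HauptLevel.a₂ HauptLevel.tw HauptLevel.fι
  HauptLevel.dι

theorem KeyPrime.of_haupt {M : ℕ} [NeZero M] {A : ValuationSubring (AlgebraicClosure ℚ)} {q : ℕ}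
    (hq : q.Prime) (hA : A.LiesOverPrime q) (H : HauptLevel M A) {p : ℕ} (hp : p.Prime)
    (hpk : (p : ResidueField A) ≠ 0) : KeyPrime M A p := by
  intro a b hab hne hdiv
  have hs := H.R.small_div_sub_one a b hab (hab ▸ hne)
  letI : Algebra (AlgebraicClosure ℚ) ℂ :=
    (IsAlgClosed.lift (R := ℚ) (S := AlgebraicClosure ℚ) (M := ℂ)).toRingHom.toAlgebra
  have hJ : algebraMap H.𝕂 (H18.Fb (AlgebraicClosure ℚ) M) H.J =
      H18.jB (AlgebraicClosure ℚ) M := by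
    rw [H.hJ]
    apply Subtype.ext
    rw [H18.coe_jB]
    rfl
  obtain ⟨w, hw⟩ := key_prime H.h H.B H.B' hJ H.e (rankOne_of hq hA) hp hpk hs hdiv
  exact ⟨w, hw⟩

/-- levels with a hauptmodul having good reduction at `ℓ` -/
def Hyp (M ℓ : ℕ) : Prop := ¬ ℓ ∣ M ∧ ((2 ∣ M ∧ ℓ ≠ 2) ∨ (3 ∣ M ∧ ℓ ≠ 3))

theorem natCast_residue_ne_zero {ℓ : ℕ} (hℓ : ℓ.Prime)
    {A : ValuationSubring (AlgebraicClosure ℚ)} (hA : A.LiesOverPrime ℓ) {n : ℕ}
    (hn : ¬ ℓ ∣ n) : (n : ResidueField A) ≠ 0 := by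
  haveI := H05.charP_residueField hℓ hA
  rw [ne_eq, CharP.cast_eq_zero_iff (ResidueField A) ℓ]
  exact hn

theorem keyPrime_all {ℓ : ℕ} (hℓ : ℓ.Prime) {A : ValuationSubring (AlgebraicClosure ℚ)}
    (hA : A.LiesOverPrime ℓ) (H : ∀ M : ℕ, M ≠ 0 → Hyp M ℓ → Nonempty (HauptLevel M A))
    (N : ℕ) [NeZero N] (hN : ¬ ℓ ∣ N) {p : ℕ} (hp : p.Prime) (hpℓ : p ≠ ℓ) :
    KeyPrime N A p := by
  have hpk : (p : ResidueField A) ≠ 0 := natCast_residue_ne_zero hℓ hA (fun h =>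
    hpℓ ((Nat.prime_dvd_prime_iff_eq hℓ hp).mp h).symm)
  have base : ∀ M : ℕ, ∀ [NeZero M], Hyp M ℓ → KeyPrime M A p := by
    intro M hM0 hM
    obtain ⟨Hd⟩ := H M hM0.out hM
    exact KeyPrime.of_haupt hℓ hA Hd hp hpk
  by_cases hyp : Hyp N ℓ
  · exact base N hyp
  -- choose an auxiliary prime
  have key : ∀ r : ℕ, r.Prime → ¬ r ∣ N → ¬ p ∣ r + 1 → Hyp (N * r) ℓ → KeyPrime N A p := by
    intro r hr hrN hpr hyp'
    haveI : NeZero (N * r) := ⟨mul_ne_zero (NeZero.ne N) hr.ne_zero⟩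
    exact KeyPrime.transfer hr hrN rfl hp hpr (base (N * r) hyp')
  have hnd : ∀ r : ℕ, r.Prime → r ≠ ℓ → ¬ ℓ ∣ N * r := by
    intro r hr hrℓ hdvd
    rcases (Nat.Prime.dvd_mul hℓ).mp hdvd with h | h
    · exact hN h
    · exact hrℓ ((Nat.prime_dvd_prime_iff_eq hℓ hr).mp h).symm
  unfold Hyp at hyp
  by_cases h2 : ℓ = 2
  · subst h2
    refine key 3 Nat.prime_three ?_ ?_ ⟨hnd 3 Nat.prime_three (by norm_num),
      Or.inr ⟨dvd_mul_left 3 N, by norm_num⟩⟩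
    · intro h3
      exact hyp ⟨hN, Or.inr ⟨h3, by norm_num⟩⟩
    · intro h4
      have h5 : p ∣ 2 ^ 2 := by simpa using h4
      exact hpℓ ((Nat.prime_dvd_prime_iff_eq hp Nat.prime_two).mp (hp.dvd_of_dvd_pow h5))
  by_cases h3 : ℓ = 3
  · subst h3
    refine key 2 Nat.prime_two ?_ ?_ ⟨hnd 2 Nat.prime_two (by norm_num),
      Or.inl ⟨dvd_mul_left 2 N, by norm_num⟩⟩
    · intro h2'
      exact hyp ⟨hN, Or.inl ⟨h2', by norm_num⟩⟩
    · intro h4
      exact hpℓ ((Nat.prime_dvd_prime_iff_eq hp Nat.prime_three).mp h4)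
  have hN2 : ¬ 2 ∣ N := fun h => hyp ⟨hN, Or.inl ⟨h, h2⟩⟩
  have hN3 : ¬ 3 ∣ N := fun h => hyp ⟨hN, Or.inr ⟨h, h3⟩⟩
  by_cases hp3 : p = 3
  · subst hp3
    exact key 3 Nat.prime_three hN3 (by norm_num) ⟨hnd 3 Nat.prime_three (Ne.symm h3),
      Or.inr ⟨dvd_mul_left 3 N, h3⟩⟩
  · exact key 2 Nat.prime_two hN2 (fun h => hp3 ((Nat.prime_dvd_prime_iff_eq hp
      Nat.prime_three).mp h)) ⟨hnd 2 Nat.prime_two (Ne.symm h2),
      Or.inl ⟨dvd_mul_left 2 N, h2⟩⟩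

/-- **S18**, from the data at the levels with a hauptmodul -/
theorem s18_of {ℓ : ℕ} (hℓ : ℓ.Prime) {A : ValuationSubring (AlgebraicClosure ℚ)}
    (hA : A.LiesOverPrime ℓ) (H : ∀ M : ℕ, M ≠ 0 → Hyp M ℓ → Nonempty (HauptLevel M A))
    (N : ℕ) [NeZero N] (hN : ¬ ℓ ∣ N) (h : ReductionInputsModL A N) (m : ℕ) :
    ∀ (_ : ¬ ℓ ∣ m) (z : JZero N) (_ : m • z = 0) (_ : reductionModL A N z = 0), z = 0 := by
  haveI := H11Q.isAlgClosed_residueField A
  have hNk := natCast_residue_ne_zero hℓ hA hN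
  induction m using Nat.strong_induction_on with
  | _ m ih =>
    intro hm z hmz hz
    by_cases hm1 : m = 1
    · rw [hm1, one_nsmul] at hmz; exact hmz
    have hp := Nat.minFac_prime hm1
    set p := m.minFac with hpdef
    obtain ⟨m', hm'⟩ := Nat.minFac_dvd m
    rw [← hpdef] at hm'
    have hm0 : m ≠ 0 := by rintro rfl; exact hm (dvd_zero _)
    have hm'0 : m' ≠ 0 := by rintro rfl; rw [mul_zero] at hm'; exact hm0 hm'
    have hpℓ : p ≠ ℓ := by
      intro h0; apply hm; rw [hm', h0]; exact dvd_mul_right _ _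
    have hlt : m' < m := by
      rw [hm']
      exact lt_mul_of_one_lt_left (Nat.pos_of_ne_zero hm'0) hp.one_lt
    have h1 : m' • z = 0 := by
      refine injective_of_key h hNk hp.pos (keyPrime_all hℓ hA H N hN hp hpℓ) ?_ ?_
      · rw [← mul_nsmul', mul_comm, ← hm'] at *
        first | exact hmz | (rw [← mul_nsmul'] ; exact hmz)
      · rw [map_nsmul, hz, nsmul_zero]
    exact ih m' hlt (fun hd => hm (hm' ▸ hd.mul_left p)) z h1 hz

end

end Fermat.Agent.H27
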