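import Fermat.Agent.S24
import Fermat.Agent.H18_Norm
import Fermat.Agent.H27.S18Final
import Fermat.Agent.H02F.LocRed
import Fermat.Agent.H28.ModPlace

/-!
# Ramification over `j = 0`
-/

set_option autoImplicit false
set_option linter.unusedSectionVars false
set_option linter.style.haveILetI false

open ModularCurve

noncomputable section

namespace Fermat.Agent.N9

open Fermat.Agent.H18 AlgebraicCurve CongruenceSubgroup
open scoped MatrixGroups

attribute [local instance] algFb algFM

section Zero

variable {K : Type*} [Field K] [Algebra K ℂ] [IsAlgClosed K] [Algebra ℚ K] {N : ℕ} [NeZero N]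

theorem ram_zero_le (w : Place K (Fb K N)) (hw : w.restrict (RatFunc K) = ratPlace 0) :
    w.ramificationIndex (RatFunc K) ≤ 3 := by
  have : CharZero K := charZero_of
  obtain ⟨u, hu⟩ := exists_restrict_eq (F := ModField K N) w
  have hc : jfun rhoPt = algebraMap K ℂ 0 := by rw [jfun_rhoPt, map_zero]
  have h1 : u.restrict (RatFunc K) = (ptPlace (N := N) hc).restrict (RatFunc K) := by
    rw [restrict_ptPlace, ← restrict_restrict (E := RatFunc K) (F := Fb K N) u, hu, hw]
  have h2 : u.ramificationIndex (RatFunc K) * u.inertiaDeg (RatFunc K) ≤ 3 := by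
    obtain ⟨σ, rfl⟩ := exists_gal_smul_eq (E := RatFunc K) (ptPlace (N := N) hc) u h1.symm
    rw [ramificationIndex_gal, inertiaDeg_gal, ← card_decomp]
    refine (card_decomp_ptPlace_le hc).trans ?_
    rw [← hc, jfun_rhoPt, ordAt_jfun_of_E4 E4_rhoPt]
  have h3 := ramificationIndex_tower (E := RatFunc K) (F := Fb K N) u
  rw [hu] at h3
  have h4 : 0 < u.ramificationIndex (Fb K N) := u.ramificationIndex_pos
  have h5 : u.inertiaDeg (RatFunc K) = 1 := inertiaDeg_eq_one _
  rw [h5, mul_one, h3] at h2
  nlinarith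

theorem ram_zero_eq (h3 : nuThree N = 0) (w : Place K (Fb K N))
    (hw : w.restrict (RatFunc K) = ratPlace 0) : w.ramificationIndex (RatFunc K) = 3 := by
  classical
  have : CharZero K := charZero_of
  have h1 : 3 * numPl (Fb K N) (ratPlace (0 : K)) = dedekindPsi N := by
    have h := S24.orbits_ST N
    rw [← card_places_zero (K := K), h3, mul_zero, add_zero] at h
    exact h
  have h2 := sum_ramificationIndex_eq (Fb K N) (ratPlace (0 : K))
  rw [finrank_Fb, ← h1, numPl_eq] at h2
  have h4 : ∑ u ∈ (fiber_finite (Fb K N) (ratPlace (0 : K))).toFinset,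
      u.ramificationIndex (RatFunc K) =
      ∑ u ∈ (fiber_finite (Fb K N) (ratPlace (0 : K))).toFinset, 3 := by
    rw [Finset.sum_const, smul_eq_mul, mul_comm]
    exact h2
  have h5 := (Finset.sum_eq_sum_iff_of_le fun u hu =>
    ram_zero_le u (by simpa using hu)).mp h4
  exact h5 w (by simpa using hw)

/-- **Places over `j = 0`** when there are no elliptic points of order three. -/
theorem ord_jB_eq_three (h3 : nuThree N = 0) (w : Place K (Fb K N)) (hw : 0 < w.ord (jB K N)) :
    w.ord (jB K N) = 3 := by
  have : CharZero K := charZero_of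
  have h1 : w.restrict (RatFunc K) = ratPlace 0 := by
    rw [restrict_eq_ratPlace_iff, algebraMap_X_Fb, map_zero, sub_zero]
    exact hw
  have h2 := ord_eq_ramificationIndex w 0 h1
  rw [algebraMap_X_Fb, map_zero, sub_zero, ram_zero_eq h3 w h1] at h2
  exact h2

end Zero

section NuThree

theorem nuThree_eq_zero_of {N s : ℕ} (hs : s.Prime) (hs3 : s % 3 = 2) (h : s ∣ N) :
    nuThree N = 0 := by
  rw [nuThree]
  haveI : IsEmpty {x : ZMod N // x ^ 2 + x + 1 = 0} := by
    refine ⟨fun x => ?_⟩
    have h1 := congrArg (ZMod.castHom h (ZMod s)) x.2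
    rw [map_add, map_add, map_pow, map_one, map_zero] at h1
    generalize ZMod.castHom h (ZMod s) x.1 = y at h1
    haveI : Fact s.Prime := ⟨hs⟩
    have h2 : y ^ 3 = 1 := by linear_combination (y - 1) * h1
    have h3 : y ≠ 1 := by
      rintro rfl
      have h4 : ((3 : ℕ) : ZMod s) = 0 := by push_cast; linear_combination h1
      rw [ZMod.natCast_eq_zero_iff] at h4
      have h5 := (Nat.prime_dvd_prime_iff_eq hs Nat.prime_three).mp h4
      rw [h5] at hs3
      norm_num at hs3
    have hy0 : y ≠ 0 := by
      rintro rfl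
      norm_num at h1
    have h5 : orderOf y = 3 := orderOf_eq_prime h2 h3
    have h6 : orderOf y ∣ s - 1 := ZMod.orderOf_dvd_card_sub_one hy0
    rw [h5] at h6
    have := hs.two_le
    omega
  exact Nat.card_of_isEmpty

end NuThree

section Bar

open Fermat.Agent.H28

variable {M : ℕ} [NeZero M]

theorem ord_jBar_eq_three (h3 : nuThree M = 0)
    (w : Place (AlgebraicClosure ℚ) (modularFunctionFieldBar M)) (hw : 0 < w.ord (jBar M)) :
    w.ord (jBar M) = 3 := by
  letI : Algebra (AlgebraicClosure ℚ) ℂ :=
    (IsAlgClosed.lift (R := ℚ) (S := AlgebraicClosure ℚ) (M := ℂ)).toRingHom.toAlgebra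
  have hJ : jBar M = jB (AlgebraicClosure ℚ) M := by
    apply Subtype.ext
    rw [coe_jB]
    rfl
  rw [hJ] at hw ⊢
  exact ord_jB_eq_three h3 w hw

end Bar

end Fermat.Agent.N9
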