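import Fermat.Agent.H27.NormC

set_option autoImplicit false

open Polynomial

namespace Fermat.Agent.H27

noncomputable section

variable {K : Type*} [Field K] {A : ValuationSubring K}
variable {𝕂 : Type*} [Field 𝕂] [Algebra K 𝕂]
variable {E : Type*} [Field E] [Algebra 𝕂 E]
variable {x : 𝕂} (h : RatCoord K x)

theorem RatCoord.ne_zero {x : 𝕂} (h : RatCoord K x) : x ≠ 0 := by
  rintro rfl
  exact h.trans (isAlgebraic_zero)

theorem aeval_reflect {x : 𝕂} (hx : x ≠ 0) (N : ℕ) (f : K[X]) (hf : f.natDegree ≤ N) :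
    aeval x⁻¹ (reflect N f) * x ^ N = aeval x f := by
  letI := invertibleOfNonzero hx
  have := eval₂_reflect_mul_pow (algebraMap K 𝕂) x N f hf
  rwa [invOf_eq_inv] at this

theorem evA_reflect {x : 𝕂} (hx : x ≠ 0) (N : ℕ) (f : A[X]) (hf : f.natDegree ≤ N) :
    evA A x⁻¹ (reflect N f) * x ^ N = evA A x f := by
  rw [evA_apply, evA_apply, Polynomial.coe_mapRingHom, ← reflect_map]
  exact aeval_reflect hx N _ ((natDegree_map_le).trans hf)

/-- the inverse coordinate -/
theorem RatCoord.inv {x : 𝕂} (h : RatCoord K x) : RatCoord K x⁻¹ where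
  trans := by
    intro halg
    exact h.trans (IsAlgebraic.inv_iff.mp halg)
  gen := by
    intro y
    obtain ⟨f, g, hg, hfg⟩ := h.gen y
    refine ⟨reflect (f.natDegree + g.natDegree) f, reflect (f.natDegree + g.natDegree) g, ?_, ?_⟩
    · rwa [ne_eq, reflect_eq_zero_iff]
    · have hx := h.ne_zero
      have h1 := aeval_reflect hx (f.natDegree + g.natDegree) f (by omega)
      have h2 := aeval_reflect hx (f.natDegree + g.natDegree) g (by omega)
      have h3 : x ^ (f.natDegree + g.natDegree) ≠ 0 := pow_ne_zero _ hx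
      apply mul_right_cancel₀ h3
      rw [mul_assoc, h2, h1, hfg]

theorem inv_x_mem {x : 𝕂} (h : RatCoord K x) : x⁻¹ ∈ gauss A h := by
  have := inv_evA_mem_gauss (A := A) h (g := X) (by simp)
  rwa [evA_X] at this

theorem x_mem {x : 𝕂} (h : RatCoord K x) : x ∈ gauss A h := by
  have := evA_mem_gauss (A := A) h X
  rwa [evA_X] at this

theorem evA_inv_mem {x : 𝕂} (h : RatCoord K x) (f : A[X]) : evA A x⁻¹ f ∈ gauss A h := by
  rw [evA_apply, aeval_def, eval₂_eq_sum_range]
  refine sum_mem fun i _ => mul_mem ?_ (pow_mem (inv_x_mem h) i)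
  rw [Polynomial.coe_mapRingHom, coeff_map]
  exact algebraMap_mem_gauss h (f.coeff i).2

theorem gauss_inv_le {x : 𝕂} (h : RatCoord K x) (h' : RatCoord K x⁻¹) :
    gauss A h' ≤ gauss A h := by
  rintro y ⟨f, g, hg, hfg⟩
  have hx := h.ne_zero
  have hx' : x⁻¹ ≠ 0 := inv_ne_zero hx
  have hgi : (evA A x⁻¹ g)⁻¹ ∈ gauss A h := by
    have h1 := evA_reflect (A := A) hx' g.natDegree g le_rfl
    rw [inv_inv] at h1
    rw [← h1, mul_inv, inv_pow, inv_inv]
    refine mul_mem (inv_evA_mem_gauss h ?_) (pow_mem (x_mem h) _)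
    rw [Polynomial.coe_mapRingHom, ← reflect_map, ne_eq, reflect_eq_zero_iff]
    exact hg
  have h2 : y = evA A x⁻¹ f * (evA A x⁻¹ g)⁻¹ := by
    rw [← hfg, mul_assoc, mul_inv_cancel₀ (evA_ne_zero h' hg), mul_one]
  rw [h2]
  exact mul_mem (evA_inv_mem h f) hgi

theorem gauss_inv_eq {x : 𝕂} (h : RatCoord K x) (h' : RatCoord K x⁻¹) :
    gauss A h' = gauss A h := by
  apply le_antisymm (gauss_inv_le h h')
  have h'' : RatCoord K (x⁻¹)⁻¹ := h'.inv
  have := gauss_inv_le (A := A) h' h''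
  have h3 : gauss A h'' = gauss A h := by
    congr 1
    · exact inv_inv x
  rwa [h3] at this

/-! ### bounding -/

/-- constants in `E` -/
abbrev cE (K 𝕂 E : Type*) [Field K] [Field 𝕂] [Algebra K 𝕂] [Field E] [Algebra 𝕂 E] : K →+* E :=
  (algebraMap 𝕂 E).comp (algebraMap K 𝕂)

theorem cE_mem_OK (x : 𝕂) (c : K) : cE K 𝕂 E c ∈ OK K x E := const_mem_OK x c

theorem cE_mem_BV {V : ValuationSubring 𝕂} (hV : ∀ a ∈ A, algebraMap K 𝕂 a ∈ V) {c : K}
    (hc : c ∈ A) : cE K 𝕂 E c ∈ BV V E := val_mem_BV (hV c hc)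

theorem exists_bound_𝕂 (t : 𝕂) : ∃ c : K, c ∈ A ∧ c ≠ 0 ∧ algebraMap K 𝕂 c * t ∈ gauss A h := by
  by_cases ht : t = 0
  · exact ⟨1, A.one_mem, one_ne_zero, by rw [ht, mul_zero]; exact zero_mem _⟩
  obtain ⟨c, f, g, hc, hf, hg, hfg⟩ := exists_scale_elem A h ht
  rcases A.mem_or_inv_mem c with hcA | hcA
  · refine ⟨1, A.one_mem, one_ne_zero, ?_⟩
    rw [map_one, one_mul]
    exact ⟨C ⟨c, hcA⟩ * f, g, hg, by rw [map_mul, evA_C, hfg]⟩
  · refine ⟨c⁻¹, hcA, inv_ne_zero hc, f, g, hg, ?_⟩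
    rw [mul_assoc, hfg, ← mul_assoc, ← map_mul, inv_mul_cancel₀ hc, map_one, one_mul]

theorem exists_bound_fin_𝕂 {κ : Type*} [Fintype κ] (t : κ → 𝕂) :
    ∃ c : K, c ∈ A ∧ c ≠ 0 ∧ ∀ i, algebraMap K 𝕂 c * t i ∈ gauss A h := by
  classical
  choose c hcA hc0 hct using fun i => exists_bound_𝕂 (A := A) h (t i)
  refine ⟨∏ i, c i, prod_mem fun i _ => hcA i, Finset.prod_ne_zero_iff.mpr fun i _ => hc0 i,
    fun i => ?_⟩
  rw [← Finset.prod_erase_mul _ _ (Finset.mem_univ i), map_mul, mul_assoc]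
  exact mul_mem (algebraMap_mem_gauss h (prod_mem fun j _ => hcA j)) (hct i)

variable {ι : Type} [Fintype ι] [DecidableEq ι]

theorem exists_bound_E (e : EtBasis (gauss A h) E ι) (y : E) :
    ∃ c : K, c ∈ A ∧ c ≠ 0 ∧ cE K 𝕂 E c * y ∈ BV (gauss A h) E := by
  obtain ⟨c, hcA, hc0, hc⟩ := exists_bound_fin_𝕂 (A := A) h fun i =>
    Algebra.trace 𝕂 E (y * e.bd i)
  refine ⟨c, hcA, hc0, e.mem_of_trace fun i => ?_⟩
  have : Algebra.trace 𝕂 E (cE K 𝕂 E c * y * e.bd i) =
      algebraMap K 𝕂 c * Algebra.trace 𝕂 E (y * e.bd i) := by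
    rw [mul_assoc]
    show Algebra.trace 𝕂 E (algebraMap 𝕂 E (algebraMap K 𝕂 c) * (y * e.bd i)) = _
    rw [← Algebra.smul_def, map_smul, smul_eq_mul]
  rw [this]
  exact hc i

theorem exists_bound_fin_E (e : EtBasis (gauss A h) E ι) {κ : Type*} [Fintype κ] (t : κ → E) :
    ∃ c : K, c ∈ A ∧ c ≠ 0 ∧ ∀ i, cE K 𝕂 E c * t i ∈ BV (gauss A h) E := by
  classical
  choose c hcA hc0 hct using fun i => exists_bound_E h e (t i)
  refine ⟨∏ i, c i, prod_mem fun i _ => hcA i, Finset.prod_ne_zero_iff.mpr fun i _ => hc0 i,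
    fun i => ?_⟩
  rw [← Finset.prod_erase_mul _ _ (Finset.mem_univ i), map_mul, mul_assoc]
  exact mul_mem (cE_mem_BV (gauss_alg h) (prod_mem fun j _ => hcA j)) (hct i)

/-! ### free basis of `O_K` -/

theorem exists_OK_basis (e : EtBasis (gauss A h) E ι) :
    ∃ w : Module.Basis ι 𝕂 E, (∀ j, w j ∈ OK K x E) ∧
      ∀ a ∈ OK K x E, ∀ j, ∃ f : K[X], w.repr a j = aeval x f := by
  haveI := e.finite
  letI := (polK K x).toAlgebra
  haveI := isFractionRing_aeval h
  have hsmul : ∀ (f : K[X]) (t : 𝕂), f • t = aeval x f * t := fun f t => rfl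
  let M : Submodule K[X] (ι → 𝕂) :=
    { carrier := {u | ∑ i, u i • e.b i ∈ OK K x E}
      add_mem' := by
        intro u v hu hv
        show ∑ i, (u + v) i • e.b i ∈ OK K x E
        simp only [Pi.add_apply, add_smul, Finset.sum_add_distrib]
        exact add_mem hu hv
      zero_mem' := by
        show ∑ i, (0 : ι → 𝕂) i • e.b i ∈ OK K x E
        simp
      smul_mem' := by
        intro f u hu
        show ∑ i, (f • u) i • e.b i ∈ OK K x E
        have : ∑ i, (f • u) i • e.b i = polE K x E f * ∑ i, u i • e.b i := by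
          rw [Finset.mul_sum]
          refine Finset.sum_congr rfl fun i _ => ?_
          rw [Pi.smul_apply, hsmul, mul_smul, Algebra.smul_def]
          rfl
        rw [this]
        exact mul_mem (map_mem_intSub _ _) hu }
  obtain ⟨β, hβM, hβ, hβgen⟩ := exists_lattice_basis (R := K[X]) (Q := 𝕂) M (by
    choose s hs hs' using fun i => exists_scale_OK A h (e.bd i)
    refine ⟨∏ i, incP A (s i), Finset.prod_ne_zero_iff.mpr fun i _ => ?_, ?_⟩
    · rw [ne_eq, map_eq_zero_iff _ (incP_injective A)]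
      exact ne_zero_of_red (hs i)
    · intro u hu i
      have h1 : (∑ i, u i • e.b i) * (algebraMap 𝕂 E (evA A x (s i)) * e.bd i) ∈ OK K x E :=
        mul_mem hu (hs' i)
      obtain ⟨p, hp⟩ := trace_mem_pol h h1
      have h2 : evA A x (s i) * u i = aeval x p := by
        rw [hp, mul_left_comm, ← Algebra.smul_def, map_smul, smul_eq_mul]
        congr 1
        rw [Finset.sum_mul, map_sum, Finset.sum_eq_single i]
        · rw [smul_mul_assoc, map_smul, e.dual, if_pos rfl, smul_eq_mul, mul_one]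
        · intro j _ hj
          rw [smul_mul_assoc, map_smul, e.dual, if_neg hj, smul_eq_mul, mul_zero]
        · intro h0; exact absurd (Finset.mem_univ _) h0
      refine ⟨(∏ j ∈ Finset.univ.erase i, incP A (s j)) * p, ?_⟩
      show aeval x _ * u i = aeval x _
      rw [← Finset.prod_erase_mul _ _ (Finset.mem_univ i), map_mul, map_mul, mul_assoc, ← h2]
      rfl) (by
    intro i
    obtain ⟨s, hs, hs'⟩ := exists_scale_OK A h (e.b i)
    refine ⟨incP A s, ?_, ?_⟩
    · rw [ne_eq, map_eq_zero_iff _ (incP_injective A)]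
      exact ne_zero_of_red hs
    · show ∑ j, (Pi.single i (aeval x (incP A s)) : ι → 𝕂) j • e.b j ∈ OK K x E
      rw [Finset.sum_eq_single i]
      · rw [Pi.single_eq_same, Algebra.smul_def]
        exact hs'
      · intro j _ hj
        rw [Pi.single_eq_of_ne hj, zero_smul]
      · intro h0; exact absurd (Finset.mem_univ _) h0)
  let β' : Module.Basis ι 𝕂 (ι → 𝕂) :=
    basisOfLinearIndependentOfCardEqFinrank' β hβ (by simp)
  have hβ' : ∀ j, β' j = β j := fun j => by
    simp only [β', coe_basisOfLinearIndependentOfCardEqFinrank']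
  let w : Module.Basis ι 𝕂 E := β'.map e.b.equivFun.symm
  have hw : ∀ j, w j = ∑ i, β j i • e.b i := by
    intro j
    show e.b.equivFun.symm (β' j) = _
    rw [hβ', Module.Basis.equivFun_symm_apply]
  refine ⟨w, fun j => by rw [hw]; exact hβM j, ?_⟩
  intro a ha j
  obtain ⟨c, hc⟩ := hβgen (e.b.equivFun a) (by
    show ∑ i, e.b.equivFun a i • e.b i ∈ OK K x E
    rw [e.b.sum_equivFun]
    exact ha)
  refine ⟨c j, ?_⟩
  have h1 : a = ∑ j, (aeval x (c j) : 𝕂) • w j := by
    have h2 := congrArg e.b.equivFun.symm hc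
    rw [LinearEquiv.symm_apply_apply, map_sum] at h2
    rw [h2]
    refine Finset.sum_congr rfl fun j _ => ?_
    have h3 : c j • β j = (aeval x (c j) : 𝕂) • β j := rfl
    rw [h3, map_smul, ← hβ']
    rfl
  have h4 := w.repr_sum_self (fun j => (aeval x (c j) : 𝕂))
  rw [← h1] at h4
  exact congrFun h4 j

end

end Fermat.Agent.H27
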