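import Fermat.Agent.H27.ChartA

set_option autoImplicit false

open Polynomial

namespace Fermat.Agent.H27

noncomputable section

variable {K : Type*} [Field K] {A : ValuationSubring K}
variable {𝕂 : Type*} [Field 𝕂] [Algebra K 𝕂]
variable {E : Type*} [Field E] [Algebra 𝕂 E]

/-- an element integral over `K[1/x]` times a power of `x` is integral over `K[x]` -/
theorem exists_pow_mul_mem {x : 𝕂} (hx : x ≠ 0) {b : E} (hb : b ∈ OK K x⁻¹ E) :
    ∃ k : ℕ, algebraMap 𝕂 E (x ^ k) * b ∈ OK K x E := by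
  classical
  obtain ⟨P, hP, hPb⟩ := hb
  let k : ℕ := (Finset.range P.natDegree).sup fun i => (P.coeff i).natDegree
  refine ⟨k, ?_⟩
  let P' : 𝕂[X] := P.map (polK K x⁻¹)
  have hP'm : P'.Monic := hP.map _
  have hdeg : P'.natDegree = P.natDegree := hP.natDegree_map _
  have hP'b : aeval b P' = 0 := by
    rw [aeval_def, eval₂_map]; exact hPb
  have hl : Polynomial.scaleRoots P' (x ^ k) ∈ Polynomial.lifts (polK K x) := by
    rw [Polynomial.lifts_iff_coeff_lifts]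
    intro i
    rw [Polynomial.coeff_scaleRoots, hdeg]
    rcases lt_trichotomy i P.natDegree with hi | hi | hi
    · have h1 : (P.coeff i).natDegree ≤ k :=
        Finset.le_sup (f := fun i => (P.coeff i).natDegree) (Finset.mem_range.mpr hi)
      have hx' : x⁻¹ ≠ 0 := inv_ne_zero hx
      have h2 := aeval_reflect hx' k (P.coeff i) h1
      rw [inv_inv] at h2
      refine ⟨reflect k (P.coeff i) * X ^ (k * (P.natDegree - i) - k), ?_⟩
      show aeval x _ = P'.coeff i * _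
      rw [show P'.coeff i = aeval x⁻¹ (P.coeff i) from coeff_map _ _, ← h2, map_mul, map_pow,
        aeval_X, ← pow_mul, mul_assoc]
      congr 1
      have h3 : k * (P.natDegree - i) = k + (k * (P.natDegree - i) - k) := by
        have : k * 1 ≤ k * (P.natDegree - i) := Nat.mul_le_mul_left k (by omega)
        omega
      conv_rhs => rw [h3, pow_add, ← mul_assoc, ← mul_pow, inv_mul_cancel₀ hx, one_pow, one_mul]
    · refine ⟨1, ?_⟩
      subst hi
      rw [Nat.sub_self, pow_zero, mul_one, map_one]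
      show 1 = P'.coeff P.natDegree
      rw [← hdeg, hP'm.coeff_natDegree]
    · refine ⟨0, ?_⟩
      rw [Polynomial.coeff_eq_zero_of_natDegree_lt (by rw [hdeg]; exact hi), zero_mul, map_zero]
  have hmon' : (Polynomial.scaleRoots P' (x ^ k)).Monic :=
    (Polynomial.monic_scaleRoots_iff _).mpr hP'm
  obtain ⟨Q, hQ, -, hQm⟩ := Polynomial.lifts_and_degree_eq_and_monic hl hmon'
  refine ⟨Q, hQm, ?_⟩
  have h3 := Polynomial.scaleRoots_aeval_eq_zero (p := P') (a := b) (r := x ^ k) hP'b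
  rw [← hQ, aeval_def, eval₂_map] at h3
  exact h3

/-- splitting a Gauss-integral Laurent polynomial -/
theorem exists_split {x : 𝕂} (h : RatCoord K x) {g : 𝕂} (hg : g ∈ gauss A h) {k : ℕ} {p : K[X]}
    (hk : x ^ k * g = aeval x p) (m : ℕ) :
    ∃ (P₁ Q₁ : A[X]) (γ : Fin m → A), g = evA A x P₁ +
      (∑ i : Fin m, algebraMap K 𝕂 (γ i) * x⁻¹ ^ (i : ℕ)) + x⁻¹ ^ m * evA A x⁻¹ Q₁ := by
  have hx := h.ne_zero
  have h1 : aeval x p ∈ gauss A h := by
    rw [← hk]; exact mul_mem (pow_mem (x_mem h) k) hg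
  obtain ⟨P, hP⟩ := exists_incP_of_aeval_mem_gauss h h1
  have hP' : x ^ k * g = evA A x P := by rw [hk, ← hP, evA_apply]
  have hsplit := modByMonic_add_div P (X ^ k)
  have hdeg : (P %ₘ (X ^ k)).natDegree ≤ k := by
    have := natDegree_modByMonic_le P (monic_X_pow k)
    rwa [natDegree_X_pow] at this
  let Q := reflect k (P %ₘ (X ^ k))
  have hQ : evA A x⁻¹ Q * x ^ k = evA A x (P %ₘ (X ^ k)) := evA_reflect hx k _ hdeg
  have h2 : g = evA A x (P /ₘ (X ^ k)) + evA A x⁻¹ Q := by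
    apply mul_left_cancel₀ (pow_ne_zero k hx)
    rw [hP', mul_add, mul_comm _ (evA A x⁻¹ Q), hQ]
    conv_lhs => rw [← hsplit]
    rw [map_add, map_mul, map_pow, evA_X, add_comm]
  have hsplit2 := modByMonic_add_div Q (X ^ m)
  have hdeg2 : m = 0 ∨ (Q %ₘ (X ^ m)).natDegree < m := by
    rcases Nat.eq_zero_or_pos m with hm | hm
    · exact Or.inl hm
    · right
      have := natDegree_modByMonic_lt Q (monic_X_pow m) (by
        intro h0
        have := congrArg natDegree h0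
        rw [natDegree_X_pow, natDegree_one] at this
        omega)
      rwa [natDegree_X_pow] at this
  refine ⟨P /ₘ (X ^ k), Q /ₘ (X ^ m), fun i => (Q %ₘ (X ^ m)).coeff i, ?_⟩
  rw [h2, add_assoc]
  congr 1
  conv_lhs => rw [← hsplit2]
  rw [map_add, map_mul, map_pow, evA_X]
  congr 1
  rcases hdeg2 with hm | hm
  · subst hm
    simp
  · conv_lhs => rw [as_sum_range' (Q %ₘ (X ^ m)) m hm]
    rw [map_sum, ← Fin.sum_univ_eq_sum_range (fun i => evA A x⁻¹ (monomial i ((Q %ₘ (X ^ m)).coeff i))) m]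
    refine Finset.sum_congr rfl fun i _ => ?_
    rw [← C_mul_X_pow_eq_monomial, map_mul, map_pow, evA_X, evA_C]

/-- linear section -/
theorem exists_section {T : Type*} [Fintype T] (K : Type*) [Field K] {E : Type*} [AddCommGroup E]
    [Module K E] (O₁ O₂ : Submodule K E) (u : T → E) :
    ∃ s : T → E, ∀ γ : T → K, (∑ κ, γ κ • u κ) ∈ O₁ ⊔ O₂ →
      (∑ κ, γ κ • s κ) ∈ O₁ ∧ (∑ κ, γ κ • u κ) - (∑ κ, γ κ • s κ) ∈ O₂ := by
  classical
  let Γ : (T → K) →ₗ[K] E := Fintype.linearCombination K u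
  have hΓ : ∀ γ, Γ γ = ∑ κ, γ κ • u κ := fun γ => Fintype.linearCombination_apply K u γ
  let W : Submodule K (T → K) := (O₁ ⊔ O₂).comap Γ
  let P : Submodule K (E × (T → K)) :=
    { carrier := {t | t.1 ∈ O₁ ∧ Γ t.2 - t.1 ∈ O₂}
      add_mem' := by
        rintro ⟨a, b⟩ ⟨c, d⟩ ⟨h1, h2⟩ ⟨h3, h4⟩
        refine ⟨O₁.add_mem h1 h3, ?_⟩
        show Γ (b + d) - (a + c) ∈ O₂
        have : Γ (b + d) - (a + c) = (Γ b - a) + (Γ d - c) := by rw [map_add]; abel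
        rw [this]
        exact O₂.add_mem h2 h4
      zero_mem' := ⟨O₁.zero_mem, by simp⟩
      smul_mem' := by
        rintro r ⟨a, b⟩ ⟨h1, h2⟩
        refine ⟨O₁.smul_mem r h1, ?_⟩
        show Γ (r • b) - r • a ∈ O₂
        rw [map_smul, ← smul_sub]
        exact O₂.smul_mem r h2 }
  let π : P →ₗ[K] W :=
    { toFun := fun t => ⟨t.1.2, by
        show Γ t.1.2 ∈ O₁ ⊔ O₂
        have : Γ t.1.2 = t.1.1 + (Γ t.1.2 - t.1.1) := by abel
        rw [this]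
        exact Submodule.add_mem_sup t.2.1 t.2.2⟩
      map_add' := fun _ _ => rfl
      map_smul' := fun _ _ => rfl }
  have hπ : π.range = ⊤ := by
    rw [LinearMap.range_eq_top]
    rintro ⟨γ, hγ⟩
    obtain ⟨a, ha, b, hb, hab⟩ := Submodule.mem_sup.mp (show Γ γ ∈ O₁ ⊔ O₂ from hγ)
    exact ⟨⟨(a, γ), ha, by show Γ γ - a ∈ O₂; rw [← hab, add_sub_cancel_left]; exact hb⟩, rfl⟩
  obtain ⟨σ, hσ⟩ := LinearMap.exists_rightInverse_of_surjective π hπ
  let f : W →ₗ[K] E := (LinearMap.fst K E (T → K)).comp (P.subtype.comp σ)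
  obtain ⟨g, hg⟩ := LinearMap.exists_extend f
  refine ⟨fun κ => g (Pi.single κ 1), fun γ hγ => ?_⟩
  have h1 : ∑ κ, γ κ • g (Pi.single κ 1) = g γ := by
    conv_rhs => rw [← Finset.univ_sum_single γ]
    rw [map_sum]
    refine Finset.sum_congr rfl fun κ _ => ?_
    rw [← map_smul, ← Pi.single_smul, smul_eq_mul, mul_one]
  have hγW : γ ∈ W := by
    show Γ γ ∈ O₁ ⊔ O₂
    rw [hΓ]; exact hγ
  have h2 : g γ = f ⟨γ, hγW⟩ := by rw [← hg]; rfl
  have h3 : (σ ⟨γ, hγW⟩ : E × (T → K)).2 = γ := by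
    have := congrArg (fun l => ((l ⟨γ, hγW⟩ : W) : T → K)) hσ
    exact this
  have h4 := (σ ⟨γ, hγW⟩).2
  rw [h1, h2, ← hΓ]
  refine ⟨h4.1, ?_⟩
  have h5 := h4.2
  rw [h3] at h5
  exact h5

/-- the constants are the elements integral in both charts -/
theorem OK_inter [IsAlgClosed K] [FiniteDimensional 𝕂 E] {x : 𝕂} (h : RatCoord K x) {y : E}
    (h1 : y ∈ OK K x E) (h2 : y ∈ OK K x⁻¹ E) : ∃ c : K, y = cE K 𝕂 E c := by
  have hx := h.ne_zero
  have hint : IsIntegral 𝕂 y := Algebra.IsIntegral.isIntegral y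
  have hc : ∀ i, ∃ c : K, algebraMap K 𝕂 c = (minpoly 𝕂 y).coeff i := by
    intro i
    obtain ⟨p, hp⟩ := minpoly_coeff_mem_pol h h1 i
    obtain ⟨q, hq⟩ := minpoly_coeff_mem_pol h.inv h2 i
    have h3 := aeval_reflect (inv_ne_zero hx) q.natDegree q le_rfl
    rw [inv_inv, hq, ← hp] at h3
    have h4 : aeval x (p * X ^ q.natDegree) = aeval x (reflect q.natDegree q) := by
      rw [map_mul, map_pow, aeval_X, ← h3, mul_assoc, ← mul_pow, inv_mul_cancel₀ hx, one_pow,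
        mul_one]
    have h5 := aeval_injective h h4
    have h6 : (reflect q.natDegree q).natDegree ≤ q.natDegree := by
      refine (natDegree_le_iff_coeff_eq_zero).mpr fun j hj => ?_
      rw [coeff_reflect, revAt_eq_self_of_lt hj]
      exact coeff_eq_zero_of_natDegree_lt hj
    have h7 : p.natDegree = 0 := by
      by_cases hp0 : p = 0
      · rw [hp0]; simp
      · rw [← h5, natDegree_mul hp0 (pow_ne_zero _ X_ne_zero), natDegree_X_pow] at h6
        omega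
    refine ⟨p.coeff 0, ?_⟩
    rw [← hp]
    conv_rhs => rw [eq_C_of_natDegree_eq_zero h7, aeval_C]
  have hl : minpoly 𝕂 y ∈ Polynomial.lifts (algebraMap K 𝕂) := by
    rw [Polynomial.lifts_iff_coeff_lifts]
    exact hc
  obtain ⟨P, hP, -, hPm⟩ := Polynomial.lifts_and_degree_eq_and_monic hl (minpoly.monic hint)
  have hspl : P.Splits := IsAlgClosed.splits P
  have h5 := hspl.eq_prod_roots_of_monic hPm
  have h6 : aeval y (minpoly 𝕂 y) = 0 := minpoly.aeval _ _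
  rw [← hP, h5, aeval_def, eval₂_map, eval₂_multiset_prod, Multiset.map_map,
    Multiset.prod_eq_zero_iff] at h6
  obtain ⟨r, -, hr⟩ := Multiset.mem_map.mp h6
  refine ⟨r, ?_⟩
  simp only [Function.comp, eval₂_sub, eval₂_X, eval₂_C] at hr
  exact sub_eq_zero.mp hr

/-! ### the bounded H¹ argument -/

variable {ι : Type} [Fintype ι] [DecidableEq ι]

/-- `O_K` as a `K`-subspace -/
def OKs (K : Type*) [Field K] {𝕂 : Type*} [Field 𝕂] [Algebra K 𝕂] (x : 𝕂)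
    (E : Type*) [Field E] [Algebra 𝕂 E] :
    letI := (cE K 𝕂 E).toAlgebra
    Submodule K E :=
  letI := (cE K 𝕂 E).toAlgebra
  { carrier := OK K x E
    add_mem' := fun ha hb => add_mem ha hb
    zero_mem' := zero_mem _
    smul_mem' := fun c _ hy => mul_mem (cE_mem_OK x c) hy }

theorem bounded_H1 [IsAlgClosed K] {x : 𝕂} (h : RatCoord K x) (e : EtBasis (gauss A h) E ι) :
    ∃ c₀ : K, c₀ ∈ A ∧ c₀ ≠ 0 ∧ ∀ a ∈ OK K x E, ∀ b ∈ OK K x⁻¹ E, a - b ∈ BV (gauss A h) E →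
      ∃ α : K, cE K 𝕂 E c₀ * (a - cE K 𝕂 E α) ∈ BV (gauss A h) E := by
  haveI := e.finite
  have hx := h.ne_zero
  letI := (cE K 𝕂 E).toAlgebra
  have hsmul : ∀ (c : K) (y : E), c • y = cE K 𝕂 E c * y := fun _ _ => rfl
  obtain ⟨w, hwO, hw⟩ := exists_OK_basis (A := A) h e
  -- bound for the change of basis
  obtain ⟨c₁, hc₁A, hc₁0, hc₁⟩ := exists_bound_fin_𝕂 (A := A) h
    (fun ij : ι × ι => w.repr (e.b ij.1) ij.2)
  obtain ⟨c₂, hc₂A, hc₂0, hc₂⟩ := exists_bound_fin_E (A := A) h e w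
  -- `x^-m w_j` in `O_-`
  have hm : ∃ m : ℕ, ∀ j, algebraMap 𝕂 E (x⁻¹ ^ m) * w j ∈ OK K x⁻¹ E := by
    have h0 : ∀ j, ∃ m : ℕ, algebraMap 𝕂 E (x⁻¹ ^ m) * w j ∈ OK K x⁻¹ E := fun j =>
      exists_pow_mul_mem (inv_ne_zero hx) (by rw [inv_inv]; exact hwO j)
    choose m hm using h0
    refine ⟨∑ j, m j, fun j => ?_⟩
    rw [← Finset.sum_erase_add _ _ (Finset.mem_univ j), pow_add, map_mul, mul_assoc]
    refine mul_mem ?_ (hm j)
    have := pol_mem_OK (K := K) (E := E) x⁻¹ (X ^ (∑ i ∈ Finset.univ.erase j, m i))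
    rwa [map_pow, aeval_X] at this
  obtain ⟨m, hm⟩ := hm
  -- the finite dimensional part
  let u : Fin m × ι → E := fun κ => algebraMap 𝕂 E (x⁻¹ ^ (κ.1 : ℕ)) * w κ.2
  obtain ⟨s, hs⟩ := exists_section K (OKs K x E) (OKs K x⁻¹ E) u
  obtain ⟨c₃, hc₃A, hc₃0, hc₃⟩ := exists_bound_fin_E (A := A) h e s
  refine ⟨c₁ * (c₂ * c₃), mul_mem hc₁A (mul_mem hc₂A hc₃A),
    mul_ne_zero hc₁0 (mul_ne_zero hc₂0 hc₃0), ?_⟩
  intro a ha b hb hab
  obtain ⟨k, hk⟩ := exists_pow_mul_mem hx hb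
  -- coordinates of a - b
  have hg : ∀ j, algebraMap K 𝕂 c₁ * w.repr (a - b) j ∈ gauss A h := by
    intro j
    have h1 : w.repr (a - b) j =
        ∑ i, Algebra.trace 𝕂 E ((a - b) * e.bd i) * w.repr (e.b i) j := by
      conv_lhs => rw [← e.sum_eq (a - b)]
      rw [map_sum, Finsupp.finset_sum_apply]
      refine Finset.sum_congr rfl fun i _ => ?_
      rw [map_smul]; rfl
    rw [h1, Finset.mul_sum]
    refine sum_mem fun i _ => ?_
    rw [mul_left_comm]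
    exact mul_mem (trace_mem_V (mul_mem hab (e.bd_mem i))) (hc₁ (i, j))
  have hpol : ∀ j, ∃ p : K[X], x ^ k * (algebraMap K 𝕂 c₁ * w.repr (a - b) j) = aeval x p := by
    intro j
    have h1 : algebraMap 𝕂 E (x ^ k) * (a - b) ∈ OK K x E := by
      rw [mul_sub]
      refine sub_mem (mul_mem ?_ ha) hk
      have := pol_mem_OK (K := K) (E := E) x (X ^ k)
      rwa [map_pow, aeval_X] at this
    obtain ⟨f, hf⟩ := hw _ h1 j
    rw [← Algebra.smul_def, map_smul, Finsupp.smul_apply, smul_eq_mul] at hf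
    refine ⟨C c₁ * f, ?_⟩
    rw [map_mul, aeval_C, ← hf]; ring
  choose p hp using hpol
  choose P₁ Q₁ γ hγ using fun j => exists_split h (hg j) (hp j) m
  let a₁ : E := ∑ j, algebraMap 𝕂 E (evA A x (P₁ j)) * w j
  let b₁ : E := ∑ j, algebraMap 𝕂 E (x⁻¹ ^ m * evA A x⁻¹ (Q₁ j)) * w j
  let γ' : Fin m × ι → K := fun κ => (γ κ.2 κ.1 : K)
  have hdecomp : cE K 𝕂 E c₁ * (a - b) = a₁ + (∑ κ, γ' κ • u κ) + b₁ := by
    have h1 : cE K 𝕂 E c₁ * (a - b) =
        ∑ j, (algebraMap K 𝕂 c₁ * w.repr (a - b) j) • w j := by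
      conv_lhs => rw [← w.sum_repr (a - b)]
      rw [Finset.mul_sum]
      refine Finset.sum_congr rfl fun j _ => ?_
      rw [mul_smul, Algebra.smul_def (algebraMap K 𝕂 c₁)]
      rfl
    have h2 : ∑ κ, γ' κ • u κ =
        ∑ j, algebraMap 𝕂 E (∑ i : Fin m, algebraMap K 𝕂 (γ j i) * x⁻¹ ^ (i : ℕ)) * w j := by
      rw [Fintype.sum_prod_type_right]
      refine Finset.sum_congr rfl fun j _ => ?_
      rw [map_sum, Finset.sum_mul]
      refine Finset.sum_congr rfl fun i _ => ?_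
      rw [map_mul, mul_assoc]
      rfl
    rw [h1, h2]
    simp only [a₁, b₁, ← Finset.sum_add_distrib, ← add_mul, ← map_add]
    refine Finset.sum_congr rfl fun j _ => ?_
    rw [hγ j, Algebra.smul_def]
  have ha₁O : a₁ ∈ OK K x E := sum_mem fun j _ => mul_mem (evA_mem_OK _) (hwO j)
  have hb₁O : b₁ ∈ OK K x⁻¹ E := by
    refine sum_mem fun j _ => ?_
    rw [mul_comm (x⁻¹ ^ m), map_mul, mul_assoc]
    exact mul_mem (evA_mem_OK _) (hm j)
  have ha₁B : cE K 𝕂 E c₂ * a₁ ∈ BV (gauss A h) E := by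
    simp only [a₁, Finset.mul_sum]
    refine sum_mem fun j _ => ?_
    rw [mul_left_comm]
    exact mul_mem (val_mem_BV (evA_mem_gauss h _)) (hc₂ j)
  have hu : ∑ κ, γ' κ • u κ = (cE K 𝕂 E c₁ * a - a₁) + -(cE K 𝕂 E c₁ * b + b₁) := by
    rw [mul_sub] at hdecomp
    linear_combination -hdecomp
  have hsup : (∑ κ, γ' κ • u κ) ∈ OKs K x E ⊔ OKs K x⁻¹ E := by
    rw [hu]
    refine Submodule.add_mem_sup ?_ ?_
    · show cE K 𝕂 E c₁ * a - a₁ ∈ OK K x E
      exact sub_mem (mul_mem (cE_mem_OK x c₁) ha) ha₁O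
    · show -(cE K 𝕂 E c₁ * b + b₁) ∈ OK K x⁻¹ E
      exact neg_mem (add_mem (mul_mem (cE_mem_OK x⁻¹ c₁) hb) hb₁O)
  obtain ⟨hs1, hs2⟩ := hs γ' hsup
  have hs3 : cE K 𝕂 E c₃ * (∑ κ, γ' κ • s κ) ∈ BV (gauss A h) E := by
    rw [Finset.mul_sum]
    refine sum_mem fun κ _ => ?_
    rw [hsmul, mul_left_comm]
    exact mul_mem (cE_mem_BV (gauss_alg h) (γ κ.2 κ.1).2) (hc₃ κ)
  obtain ⟨β, hβ⟩ := OK_inter h
    (y := cE K 𝕂 E c₁ * a - a₁ - ∑ κ, γ' κ • s κ)
    (sub_mem (sub_mem (mul_mem (cE_mem_OK x c₁) ha) ha₁O) hs1) (by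
      have h1 : cE K 𝕂 E c₁ * a - a₁ - ∑ κ, γ' κ • s κ =
          cE K 𝕂 E c₁ * b + b₁ + ((∑ κ, γ' κ • u κ) - ∑ κ, γ' κ • s κ) := by
        rw [hu]; ring
      rw [h1]
      exact add_mem (add_mem (mul_mem (cE_mem_OK x⁻¹ c₁) hb) hb₁O) hs2)
  refine ⟨c₁⁻¹ * β, ?_⟩
  have h1 : cE K 𝕂 E (c₁ * (c₂ * c₃)) * (a - cE K 𝕂 E (c₁⁻¹ * β)) =
      cE K 𝕂 E c₃ * (cE K 𝕂 E c₂ * a₁) +
        cE K 𝕂 E c₂ * (cE K 𝕂 E c₃ * ∑ κ, γ' κ • s κ) := by
    have h2 : cE K 𝕂 E c₁ * cE K 𝕂 E c₁⁻¹ = 1 := by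
      rw [← map_mul, mul_inv_cancel₀ hc₁0, map_one]
    rw [map_mul (cE K 𝕂 E) c₁ (c₂ * c₃), map_mul (cE K 𝕂 E) c₂ c₃,
      map_mul (cE K 𝕂 E) c₁⁻¹ β, ← hβ]
    linear_combination (-(cE K 𝕂 E c₂) * cE K 𝕂 E c₃ *
      (cE K 𝕂 E c₁ * a - a₁ - ∑ κ, γ' κ • s κ)) * h2
  rw [h1]
  exact add_mem (mul_mem (cE_mem_BV (gauss_alg h) hc₃A) ha₁B)
    (mul_mem (cE_mem_BV (gauss_alg h) hc₂A) hs3)

end

end Fermat.Agent.H27
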