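import Fermat.Agent.H27.ChartB

set_option autoImplicit false

open Polynomial

namespace Fermat.Agent.H27

noncomputable section

variable {K : Type*} [Field K] {A : ValuationSubring K}
variable {𝕂 : Type*} [Field 𝕂] [Algebra K 𝕂]
variable {E : Type*} [Field E] [Algebra 𝕂 E]

/-- the rank one condition, in elementary form -/
def RankOne (A : ValuationSubring K) : Prop :=
  ∀ (ϖ : A), IsLocalRing.residue A ϖ = 0 → ∀ c : K, c ∈ A → c ≠ 0 →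
    ∃ (n : ℕ) (μ : A), IsLocalRing.residue A μ = 0 ∧ (ϖ : K) ^ n = c * μ

theorem mem_of_mem_BV {V : ValuationSubring 𝕂} {c : 𝕂} (hc : algebraMap 𝕂 E c ∈ BV V E) :
    c ∈ V := by
  apply closed_val V
  obtain ⟨P, hP, hPc⟩ := hc
  refine ⟨P, hP, ?_⟩
  apply (algebraMap 𝕂 E).injective
  rw [map_zero, Polynomial.hom_eval₂]
  exact hPc

theorem mem_A_of_cE {x : 𝕂} (h : RatCoord K x) {c : K} (hc : cE K 𝕂 E c ∈ BV (gauss A h) E) :
    c ∈ A := by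
  have h1 : algebraMap K 𝕂 c ∈ gauss A h := mem_of_mem_BV (E := E) hc
  refine const_mul_mem_gauss h (f := 1) (g := 1) (by simp) (by simp) ?_ h1
  simp

theorem residue_of_small {x : 𝕂} (h : RatCoord K x) (β : A)
    (hβ : Small A (gauss A h) (cE K 𝕂 E β)) : IsLocalRing.residue A β = 0 := by
  obtain ⟨ϖ, y', h1, h2, h3⟩ := hβ
  by_contra hne
  have hβi := inv_mem_of_residue_ne_zero β.2 hne
  have hβ0 : (β : K) ≠ 0 := by
    intro h0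
    apply hne
    rw [show β = 0 from Subtype.ext h0, map_zero]
  have h4 : cE K 𝕂 E β = cE K 𝕂 E ϖ * y' := h3
  have hϖ0 : (ϖ : K) ≠ 0 := by
    intro h0
    rw [h0, map_zero, zero_mul, map_eq_zero] at h4
    exact hβ0 h4
  have h5 : y' = cE K 𝕂 E ((ϖ : K)⁻¹ * β) := by
    rw [map_mul, h4, ← mul_assoc, ← map_mul, inv_mul_cancel₀ hϖ0, map_one, one_mul]
  rw [h5] at h2
  have h6 : (ϖ : K)⁻¹ ∈ A := by
    have := mul_mem (mem_A_of_cE h h2) hβi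
    rwa [mul_assoc, mul_inv_cancel₀ hβ0, mul_one] at this
  have h7 : IsUnit ϖ :=
    IsUnit.of_mul_eq_one ⟨(ϖ : K)⁻¹, h6⟩ (Subtype.ext (mul_inv_cancel₀ hϖ0))
  exact (IsLocalRing.residue_ne_zero_iff_isUnit ϖ).mpr h7 h1

/-- `y ∈ δ B` -/
def InMul (V : ValuationSubring 𝕂) (δ : K) (y : E) : Prop :=
  ∃ y' ∈ BV V E, y = cE K 𝕂 E δ * y'

theorem InMul.mono {V : ValuationSubring 𝕂} (hV : ∀ a ∈ A, algebraMap K 𝕂 a ∈ V) {δ δ' : K}
    {y : E} (hy : InMul V δ y) {c : K} (hc : c ∈ A) (hδ : δ = δ' * c) : InMul V δ' y := by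
  obtain ⟨y', h1, h2⟩ := hy
  exact ⟨cE K 𝕂 E c * y', mul_mem (cE_mem_BV hV hc) h1, by rw [h2, hδ, map_mul, mul_assoc]⟩

theorem small_iff_inMul {V : ValuationSubring 𝕂} {y : E} :
    Small A V y ↔ ∃ ϖ : A, IsLocalRing.residue A ϖ = 0 ∧ InMul V (ϖ : K) y := by
  constructor
  · rintro ⟨ϖ, y', h1, h2, h3⟩; exact ⟨ϖ, h1, y', h2, h3⟩
  · rintro ⟨ϖ, h1, y', h2, h3⟩; exact ⟨ϖ, y', h1, h2, h3⟩

theorem exists_common {V : ValuationSubring 𝕂} (hV : ∀ a ∈ A, algebraMap K 𝕂 a ∈ V) {y z t : E}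
    (hy : Small A V y) (hz : Small A V z) (ht : Small A V t) :
    ∃ ϖ : A, IsLocalRing.residue A ϖ = 0 ∧ InMul V (ϖ : K) y ∧ InMul V (ϖ : K) z ∧
      InMul V (ϖ : K) t := by
  have key : ∀ (ϖ₁ ϖ₂ : A), IsLocalRing.residue A ϖ₁ = 0 → IsLocalRing.residue A ϖ₂ = 0 →
      ∃ ϖ : A, IsLocalRing.residue A ϖ = 0 ∧ ϖ ∣ ϖ₁ ∧ ϖ ∣ ϖ₂ := by
    intro ϖ₁ ϖ₂ h1 h2
    rcases ValuationRing.dvd_total ϖ₁ ϖ₂ with h3 | h3
    · exact ⟨ϖ₁, h1, dvd_rfl, h3⟩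
    · exact ⟨ϖ₂, h2, h3, dvd_rfl⟩
  obtain ⟨ϖ₁, h1, hy⟩ := small_iff_inMul.mp hy
  obtain ⟨ϖ₂, h2, hz⟩ := small_iff_inMul.mp hz
  obtain ⟨ϖ₃, h3, ht⟩ := small_iff_inMul.mp ht
  obtain ⟨ϖ₄, h4, h41, h42⟩ := key ϖ₁ ϖ₂ h1 h2
  obtain ⟨ϖ₅, h5, h54, h53⟩ := key ϖ₄ ϖ₃ h4 h3
  have hd : ∀ {ϖ ϖ' : A} {y : E}, ϖ' ∣ ϖ → InMul V (ϖ : K) y → InMul V (ϖ' : K) y := by
    rintro ϖ ϖ' y ⟨c, hc⟩ hy
    exact hy.mono hV c.2 (by rw [hc]; rfl)
  exact ⟨ϖ₅, h5, hd (h54.trans h41) hy, hd (h54.trans h42) hz, hd h53 ht⟩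

variable {ι : Type} [Fintype ι] [DecidableEq ι]

/-- **Theorem T**: idempotents of `B / m_A B` which lift in both charts are trivial. -/
theorem idem_trivial [IsAlgClosed K] {x : 𝕂} (h : RatCoord K x) (e : EtBasis (gauss A h) E ι)
    (hrank : RankOne A) {e₀ : E} (he₀ : e₀ ∈ BV (gauss A h) E)
    (hidem : Small A (gauss A h) (e₀ ^ 2 - e₀))
    {z₀ : E} (hz₀O : z₀ ∈ OK K x E) (hz₀B : z₀ ∈ BV (gauss A h) E)
    (hz₀ : Small A (gauss A h) (z₀ - e₀))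
    {z₁ : E} (hz₁O : z₁ ∈ OK K x⁻¹ E) (hz₁B : z₁ ∈ BV (gauss A h) E)
    (hz₁ : Small A (gauss A h) (z₁ - e₀)) :
    Small A (gauss A h) e₀ ∨ Small A (gauss A h) (1 - e₀) := by
  haveI := e.finite
  have hV := gauss_alg (A := A) h
  have hs : ∀ {z : E}, z ∈ BV (gauss A h) E → Small A (gauss A h) (z - e₀) →
      Small A (gauss A h) (z ^ 2 - z) := by
    intro z hzB hz
    have h1 : z ^ 2 - z = (z + e₀ - 1) * (z - e₀) + (e₀ ^ 2 - e₀) := by ring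
    rw [h1]
    exact Small.add hV (Small.mul_left (sub_mem (add_mem hzB he₀) (one_mem _)) hz) hidem
  have hd : Small A (gauss A h) (z₀ - z₁) := by
    have h1 : z₀ - z₁ = (z₀ - e₀) - (z₁ - e₀) := by ring
    rw [h1]
    exact Small.sub hV hz₀ hz₁
  obtain ⟨ϖ, hϖ, hA1, hA2, hA3⟩ := exists_common hV (hs hz₀B hz₀) (hs hz₁B hz₁) hd
  have hnum : ∀ {R : Subring E} (n : ℕ), (n : E) ∈ R := fun {R} n => natCast_mem R n
  have hseq : ∀ n : ℕ, ∃ a b : E, a ∈ OK K x E ∧ a ∈ BV (gauss A h) E ∧ b ∈ OK K x⁻¹ E ∧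
      b ∈ BV (gauss A h) E ∧ Small A (gauss A h) (a - e₀) ∧
      InMul (gauss A h) ((ϖ : K) ^ 2 ^ n) (a ^ 2 - a) ∧
      InMul (gauss A h) ((ϖ : K) ^ 2 ^ n) (b ^ 2 - b) ∧
      InMul (gauss A h) ((ϖ : K) ^ 2 ^ n) (a - b) := by
    intro n
    induction n with
    | zero =>
      exact ⟨z₀, z₁, hz₀O, hz₀B, hz₁O, hz₁B, hz₀, by simpa using hA1, by simpa using hA2,
        by simpa using hA3⟩
    | succ n ih =>
      obtain ⟨a, b, haO, haB, hbO, hbB, hae, ⟨r, hrB, hr⟩, ⟨r', hrB', hr'⟩, ⟨t, htB, ht⟩⟩ := ih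
      set δ : E := cE K 𝕂 E ((ϖ : K) ^ 2 ^ n) with hδ
      have hδ2 : cE K 𝕂 E ((ϖ : K) ^ 2 ^ (n + 1)) = δ ^ 2 := by
        rw [hδ, ← map_pow, ← pow_mul, ← pow_succ]
      have h2O : ∀ {R : Subring E}, (2 : E) ∈ R := fun {R} => by
        have := natCast_mem R 2; exact_mod_cast this
      have h3O : ∀ {R : Subring E}, (3 : E) ∈ R := fun {R} => by
        have := natCast_mem R 3; exact_mod_cast this
      have h4O : ∀ {R : Subring E}, (4 : E) ∈ R := fun {R} => by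
        have := natCast_mem R 4; exact_mod_cast this
      have hN : ∀ {R : Subring E} {a : E}, a ∈ R → 3 * a ^ 2 - 2 * a ^ 3 ∈ R :=
        fun {R a} ha => sub_mem (mul_mem h3O (pow_mem ha 2)) (mul_mem h2O (pow_mem ha 3))
      refine ⟨3 * a ^ 2 - 2 * a ^ 3, 3 * b ^ 2 - 2 * b ^ 3, hN haO, hN haB, hN hbO, hN hbB,
        ?_, ?_, ?_, ?_⟩
      · have h1 : 3 * a ^ 2 - 2 * a ^ 3 - e₀ = -(2 * a - 1) * (δ * r) + (a - e₀) := by
          rw [← hr]; ring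
        rw [h1]
        refine Small.add hV (Small.mul_left (neg_mem (sub_mem (mul_mem h2O haB) (one_mem _))) ?_)
          hae
        refine ⟨ϖ ^ 2 ^ n, r, ?_, hrB, rfl⟩
        rw [map_pow, hϖ, zero_pow (pow_ne_zero _ two_ne_zero)]
      · refine ⟨r ^ 2 * (4 * a ^ 2 - 4 * a - 3), ?_, ?_⟩
        · exact mul_mem (pow_mem hrB 2) (sub_mem (sub_mem (mul_mem h4O (pow_mem haB 2))
            (mul_mem h4O haB)) h3O)
        · rw [hδ2]
          linear_combination ((a ^ 2 - a) + δ * r) * (4 * a ^ 2 - 4 * a - 3) * hr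
      · refine ⟨r' ^ 2 * (4 * b ^ 2 - 4 * b - 3), ?_, ?_⟩
        · exact mul_mem (pow_mem hrB' 2) (sub_mem (sub_mem (mul_mem h4O (pow_mem hbB 2))
            (mul_mem h4O hbB)) h3O)
        · rw [hδ2]
          linear_combination ((b ^ 2 - b) + δ * r') * (4 * b ^ 2 - 4 * b - 3) * hr'
      · refine ⟨t * (-t - 4 * r + 2 * a * t - 2 * r'), ?_, ?_⟩
        · exact mul_mem htB (sub_mem (add_mem (sub_mem (neg_mem htB) (mul_mem h4O hrB))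
            (mul_mem (mul_mem h2O haB) htB)) (mul_mem h2O hrB'))
        · rw [hδ2]
          have hb : b = a - δ * t := by linear_combination -ht
          have hb2 : (a - δ * t) ^ 2 - (a - δ * t) = δ * r' := by rw [← hb]; exact hr'
          rw [hb]
          have ha2 : a ^ 2 = a + δ * r := by linear_combination hr
          linear_combination (δ * t) * (-4 * hr - 2 * hb2)
  obtain ⟨c₀, hc₀A, hc₀, hH1⟩ := bounded_H1 (A := A) h e
  obtain ⟨n₀, μ, hμ, hμn⟩ := hrank ϖ hϖ c₀ hc₀A hc₀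
  obtain ⟨a, b, haO, haB, hbO, hbB, hae, -, -, ⟨t, htB, ht⟩⟩ := hseq n₀
  -- constant approximation
  have hα : ∃ α : K, Small A (gauss A h) (a - cE K 𝕂 E α) := by
    by_cases h0 : (ϖ : K) = 0
    · have hab : a = b := by
        rw [h0, zero_pow (pow_ne_zero _ two_ne_zero), map_zero, zero_mul] at ht
        exact sub_eq_zero.mp ht
      obtain ⟨β, hβ⟩ := OK_inter h haO (by rw [hab]; exact hbO)
      exact ⟨β, by rw [← hβ, sub_self]; exact Small.zero⟩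
    · have hδ0 : (ϖ : K) ^ 2 ^ n₀ ≠ 0 := pow_ne_zero _ h0
      set δ := (ϖ : K) ^ 2 ^ n₀ with hδ
      have hle : n₀ ≤ 2 ^ n₀ := Nat.lt_two_pow_self.le
      have hδμ : δ = c₀ * ((ϖ ^ (2 ^ n₀ - n₀) * μ : A) : K) := by
        show δ = c₀ * ((ϖ : K) ^ (2 ^ n₀ - n₀) * μ)
        rw [hδ, mul_left_comm, ← hμn, ← pow_add, Nat.sub_add_cancel hle]
      obtain ⟨α, hα⟩ := hH1 (cE K 𝕂 E δ⁻¹ * a) (mul_mem (cE_mem_OK x _) haO)
        (cE K 𝕂 E δ⁻¹ * b) (mul_mem (cE_mem_OK x⁻¹ _) hbO) (by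
          rw [← mul_sub, ht, ← mul_assoc, ← map_mul, inv_mul_cancel₀ hδ0, map_one, one_mul]
          exact htB)
      refine ⟨δ * α, ϖ ^ (2 ^ n₀ - n₀) * μ, _, by rw [map_mul, hμ, mul_zero], hα, ?_⟩
      show a - cE K 𝕂 E (δ * α) = cE K 𝕂 E ((ϖ ^ (2 ^ n₀ - n₀) * μ : A) : K) *
        (cE K 𝕂 E c₀ * (cE K 𝕂 E δ⁻¹ * a - cE K 𝕂 E α))
      rw [← mul_assoc, ← map_mul, mul_comm _ c₀, ← hδμ, mul_sub, ← mul_assoc, ← map_mul,
        mul_inv_cancel₀ hδ0, map_one, one_mul, ← map_mul]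
  obtain ⟨α, hα⟩ := hα
  have hαe : Small A (gauss A h) (e₀ - cE K 𝕂 E α) := by
    have h1 : e₀ - cE K 𝕂 E α = (a - cE K 𝕂 E α) - (a - e₀) := by ring
    rw [h1]
    exact Small.sub hV hα hae
  have hαB : cE K 𝕂 E α ∈ BV (gauss A h) E := by
    have h1 : cE K 𝕂 E α = e₀ - (e₀ - cE K 𝕂 E α) := by ring
    rw [h1]
    exact sub_mem he₀ (hαe.mem hV)
  have hαA : α ∈ A := mem_A_of_cE h hαB
  let α' : A := ⟨α, hαA⟩
  have hres : IsLocalRing.residue A (α' ^ 2 - α') = 0 := by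
    apply residue_of_small (E := E) h
    have h1 : cE K 𝕂 E ((α' ^ 2 - α' : A) : K) =
        (e₀ ^ 2 - e₀) - (e₀ + cE K 𝕂 E α - 1) * (e₀ - cE K 𝕂 E α) := by
      show cE K 𝕂 E (α ^ 2 - α) = _
      rw [map_sub, map_pow]; ring
    rw [h1]
    exact Small.sub hV hidem (Small.mul_left (sub_mem (add_mem he₀ hαB) (one_mem _)) hαe)
  rw [map_sub, map_pow, sub_eq_zero, sq] at hres
  by_cases hα0 : IsLocalRing.residue A α' = 0
  · left
    have h1 : e₀ = (e₀ - cE K 𝕂 E α) + cE K 𝕂 E α := by ring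
    rw [h1]
    exact Small.add hV hαe ⟨α', 1, hα0, one_mem _, by rw [mul_one]; rfl⟩
  · right
    have h2 : IsLocalRing.residue A α' = 1 := mul_left_cancel₀ hα0 (by rw [hres, mul_one])
    have h1 : 1 - e₀ = cE K 𝕂 E ((1 - α' : A) : K) - (e₀ - cE K 𝕂 E α) := by
      show 1 - e₀ = cE K 𝕂 E (1 - α) - (e₀ - cE K 𝕂 E α)
      rw [map_sub, map_one]; ring
    rw [h1]
    exact Small.sub hV ⟨1 - α', 1, by rw [map_sub, h2, map_one, sub_self], one_mem _,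
      by rw [mul_one]; rfl⟩ hαe

end

end Fermat.Agent.H27
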