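import Fermat.Agent.H27.ChartC

set_option autoImplicit false

open Polynomial

namespace Fermat.Agent.H27

noncomputable section

variable {K : Type*} [Field K] {A : ValuationSubring K}
variable {𝕂 : Type*} [Field 𝕂] [Algebra K 𝕂]
variable {E : Type*} [Field E] [Algebra 𝕂 E]
variable {ι : Type} [Fintype ι] [DecidableEq ι]

/-- **Connectedness of the special fibre**. -/
theorem connected [CharZero K] [IsAlgClosed K] {x : 𝕂} (h : RatCoord K x)
    (e : EtBasis (gauss A h) E ι) (hrank : RankOne A)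
    (D D' : A[X]) (hD : Squarefree (redP A D)) (hD' : Squarefree (redP A D'))
    (hloc : ∀ a ∈ A, ∃ d : LocData x a E ι, (incP A D).eval a ≠ 0 → d.e = 1)
    (hloc' : ∀ a ∈ A, ∃ d : LocData x⁻¹ a E ι, (incP A D').eval a ≠ 0 → d.e = 1)
    {e₀ : E} (he₀ : e₀ ∈ BV (gauss A h) E)
    (hidem : Small A (gauss A h) (e₀ ^ 2 - e₀)) :
    Small A (gauss A h) e₀ ∨ Small A (gauss A h) (1 - e₀) := by
  obtain ⟨z₀, h1, h2, h3⟩ := normality h e D hD hloc (z := ⟨e₀, he₀⟩)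
    (IntMod.of_idem h hidem)
  have hV := gauss_inv_eq (A := A) h h.inv
  have key : ∀ (V : ValuationSubring 𝕂), V = gauss A h.inv → ∀ (e' : EtBasis V E ι)
      (_ : e₀ ∈ BV V E) (_ : Small A V (e₀ ^ 2 - e₀)),
      ∃ z₀ : E, z₀ ∈ OK K x⁻¹ E ∧ z₀ ∈ BV V E ∧ Small A V (z₀ - e₀) := by
    rintro V rfl e' he' hi'
    exact normality h.inv e' D' hD' hloc' (z := ⟨e₀, he'⟩) (IntMod.of_idem h.inv hi')
  obtain ⟨z₁, h4, h5, h6⟩ := key _ hV.symm e he₀ hidem
  exact idem_trivial h e hrank he₀ hidem h1 h2 h3 h4 h5 h6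

end

end Fermat.Agent.H27
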