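import Fermat.Agent.H27.Integral

set_option autoImplicit false

open Polynomial

namespace Fermat.Agent.H27

noncomputable section

variable {K : Type*} [Field K] {A : ValuationSubring K}
variable {𝕂 : Type*} [Field 𝕂] [Algebra K 𝕂]

/-! ### the maximal ideal of the Gauss ring -/

theorem inv_mem_of_residue_ne_zero {c : K} (hc : c ∈ A)
    (h : IsLocalRing.residue A ⟨c, hc⟩ ≠ 0) : c⁻¹ ∈ A := by
  rw [IsLocalRing.residue_ne_zero_iff_isUnit] at h
  obtain ⟨u, hu⟩ := h
  have h2 : (↑u : A) * ↑u⁻¹ = 1 := u.mul_inv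
  have h3 : c * ((↑u⁻¹ : A) : K) = 1 := by
    have := congrArg (Subtype.val) h2
    rw [hu] at this
    exact this
  have h4 : ((↑u⁻¹ : A) : K) = c⁻¹ := eq_inv_of_mul_eq_one_right h3
  rw [← h4]
  exact (↑u⁻¹ : A).2

theorem exists_gauss_form {x : 𝕂} (h : RatCoord K x) (y : gauss A h) :
    ∃ (c : A) (y' : gauss A h), (y : 𝕂) = algebraMap K 𝕂 c * y' ∧ rho A h y' ≠ 0 ∧
      (y' : 𝕂)⁻¹ ∈ gauss A h := by
  by_cases hy : (y : 𝕂) = 0
  · exact ⟨0, 1, by simp [hy], by simp, by simp⟩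
  · obtain ⟨c, f, g, hc, hf, hg, hfg⟩ := exists_scale_elem A h hy
    have hcA : c ∈ A := const_mul_mem_gauss h hf hg hfg y.2
    have hgne := evA_ne_zero h hg
    have hfne := evA_ne_zero h hf
    refine ⟨⟨c, hcA⟩, ⟨evA A x f / evA A x g, f, g, hg, div_mul_cancel₀ _ hgne⟩, ?_, ?_, ?_⟩
    · show (y : 𝕂) = algebraMap K 𝕂 c * (evA A x f / evA A x g)
      rw [← mul_div_assoc, eq_div_iff hgne, hfg]
    · rw [rho_apply h _ (f := f) (g := g) hg (div_mul_cancel₀ _ hgne)]
      apply div_ne_zero <;> simpa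
    · refine ⟨g, f, hf, ?_⟩
      show (evA A x f / evA A x g)⁻¹ * evA A x f = evA A x g
      rw [inv_div, div_mul_cancel₀ _ hfne]

theorem rho_eq_zero_iff {x : 𝕂} (h : RatCoord K x) (y : gauss A h) :
    rho A h y = 0 ↔ ∃ (ϖ : A) (y' : gauss A h), IsLocalRing.residue A ϖ = 0 ∧
      (y : 𝕂) = algebraMap K 𝕂 ϖ * y' := by
  constructor
  · intro h0
    obtain ⟨c, y', h1, h2, -⟩ := exists_gauss_form h y
    refine ⟨c, y', ?_, h1⟩
    have h3 : y = ⟨algebraMap K 𝕂 c, algebraMap_mem_gauss h c.2⟩ * y' := Subtype.ext h1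
    rw [h3, map_mul, rho_algebraMap] at h0
    have h4 := (mul_eq_zero.mp h0).resolve_right h2
    simpa using h4
  · rintro ⟨ϖ, y', h1, h2⟩
    have h3 : y = ⟨algebraMap K 𝕂 ϖ, algebraMap_mem_gauss h ϖ.2⟩ * y' := Subtype.ext h2
    rw [h3, map_mul, rho_algebraMap, h1]
    simp

theorem inv_mem_gauss_of_rho {x : 𝕂} (h : RatCoord K x) (y : gauss A h) (hy : rho A h y ≠ 0) :
    (y : 𝕂)⁻¹ ∈ gauss A h := by
  obtain ⟨c, y', h1, h2, h3⟩ := exists_gauss_form h y
  have h4 : y = ⟨algebraMap K 𝕂 c, algebraMap_mem_gauss h c.2⟩ * y' := Subtype.ext h1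
  have h5 : IsLocalRing.residue A c ≠ 0 := by
    intro h0
    apply hy
    rw [h4, map_mul, rho_algebraMap, h0]
    simp
  rw [h1, mul_inv, ← map_inv₀]
  exact mul_mem (algebraMap_mem_gauss h (inv_mem_of_residue_ne_zero c.2 h5)) h3

theorem isUnit_of_rho {x : 𝕂} (h : RatCoord K x) (y : gauss A h) (hy : rho A h y ≠ 0) :
    IsUnit y := by
  have hne : (y : 𝕂) ≠ 0 := by
    intro h0
    apply hy
    rw [show y = 0 from Subtype.ext h0, map_zero]
  refine IsUnit.of_mul_eq_one ⟨(y : 𝕂)⁻¹, inv_mem_gauss_of_rho h y hy⟩ ?_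
  exact Subtype.ext (mul_inv_cancel₀ hne)

/-! ### etale bases -/

variable {E : Type*} [Field E] [Algebra 𝕂 E]

/-- A basis of `E/𝕂` together with its dual basis, all integral over `V`. -/
structure EtBasis (V : ValuationSubring 𝕂) (E : Type*) [Field E] [Algebra 𝕂 E]
    (ι : Type*) [Fintype ι] [DecidableEq ι] where
  b : Module.Basis ι 𝕂 E
  bd : ι → E
  b_mem : ∀ i, b i ∈ BV V E
  bd_mem : ∀ i, bd i ∈ BV V E
  dual : ∀ i j, Algebra.trace 𝕂 E (b i * bd j) = if i = j then 1 else 0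

variable {V : ValuationSubring 𝕂} {ι : Type*} [Fintype ι] [DecidableEq ι]

namespace EtBasis

theorem finite (e : EtBasis V E ι) : FiniteDimensional 𝕂 E := Module.Finite.of_basis e.b

variable (e : EtBasis V E ι)

theorem trace_smul_mul (c : 𝕂) (y z : E) :
    Algebra.trace 𝕂 E (c • y * z) = c * Algebra.trace 𝕂 E (y * z) := by
  rw [smul_mul_assoc, map_smul, smul_eq_mul]

theorem repr_eq (y : E) (i : ι) : e.b.repr y i = Algebra.trace 𝕂 E (y * e.bd i) := by
  conv_rhs => rw [← e.b.sum_repr y]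
  rw [Finset.sum_mul, map_sum]
  simp only [trace_smul_mul, e.dual]
  simp

theorem sum_eq (y : E) : ∑ i, Algebra.trace 𝕂 E (y * e.bd i) • e.b i = y := by
  conv_rhs => rw [← e.b.sum_repr y]
  simp only [e.repr_eq]

theorem ext_trace {y z : E} (h : ∀ i, Algebra.trace 𝕂 E (y * e.bd i) =
    Algebra.trace 𝕂 E (z * e.bd i)) : y = z := by
  rw [← e.sum_eq y, ← e.sum_eq z]
  simp only [h]

theorem mem_of_trace {y : E} (h : ∀ i, Algebra.trace 𝕂 E (y * e.bd i) ∈ V) : y ∈ BV V E := by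
  rw [← e.sum_eq y]
  refine sum_mem fun i _ => ?_
  rw [Algebra.smul_def]
  exact mul_mem (val_mem_BV (h i)) (e.b_mem i)

theorem linearIndependent_bd : LinearIndependent 𝕂 e.bd := by
  rw [Fintype.linearIndependent_iff]
  intro g hg i
  have h1 := congrArg (fun y => Algebra.trace 𝕂 E (e.b i * y)) hg
  simp only [Finset.mul_sum, map_sum, mul_smul_comm, map_smul, e.dual, mul_zero, map_zero] at h1
  simpa using h1

/-- the dual basis -/
def swap : EtBasis V E ι :=
  have hfin := e.finite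
  { b := basisOfLinearIndependentOfCardEqFinrank' e.bd e.linearIndependent_bd
      (Module.finrank_eq_card_basis e.b).symm
    bd := e.b
    b_mem := fun i => by
      rw [coe_basisOfLinearIndependentOfCardEqFinrank']; exact e.bd_mem i
    bd_mem := e.b_mem
    dual := fun i j => by
      rw [coe_basisOfLinearIndependentOfCardEqFinrank', mul_comm, e.dual]
      simp only [eq_comm] }

@[simp] theorem swap_b (i : ι) : e.swap.b i = e.bd i := by
  have hfin := e.finite
  show (basisOfLinearIndependentOfCardEqFinrank' e.bd e.linearIndependent_bd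
      (Module.finrank_eq_card_basis e.b).symm) i = _
  rw [coe_basisOfLinearIndependentOfCardEqFinrank']

@[simp] theorem swap_bd (i : ι) : e.swap.bd i = e.b i := rfl

theorem mem_of_trace' {y : E} (h : ∀ i, Algebra.trace 𝕂 E (y * e.b i) ∈ V) : y ∈ BV V E :=
  e.swap.mem_of_trace h

theorem ext_trace' {y z : E} (h : ∀ i, Algebra.trace 𝕂 E (y * e.b i) =
    Algebra.trace 𝕂 E (z * e.b i)) : y = z :=
  e.swap.ext_trace h

end EtBasis

/-- construct an étale basis from a dual pair of families -/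
def EtBasis.mk' (e : EtBasis V E ι) (v vd : ι → E) (hv : ∀ i, v i ∈ BV V E)
    (hvd : ∀ i, vd i ∈ BV V E)
    (hdual : ∀ i j, Algebra.trace 𝕂 E (v i * vd j) = if i = j then 1 else 0) : EtBasis V E ι :=
  have hfin := e.finite
  have hli : LinearIndependent 𝕂 v := by
    rw [Fintype.linearIndependent_iff]
    intro g hg i
    have h1 := congrArg (fun y => Algebra.trace 𝕂 E (y * vd i)) hg
    simp only [Finset.sum_mul, map_sum, smul_mul_assoc, map_smul, hdual, zero_mul, map_zero] at h1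
    simpa using h1
  { b := basisOfLinearIndependentOfCardEqFinrank' v hli (Module.finrank_eq_card_basis e.b).symm
    bd := vd
    b_mem := fun i => by
      rw [coe_basisOfLinearIndependentOfCardEqFinrank']; exact hv i
    bd_mem := hvd
    dual := fun i j => by
      rw [coe_basisOfLinearIndependentOfCardEqFinrank', hdual] }

theorem EtBasis.mk'_b (e : EtBasis V E ι) (v vd : ι → E) (hv : ∀ i, v i ∈ BV V E)
    (hvd : ∀ i, vd i ∈ BV V E)
    (hdual : ∀ i j, Algebra.trace 𝕂 E (v i * vd j) = if i = j then 1 else 0) (i : ι) :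
    (EtBasis.mk' e v vd hv hvd hdual).b i = v i := by
  have hfin := e.finite
  have hli : LinearIndependent 𝕂 v := by
    rw [Fintype.linearIndependent_iff]
    intro g hg i
    have h1 := congrArg (fun y => Algebra.trace 𝕂 E (y * vd i)) hg
    simp only [Finset.sum_mul, map_sum, smul_mul_assoc, map_smul, hdual, zero_mul, map_zero] at h1
    simpa using h1
  show (basisOfLinearIndependentOfCardEqFinrank' v hli
    (Module.finrank_eq_card_basis e.b).symm) i = _
  rw [coe_basisOfLinearIndependentOfCardEqFinrank']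

/-- `y ∈ m_A B` -/
def Small (A : ValuationSubring K) (V : ValuationSubring 𝕂) (y : E) : Prop :=
  ∃ (ϖ : A) (y' : E), IsLocalRing.residue A ϖ = 0 ∧ y' ∈ BV V E ∧
    y = algebraMap 𝕂 E (algebraMap K 𝕂 ϖ) * y'

namespace Small

theorem zero : Small A V (0 : E) := ⟨0, 0, by simp, zero_mem _, by simp⟩

theorem neg {y : E} (hy : Small A V y) : Small A V (-y) := by
  obtain ⟨ϖ, y', h1, h2, h3⟩ := hy
  exact ⟨ϖ, -y', h1, neg_mem h2, by rw [h3]; ring⟩

theorem mem (hV : ∀ a ∈ A, algebraMap K 𝕂 a ∈ V) {y : E} (hy : Small A V y) : y ∈ BV V E := by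
  obtain ⟨ϖ, y', h1, h2, h3⟩ := hy
  rw [h3]
  exact mul_mem (val_mem_BV (hV _ ϖ.2)) h2

theorem add (hV : ∀ a ∈ A, algebraMap K 𝕂 a ∈ V) {y z : E} (hy : Small A V y)
    (hz : Small A V z) : Small A V (y + z) := by
  obtain ⟨ϖ, y', h1, h2, h3⟩ := hy
  obtain ⟨ϖ₂, z', h1', h2', h3'⟩ := hz
  rcases ValuationRing.dvd_total ϖ ϖ₂ with ⟨c, hc⟩ | ⟨c, hc⟩
  · refine ⟨ϖ, y' + algebraMap 𝕂 E (algebraMap K 𝕂 c) * z', h1,
      add_mem h2 (mul_mem (val_mem_BV (hV _ c.2)) h2'), ?_⟩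
    rw [h3, h3', show ((ϖ₂ : A) : K) = (ϖ : K) * c from by rw [hc]; rfl, map_mul, map_mul]
    ring
  · refine ⟨ϖ₂, algebraMap 𝕂 E (algebraMap K 𝕂 c) * y' + z', h1',
      add_mem (mul_mem (val_mem_BV (hV _ c.2)) h2) h2', ?_⟩
    rw [h3, h3', show ((ϖ : A) : K) = (ϖ₂ : K) * c from by rw [hc]; rfl, map_mul, map_mul]
    ring

theorem sub (hV : ∀ a ∈ A, algebraMap K 𝕂 a ∈ V) {y z : E} (hy : Small A V y)
    (hz : Small A V z) : Small A V (y - z) := by
  rw [sub_eq_add_neg]; exact add hV hy hz.neg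

theorem mul_left {y z : E} (hy : y ∈ BV V E) (hz : Small A V z) : Small A V (y * z) := by
  obtain ⟨ϖ, z', h1, h2, h3⟩ := hz
  exact ⟨ϖ, y * z', h1, mul_mem hy h2, by rw [h3]; ring⟩

theorem mul_right {y z : E} (hy : y ∈ BV V E) (hz : Small A V z) : Small A V (z * y) := by
  rw [mul_comm]; exact mul_left hy hz

theorem sum (hV : ∀ a ∈ A, algebraMap K 𝕂 a ∈ V) {κ : Type*} (s : Finset κ) (f : κ → E)
    (hf : ∀ i ∈ s, Small A V (f i)) : Small A V (∑ i ∈ s, f i) := by
  classical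
  induction s using Finset.induction_on with
  | empty => simpa using zero
  | insert a s ha ih =>
    rw [Finset.sum_insert ha]
    exact add hV (hf a (Finset.mem_insert_self _ _))
      (ih fun i hi => hf i (Finset.mem_insert_of_mem hi))

end Small

theorem gauss_alg {x : 𝕂} (h : RatCoord K x) : ∀ a ∈ A, algebraMap K 𝕂 a ∈ gauss A h :=
  fun _ ha => algebraMap_mem_gauss h ha

theorem small_of_rho {x : 𝕂} (h : RatCoord K x) (e : EtBasis (gauss A h) E ι) {y : E}
    (hy : ∀ i, ∃ hi : Algebra.trace 𝕂 E (y * e.bd i) ∈ gauss A h,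
      rho A h ⟨_, hi⟩ = 0) : Small A (gauss A h) y := by
  rw [← e.sum_eq y]
  refine Small.sum (gauss_alg h) _ _ fun i _ => ?_
  obtain ⟨hi, h0⟩ := hy i
  obtain ⟨ϖ, c, h1, h2⟩ := (rho_eq_zero_iff h _).mp h0
  refine ⟨ϖ, algebraMap 𝕂 E c * e.b i, h1, mul_mem (val_mem_BV c.2) (e.b_mem i), ?_⟩
  rw [Algebra.smul_def, ← mul_assoc, ← map_mul]
  congr 2

theorem rho_trace_of_small {x : 𝕂} (h : RatCoord K x) [FiniteDimensional 𝕂 E] {y : E}
    (hy : Small A (gauss A h) y) (hi : Algebra.trace 𝕂 E y ∈ gauss A h) :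
      rho A h ⟨_, hi⟩ = 0 := by
  obtain ⟨ϖ, y', h1, h2, h3⟩ := hy
  rw [rho_eq_zero_iff]
  refine ⟨ϖ, ⟨Algebra.trace 𝕂 E y', trace_mem_V h2⟩, h1, ?_⟩
  show Algebra.trace 𝕂 E y = algebraMap K 𝕂 ϖ * Algebra.trace 𝕂 E y'
  rw [h3, ← Algebra.smul_def, map_smul, smul_eq_mul]

end

end Fermat.Agent.H27
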