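import Mathlib

set_option autoImplicit false

open Polynomial

namespace Fermat.Agent.H27

noncomputable section

variable {K : Type*} [Field K] (A : ValuationSubring K)

/-- Residue field of `A`. -/
abbrev kk : Type _ := IsLocalRing.ResidueField A

/-- Reduction of polynomials. -/
abbrev redP : A[X] →+* (kk A)[X] := Polynomial.mapRingHom (IsLocalRing.residue A)

/-- Inclusion of polynomials. -/
abbrev incP : A[X] →+* K[X] := Polynomial.mapRingHom (algebraMap A K)

theorem incP_injective : Function.Injective (incP A) :=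
  Polynomial.map_injective _ (IsFractionRing.injective A K)

theorem exists_scale (f : K[X]) (hf : f ≠ 0) :
    ∃ (c : K) (f₁ : A[X]), c ≠ 0 ∧ f = C c * incP A f₁ ∧ redP A f₁ ≠ 0 := by
  classical
  obtain ⟨i, hi, hmax⟩ := Finset.exists_max_image f.support (fun j => A.valuation (f.coeff j))
    (Polynomial.support_nonempty.mpr hf)
  have hc : f.coeff i ≠ 0 := Polynomial.mem_support_iff.mp hi
  have hle : ∀ j, A.valuation (f.coeff j / f.coeff i) ≤ 1 := by
    intro j
    rw [map_div₀]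
    by_cases hj : j ∈ f.support
    · exact div_le_one_of_le₀ (hmax j hj) zero_le
    · rw [Polynomial.notMem_support_iff.mp hj]; simp
  have hlift : (C (f.coeff i)⁻¹ * f) ∈ Polynomial.lifts (algebraMap A K) := by
    rw [Polynomial.lifts_iff_coeff_lifts]
    intro j
    refine ⟨⟨f.coeff j / f.coeff i, (A.valuation_le_one_iff _).mp (hle j)⟩, ?_⟩
    rw [Polynomial.coeff_C_mul]
    show (f.coeff j / f.coeff i) = _
    rw [div_eq_inv_mul]
  obtain ⟨f₁, hf₁⟩ := (Polynomial.mem_lifts _).mp hlift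
  refine ⟨f.coeff i, f₁, hc, ?_, ?_⟩
  · rw [Polynomial.coe_mapRingHom, hf₁, ← mul_assoc, ← C_mul, mul_inv_cancel₀ hc, C_1, one_mul]
  · intro h0
    have h1 : (redP A f₁).coeff i = 0 := by rw [h0]; simp
    rw [Polynomial.coe_mapRingHom, Polynomial.coeff_map] at h1
    have h2 : (algebraMap A K) (f₁.coeff i) = 1 := by
      rw [← Polynomial.coeff_map, hf₁, Polynomial.coeff_C_mul, inv_mul_cancel₀ hc]
    have h3 : f₁.coeff i = 1 := by
      apply IsFractionRing.injective A K
      rw [h2, map_one]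
    rw [h3, map_one] at h1
    exact one_ne_zero h1

variable {𝕂 : Type*} [Field 𝕂] [Algebra K 𝕂]

variable (K) in
/-- `x` is a rational coordinate of `𝕂` over `K`: `𝕂 = K(x)`, `x` transcendental. -/
structure RatCoord (x : 𝕂) : Prop where
  trans : Transcendental K x
  gen : ∀ y : 𝕂, ∃ f g : K[X], g ≠ 0 ∧ y * aeval x g = aeval x f

/-- Evaluation of polynomials over `A` at `x`. -/
def evA (x : 𝕂) : A[X] →+* 𝕂 := ((aeval x : K[X] →ₐ[K] 𝕂) : K[X] →+* 𝕂).comp (incP A)

theorem evA_apply (x : 𝕂) (f : A[X]) : evA A x f = aeval x (incP A f) := rfl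

variable {A} in
theorem evA_C (x : 𝕂) (a : A) : evA A x (C a) = algebraMap K 𝕂 a := by
  rw [evA_apply]; simp

theorem evA_X (x : 𝕂) : evA A x X = x := by
  rw [evA_apply]; simp

variable {A}

theorem aeval_injective {x : 𝕂} (h : RatCoord K x) :
    Function.Injective (aeval x : K[X] →ₐ[K] 𝕂) :=
  (transcendental_iff_injective).mp h.trans

theorem evA_injective {x : 𝕂} (h : RatCoord K x) : Function.Injective (evA A x) :=
  (aeval_injective h).comp (incP_injective A)

theorem ne_zero_of_red {g : A[X]} (hg : redP A g ≠ 0) : g ≠ 0 := by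
  rintro rfl; simp at hg

theorem evA_ne_zero {x : 𝕂} (h : RatCoord K x) {g : A[X]} (hg : redP A g ≠ 0) :
    evA A x g ≠ 0 := by
  rw [ne_eq, map_eq_zero_iff _ (evA_injective h)]
  exact ne_zero_of_red hg

variable (A) in
/-- every nonzero element of `𝕂` is a constant times a Gauss-unit fraction -/
theorem exists_scale_elem {x : 𝕂} (h : RatCoord K x) {y : 𝕂} (hy : y ≠ 0) :
    ∃ (c : K) (f g : A[X]), c ≠ 0 ∧ redP A f ≠ 0 ∧ redP A g ≠ 0 ∧
      y * evA A x g = algebraMap K 𝕂 c * evA A x f := by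
  obtain ⟨f, g, hg, hfg⟩ := h.gen y
  have hf : f ≠ 0 := by
    rintro rfl
    rw [map_zero] at hfg
    rcases mul_eq_zero.mp hfg with h1 | h1
    · exact hy h1
    · exact hg ((map_eq_zero_iff _ (aeval_injective h)).mp h1)
  obtain ⟨c, f₁, hc, hf1, hf2⟩ := exists_scale A f hf
  obtain ⟨d, g₁, hd, hg1, hg2⟩ := exists_scale A g hg
  refine ⟨c / d, f₁, g₁, div_ne_zero hc hd, hf2, hg2, ?_⟩
  rw [hf1, hg1, map_mul, map_mul, aeval_C, aeval_C] at hfg
  rw [evA_apply, evA_apply, map_div₀]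
  have hd' : algebraMap K 𝕂 d ≠ 0 := by simpa using hd
  field_simp
  linear_combination hfg

variable (A) in
/-- The Gauss valuation ring of `K(x)` over `A`. -/
def gauss {x : 𝕂} (h : RatCoord K x) : ValuationSubring 𝕂 where
  carrier := {y | ∃ f g : A[X], redP A g ≠ 0 ∧ y * evA A x g = evA A x f}
  mul_mem' := by
    rintro a b ⟨f, g, hg, hfg⟩ ⟨f', g', hg', hfg'⟩
    refine ⟨f * f', g * g', ?_, ?_⟩
    · rw [map_mul]; exact mul_ne_zero hg hg'
    · rw [map_mul, map_mul, ← hfg, ← hfg']; ring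
  one_mem' := ⟨1, 1, by simp, by simp⟩
  add_mem' := by
    rintro a b ⟨f, g, hg, hfg⟩ ⟨f', g', hg', hfg'⟩
    refine ⟨f * g' + f' * g, g * g', ?_, ?_⟩
    · rw [map_mul]; exact mul_ne_zero hg hg'
    · rw [map_mul, map_add, map_mul, map_mul, ← hfg, ← hfg']; ring
  zero_mem' := ⟨0, 1, by simp, by simp⟩
  neg_mem' := by
    rintro a ⟨f, g, hg, hfg⟩
    exact ⟨-f, g, hg, by rw [map_neg, ← hfg]; ring⟩
  mem_or_inv_mem' := by
    intro y
    by_cases hy : y = 0
    · left; subst hy; exact ⟨0, 1, by simp, by simp⟩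
    obtain ⟨c, f, g, hc, hf, hg, hfg⟩ := exists_scale_elem A h hy
    rcases A.mem_or_inv_mem c with hcA | hcA
    · left
      refine ⟨C ⟨c, hcA⟩ * f, g, hg, ?_⟩
      rw [map_mul, evA_C, hfg]
    · right
      refine ⟨C ⟨c⁻¹, hcA⟩ * g, f, hf, ?_⟩
      rw [map_mul, evA_C]
      have hc' : algebraMap K 𝕂 c ≠ 0 := by simpa using hc
      show y⁻¹ * evA A x f = algebraMap K 𝕂 (c⁻¹) * evA A x g
      rw [map_inv₀]
      field_simp
      linear_combination -hfg

theorem mem_gauss_iff {x : 𝕂} (h : RatCoord K x) {y : 𝕂} :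
    y ∈ gauss A h ↔ ∃ f g : A[X], redP A g ≠ 0 ∧ y * evA A x g = evA A x f := Iff.rfl

theorem evA_mem_gauss {x : 𝕂} (h : RatCoord K x) (f : A[X]) : evA A x f ∈ gauss A h :=
  ⟨f, 1, by simp, by simp⟩

theorem algebraMap_mem_gauss {x : 𝕂} (h : RatCoord K x) {a : K} (ha : a ∈ A) :
    algebraMap K 𝕂 a ∈ gauss A h :=
  ⟨C ⟨a, ha⟩, 1, by simp, by rw [evA_C]; simp⟩

theorem inv_evA_mem_gauss {x : 𝕂} (h : RatCoord K x) {g : A[X]} (hg : redP A g ≠ 0) :
    (evA A x g)⁻¹ ∈ gauss A h :=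
  ⟨1, g, hg, by rw [inv_mul_cancel₀ (evA_ne_zero h hg), map_one]⟩

/-- scalar extension criterion: `c * v` with `v` a Gauss unit -/
theorem const_mul_mem_gauss {x : 𝕂} (h : RatCoord K x) {c : K} {f g : A[X]}
    (hf : redP A f ≠ 0) {y : 𝕂} (hg : redP A g ≠ 0)
    (hy : y * evA A x g = algebraMap K 𝕂 c * evA A x f) (hyV : y ∈ gauss A h) : c ∈ A := by
  by_contra hc
  have hc0 : c ≠ 0 := fun h0 => hc (h0 ▸ A.zero_mem)
  have hci : c⁻¹ ∈ A := (A.mem_or_inv_mem c).resolve_left hc
  obtain ⟨f', g', hg', hfg'⟩ := hyV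
  have key : f * g' = C ⟨c⁻¹, hci⟩ * (f' * g) := by
    apply evA_injective h
    rw [map_mul, map_mul, map_mul, evA_C, ← hfg']
    show evA A x f * evA A x g' = algebraMap K 𝕂 (c⁻¹) * (y * evA A x g' * evA A x g)
    have hc' : algebraMap K 𝕂 c ≠ 0 := by simpa using hc0
    rw [map_inv₀]
    field_simp
    linear_combination (-evA A x g') * hy
  have h1 := congrArg (redP A) key
  rw [map_mul, map_mul] at h1
  have hres : IsLocalRing.residue A ⟨c⁻¹, hci⟩ = 0 := by
    rw [IsLocalRing.residue_eq_zero_iff, IsLocalRing.mem_maximalIdeal, mem_nonunits_iff]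
    intro hu
    apply hc
    obtain ⟨u, hu⟩ := hu
    have h2 : (↑u : A) * ↑u⁻¹ = 1 := u.mul_inv
    have h3 : c⁻¹ * ((↑u⁻¹ : A) : K) = 1 := by
      have := congrArg (Subtype.val) h2
      rw [hu] at this
      exact this
    have h4 : ((↑u⁻¹ : A) : K) = c := by
      field_simp at h3
      exact h3
    rw [← h4]
    exact (↑u⁻¹ : A).2
  rw [show redP A (C ⟨c⁻¹, hci⟩) = C (IsLocalRing.residue A ⟨c⁻¹, hci⟩) by
    rw [Polynomial.coe_mapRingHom, Polynomial.map_C], hres, C_0, zero_mul] at h1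
  exact mul_ne_zero hf hg' h1

/-- polynomials in the Gauss ring have coefficients in `A` -/
theorem exists_incP_of_aeval_mem_gauss {x : 𝕂} (h : RatCoord K x) {f : K[X]}
    (hf : aeval x f ∈ gauss A h) : ∃ f₁ : A[X], incP A f₁ = f := by
  by_cases hf0 : f = 0
  · exact ⟨0, by simp [hf0]⟩
  obtain ⟨c, f₁, hc, hf1, hf2⟩ := exists_scale A f hf0
  have hcA : c ∈ A := by
    refine const_mul_mem_gauss h hf2 (g := 1) (y := aeval x f) (by simp) ?_ hf
    rw [map_one, mul_one, hf1, map_mul, aeval_C, evA_apply]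
  refine ⟨C ⟨c, hcA⟩ * f₁, ?_⟩
  rw [map_mul, hf1]
  congr 1
  rw [Polynomial.coe_mapRingHom, Polynomial.map_C]
  rfl

/-! ### the reduction map -/

theorem red_wd {x : 𝕂} (h : RatCoord K x) {y : 𝕂} {f g f' g' : A[X]} (hg : redP A g ≠ 0)
    (hg' : redP A g' ≠ 0) (h1 : y * evA A x g = evA A x f) (h2 : y * evA A x g' = evA A x f') :
    algebraMap (kk A)[X] (RatFunc (kk A)) (redP A f) / algebraMap _ _ (redP A g) =
      algebraMap (kk A)[X] (RatFunc (kk A)) (redP A f') / algebraMap _ _ (redP A g') := by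
  have key : f * g' = f' * g := by
    apply evA_injective h
    rw [map_mul, map_mul, ← h1, ← h2]; ring
  have h3 := congrArg (redP A) key
  rw [map_mul, map_mul] at h3
  have hg1 : algebraMap (kk A)[X] (RatFunc (kk A)) (redP A g) ≠ 0 := by
    simpa using hg
  have hg2 : algebraMap (kk A)[X] (RatFunc (kk A)) (redP A g') ≠ 0 := by
    simpa using hg'
  have h4 := congrArg (algebraMap (kk A)[X] (RatFunc (kk A))) h3
  rw [map_mul, map_mul] at h4
  rw [div_eq_div_iff hg1 hg2]
  exact h4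

/-- underlying function of the reduction map -/
def rhoFun {x : 𝕂} (h : RatCoord K x) (y : gauss A h) : RatFunc (kk A) :=
  algebraMap (kk A)[X] (RatFunc (kk A)) (redP A y.2.choose) /
    algebraMap _ _ (redP A y.2.choose_spec.choose)

theorem rhoFun_eq {x : 𝕂} (h : RatCoord K x) (y : gauss A h) {f g : A[X]} (hg : redP A g ≠ 0)
    (h1 : (y : 𝕂) * evA A x g = evA A x f) :
    rhoFun h y = algebraMap (kk A)[X] (RatFunc (kk A)) (redP A f) / algebraMap _ _ (redP A g) :=
  red_wd h y.2.choose_spec.choose_spec.1 hg y.2.choose_spec.choose_spec.2 h1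

variable (A) in
/-- The reduction map of the Gauss valuation ring onto `k(x)`. -/
def rho {x : 𝕂} (h : RatCoord K x) : gauss A h →+* RatFunc (kk A) where
  toFun := rhoFun h
  map_one' := by
    rw [rhoFun_eq h 1 (f := 1) (g := 1) (by simp) (by simp)]; simp
  map_zero' := by
    rw [rhoFun_eq h 0 (f := 0) (g := 1) (by simp) (by simp)]; simp
  map_mul' := by
    rintro ⟨a, f, g, hg, hfg⟩ ⟨b, f', g', hg', hfg'⟩
    rw [rhoFun_eq h ⟨a, f, g, hg, hfg⟩ hg hfg, rhoFun_eq h ⟨b, f', g', hg', hfg'⟩ hg' hfg',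
      rhoFun_eq h _ (f := f * f') (g := g * g') (by rw [map_mul]; exact mul_ne_zero hg hg')
        (by
          show (a * b) * _ = _
          rw [map_mul, map_mul, ← hfg, ← hfg']; ring)]
    rw [map_mul, map_mul, map_mul, map_mul, div_mul_div_comm]
  map_add' := by
    rintro ⟨a, f, g, hg, hfg⟩ ⟨b, f', g', hg', hfg'⟩
    rw [rhoFun_eq h ⟨a, f, g, hg, hfg⟩ hg hfg, rhoFun_eq h ⟨b, f', g', hg', hfg'⟩ hg' hfg',
      rhoFun_eq h _ (f := f * g' + f' * g) (g := g * g')
        (by rw [map_mul]; exact mul_ne_zero hg hg')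
        (by
          show (a + b) * _ = _
          rw [map_mul, map_add, map_mul, map_mul, ← hfg, ← hfg']; ring)]
    have hg1 : algebraMap (kk A)[X] (RatFunc (kk A)) (redP A g) ≠ 0 := by simpa using hg
    have hg2 : algebraMap (kk A)[X] (RatFunc (kk A)) (redP A g') ≠ 0 := by simpa using hg'
    rw [map_add, map_add, map_mul, map_mul, map_mul, map_mul, map_mul, map_mul]
    field_simp

theorem rho_apply {x : 𝕂} (h : RatCoord K x) (y : gauss A h) {f g : A[X]} (hg : redP A g ≠ 0)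
    (h1 : (y : 𝕂) * evA A x g = evA A x f) :
    rho A h y = algebraMap (kk A)[X] (RatFunc (kk A)) (redP A f) / algebraMap _ _ (redP A g) :=
  rhoFun_eq h y hg h1

theorem rho_evA {x : 𝕂} (h : RatCoord K x) (f : A[X]) :
    rho A h ⟨evA A x f, evA_mem_gauss h f⟩ = algebraMap (kk A)[X] (RatFunc (kk A)) (redP A f) := by
  rw [rho_apply h _ (f := f) (g := 1) (by simp) (by simp)]; simp

theorem rho_algebraMap {x : 𝕂} (h : RatCoord K x) (a : A) :
    rho A h ⟨algebraMap K 𝕂 a, algebraMap_mem_gauss h a.2⟩ =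
      algebraMap (kk A)[X] (RatFunc (kk A)) (C (IsLocalRing.residue A a)) := by
  rw [rho_apply h _ (f := C a) (g := 1) (by simp) (by simp [evA_C])]
  simp

theorem redP_surjective : Function.Surjective (redP A) :=
  Polynomial.map_surjective _ IsLocalRing.residue_surjective

theorem rho_surjective {x : 𝕂} (h : RatCoord K x) : Function.Surjective (rho A h) := by
  intro r
  obtain ⟨f, hf⟩ := redP_surjective (A := A) r.num
  obtain ⟨g, hg⟩ := redP_surjective (A := A) r.denom
  have hg0 : redP A g ≠ 0 := by rw [hg]; exact r.denom_ne_zero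
  refine ⟨⟨evA A x f / evA A x g, f, g, hg0, ?_⟩, ?_⟩
  · rw [div_mul_cancel₀ _ (evA_ne_zero h hg0)]
  · rw [rho_apply h _ (f := f) (g := g) hg0, hf, hg, RatFunc.num_div_denom]
    show evA A x f / evA A x g * evA A x g = _
    rw [div_mul_cancel₀ _ (evA_ne_zero h hg0)]

end

end Fermat.Agent.H27
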