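import Fermat.Agent.H27.LocMod
import Fermat.Agent.H01.ValPlace

set_option autoImplicit false

open Polynomial

namespace Fermat.Agent.H27

noncomputable section

open Fermat.Agent.H18 AlgebraicCurve
open ModularCurve (coeffMap qExpand jqModC coeffEmb jq laurentBaseChange modularFunctionFieldFull)

/-- the order of the image in `K((s))` as an integral valuation -/
def ordVal {K F : Type*} [Field K] [Field F] [Algebra K F] (τ : F →+* LaurentSeries K)
    (hτ : ∀ c : K, τ (algebraMap K F c) = algebraMap K (LaurentSeries K) c) :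
    H01.IntVal K F where
  w z := (τ z).order
  w_mul x y hx hy := by
    rw [map_mul, HahnSeries.order_mul]
    · rwa [ne_eq, map_eq_zero]
    · rwa [ne_eq, map_eq_zero]
  w_add x y _ _ hxy := by
    rw [map_add]
    apply HahnSeries.min_order_le_order_add
    rwa [← map_add, ne_eq, map_eq_zero]
  w_const c _ := by rw [hτ, algebraMap_eq_C, order_C]

/-- `p`-th roots of functions with divisible divisors stay in `K((s))`. -/
theorem root_mem {K F : Type} [Field K] [CharZero K] [IsAlgClosed K] [Field F] [Algebra K F]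
    {R' : Type*} [Field R'] [Algebra K R'] (ι : LaurentSeries K →ₐ[K] R') (τ : F →+* LaurentSeries K)
    (hτ : ∀ c : K, τ (algebraMap K F c) = algebraMap K (LaurentSeries K) c) {p : ℕ} (hp : 0 < p)
    {f : F} (hf : f ≠ 0) (hdiv : ∀ P : Place K F, (p : ℤ) ∣ P.ord f) {w : R'}
    (hw : w ^ p = ι (τ f)) : ∃ u : LaurentSeries K, w = ι u := by
  have h1 : (p : ℤ) ∣ (τ f).order := (ordVal τ hτ).dvd_of_forall_dvd_ord hf hdiv
  have hf0 : τ f ≠ 0 := by rwa [ne_eq, map_eq_zero]
  obtain ⟨u, hu⟩ := exists_root hp (Nat.cast_ne_zero.mpr hp.ne') hf0 h1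
  have hu0 : u ≠ 0 := by
    rintro rfl
    rw [zero_pow hp.ne'] at hu
    exact hf0 hu.symm
  have hιu : ι u ≠ 0 := by rwa [ne_eq, map_eq_zero]
  have h2 : (w / ι u) ^ p = 1 := by
    rw [div_pow, hw, ← hu, map_pow, div_self (pow_ne_zero _ hιu)]
  have h3 : IsAlgebraic K (w / ι u) :=
    ⟨X ^ p - 1, (monic_X_pow_sub_C (1 : K) hp.ne').ne_zero, by simp [h2]⟩
  obtain ⟨c, hc⟩ := exists_const_of_algebraic h3
  refine ⟨algebraMap K _ c * u, ?_⟩
  rw [map_mul, ι.commutes, hc, div_mul_cancel₀ _ hιu]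

variable {K : Type} [Field K] [Algebra K ℂ] [IsAlgClosed K] [Algebra ℚ K] {M : ℕ} [NeZero M]
variable {𝕂 : Type*} [Field 𝕂] [Algebra K 𝕂]
  {E : Type*} [Field E] [Algebra 𝕂 E] [Algebra K E] [IsScalarTower K 𝕂 E]

theorem GenOK.kummer (i : Fb K M →ₐ[K] E) {p : ℕ} (hp : 0 < p) {f₁ : Fb K M} (hf₁ : f₁ ≠ 0)
    (hdiv : ∀ P : Place K (Fb K M), (p : ℤ) ∣ P.ord f₁) (v : E) (hv : v ^ p = i f₁)
    (hgen : ∀ S : Subring E, (∀ z, i z ∈ S) → v ∈ S → ∀ z, z ∈ S) : GenOK i 𝕂 := by
  intro σ hσc _ hF z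
  have : CharZero K := (algebraMap K ℂ).charZero
  let ι' : LaurentSeries K →ₐ[K] AlgebraicClosure (LaurentSeries K) :=
    IsScalarTower.toAlgHom K (LaurentSeries K) (AlgebraicClosure (LaurentSeries K))
  have hinj : Function.Injective
      (algebraMap (LaurentSeries K) (AlgebraicClosure (LaurentSeries K))) :=
    (algebraMap (LaurentSeries K) (AlgebraicClosure (LaurentSeries K))).injective
  choose τf hτf using hF
  let τ : Fb K M →+* LaurentSeries K :=
    { toFun := τf
      map_one' := by apply hinj; rw [← hτf, map_one, map_one, map_one]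
      map_mul' := fun u v => by apply hinj; rw [← hτf, map_mul, map_mul, map_mul, hτf, hτf]
      map_zero' := by apply hinj; rw [← hτf, map_zero, map_zero, map_zero]
      map_add' := fun u v => by apply hinj; rw [← hτf, map_add, map_add, map_add, hτf, hτf] }
  have hτ : ∀ z, σ (i z) = algebraMap (LaurentSeries K) _ (τ z) := hτf
  have hτc : ∀ c : K, τ (algebraMap K _ c) = algebraMap K (LaurentSeries K) c := by
    intro c
    apply hinj
    rw [← hτ, i.commutes, hσc]
  have hvw : σ v ^ p = ι' (τ f₁) := by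
    rw [← map_pow, hv, hτ]
    rfl
  obtain ⟨u, hu⟩ := root_mem ι' τ hτc hp hf₁ hdiv hvw
  have := hgen ((algebraMap (LaurentSeries K)
    (AlgebraicClosure (LaurentSeries K))).range.comap σ) (fun z => ⟨τ z, (hτ z).symm⟩)
    ⟨u, hu.symm⟩ z
  obtain ⟨w, hw⟩ := this
  exact ⟨w, hw.symm⟩

end

end Fermat.Agent.H27
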