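import Mathlib

set_option autoImplicit false

open Polynomial

namespace Fermat.Agent.H27

/-- A bounded full lattice over a PID has a basis of the right size. -/
theorem exists_lattice_basis {R Q : Type*} [CommRing R] [IsDomain R] [IsPrincipalIdealRing R]
    [Field Q] [Algebra R Q] [IsFractionRing R Q] {ι : Type} [Fintype ι] [DecidableEq ι]
    (M : Submodule R (ι → Q)) (hb : ∃ s : R, s ≠ 0 ∧ ∀ u ∈ M, ∀ i, ∃ p : R,
      algebraMap R Q s * u i = algebraMap R Q p)
    (hf : ∀ i, ∃ s : R, s ≠ 0 ∧ Pi.single i (algebraMap R Q s) ∈ M) :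
    ∃ β : ι → (ι → Q), (∀ j, β j ∈ M) ∧ LinearIndependent Q β ∧
      ∀ u ∈ M, ∃ c : ι → R, u = ∑ j, c j • β j := by
  classical
  obtain ⟨s, hs, hb⟩ := hb
  have hsQ : algebraMap R Q s ≠ 0 := by
    rwa [ne_eq, FaithfulSMul.algebraMap_eq_zero_iff]
  choose p hp using hb
  -- finite
  let φ : M →ₗ[R] (ι → R) :=
    { toFun := fun u i => p u.1 u.2 i
      map_add' := by
        intro u v
        funext i
        apply FaithfulSMul.algebraMap_injective R Q
        rw [Pi.add_apply, map_add, ← hp, ← hp, ← hp]
        show algebraMap R Q s * (u.1 i + v.1 i) = _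
        ring
      map_smul' := by
        intro r u
        funext i
        apply FaithfulSMul.algebraMap_injective R Q
        rw [Pi.smul_apply, RingHom.id_apply, smul_eq_mul, map_mul, ← hp, ← hp]
        show algebraMap R Q s * (r • u.1 i) = _
        rw [Algebra.smul_def]
        ring }
  have hφ : Function.Injective φ := by
    intro u v huv
    apply Subtype.ext
    funext i
    have h1 : φ u i = φ v i := by rw [huv]
    have h2 := congrArg (algebraMap R Q) h1
    have h3 : algebraMap R Q s * u.1 i = algebraMap R Q s * v.1 i := by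
      rw [hp u.1 u.2 i, hp v.1 v.2 i]; exact h2
    exact mul_left_cancel₀ hsQ h3
  haveI : Module.Finite R M := Module.Finite.of_injective φ hφ
  haveI : Module.IsTorsionFree R Q := inferInstance
  haveI : Module.IsTorsionFree R M := inferInstance
  haveI : Module.Free R M := inferInstance
  let bM := Module.Free.chooseBasis R M
  let β' : Module.Free.ChooseBasisIndex R M → (ι → Q) := fun j => (bM j : ι → Q)
  have hli : LinearIndependent R β' :=
    bM.linearIndependent.map' M.subtype (by simp)
  have hliQ : LinearIndependent Q β' := (LinearIndependent.iff_fractionRing R Q).mp hli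
  have hrepr : ∀ (u : ι → Q) (hu : u ∈ M), u = ∑ j, bM.repr ⟨u, hu⟩ j • β' j := by
    intro u hu
    have h0 := congrArg (Subtype.val) (bM.sum_repr ⟨u, hu⟩)
    simp only [Submodule.coe_sum, Submodule.coe_smul] at h0
    exact h0.symm
  have hmem : ∀ u ∈ M, u ∈ Submodule.span Q (Set.range β') := by
    intro u hu
    rw [hrepr u hu]
    refine sum_mem fun j _ => ?_
    rw [← algebraMap_smul Q]
    exact Submodule.smul_mem _ _ (Submodule.subset_span ⟨j, rfl⟩)
  have hspan : ⊤ ≤ Submodule.span Q (Set.range β') := by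
    intro u _
    have h1 : u = ∑ i, u i • Pi.single i (1 : Q) := by
      funext j
      simp [Finset.sum_apply, Pi.single_apply]
    rw [h1]
    refine sum_mem fun i _ => Submodule.smul_mem _ _ ?_
    obtain ⟨t, ht, htM⟩ := hf i
    have htQ : algebraMap R Q t ≠ 0 := by
      rwa [ne_eq, FaithfulSMul.algebraMap_eq_zero_iff]
    have h2 : Pi.single i (1 : Q) = (algebraMap R Q t)⁻¹ • Pi.single i (algebraMap R Q t) := by
      rw [← Pi.single_smul, smul_eq_mul, inv_mul_cancel₀ htQ]
    rw [h2]
    exact Submodule.smul_mem _ _ (hmem _ htM)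
  let bQ := Module.Basis.mk hliQ hspan
  have hcard : Fintype.card (Module.Free.ChooseBasisIndex R M) = Fintype.card ι := by
    rw [← Module.finrank_eq_card_basis bQ, Module.finrank_fintype_fun_eq_card]
  let eq := Fintype.equivOfCardEq hcard
  refine ⟨fun j => β' (eq.symm j), fun j => (bM _).2, hliQ.comp _ eq.symm.injective, ?_⟩
  intro u hu
  refine ⟨fun j => bM.repr ⟨u, hu⟩ (eq.symm j), ?_⟩
  have h1 := Equiv.sum_comp eq.symm (fun j => bM.repr ⟨u, hu⟩ j • β' j)
  exact (hrepr u hu).trans h1.symm

end Fermat.Agent.H27
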