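import Fermat.Agent.H27.NormA
import Fermat.Agent.H27.PidLattice

set_option autoImplicit false

open Polynomial

namespace Fermat.Agent.H27

noncomputable section

variable {K : Type*} [Field K] {A : ValuationSubring K}
variable {𝕂 : Type*} [Field 𝕂] [Algebra K 𝕂]
variable {E : Type*} [Field E] [Algebra 𝕂 E]
variable {x : 𝕂} (h : RatCoord K x) {D : K[X]}
variable {ι : Type} [Fintype ι] [DecidableEq ι]

theorem exists_good_basis (e : EtBasis (gauss A h) E ι) (hD : D ≠ 0) :
    ∃ e' : EtBasis (gauss A h) E ι, (∀ j, e'.b j ∈ IB A h E D) ∧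
      ∀ w ∈ IB A h E D, ∀ j, ∃ (hi : Algebra.trace 𝕂 E (w * e'.bd j) ∈ gauss A h)
        (p : (kk A)[X]), rho A h ⟨_, hi⟩ = algebraMap (kk A)[X] (RatFunc (kk A)) p := by
  haveI := e.finite
  obtain ⟨β, hβM, hβ, hβgen⟩ := exists_lattice_basis (R := (kk A)[X]) (Q := RatFunc (kk A))
    (N0 h e D) (N0_bounded h e) (N0_full h e hD)
  choose w hw hwβ using hβM
  choose hP hPβ using hwβ
  let P : Matrix ι ι (gauss A h) := Matrix.of fun j i => ⟨Algebra.trace 𝕂 E (w j * e.bd i), hP j i⟩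
  have hPmap : (rho A h).mapMatrix P = Matrix.of β := by
    ext j i
    exact hPβ j i
  have hdet : rho A h P.det ≠ 0 := by
    rw [RingHom.map_det, hPmap]
    have h1 : IsUnit (Matrix.of β) := by
      rw [← Matrix.linearIndependent_rows_iff_isUnit]
      exact hβ
    exact ((Matrix.isUnit_iff_isUnit_det _).mp h1).ne_zero
  have hu : IsUnit P.det := isUnit_of_rho h _ hdet
  have hPQ : P * P⁻¹ = 1 := Matrix.mul_nonsing_inv P hu
  let bd' : ι → E := fun l => ∑ i, algebraMap 𝕂 E ((P⁻¹ i l : gauss A h) : 𝕂) * e.bd i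
  have htr : ∀ (y : E) (l : ι), Algebra.trace 𝕂 E (y * bd' l) =
      ∑ i, ((P⁻¹ i l : gauss A h) : 𝕂) * Algebra.trace 𝕂 E (y * e.bd i) := by
    intro y l
    simp only [bd', Finset.mul_sum, map_sum]
    refine Finset.sum_congr rfl fun i _ => ?_
    rw [mul_left_comm, ← Algebra.smul_def, map_smul, smul_eq_mul]
  have hdual : ∀ j l, Algebra.trace 𝕂 E (w j * bd' l) = if j = l then 1 else 0 := by
    intro j l
    rw [htr]
    have h1 := congrFun (congrFun hPQ j) l
    rw [Matrix.mul_apply] at h1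
    have h2 := congrArg (Subtype.val) h1
    rw [Matrix.one_apply] at h2
    have h3 : ((∑ i, P j i * P⁻¹ i l : gauss A h) : 𝕂) =
      ∑ i, ((P⁻¹ i l : gauss A h) : 𝕂) * Algebra.trace 𝕂 E (w j * e.bd i) := by
      rw [AddSubmonoidClass.coe_finset_sum]
      refine Finset.sum_congr rfl fun i _ => ?_
      rw [mul_comm]; rfl
    rw [← h3, h2]
    split_ifs <;> rfl
  have hbd' : ∀ l, bd' l ∈ BV (gauss A h) E := fun l =>
    sum_mem fun i _ => mul_mem (val_mem_BV (P⁻¹ i l).2) (e.bd_mem i)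
  refine ⟨EtBasis.mk' e w bd' (fun j => (hw j).2) hbd' hdual, fun j => ?_, ?_⟩
  · rw [EtBasis.mk'_b]; exact hw j
  · intro z hz l
    show ∃ (hi : Algebra.trace 𝕂 E (z * bd' l) ∈ gauss A h)
        (p : (kk A)[X]), rho A h ⟨_, hi⟩ = algebraMap (kk A)[X] (RatFunc (kk A)) p
    have hmem : ∀ i, Algebra.trace 𝕂 E (z * e.bd i) ∈ gauss A h := fun i =>
      trace_mem_V (mul_mem hz.2 (e.bd_mem i))
    have hi : Algebra.trace 𝕂 E (z * bd' l) ∈ gauss A h := trace_mem_V (mul_mem hz.2 (hbd' l))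
    obtain ⟨c, hc⟩ := hβgen (fun i => rho A h ⟨_, hmem i⟩) ⟨z, hz, fun i => ⟨hmem i, rfl⟩⟩
    refine ⟨hi, c l, ?_⟩
    have h1 : rho A h ⟨_, hi⟩ = ∑ i, rho A h (P⁻¹ i l) * rho A h ⟨_, hmem i⟩ := by
      simp only [← map_mul, ← map_sum]
      apply rho_eq_of_eq
      rw [AddSubmonoidClass.coe_finset_sum]
      exact htr z l
    have h2 : ∀ i, rho A h ⟨_, hmem i⟩ = ∑ j, algebraMap (kk A)[X] (RatFunc (kk A)) (c j) * β j i := by
      intro i
      have := congrFun hc i
      simp only [Finset.sum_apply, Pi.smul_apply, Algebra.smul_def] at this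
      exact this
    have h3 : ∀ j, ∑ i, β j i * rho A h (P⁻¹ i l) = if j = l then 1 else 0 := by
      intro j
      have h4 := congrArg (rho A h) (congrFun (congrFun hPQ j) l)
      rw [Matrix.mul_apply, map_sum, Matrix.one_apply] at h4
      have h5 : ∀ i, β j i * rho A h (P⁻¹ i l) = rho A h (P j i * P⁻¹ i l) := by
        intro i
        rw [map_mul]
        congr 1
        exact (hPβ j i).symm
      simp only [h5, h4]
      split_ifs <;> simp
    rw [h1]
    simp only [h2, Finset.mul_sum]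
    rw [Finset.sum_comm]
    have h6 : ∀ j, ∑ i, rho A h (P⁻¹ i l) * (algebraMap (kk A)[X] (RatFunc (kk A)) (c j) * β j i) =
        algebraMap (kk A)[X] (RatFunc (kk A)) (c j) * if j = l then 1 else 0 := by
      intro j
      rw [← h3 j, Finset.mul_sum]
      refine Finset.sum_congr rfl fun i _ => by ring
    simp only [h6]
    simp

end

end Fermat.Agent.H27
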