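import Fermat.Agent.H27.Tower

set_option autoImplicit false

open Polynomial IntermediateField

namespace Fermat.Agent.H27

noncomputable section

variable {𝕂 : Type*} [Field 𝕂] {V : ValuationSubring 𝕂}

section

variable {E E' : Type*} [Field E] [Algebra 𝕂 E] [Field E'] [Algebra 𝕂 E']
variable {ι ι' : Type} [Fintype ι] [DecidableEq ι] [Fintype ι'] [DecidableEq ι']

theorem map_mem_BV_equiv (f : E →ₐ[𝕂] E') {y : E} : f y ∈ BV V E' ↔ y ∈ BV V E := by
  rw [mem_intSub, mem_intSub]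
  have h1 : (algebraMap 𝕂 E').comp V.subtype = (f : E →+* E').comp ((algebraMap 𝕂 E).comp V.subtype) := by
    ext c
    show algebraMap 𝕂 E' c = f (algebraMap 𝕂 E c)
    rw [AlgHom.commutes]
  rw [h1]
  exact RingHom.IsIntegralElem.map_iff (g := (f : E →+* E')) (f : E →+* E').injective

/-- transport along an algebra isomorphism -/
def EtBasis.transport (e : EtBasis V E ι) (f : E ≃ₐ[𝕂] E') : EtBasis V E' ι where
  b := e.b.map f.toLinearEquiv
  bd := fun i => f (e.bd i)
  b_mem := fun i => (map_mem_BV_equiv (f : E →ₐ[𝕂] E')).mpr (e.b_mem i)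
  bd_mem := fun i => (map_mem_BV_equiv (f : E →ₐ[𝕂] E')).mpr (e.bd_mem i)
  dual := fun i j => by
    rw [← e.dual i j]
    show Algebra.trace 𝕂 E' (f (e.b i) * f (e.bd j)) = _
    rw [← map_mul, Algebra.trace_eq_of_algEquiv f]

theorem EtBasis.transport_b (e : EtBasis V E ι) (f : E ≃ₐ[𝕂] E') (i : ι) :
    (e.transport f).b i = f (e.b i) := rfl

/-- reindexing -/
def EtBasis.reindex (e : EtBasis V E ι) (f : ι ≃ ι') : EtBasis V E ι' where
  b := e.b.reindex f
  bd := fun i => e.bd (f.symm i)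
  b_mem := fun i => by rw [Module.Basis.reindex_apply]; exact e.b_mem _
  bd_mem := fun i => e.bd_mem _
  dual := fun i j => by
    rw [Module.Basis.reindex_apply, e.dual]
    simp only [EmbeddingLike.apply_eq_iff_eq]

theorem EtBasis.reindex_b (e : EtBasis V E ι) (f : ι ≃ ι') (i : ι') :
    (e.reindex f).b i = e.b (f.symm i) := by
  show (e.b.reindex f) i = _
  rw [Module.Basis.reindex_apply]

end

variable {W : Type*} [Field W] [Algebra 𝕂 W]

/-- `L/𝕂` has an étale basis consisting of elements of `R`. -/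
def HasEt (V : ValuationSubring 𝕂) (L : IntermediateField 𝕂 W) (R : Subring W) : Prop :=
  ∃ (n : ℕ) (e : EtBasis V L (Fin n)), ∀ i, ((e.b i : L) : W) ∈ R

theorem hasEt_bot (V : ValuationSubring 𝕂) (R : Subring W) :
    HasEt V (⊥ : IntermediateField 𝕂 W) R := by
  let f : 𝕂 ≃ₐ[𝕂] (⊥ : IntermediateField 𝕂 W) := (IntermediateField.botEquiv 𝕂 W).symm
  let e₀ : EtBasis V 𝕂 (Fin 1) :=
    { b := Module.Basis.singleton (Fin 1) 𝕂
      bd := fun _ => 1
      b_mem := fun i => by rw [Module.Basis.singleton_apply]; exact one_mem _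
      bd_mem := fun i => one_mem _
      dual := fun i j => by
        rw [Module.Basis.singleton_apply, mul_one, if_pos (Subsingleton.elim i j)]
        have := Algebra.trace_algebraMap (R := 𝕂) (S := 𝕂) (1 : 𝕂)
        simpa using this }
  refine ⟨1, e₀.transport f, fun i => ?_⟩
  rw [EtBasis.transport_b]
  have h1 : e₀.b i = 1 := Module.Basis.singleton_apply _ _ _
  rw [h1, map_one]
  exact one_mem R

theorem mem_BV_coe {L : IntermediateField 𝕂 W} {y : L} : (y : W) ∈ BV V W ↔ y ∈ BV V L :=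
  map_mem_BV_equiv (V := V) L.val

theorem HasEt.insert [CharZero 𝕂] {S : Set W} {R : Subring W} (hS : HasEt V (adjoin 𝕂 S) R)
    {y : W} (hyR : y ∈ R) (hy : y ∈ BV V W) (H : (adjoin 𝕂 S)[X]) (hH : H.Monic)
    (hHc : ∀ i, ((H.coeff i : adjoin 𝕂 S) : W) ∈ BV V W) (hHy : aeval y H = 0)
    (hne : aeval y (derivative H) ≠ 0) (hinv : (aeval y (derivative H))⁻¹ ∈ BV V W) :
    HasEt V (adjoin 𝕂 (insert y S)) R := by
  obtain ⟨n, e, he⟩ := hS
  let E₂ := (adjoin 𝕂 S)⟮y⟯
  have hint : IsIntegral (adjoin 𝕂 S) y := ⟨H, hH, hHy⟩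
  let y' : E₂ := AdjoinSimple.gen (adjoin 𝕂 S) y
  have hy'c : (y' : W) = y := AdjoinSimple.coe_gen (adjoin 𝕂 S) y
  have hval : ∀ P : (adjoin 𝕂 S)[X], ((aeval y' P : E₂) : W) = aeval y P := by
    intro P
    have := Polynomial.aeval_algebraMap_apply W y' P
    rw [← hy'c]
    exact this.symm
  haveI : IsScalarTower 𝕂 E₂ W := IsScalarTower.of_algebraMap_eq fun _ => rfl
  have hBV : ∀ t : E₂, (t : W) ∈ BV V W ↔ t ∈ BV V E₂ := fun t =>
    map_mem_BV_equiv (V := V) (IsScalarTower.toAlgHom 𝕂 E₂ W)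
  have hgen : Algebra.adjoin (adjoin 𝕂 S) {y'} = ⊤ := by
    have h1 : (adjoin (adjoin 𝕂 S) {y}).toSubalgebra = Algebra.adjoin (adjoin 𝕂 S) {y} :=
      IntermediateField.adjoin_simple_toSubalgebra_of_isAlgebraic hint.isAlgebraic
    rw [eq_top_iff]
    rintro ⟨t, ht⟩ -
    have h2 : t ∈ Algebra.adjoin (adjoin 𝕂 S) {y} := by rw [← h1]; exact ht
    rw [Algebra.adjoin_singleton_eq_range_aeval] at h2
    obtain ⟨P, hP⟩ := h2
    rw [Algebra.adjoin_singleton_eq_range_aeval]
    refine ⟨P, Subtype.val_injective ?_⟩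
    show ((aeval y' P : E₂) : W) = t
    rw [hval]
    exact hP
  obtain ⟨m, e₂, he₂⟩ := EtBasis.tower e y' ((hBV _).mp (by rw [hy'c]; exact hy)) hgen H hH
    (fun i => mem_BV_coe.mp (hHc i))
    (by apply Subtype.val_injective; rw [hval, hHy]; rfl)
    (by intro h0; apply hne; rw [← hval, h0]; rfl)
    ((hBV _).mp (by
      rw [show (((aeval y' (derivative H))⁻¹ : E₂) : W) = ((aeval y' (derivative H) : E₂) : W)⁻¹
        from rfl, hval]
      exact hinv))
  have hfield : E₂.restrictScalars 𝕂 = adjoin 𝕂 (Insert.insert y S) := by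
    have := IntermediateField.adjoin_adjoin_left 𝕂 S {y}
    rw [Set.union_singleton] at this
    exact this
  have hmem : ∀ t : W, t ∈ E₂ ↔ t ∈ adjoin 𝕂 (Insert.insert y S) := by
    intro t
    rw [← hfield]
    rfl
  let f : E₂ ≃ₐ[𝕂] adjoin 𝕂 (Insert.insert y S) :=
    { toFun := fun t => ⟨t, (hmem _).mp t.2⟩
      invFun := fun t => ⟨t, (hmem _).mpr t.2⟩
      left_inv := fun _ => rfl
      right_inv := fun _ => rfl
      map_mul' := fun _ _ => rfl
      map_add' := fun _ _ => rfl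
      commutes' := fun _ => rfl }
  refine ⟨_, (e₂.transport f).reindex finProdFinEquiv, fun i => ?_⟩
  rw [EtBasis.reindex_b, EtBasis.transport_b, he₂]
  show ((algebraMap (adjoin 𝕂 S) E₂ (e.b _) * y' ^ _ : E₂) : W) ∈ R
  refine mul_mem (he _) ?_
  show ((y' ^ _ : E₂) : W) ∈ R
  rw [show ((y' ^ ((finProdFinEquiv.symm i).2 : ℕ) : E₂) : W) =
    (y' : W) ^ ((finProdFinEquiv.symm i).2 : ℕ) from rfl, hy'c]
  exact pow_mem hyR _

end

end Fermat.Agent.H27
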