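import Fermat.Agent.H27.S18Final
import Fermat.Agent.H29.Bridge
import Fermat.Agent.H29.HauptField

set_option autoImplicit false
set_option synthInstance.maxHeartbeats 400000

open Polynomial ModularCurve IntermediateField AlgebraicCurve IsLocalRing

namespace Fermat.Agent.H27

noncomputable section

theorem finrank_adjoin_eq {k L : Type*} [Field k] [Field L] [Algebra k L]
    {F₁ : IntermediateField k L} (x : F₁) :
    Module.finrank k⟮x⟯ F₁ = (k⟮(x : L)⟯).relfinrank F₁ := by
  have hle : k⟮(x : L)⟯ ≤ F₁ := by
    rw [adjoin_simple_le_iff]; exact x.2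
  rw [relfinrank_eq_finrank_of_le hle]
  have h1 : lift k⟮x⟯ = k⟮(x : L)⟯ := lift_adjoin_simple k F₁ x
  let i : k⟮x⟯ ≃+* k⟮(x : L)⟯ :=
    ((liftAlgEquiv k⟮x⟯).trans (IntermediateField.equivOfEq h1)).toRingEquiv
  let j : F₁ ≃+* extendScalars hle := RingEquiv.refl _
  refine Algebra.finrank_eq_of_equiv_equiv i j ?_
  ext z
  rfl

section deg

variable (k : Type*) [Field k] (M : ℕ) [NeZero M]

theorem relfinrank_level {r : ℕ} (hr : r.Prime) (hrM : r ∣ M) (hM : (M : k) ≠ 0) :
    (r + 1) * (modularFunctionFieldFullC k r).relfinrank (modularFunctionFieldFullC k M) =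
      dedekindPsi M := by
  haveI : NeZero r := ⟨hr.ne_zero⟩
  have hrk : (r : k) ≠ 0 := natCast_ne_zero_of_dvd' hrM hM
  have h1 : (modularFunctionFieldFullC k 1).relfinrank (modularFunctionFieldFullC k r) = r + 1 := by
    show Cardinal.toNat (IntermediateField.relrank _ _) = _
    rw [Igusa.relrank_full r hrk]
    have := Igusa.dedekindPsi_mul_prime hr (one_ne_zero (α := ℕ))
    rw [one_mul, if_neg (by
      intro h; exact hr.one_lt.ne' (Nat.dvd_one.mp h)), dedekindPsi_one, one_mul] at this
    rw [this, Cardinal.toNat_natCast]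
  have h2 : (modularFunctionFieldFullC k 1).relfinrank (modularFunctionFieldFullC k M) =
      dedekindPsi M := by
    show Cardinal.toNat (IntermediateField.relrank _ _) = _
    rw [Igusa.relrank_full M hM, Cardinal.toNat_natCast]
  rw [← h1, ← h2]
  exact relfinrank_mul_relfinrank (full_degeneracyC_le k (one_dvd r))
    (full_degeneracyC_le k hrM)

end deg

theorem ratCoord_gen {K F : Type*} [Field K] [Field F] [Algebra K F] {t : F}
    (ht : Transcendental K t) : RatCoord K (AdjoinSimple.gen K t) where
  trans h := ht (by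
    have := h.algHom (K⟮t⟯.val)
    simpa using this)
  gen y := by
    obtain ⟨r, s, hrs⟩ := (mem_adjoin_simple_iff K (y : F)).mp y.2
    have hc : ∀ p : K[X], ((aeval (AdjoinSimple.gen K t) p : K⟮t⟯) : F) = aeval t p := by
      intro p
      have := (aeval_algHom_apply K⟮t⟯.val (AdjoinSimple.gen K t) p).symm
      simpa using this
    by_cases hs : aeval t s = 0
    · refine ⟨0, 1, one_ne_zero, ?_⟩
      rw [hs, div_zero] at hrs
      rw [map_one, mul_one, map_zero]
      exact Subtype.ext hrs
    · refine ⟨r, s, ?_, ?_⟩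
      · rintro rfl
        exact hs (map_zero _)
      · apply Subtype.ext
        rw [hc]
        show (y : F) * ((aeval (AdjoinSimple.gen K t) s : K⟮t⟯) : F) = _
        rw [hc, hrs, div_mul_cancel₀ _ hs]

section mk

variable {M : ℕ} [NeZero M] {A : ValuationSubring (AlgebraicClosure ℚ)}

instance algAZ : Algebra A (H28.modRed M A).Z :=
  (((algebraMap (AlgebraicClosure ℚ) (modularFunctionFieldBar M)).comp A.subtype).codRestrict
    (H28.modRed M A).Z (fun a => (H28.modRed M A).alg_mem a)).toAlgebra

theorem coe_algAZ (a : A) : ((algebraMap A (H28.modRed M A).Z a : (H28.modRed M A).Z) :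
    modularFunctionFieldBar M) = algebraMap (AlgebraicClosure ℚ) _ (a : AlgebraicClosure ℚ) := rfl

theorem range_gen : IntermediateField.adjoin (ResidueField A)
    (Set.range (H28.modRed M A).ρ) = ⊤ := by
  rw [eq_top_iff]
  intro g _
  obtain ⟨X, Y, hY, h⟩ := exists_lift_Fk (A := A) g
  have hg : g = (H28.modRed M A).ρ X * ((H28.modRed M A).ρ Y)⁻¹ := by
    rw [← h, mul_inv_cancel_right₀ hY]
  rw [hg]
  exact mul_mem (subset_adjoin _ _ ⟨X, rfl⟩) (inv_mem (subset_adjoin _ _ ⟨Y, rfl⟩))

/-- **Construction of the data of a level with a hauptmodul** -/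
theorem hauptLevel_mk (t : (H28.modRed M A).Z) (ht : Transcendental (AlgebraicClosure ℚ)
    (t : modularFunctionFieldBar M))
    (hρt : Transcendental (ResidueField A) ((H28.modRed M A).ρ t)) {n : ℕ} (hn : 0 < n)
    (hF : Module.finrank (AlgebraicClosure ℚ)⟮(t : modularFunctionFieldBar M)⟯
      (modularFunctionFieldBar M) = n)
    (hκ : Module.finrank (ResidueField A)⟮(H28.modRed M A).ρ t⟯
      (modularFunctionFieldFullC (ResidueField A) M) = n)
    (hsep : Algebra.IsSeparable (ResidueField A)⟮(H28.modRed M A).ρ t⟯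
      (modularFunctionFieldFullC (ResidueField A) M))
    (hB : ∀ (x J : (AlgebraicClosure ℚ)⟮(t : modularFunctionFieldBar M)⟯),
      (x : modularFunctionFieldBar M) = t → (J : modularFunctionFieldBar M) = H28.jBar M →
      Nonempty (BrData A x J) ∧ Nonempty (BrData A x⁻¹ J))
    (hJ : H28.jBar M ∈ (AlgebraicClosure ℚ)⟮(t : modularFunctionFieldBar M)⟯) :
    Nonempty (HauptLevel M A) := by
  classical
  haveI : FiniteDimensional (ResidueField A)⟮(H28.modRed M A).ρ t⟯
      (modularFunctionFieldFullC (ResidueField A) M) :=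
    Module.finite_of_finrank_pos (by rw [hκ]; exact hn)
  obtain ⟨r, hG⟩ := H29.IsGauss.of_finrank (A := A) (L := AlgebraicClosure ℚ)
    (F := modularFunctionFieldBar M) (S := (H28.modRed M A).Z) (k := ResidueField A)
    (κ := modularFunctionFieldFullC (ResidueField A) M) (residue A) (H28.modRed M A).ρ t n hn
    (fun a ha => (residue_eq_zero_iff a).mpr ((mem_maximalIdeal a).mpr ha))
    residue_surjective (fun a => rfl)
    (fun a => (H28.modRed M A).ρ_alg a) hρt range_gen hκ hF
  have h := ratCoord_gen ht
  obtain ⟨e, he⟩ := H29.GaussB.exists_etBasis (𝕂 :=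
    (AlgebraicClosure ℚ)⟮(t : modularFunctionFieldBar M)⟯)
    (x := AdjoinSimple.gen (AlgebraicClosure ℚ) (t : modularFunctionFieldBar M)) hG rfl h
    (by rw [hκ, Fintype.card_fin])
  obtain ⟨⟨B⟩, ⟨B'⟩⟩ := hB (AdjoinSimple.gen (AlgebraicClosure ℚ) (t : modularFunctionFieldBar M))
    ⟨_, hJ⟩ rfl rfl
  exact ⟨{ 𝕂 := (AlgebraicClosure ℚ)⟮(t : modularFunctionFieldBar M)⟯
           x := AdjoinSimple.gen (AlgebraicClosure ℚ) (t : modularFunctionFieldBar M)
           J := ⟨_, hJ⟩
           h := h
           B := B
           B' := B'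
           hJ := rfl
           ι := Fin n
           e := e
           R :=
            { alg_mem := fun a => (H28.modRed M A).alg_mem a
              alg := fun a => (H28.modRed M A).ρ_alg a
              x_mem := t.2
              trans := hρt
              b_mem := fun i => by rw [he i]; exact (r i).2
              indep := by
                intro Q hQ
                apply hG.indep
                rw [← hQ]
                refine Finset.sum_congr rfl fun i _ => ?_
                congr 2
                exact Subtype.ext (he i).symm } }⟩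

end mk

end

end Fermat.Agent.H27
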