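import Mathlib

set_option autoImplicit false

open Polynomial

namespace Fermat.Agent.H27

noncomputable section

variable {K : Type*} [Field K]

local notation "ct" => PowerSeries.constantCoeff

theorem ps_isUnit_iff {u : PowerSeries K} : IsUnit u ↔ ct u ≠ 0 := by
  rw [PowerSeries.isUnit_iff_constantCoeff, isUnit_iff_ne_zero]

/-- monic Hensel -/
theorem hensel_monic (f : (PowerSeries K)[X]) (hf : f.Monic) (a₀ : PowerSeries K)
    (h0 : ct (f.eval a₀) = 0) (h1 : ct (f.derivative.eval a₀) ≠ 0) :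
    ∃ a : PowerSeries K, f.eval a = 0 ∧ ct a = ct a₀ := by
  have hI : ∀ u : PowerSeries K, u ∈ (Ideal.span {PowerSeries.X} : Ideal (PowerSeries K)) ↔
      ct u = 0 := by
    intro u
    rw [Ideal.mem_span_singleton, PowerSeries.X_dvd_iff]
  haveI : HenselianRing (PowerSeries K) (Ideal.span {PowerSeries.X}) := inferInstance
  obtain ⟨a, ha, ha'⟩ := HenselianRing.is_henselian (I := Ideal.span {PowerSeries.X}) f hf a₀
    ((hI _).mpr h0) (IsUnit.map _ (ps_isUnit_iff.mpr h1))
  refine ⟨a, ha, ?_⟩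
  rw [hI, map_sub, sub_eq_zero] at ha'
  exact ha'

/-- non monic Hensel, root at zero -/
theorem hensel_zero (F : (PowerSeries K)[X])
    (h0 : ct (F.coeff 0) = 0) (h1 : ct (F.coeff 1) ≠ 0) :
    ∃ z : PowerSeries K, F.eval z = 0 ∧ ct z = 0 := by
  set n := F.natDegree with hn
  set f₀ := F.coeff 0
  set f₁ := F.coeff 1
  have hn1 : 1 ≤ n := by
    by_contra hlt
    have : F.coeff 1 = 0 := coeff_eq_zero_of_natDegree_lt (by omega)
    apply h1
    show ct (F.coeff 1) = 0
    rw [this, map_zero]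
  -- reversed polynomial
  let M : (PowerSeries K)[X] := X ^ n + ∑ i ∈ Finset.range n,
    C (F.coeff (i + 1) * f₀ ^ i) * X ^ (n - (i + 1))
  have hMm : M.Monic := by
    refine monic_X_pow_add ?_
    refine (degree_sum_le _ _).trans_lt ?_
    rw [Finset.sup_lt_iff (by exact WithBot.bot_lt_coe n)]
    intro i hi
    refine (degree_C_mul_X_pow_le _ _).trans_lt ?_
    have := Finset.mem_range.mp hi
    exact_mod_cast (by omega : n - (i + 1) < n)
  have hMeval : ∀ τ : PowerSeries K, M.eval τ = τ ^ n + ∑ i ∈ Finset.range n,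
      F.coeff (i + 1) * f₀ ^ i * τ ^ (n - (i + 1)) := by
    intro τ
    simp only [M, eval_add, eval_pow, eval_X, eval_finset_sum, eval_mul, eval_C]
  -- reduction of M
  have hf0 : ct f₀ = 0 := h0
  have hred : M.map (ct : PowerSeries K →+* K) = X ^ n + C (ct f₁) * X ^ (n - 1) := by
    simp only [M, Polynomial.map_add, Polynomial.map_pow, map_X, Polynomial.map_sum,
      Polynomial.map_mul, map_C]
    congr 1
    rw [Finset.sum_eq_single 0]
    · simp [f₁]
    · intro i _ hi
      rw [map_mul, map_pow, hf0, zero_pow hi, mul_zero, C_0, zero_mul]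
    · intro h2
      exact absurd (Finset.mem_range.mpr (by omega)) h2
  let a₀ : PowerSeries K := PowerSeries.C (-ct f₁)
  have hct : ∀ (P : (PowerSeries K)[X]) (c : PowerSeries K), ct (P.eval c) =
      (P.map (ct : PowerSeries K →+* K)).eval (ct c) := by
    intro P c
    rw [eval_map, eval₂_at_apply]
  have hca : ct a₀ = -ct f₁ := PowerSeries.constantCoeff_C _
  obtain ⟨m, hm⟩ : ∃ m, n = m + 1 := ⟨n - 1, by omega⟩
  have e0 : ct (M.eval a₀) = 0 := by
    rw [hct, hred, hca, hm, Nat.add_sub_cancel]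
    simp only [eval_add, eval_pow, eval_X, eval_mul, eval_C]
    ring
  have e1 : ct (M.derivative.eval a₀) ≠ 0 := by
    rw [hct, ← derivative_map, hred, hca, hm, Nat.add_sub_cancel]
    simp only [derivative_add, derivative_mul, derivative_X_pow, derivative_C, zero_mul, zero_add,
      eval_add, eval_mul, eval_pow, eval_X, eval_C, Nat.add_sub_cancel]
    rcases Nat.eq_zero_or_pos m with hm0 | hm0
    · subst hm0; simp
    · obtain ⟨l, rfl⟩ : ∃ l, m = l + 1 := ⟨m - 1, by omega⟩
      have : ((l + 1 + 1 : ℕ) : K) * (-ct f₁) ^ (l + 1) +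
          ct f₁ * (((l + 1 : ℕ) : K) * (-ct f₁) ^ (l + 1 - 1)) = (-ct f₁) ^ (l + 1) := by
        rw [Nat.add_sub_cancel]
        push_cast
        ring
      rw [this]
      exact pow_ne_zero _ (neg_ne_zero.mpr h1)
  obtain ⟨τ, hτ, hτ0⟩ := hensel_monic M hMm a₀ e0 e1
  have hτu : IsUnit τ := by
    rw [ps_isUnit_iff, hτ0, hca]
    exact neg_ne_zero.mpr h1
  obtain ⟨t, ht⟩ := hτu.exists_right_inv
  refine ⟨f₀ * t, ?_, by rw [map_mul, hf0, zero_mul]⟩
  -- F(f₀ t) = f₀ t^n M(τ)
  have key : F.eval (f₀ * t) = f₀ * t ^ n * M.eval τ := by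
    rw [eval_eq_sum_range, ← hn, Finset.sum_range_succ', hMeval, mul_add, Finset.mul_sum]
    have h2 : f₀ * t ^ n * τ ^ n = f₀ := by
      rw [mul_assoc, ← mul_pow, mul_comm t, ht, one_pow, mul_one]
    rw [h2, pow_zero, mul_one, add_comm]
    congr 1
    refine Finset.sum_congr rfl fun i hi => ?_
    have hi' := Finset.mem_range.mp hi
    have h3 : t ^ n * τ ^ (n - (i + 1)) = t ^ (i + 1) := by
      have h4 : t ^ n = t ^ (i + 1) * t ^ (n - (i + 1)) := by
        rw [← pow_add]; congr 1; omega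
      rw [h4, mul_assoc, ← mul_pow, mul_comm t τ, ht, one_pow, mul_one]
    rw [mul_pow, ← h3]
    ring
  rw [key, hτ, mul_zero]

/-- non monic Hensel -/
theorem hensel_root (F : (PowerSeries K)[X]) (c : K)
    (h0 : ct (F.eval (PowerSeries.C c)) = 0) (h1 : ct (F.derivative.eval (PowerSeries.C c)) ≠ 0) :
    ∃ z : PowerSeries K, F.eval z = 0 ∧ ct z = c := by
  let G : (PowerSeries K)[X] := F.comp (X + C (PowerSeries.C c))
  have hG0 : ct (G.coeff 0) = 0 := by
    rw [coeff_zero_eq_eval_zero, eval_comp, eval_add, eval_X, eval_C, zero_add]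
    exact h0
  have hG1 : ct (G.coeff 1) ≠ 0 := by
    have h2 : G.coeff 1 = G.derivative.eval 0 := by
      rw [← coeff_zero_eq_eval_zero, coeff_derivative]
      simp
    rw [h2, derivative_comp, eval_mul, eval_comp]
    simp only [derivative_add, derivative_X, derivative_C, add_zero, eval_one, one_mul, eval_add,
      eval_X, eval_C, zero_add]
    exact h1
  obtain ⟨z, hz, hz0⟩ := hensel_zero G hG0 hG1
  refine ⟨z + PowerSeries.C c, ?_, by rw [map_add, hz0, zero_add, PowerSeries.constantCoeff_C]⟩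
  rw [eval_comp] at hz
  simpa using hz

end

end Fermat.Agent.H27
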