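import Fermat.Agent.H27.S18Red
import Fermat.Agent.H05.HeckeComm
import Fermat.Agent.H01.ValPlace

set_option autoImplicit false
set_option synthInstance.maxHeartbeats 400000

open Polynomial ModularCurve IntermediateField AlgebraicCurve IsLocalRing

namespace Fermat.Agent.H27

noncomputable section

/-- restriction of the order at a place along an embedding -/
def restrVal {K F F' : Type*} [Field K] [Field F] [Field F'] [Algebra K F] [Algebra K F']
    (φ : F →ₐ[K] F') (P : Place K F') : H01.IntVal K F where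
  w z := P.ord (φ z)
  w_mul x y hx hy := by
    rw [map_mul, P.ord_mul]
    · rwa [ne_eq, map_eq_zero]
    · rwa [ne_eq, map_eq_zero]
  w_add x y hx hy hxy := by
    rw [map_add]
    refine H18.le_ord_add P ?_ (Or.inr (min_le_left _ _)) (Or.inr (min_le_right _ _))
    rw [← map_add]
    rwa [ne_eq, map_eq_zero]
  w_const c _ := by rw [AlgHom.commutes, H18.ord_algebraMap]

variable {N M : ℕ} {A : ValuationSubring (AlgebraicClosure ℚ)} [NeZero N] [NeZero M]

/-- inclusion of integral functions -/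
theorem exists_incZ (h : N ∣ M) (a : (H28.modRed N A).Z) : ∃ a' : (H28.modRed M A).Z,
    (a' : modularFunctionFieldBar M) = H05.inc (AlgebraicClosure ℚ) h a ∧
    (((H28.modRed M A).ρ a' : modularFunctionFieldFullC (ResidueField A) M) :
      LaurentSeries (ResidueField A)) =
        ((H28.modRed N A).ρ a : modularFunctionFieldFullC (ResidueField A) N) := by
  obtain ⟨f, hf⟩ := a
  obtain ⟨y, hy, hyk⟩ := H28.mem_laurentRed.mp hf
  have h1 : H05.inc (AlgebraicClosure ℚ) h f ∈ (H28.modRed M A).Z := by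
    rw [H28.mem_laurentRed]
    refine ⟨y, ?_, full_degeneracyC_le _ h hyk⟩
    rw [H05.coe_inc]
    exact hy
  refine ⟨⟨_, h1⟩, rfl, ?_⟩
  rw [H28.laurentRed_ρ ⟨_, h1⟩ (y := y) (by
      show _ = ((H05.inc (AlgebraicClosure ℚ) h f : modularFunctionFieldBar M) :
        LaurentSeries (AlgebraicClosure ℚ))
      rw [H05.coe_inc]; exact hy),
    H28.laurentRed_ρ ⟨f, hf⟩ (y := y) hy]

/-- **Transfer of the key lemma** -/
theorem KeyPrime.transfer {r p : ℕ} (hr : r.Prime) (hrN : ¬ r ∣ N) (hM : M = N * r)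
    (hp : p.Prime) (hpr : ¬ p ∣ r + 1) (hkey : KeyPrime M A p) : KeyPrime N A p := by
  intro a b hab hne hdiv
  have h : N ∣ M := ⟨r, hM⟩
  obtain ⟨a', ha', hρa⟩ := exists_incZ (A := A) h a
  obtain ⟨b', hb', hρb⟩ := exists_incZ (A := A) h b
  have hbne : (H28.modRed N A).ρ b ≠ 0 := hab ▸ hne
  have haF := coe_ne_of_ρ hne
  have hbF := coe_ne_of_ρ hbne
  set f := (a : modularFunctionFieldBar N) / (b : modularFunctionFieldBar N) with hf
  have hf0 : f ≠ 0 := div_ne_zero haF hbF
  have hquot : (a' : modularFunctionFieldBar M) / (b' : modularFunctionFieldBar M) =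
      H05.inc (AlgebraicClosure ℚ) h f := by rw [ha', hb', hf, map_div₀]
  obtain ⟨w, hw⟩ := hkey a' b' (by
      apply Subtype.ext
      rw [hρa, hρb, hab])
    (by
      intro h0
      apply hne
      apply Subtype.ext
      rw [← hρa, h0]
      rfl)
    (fun P => by
      rw [hquot]
      exact (restrVal (H05.inc (AlgebraicClosure ℚ) h) P).dvd_of_forall_dvd_ord hf0 hdiv)
  rw [hquot] at hw
  -- norm
  letI := algebraAlong (H05.inc (AlgebraicClosure ℚ) h)
  haveI : Module.Finite (modularFunctionFieldBar N) (modularFunctionFieldBar M) :=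
    H05.finiteAlong_inc (AlgebraicClosure ℚ) h
  have hrank : Module.finrank (modularFunctionFieldBar N) (modularFunctionFieldBar M) = r + 1 := by
    have := H05.finrankAlong_inc_prime (AlgebraicClosure ℚ) hr h hM
    rw [if_neg hrN] at this
    exact this
  have h1 : Algebra.norm (modularFunctionFieldBar N) w ^ p = f ^ (r + 1) := by
    rw [← map_pow, hw, ← hrank]
    exact Algebra.norm_algebraMap f
  have hcop : IsCoprime (p : ℤ) ((r + 1 : ℕ) : ℤ) :=
    Nat.isCoprime_iff_coprime.mpr ((Nat.Prime.coprime_iff_not_dvd hp).mpr hpr)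
  obtain ⟨u, v, huv⟩ := hcop
  set n := Algebra.norm (modularFunctionFieldBar N) w with hn
  have hn0 : n ≠ 0 := by
    intro h0
    rw [h0, zero_pow hp.ne_zero] at h1
    exact pow_ne_zero _ hf0 h1.symm
  refine ⟨f ^ u * n ^ v, ?_⟩
  have h2 : n ^ (p : ℤ) = f ^ ((r + 1 : ℕ) : ℤ) := by
    rw [zpow_natCast, zpow_natCast]; exact h1
  rw [mul_pow, ← zpow_natCast, ← zpow_natCast, ← zpow_mul, ← zpow_mul, mul_comm v, zpow_mul n,
    h2, ← zpow_mul, ← zpow_add₀ hf0]
  rw [show u * (p : ℤ) + ((r + 1 : ℕ) : ℤ) * v = 1 by linear_combination huv, zpow_one]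

end

end Fermat.Agent.H27
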