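import Fermat.Agent.H27.HasEt
import Fermat.Agent.H27.ChartA

set_option autoImplicit false

open Polynomial

namespace Fermat.Agent.H27

noncomputable section

variable {K : Type*} [Field K] {A : ValuationSubring K}
variable {𝕂 : Type*} [Field 𝕂] [Algebra K 𝕂]
variable {W : Type*} [Field W] [Algebra 𝕂 W]

/-- `A → B`. -/
def AtoB (A : ValuationSubring K) {x : 𝕂} (h : RatCoord K x) (W : Type*) [Field W] [Algebra 𝕂 W] :
    A →+* BV (gauss A h) W :=
  (((algebraMap 𝕂 W).comp (algebraMap K 𝕂)).comp A.subtype).codRestrict _ fun a =>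
    val_mem_BV (algebraMap_mem_gauss h a.2)

/-- evaluation of polynomials over `A` at an element of `B` -/
def evB {x : 𝕂} (h : RatCoord K x) (y : BV (gauss A h) W) (g : A[X]) : BV (gauss A h) W :=
  g.eval₂ (AtoB A h W) y

variable {x : 𝕂} (h : RatCoord K x)

theorem isUnit_of_forall_notMem {R : Type*} [CommRing R] {u : R}
    (hu : ∀ 𝔪 : Ideal R, 𝔪.IsMaximal → u ∉ 𝔪) : IsUnit u := by
  by_contra hn
  obtain ⟨𝔪, h1, h2⟩ := exists_max_ideal_of_mem_nonunits hn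
  exact hu 𝔪 h1 h2

theorem inv_mem_of_isUnit {S : Subring W} {u : S} (hu : IsUnit u) : (u : W)⁻¹ ∈ S := by
  obtain ⟨w, hw⟩ := hu.exists_right_inv
  have h1 : (u : W) * w = 1 := congrArg Subtype.val hw
  rw [← eq_inv_of_mul_eq_one_right h1]
  exact w.2

/-- elements of `V` not in the maximal ideal are not in `𝔪` -/
theorem notMem_of_rho {𝔪 : Ideal (BV (gauss A h) W)} (h𝔪 : 𝔪.IsMaximal) (c : gauss A h)
    (hc : rho A h c ≠ 0) : (⟨algebraMap 𝕂 W c, val_mem_BV c.2⟩ : BV (gauss A h) W) ∉ 𝔪 := by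
  intro hmem
  apply h𝔪.ne_top
  rw [Ideal.eq_top_iff_one]
  have h1 := 𝔪.mul_mem_left (⟨algebraMap 𝕂 W (c : 𝕂)⁻¹, val_mem_BV (inv_mem_gauss_of_rho h c hc)⟩ :
    BV (gauss A h) W) hmem
  have hc0 : (c : 𝕂) ≠ 0 := by
    intro h0
    apply hc
    rw [show c = 0 from Subtype.ext h0, map_zero]
  have h2 : (⟨algebraMap 𝕂 W (c : 𝕂)⁻¹, val_mem_BV (inv_mem_gauss_of_rho h c hc)⟩ :
    BV (gauss A h) W) * ⟨algebraMap 𝕂 W c, val_mem_BV c.2⟩ = 1 := by
    apply Subtype.ext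
    show algebraMap 𝕂 W (c : 𝕂)⁻¹ * algebraMap 𝕂 W c = 1
    rw [← map_mul, inv_mul_cancel₀ hc0, map_one]
  rwa [h2] at h1

/-- `m_A ⊂ 𝔪` -/
theorem mem_of_residue {𝔪 : Ideal (BV (gauss A h) W)} (h𝔪 : 𝔪.IsMaximal) (ϖ : A)
    (hϖ : IsLocalRing.residue A ϖ = 0) : AtoB A h W ϖ ∈ 𝔪 := by
  let g : gauss A h →+* BV (gauss A h) W :=
    ((algebraMap 𝕂 W).comp (gauss A h).subtype).codRestrict _ fun c => val_mem_BV c.2
  letI := g.toAlgebra
  haveI : Algebra.IsIntegral (gauss A h) (BV (gauss A h) W) := by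
    refine ⟨fun z => ?_⟩
    letI := ((algebraMap 𝕂 W).comp (gauss A h).subtype).toAlgebra
    haveI : IsScalarTower (gauss A h) (BV (gauss A h) W) W :=
      IsScalarTower.of_algebraMap_eq fun _ => rfl
    have h1 : IsIntegral (gauss A h) ((BV (gauss A h) W).subtype z) := z.2
    exact (isIntegral_algebraMap_iff (R := gauss A h) (A := BV (gauss A h) W) (B := W)
      Subtype.val_injective).mp h1
  have h2 : (Ideal.comap (algebraMap (gauss A h) (BV (gauss A h) W)) 𝔪).IsMaximal :=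
    Ideal.isMaximal_comap_of_isIntegral_of_isMaximal 𝔪
  have h3 := IsLocalRing.eq_maximalIdeal h2
  let c : gauss A h := ⟨algebraMap K 𝕂 ϖ, algebraMap_mem_gauss h ϖ.2⟩
  have h4 : c ∈ IsLocalRing.maximalIdeal (gauss A h) := by
    rw [IsLocalRing.mem_maximalIdeal, mem_nonunits_iff]
    intro hu
    have h5 : rho A h c ≠ 0 := (hu.map (rho A h)).ne_zero
    apply h5
    rw [rho_algebraMap, hϖ]
    simp
  rw [← h3] at h4
  exact h4

/-- `k → B/𝔪` -/
def omg {𝔪 : Ideal (BV (gauss A h) W)} (h𝔪 : 𝔪.IsMaximal) :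
    kk A →+* (BV (gauss A h) W) ⧸ 𝔪 :=
  Ideal.Quotient.lift (IsLocalRing.maximalIdeal A) ((Ideal.Quotient.mk 𝔪).comp (AtoB A h W))
    fun a ha => by
      rw [RingHom.comp_apply, Ideal.Quotient.eq_zero_iff_mem]
      exact mem_of_residue h h𝔪 a ((IsLocalRing.residue_eq_zero_iff _).mpr ha)

theorem omg_residue {𝔪 : Ideal (BV (gauss A h) W)} (h𝔪 : 𝔪.IsMaximal) (a : A) :
    omg h h𝔪 (IsLocalRing.residue A a) = Ideal.Quotient.mk 𝔪 (AtoB A h W a) := rfl

theorem mk_evB {𝔪 : Ideal (BV (gauss A h) W)} (h𝔪 : 𝔪.IsMaximal) (y : BV (gauss A h) W)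
    (g : A[X]) : Ideal.Quotient.mk 𝔪 (evB h y g) =
      (redP A g).eval₂ (omg h h𝔪) (Ideal.Quotient.mk 𝔪 y) := by
  rw [Polynomial.coe_mapRingHom, eval₂_map, evB, hom_eval₂]
  congr 1

/-- the reductions of `y` are transcendental over `k` -/
def Ufree (y : BV (gauss A h) W) : Prop :=
  ∀ 𝔪 : Ideal (BV (gauss A h) W), 𝔪.IsMaximal → ∀ g : A[X], redP A g ≠ 0 → evB h y g ∉ 𝔪

theorem Ufree.isUnit {y : BV (gauss A h) W} (hy : Ufree h y) {g : A[X]} (hg : redP A g ≠ 0) :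
    IsUnit (evB h y g) :=
  isUnit_of_forall_notMem fun 𝔪 h𝔪 => hy 𝔪 h𝔪 g hg

theorem Ufree.eval_ne {y : BV (gauss A h) W} (hy : Ufree h y)
    {𝔪 : Ideal (BV (gauss A h) W)} (h𝔪 : 𝔪.IsMaximal) {g : (kk A)[X]} (hg : g ≠ 0) :
    g.eval₂ (omg h h𝔪) (Ideal.Quotient.mk 𝔪 y) ≠ 0 := by
  obtain ⟨g', rfl⟩ := redP_surjective (A := A) g
  rw [← mk_evB, ne_eq, Ideal.Quotient.eq_zero_iff_mem]
  exact hy 𝔪 h𝔪 g' hg

theorem coe_evB_eq {y : BV (gauss A h) W} {t : 𝕂} (hy : (y : W) = algebraMap 𝕂 W t) (g : A[X]) :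
    (evB h y g : W) = algebraMap 𝕂 W (evA A t g) := by
  have h1 := Polynomial.hom_eval₂ g (AtoB A h W) (BV (gauss A h) W).subtype y
  show (BV (gauss A h) W).subtype (evB h y g) = _
  rw [evB, h1, evA_apply, aeval_def, Polynomial.coe_mapRingHom, eval₂_map, hom_eval₂]
  show eval₂ _ (y : W) g = _
  rw [hy]
  rfl

/-- the coordinate itself -/
theorem ufree_x : Ufree h (⟨algebraMap 𝕂 W x, val_mem_BV (x_mem h)⟩ : BV (gauss A h) W) := by
  intro 𝔪 h𝔪 g hg
  have h1 := notMem_of_rho h h𝔪 ⟨evA A x g, evA_mem_gauss h g⟩ (by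
    rw [rho_evA]; simpa using hg)
  have h2 : evB h (⟨algebraMap 𝕂 W x, val_mem_BV (x_mem h)⟩ : BV (gauss A h) W) g =
      ⟨algebraMap 𝕂 W (evA A x g), val_mem_BV (evA_mem_gauss h g)⟩ :=
    Subtype.ext (coe_evB_eq h rfl g)
  rw [h2]
  exact h1

/-- transfer of freeness along an algebraic relation -/
theorem Ufree.step [IsAlgClosed (kk A)] {y' y : BV (gauss A h) W} (hy' : Ufree h y')
    (hrel : ∀ (𝔪 : Ideal (BV (gauss A h) W)), 𝔪.IsMaximal → ∀ c : A, y - AtoB A h W c ∈ 𝔪 →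
      ∃ G : A[X], redP A G ≠ 0 ∧ evB h y' G ∈ 𝔪) : Ufree h y := by
  intro 𝔪 h𝔪 g hg hmem
  haveI := Ideal.Quotient.isDomain 𝔪 (hI := h𝔪.isPrime)
  rw [← Ideal.Quotient.eq_zero_iff_mem, mk_evB h h𝔪] at hmem
  have hspl : (redP A g).Splits := IsAlgClosed.splits _
  rw [hspl.eq_prod_roots, eval₂_mul, eval₂_C, eval₂_multiset_prod, Multiset.map_map,
    mul_eq_zero] at hmem
  rcases hmem with h1 | h1
  · rw [map_eq_zero_iff _ (omg h h𝔪).injective] at h1
    exact leadingCoeff_ne_zero.mpr hg h1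
  · rw [Multiset.prod_eq_zero_iff] at h1
    obtain ⟨c, -, hc⟩ := Multiset.mem_map.mp h1
    simp only [Function.comp, eval₂_sub, eval₂_X, eval₂_C] at hc
    obtain ⟨c', rfl⟩ := IsLocalRing.residue_surjective c
    rw [omg_residue, ← map_sub, Ideal.Quotient.eq_zero_iff_mem] at hc
    obtain ⟨G, hG, hGm⟩ := hrel 𝔪 h𝔪 c' hc
    exact hy' 𝔪 h𝔪 G hG hGm

/-- relation given by a polynomial with integer coefficients -/
structure GoodRel (k : Type*) [Field k] (Φ : ℤ[X][X]) : Prop where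
  monic : Φ.Monic
  ne : ∀ c : k, (Φ.map (mapRingHom (Int.castRingHom k))).eval (C c) ≠ 0
  bez : ∃ (U V : k[X][X]) (δ : k[X]), δ ≠ 0 ∧
    U * Φ.map (mapRingHom (Int.castRingHom k)) +
      V * derivative (Φ.map (mapRingHom (Int.castRingHom k))) = C δ

theorem exists_bez {k : Type*} [Field k] (f : k[X][X])
    (hf : (f.map (algebraMap k[X] (RatFunc k))).Separable) :
    ∃ (U V : k[X][X]) (δ : k[X]), δ ≠ 0 ∧ U * f + V * derivative f = C δ := by
  obtain ⟨a, b, hab⟩ := hf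
  obtain ⟨⟨s, hs⟩, hsa⟩ := IsLocalization.integerNormalization_map_to_map (nonZeroDivisors k[X]) a
  obtain ⟨⟨t, ht⟩, htb⟩ := IsLocalization.integerNormalization_map_to_map (nonZeroDivisors k[X]) b
  refine ⟨C t * IsLocalization.integerNormalization (nonZeroDivisors k[X]) a,
    C s * IsLocalization.integerNormalization (nonZeroDivisors k[X]) b, s * t,
    mul_ne_zero (nonZeroDivisors.ne_zero hs) (nonZeroDivisors.ne_zero ht), ?_⟩
  apply Polynomial.map_injective _ (IsFractionRing.injective k[X] (RatFunc k))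
  rw [Polynomial.map_add, Polynomial.map_mul, Polynomial.map_mul, Polynomial.map_mul,
    Polynomial.map_mul, hsa, htb, map_C, map_C, map_C, map_mul, C_mul]
  rw [derivative_map] at hab
  have h1 : ∀ (r : k[X]) (p : (RatFunc k)[X]), r • p = C (algebraMap k[X] (RatFunc k) r) * p := by
    intro r p
    rw [← algebraMap_smul (RatFunc k) r p, smul_eq_C_mul]
  show C (algebraMap k[X] (RatFunc k) t) * (s • a) * _ +
    C (algebraMap k[X] (RatFunc k) s) * (t • b) * _ = _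
  rw [h1, h1]
  linear_combination (C (algebraMap k[X] (RatFunc k) s) * C (algebraMap k[X] (RatFunc k) t)) * hab

/-- evaluation of the first variable -/
def ev1 {R : Type*} [CommRing R] (y : R) : ℤ[X] →+* R := eval₂RingHom (Int.castRingHom R) y

theorem ev1_comp {R S : Type*} [CommRing R] [CommRing S] (f : R →+* S) (y : R) :
    f.comp (ev1 y) = ev1 (f y) := by
  ext
  · simp [ev1]
  · simp [ev1]

theorem ufree_of_rel [IsAlgClosed (kk A)] {Φ : ℤ[X][X]} (hΦ : GoodRel (kk A) Φ)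
    {y' y : BV (gauss A h) W} (hy' : Ufree h y') (hy : (Φ.map (ev1 y')).eval y = 0) :
    Ufree h y := by
  refine hy'.step h fun 𝔪 h𝔪 c hc => ?_
  let G : A[X] := (Φ.map (mapRingHom (Int.castRingHom A))).eval (C c)
  refine ⟨G, ?_, ?_⟩
  · have h1 : redP A G = (Φ.map (mapRingHom (Int.castRingHom (kk A)))).eval
        (C (IsLocalRing.residue A c)) := by
      show redP A ((Φ.map (mapRingHom (Int.castRingHom A))).eval (C c)) = _
      rw [eval_map, hom_eval₂, eval_map]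
      congr 1
      · ext <;> simp
      · simp
    rw [h1]
    exact hΦ.ne _
  · have h2 : evB h y' G = (Φ.map (ev1 y')).eval (AtoB A h W c) := by
      show eval₂ (AtoB A h W) y' ((Φ.map (mapRingHom (Int.castRingHom A))).eval (C c)) = _
      rw [← coe_eval₂RingHom, eval_map, hom_eval₂, eval_map]
      congr 1
      · ext <;> simp [ev1]
      · simp
    rw [h2]
    have h3 : (y - AtoB A h W c) ∣ (Φ.map (ev1 y')).eval y - (Φ.map (ev1 y')).eval (AtoB A h W c) :=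
      sub_dvd_eval_sub _ _ _
    rw [hy, zero_sub] at h3
    have h4 := 𝔪.mem_of_dvd h3 hc
    exact neg_mem_iff.mp h4

theorem isUnit_derivative {Φ : ℤ[X][X]} (hΦ : GoodRel (kk A) Φ)
    {y' y : BV (gauss A h) W} (hy' : Ufree h y') (hy : (Φ.map (ev1 y')).eval y = 0) :
    IsUnit ((derivative (Φ.map (ev1 y'))).eval y) := by
  refine isUnit_of_forall_notMem fun 𝔪 h𝔪 hmem => ?_
  obtain ⟨U, V, δ, hδ, hUV⟩ := hΦ.bez
  apply hy'.eval_ne h h𝔪 hδ
  let χ := Ideal.Quotient.mk 𝔪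
  let ψ : (kk A)[X] →+* (BV (gauss A h) W) ⧸ 𝔪 := eval₂RingHom (omg h h𝔪) (χ y')
  have h1 : (Φ.map (mapRingHom (Int.castRingHom (kk A)))).map ψ = (Φ.map (ev1 y')).map χ := by
    rw [Polynomial.map_map, Polynomial.map_map, ev1_comp]
    congr 1
    ext <;> simp [ψ, ev1]
  have h2 := congrArg (fun p => (p.map ψ).eval (χ y)) hUV
  simp only [Polynomial.map_add, Polynomial.map_mul, eval_add, eval_mul, map_C, eval_C] at h2
  rw [← derivative_map, h1, eval_map χ, eval₂_at_apply, hy, map_zero, mul_zero, zero_add,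
    derivative_map, eval_map χ, eval₂_at_apply, Ideal.Quotient.eq_zero_iff_mem.mpr hmem,
    mul_zero] at h2
  exact h2.symm

end

end Fermat.Agent.H27
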