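import Fermat.Agent.H27.Connected
import Fermat.Agent.H27.HasEt
import Fermat.Agent.H27.Ufree

set_option autoImplicit false

open Polynomial

namespace Fermat.Agent.H27

noncomputable section

theorem root_of_connected {R : Type*} [CommRing R] [Nontrivial R]
    (hid : ∀ e : R, e ^ 2 = e → e = 0 ∨ e = 1) {p : ℕ} (hp : 0 < p) (hpu : IsUnit (p : R))
    {ζ v : R} (hζ : ∀ j, 0 < j → j < p → ∑ i ∈ Finset.range p, (ζ ^ j) ^ i = 0) (hζp : ζ ^ p = 1)
    (hv : v ^ p = 1) : ∃ i, v = ζ ^ i := by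
  obtain ⟨u, hu⟩ := hpu.exists_left_inv
  let e : R → R := fun w => u * ∑ j ∈ Finset.range p, w ^ j
  have h1 : ∀ w : R, w ^ p = 1 → w * e w = e w := by
    intro w hw
    have h2 : w * ∑ j ∈ Finset.range p, w ^ j = ∑ j ∈ Finset.range p, w ^ j := by
      obtain ⟨n, rfl⟩ : ∃ n, p = n + 1 := ⟨p - 1, by omega⟩
      rw [Finset.mul_sum, Finset.sum_range_succ, Finset.sum_range_succ']
      have h3 : w * w ^ n = w ^ 0 := by rw [← pow_succ', hw, pow_zero]
      rw [h3]
      congr 1
      exact Finset.sum_congr rfl fun j _ => (pow_succ' w j).symm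
    show w * (u * _) = u * _
    rw [mul_left_comm, h2]
  have h2 : ∀ w : R, w ^ p = 1 → ∀ j, w ^ j * e w = e w := by
    intro w hw j
    induction j with
    | zero => rw [pow_zero, one_mul]
    | succ n ih => rw [pow_succ, mul_assoc, h1 w hw, ih]
  have h3 : ∀ w : R, w ^ p = 1 → e w ^ 2 = e w := by
    intro w hw
    have h4 : e w ^ 2 = u * ∑ j ∈ Finset.range p, w ^ j * e w := by
      rw [← Finset.sum_mul, ← mul_assoc, sq]
    rw [h4, Finset.sum_congr rfl fun j _ => h2 w hw j, Finset.sum_const, Finset.card_range,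
      nsmul_eq_mul, ← mul_assoc, hu, one_mul]
  have hw : ∀ i, (ζ ^ i * v) ^ p = 1 := by
    intro i
    rw [mul_pow, hv, ← pow_mul, mul_comm i p, pow_mul, hζp, one_pow, one_mul]
  have h5 : ∑ i ∈ Finset.range p, e (ζ ^ i * v) = 1 := by
    show ∑ i ∈ Finset.range p, u * ∑ j ∈ Finset.range p, (ζ ^ i * v) ^ j = 1
    rw [← Finset.mul_sum, Finset.sum_comm]
    have h6 : ∀ j ∈ Finset.range p, ∑ i ∈ Finset.range p, (ζ ^ i * v) ^ j =
        if j = 0 then (p : R) else 0 := by
      intro j hj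
      split_ifs with h0
      · subst h0; simp
      · have : ∀ i ∈ Finset.range p, (ζ ^ i * v) ^ j = v ^ j * (ζ ^ j) ^ i := by
          intro i _
          rw [mul_pow, ← pow_mul, ← pow_mul, mul_comm i j, mul_comm]
        rw [Finset.sum_congr rfl this, ← Finset.mul_sum,
          hζ j (Nat.pos_of_ne_zero h0) (Finset.mem_range.mp hj), mul_zero]
    rw [Finset.sum_congr rfl h6, Finset.sum_ite_eq' (Finset.range p) 0 fun _ => (p : R),
      if_pos (Finset.mem_range.mpr hp), hu]
  by_cases hall : ∀ i ∈ Finset.range p, e (ζ ^ i * v) = 0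
  · rw [Finset.sum_eq_zero hall] at h5
    exact absurd h5 zero_ne_one
  · push Not at hall
    obtain ⟨i, _, hi⟩ := hall
    have h7 : e (ζ ^ i * v) = 1 := (hid _ (h3 _ (hw i))).resolve_left hi
    have h8 : ζ ^ i * v = 1 := by
      have := h1 _ (hw i)
      rwa [h7, mul_one] at this
    refine ⟨i * (p - 1), ?_⟩
    have h9 : ζ ^ (i * (p - 1)) * ζ ^ i = 1 := by
      rw [← pow_add, show i * (p - 1) + i = p * i from by
        obtain ⟨n, rfl⟩ : ∃ n, p = n + 1 := ⟨p - 1, by omega⟩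
        simp; ring, pow_mul, hζp, one_pow]
    calc v = (ζ ^ (i * (p - 1)) * ζ ^ i) * v := by rw [h9, one_mul]
      _ = ζ ^ (i * (p - 1)) := by rw [mul_assoc, h8, mul_one]

variable {K : Type*} [Field K] {A : ValuationSubring K}
variable {𝕂 : Type*} [Field 𝕂] [Algebra K 𝕂]
variable {E : Type*} [Field E] [Algebra 𝕂 E]

/-- the ideal `m_A B` -/
def smallI (A : ValuationSubring K) (V : ValuationSubring 𝕂) (E : Type*) [Field E] [Algebra 𝕂 E]
    (hV : ∀ a ∈ A, algebraMap K 𝕂 a ∈ V) : Ideal (BV V E) where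
  carrier := {b | Small A V (b : E)}
  add_mem' ha hb := Small.add hV ha hb
  zero_mem' := Small.zero
  smul_mem' c b hb := Small.mul_left c.2 hb

theorem mem_smallI {V : ValuationSubring 𝕂} (hV : ∀ a ∈ A, algebraMap K 𝕂 a ∈ V) (b : BV V E) :
    b ∈ smallI A V E hV ↔ Small A V (b : E) := Iff.rfl

theorem not_small_one {x : 𝕂} (h : RatCoord K x) : ¬ Small A (gauss A h) (1 : E) := by
  intro h1
  have h2 := residue_of_small h (E := E) (1 : A) (by
    rw [show cE K 𝕂 E ((1 : A) : K) = 1 from map_one _]; exact h1)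
  rw [map_one] at h2
  exact one_ne_zero h2

theorem Small.map {E' : Type*} [Field E'] [Algebra 𝕂 E'] {V : ValuationSubring 𝕂} {y : E}
    (hy : Small A V y) (f : E →ₐ[𝕂] E') : Small A V (f y) := by
  obtain ⟨ϖ, y', h1, h2, h3⟩ := hy
  exact ⟨ϖ, f y', h1, (map_mem_BV_equiv f).mpr h2, by rw [h3, map_mul, AlgHom.commutes]⟩

/-- small perturbations of one are units -/
theorem isUnit_of_small {x : 𝕂} (h : RatCoord K x) (u : BV (gauss A h) E)
    (hu : Small A (gauss A h) ((u : E) - 1)) : IsUnit u := by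
  refine isUnit_of_forall_notMem fun 𝔪 h𝔪 hmem => ?_
  obtain ⟨ϖ, y', h1, h2, h3⟩ := hu
  have h4 := mem_of_residue h (W := E) h𝔪 ϖ h1
  have h5 := 𝔪.mul_mem_left (⟨y', h2⟩ : BV (gauss A h) E) h4
  have h6 : (⟨y', h2⟩ : BV (gauss A h) E) * AtoB A h E ϖ = u - 1 := by
    apply Subtype.ext
    show y' * algebraMap 𝕂 E (algebraMap K 𝕂 ϖ) = (u : E) - 1
    rw [h3, mul_comm]
  rw [h6] at h5
  apply h𝔪.ne_top
  rw [Ideal.eq_top_iff_one]
  have := 𝔪.sub_mem hmem h5
  rwa [sub_sub_cancel] at this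

variable {ι : Type} [Fintype ι] [DecidableEq ι]

/-- elements of `B` whose `p`-th power is `≡ 1` are `≡` roots of unity -/
theorem root_small [CharZero K] [IsAlgClosed K] {x : 𝕂} (h : RatCoord K x)
    (e : EtBasis (gauss A h) E ι) (hrank : RankOne A)
    (D D' : A[X]) (hD : Squarefree (redP A D)) (hD' : Squarefree (redP A D'))
    {p : ℕ} (hp : p.Prime) (hpk : (p : kk A) ≠ 0) {ζ : K} (hζ : IsPrimitiveRoot ζ p) {w : E}
    (hwB : w ∈ BV (gauss A h) E) (hw : Small A (gauss A h) (w ^ p - 1))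
    (hloc : ∀ a ∈ A, ∃ d : LocData x a E ι, (incP A D).eval a ≠ 0 → d.e = 1)
    (hloc' : ∀ a ∈ A, ∃ d : LocData x⁻¹ a E ι, (incP A D').eval a ≠ 0 → d.e = 1) :
    ζ ∈ A ∧ ∃ n : ℕ, Small A (gauss A h) (w - cE K 𝕂 E ζ ^ n) := by
  have hV := gauss_alg (A := A) h
  have hp0 : 0 < p := hp.pos
  have hpA : ((p : A) : K) = (p : K) := by simp
  have hpinv : ((p : K))⁻¹ ∈ A := by
    have := inv_mem_of_residue_ne_zero (A := A) (c := ((p : A) : K)) (p : A).2 (by
      rw [show (⟨((p : A) : K), (p : A).2⟩ : A) = (p : A) from rfl, map_natCast]; exact hpk)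
    rwa [hpA] at this
  have hpK : (p : K) ≠ 0 := Nat.cast_ne_zero.mpr hp0.ne'
  let B := BV (gauss A h) E
  let I : Ideal B := smallI A (gauss A h) E hV
  let R := B ⧸ I
  haveI : Nontrivial R := by
    refine Ideal.Quotient.nontrivial_iff.mpr ?_
    rw [Ideal.ne_top_iff_one]
    exact not_small_one h
  let π : B →+* R := Ideal.Quotient.mk I
  have hπ : ∀ b c : B, π b = π c ↔ Small A (gauss A h) ((b : E) - c) := fun b c =>
    Ideal.Quotient.eq
  let α : A →+* R := π.comp (AtoB A h E)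
  have hid : ∀ r : R, r ^ 2 = r → r = 0 ∨ r = 1 := by
    intro r hr
    obtain ⟨b, rfl⟩ := Ideal.Quotient.mk_surjective r
    have h1 : π (b ^ 2) = π b := by rw [map_pow]; exact hr
    rw [hπ] at h1
    rcases connected h e hrank D D' hD hD' hloc hloc' (e₀ := (b : E)) b.2
      h1 with h2 | h2
    · left
      have : π b = π 0 := by rw [hπ]; simpa using h2
      rw [map_zero] at this
      exact this
    · right
      have : π 1 = π b := (hπ 1 b).mpr h2
      rw [map_one] at this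
      exact this.symm
  have hζA : ζ ∈ A := by
    rcases A.mem_or_inv_mem ζ with h1 | h1
    · exact h1
    · have h2 : ζ = ζ⁻¹ ^ (p - 1) := by
        have h3 : ζ ^ p = 1 := hζ.pow_eq_one
        have hζ0 : ζ ≠ 0 := hζ.ne_zero hp0.ne'
        rw [inv_pow]
        refine eq_inv_of_mul_eq_one_left ?_
        rw [← pow_succ', Nat.sub_add_cancel hp0]
        exact h3
      rw [h2]
      exact pow_mem h1 _
  refine ⟨hζA, ?_⟩
  let z : A := ⟨ζ, hζA⟩
  have hz : IsPrimitiveRoot z p := IsPrimitiveRoot.of_map_of_injective (f := A.subtype) hζ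
    Subtype.val_injective
  have hpu : IsUnit (p : R) := by
    have h1 : IsUnit (p : A) :=
      IsUnit.of_mul_eq_one ⟨(p : K)⁻¹, hpinv⟩ (Subtype.ext (by
        show ((p : A) : K) * (p : K)⁻¹ = 1
        rw [hpA, mul_inv_cancel₀ hpK]))
    have := h1.map α
    rwa [map_natCast] at this
  have hgs : ∀ j, 0 < j → j < p → ∑ i ∈ Finset.range p, (z ^ j) ^ i = 0 := by
    intro j hj hjp
    have h1 : IsPrimitiveRoot (z ^ j) p := hz.pow_of_coprime j
      (Nat.coprime_of_lt_prime hj.ne' hjp hp).symm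
    exact h1.geom_sum_eq_zero hp.one_lt
  obtain ⟨i, hi⟩ := root_of_connected hid hp0 hpu (ζ := α z) (v := π ⟨w, hwB⟩)
    (by
      intro j hj hjp
      rw [← map_zero α, ← hgs j hj hjp, map_sum]
      simp only [map_pow])
    (by rw [← map_pow, hz.pow_eq_one, map_one])
    (by
      rw [← map_pow, ← map_one π, hπ]
      exact hw)
  refine ⟨i, ?_⟩
  have h2 : π ⟨w, hwB⟩ = π (AtoB A h E z ^ i) := by rw [hi, map_pow]; rfl
  rw [hπ] at h2
  exact h2

variable {F : Type*} [Field F] [Algebra 𝕂 F] [Algebra F E] [IsScalarTower 𝕂 F E]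

/-- **No nontrivial connected Kummer cover is trivial mod `m_A`.** -/
theorem kummer_false [CharZero K] [IsAlgClosed K] {x : 𝕂} (h : RatCoord K x)
    (e : EtBasis (gauss A h) F ι) (hrank : RankOne A)
    (D D' : A[X]) (hD : Squarefree (redP A D)) (hD' : Squarefree (redP A D'))
    {p : ℕ} (hp : p.Prime) (hpk : (p : kk A) ≠ 0) {f₁ : F}
    (hf₁ : Small A (gauss A h) (f₁ - 1)) (v : E) (hv : v ^ p = algebraMap F E f₁)
    (hgen : Algebra.adjoin F {v} = ⊤) {ζ : K} (hζ : IsPrimitiveRoot ζ p) (σ : E ≃ₐ[F] E)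
    (hσ : σ v = cE K 𝕂 E ζ * v)
    (hloc : ∀ m : ℕ, Fintype.card (ι × Fin m) = Module.finrank 𝕂 E → ∀ a ∈ A,
      ∃ d : LocData x a E (ι × Fin m), (incP A D).eval a ≠ 0 → d.e = 1)
    (hloc' : ∀ m : ℕ, Fintype.card (ι × Fin m) = Module.finrank 𝕂 E → ∀ a ∈ A,
      ∃ d : LocData x⁻¹ a E (ι × Fin m), (incP A D').eval a ≠ 0 → d.e = 1) : False := by
  haveI : CharZero 𝕂 := charZero_of_injective_algebraMap (algebraMap K 𝕂).injective
  have hV := gauss_alg (A := A) h
  have hp0 : 0 < p := hp.pos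
  -- basic facts on `f₁`
  have hf₁B : f₁ ∈ BV (gauss A h) F := by
    have := add_mem (Small.mem hV hf₁) (one_mem (BV (gauss A h) F))
    rwa [sub_add_cancel] at this
  have hf₁u := isUnit_of_small h ⟨f₁, hf₁B⟩ hf₁
  have hf₁i : f₁⁻¹ ∈ BV (gauss A h) F := inv_mem_of_isUnit hf₁u
  have hf₁0 : f₁ ≠ 0 := by
    intro h0
    have := hf₁u.ne_zero
    exact this (Subtype.ext h0)
  have hvB : v ∈ BV (gauss A h) E := by
    apply intSub_closed
    refine ⟨X ^ p - C ⟨algebraMap F E f₁, (map_mem_BV_iff _).mpr hf₁B⟩, monic_X_pow_sub_C _ hp0.ne',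
      ?_⟩
    rw [eval₂_sub, eval₂_pow, eval₂_X, eval₂_C, hv]
    exact sub_self _
  have hv0 : v ≠ 0 := by
    rintro rfl
    rw [zero_pow hp0.ne'] at hv
    exact hf₁0 ((map_eq_zero _).mp hv.symm)
  -- p is a unit
  have hpA : ((p : A) : K) = (p : K) := by simp
  have hpinv : ((p : K))⁻¹ ∈ A := by
    have := inv_mem_of_residue_ne_zero (A := A) (c := ((p : A) : K)) (p : A).2 (by
      rw [show (⟨((p : A) : K), (p : A).2⟩ : A) = (p : A) from rfl, map_natCast]; exact hpk)
    rwa [hpA] at this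
  have hpK : (p : K) ≠ 0 := Nat.cast_ne_zero.mpr hp0.ne'
  -- étale basis of `E`
  obtain ⟨m, e₂, -⟩ := EtBasis.tower e v hvB hgen (X ^ p - C f₁) (monic_X_pow_sub_C _ hp0.ne')
    (by
      intro i
      rw [coeff_sub, coeff_X_pow, coeff_C]
      refine sub_mem ?_ ?_
      · split_ifs
        · exact one_mem _
        · exact zero_mem _
      · split_ifs
        · exact hf₁B
        · exact zero_mem _)
    (by rw [map_sub, map_pow, aeval_X, aeval_C, hv, sub_self])
    (by
      rw [derivative_sub, derivative_X_pow, derivative_C, sub_zero, map_mul, map_pow, aeval_X,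
        aeval_C]
      haveI : CharZero F := charZero_of_injective_algebraMap (algebraMap 𝕂 F).injective
      refine mul_ne_zero ?_ (pow_ne_zero _ hv0)
      rw [_root_.map_ne_zero]
      exact Nat.cast_ne_zero.mpr hp0.ne')
    (by
      rw [derivative_sub, derivative_X_pow, derivative_C, sub_zero, map_mul, map_pow, aeval_X,
        aeval_C]
      have h1 : (algebraMap F E (p : F) * v ^ (p - 1))⁻¹ =
          cE K 𝕂 E ((p : K)⁻¹) * (v * algebraMap F E f₁⁻¹) := by
        rw [map_inv₀ (algebraMap F E), ← hv, map_inv₀ (cE K 𝕂 E), map_natCast, map_natCast]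
        have h2 : v ^ p = v ^ (p - 1) * v := by
          rw [← pow_succ, Nat.sub_add_cancel hp0]
        rw [h2]
        have h3 : v ^ (p - 1) ≠ 0 := pow_ne_zero _ hv0
        haveI : CharZero E := charZero_of_injective_algebraMap (algebraMap 𝕂 E).injective
        have h4 : (p : E) ≠ 0 := Nat.cast_ne_zero.mpr hp0.ne'
        field_simp
      rw [h1]
      exact mul_mem (cE_mem_BV hV hpinv) (mul_mem hvB ((map_mem_BV_iff _).mpr hf₁i)))
  haveI := e₂.finite
  have hcard : Fintype.card (ι × Fin m) = Module.finrank 𝕂 E :=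
    (Module.finrank_eq_card_basis e₂.b).symm
  -- the reduction
  let B := BV (gauss A h) E
  let I : Ideal B := smallI A (gauss A h) E hV
  let R := B ⧸ I
  haveI : Nontrivial R := by
    refine Ideal.Quotient.nontrivial_iff.mpr ?_
    rw [Ideal.ne_top_iff_one]
    exact not_small_one h
  let π : B →+* R := Ideal.Quotient.mk I
  have hπ : ∀ b c : B, π b = π c ↔ Small A (gauss A h) ((b : E) - c) := fun b c =>
    Ideal.Quotient.eq
  let α : A →+* R := π.comp (AtoB A h E)
  have hid : ∀ r : R, r ^ 2 = r → r = 0 ∨ r = 1 := by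
    intro r hr
    obtain ⟨b, rfl⟩ := Ideal.Quotient.mk_surjective r
    have h1 : π (b ^ 2) = π b := by rw [map_pow]; exact hr
    rw [hπ] at h1
    rcases connected h e₂ hrank D D' hD hD' (hloc m hcard) (hloc' m hcard) (e₀ := (b : E)) b.2
      h1 with h2 | h2
    · left
      have : π b = π 0 := by rw [hπ]; simpa using h2
      rw [map_zero] at this
      exact this
    · right
      have : π 1 = π b := (hπ 1 b).mpr h2
      rw [map_one] at this
      exact this.symm
  -- the root of unity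
  have hζA : ζ ∈ A := by
    rcases A.mem_or_inv_mem ζ with h1 | h1
    · exact h1
    · have h2 : ζ = ζ⁻¹ ^ (p - 1) := by
        have h3 : ζ ^ p = 1 := hζ.pow_eq_one
        have hζ0 : ζ ≠ 0 := hζ.ne_zero hp0.ne'
        rw [inv_pow]
        refine eq_inv_of_mul_eq_one_left ?_
        rw [← pow_succ', Nat.sub_add_cancel hp0]
        exact h3
      rw [h2]
      exact pow_mem h1 _
  let z : A := ⟨ζ, hζA⟩
  have hz : IsPrimitiveRoot z p := IsPrimitiveRoot.of_map_of_injective (f := A.subtype) hζ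
    Subtype.val_injective
  have hpu : IsUnit (p : R) := by
    have h1 : IsUnit (p : A) :=
      IsUnit.of_mul_eq_one ⟨(p : K)⁻¹, hpinv⟩ (Subtype.ext (by
        show ((p : A) : K) * (p : K)⁻¹ = 1
        rw [hpA, mul_inv_cancel₀ hpK]))
    have := h1.map α
    rwa [map_natCast] at this
  have hgs : ∀ j, 0 < j → j < p → ∑ i ∈ Finset.range p, (z ^ j) ^ i = 0 := by
    intro j hj hjp
    have h1 : IsPrimitiveRoot (z ^ j) p := hz.pow_of_coprime j
      (Nat.coprime_of_lt_prime hj.ne' hjp hp).symm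
    exact h1.geom_sum_eq_zero hp.one_lt
  obtain ⟨i, hi⟩ := root_of_connected hid hp0 hpu (ζ := α z) (v := π ⟨v, hvB⟩)
    (by
      intro j hj hjp
      rw [← map_zero α, ← hgs j hj hjp, map_sum]
      simp only [map_pow])
    (by rw [← map_pow, hz.pow_eq_one, map_one])
    (by
      rw [← map_pow, ← map_one π, hπ]
      show Small A (gauss A h) (v ^ p - 1)
      rw [hv]
      have := hf₁.map (IsScalarTower.toAlgHom 𝕂 F E)
      rw [map_sub, map_one] at this
      exact this)
  have h1 : Small A (gauss A h) (v - cE K 𝕂 E ζ ^ i) := by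
    have h2 : π ⟨v, hvB⟩ = π (AtoB A h E z ^ i) := by rw [hi, map_pow]; rfl
    rw [hπ] at h2
    exact h2
  have h2 : Small A (gauss A h) (cE K 𝕂 E ζ * v - cE K 𝕂 E ζ ^ i) := by
    have := h1.map (σ.toAlgHom.restrictScalars 𝕂)
    rw [map_sub, map_pow] at this
    have h3 : (σ.toAlgHom.restrictScalars 𝕂) (cE K 𝕂 E ζ) = cE K 𝕂 E ζ :=
      AlgHom.commutes _ _
    have h4 : (σ.toAlgHom.restrictScalars 𝕂) v = cE K 𝕂 E ζ * v := hσ
    rwa [h3, h4] at this
  have hζB : cE K 𝕂 E ζ ∈ BV (gauss A h) E := cE_mem_BV hV hζA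
  have h3 : Small A (gauss A h) (cE K 𝕂 E ζ ^ i * (1 - cE K 𝕂 E ζ)) := by
    have h4 := Small.sub hV (Small.mul_left hζB h1) h2
    have h5 := h4.neg
    have h6 : -(cE K 𝕂 E ζ * (v - cE K 𝕂 E ζ ^ i) - (cE K 𝕂 E ζ * v - cE K 𝕂 E ζ ^ i)) =
        -(cE K 𝕂 E ζ ^ i * (1 - cE K 𝕂 E ζ)) := by ring
    rw [h6] at h5
    have := h5.neg
    rwa [neg_neg] at this
  have h4 : Small A (gauss A h) (cE K 𝕂 E ((z ^ i * (1 - z) : A) : K)) := by
    have : cE K 𝕂 E ((z ^ i * (1 - z) : A) : K) = cE K 𝕂 E ζ ^ i * (1 - cE K 𝕂 E ζ) := by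
      show cE K 𝕂 E (ζ ^ i * (1 - ζ)) = _
      rw [map_mul, map_pow, map_sub, map_one]
    rw [this]; exact h3
  have h5 := residue_of_small h _ h4
  have h6 : IsLocalRing.residue A z ^ p = 1 := by rw [← map_pow, hz.pow_eq_one, map_one]
  rw [map_mul, map_pow, mul_eq_zero] at h5
  have h7 : IsLocalRing.residue A z = 1 := by
    rcases h5 with h5 | h5
    · have h8 : IsLocalRing.residue A z = 0 := by
        by_contra hne
        exact pow_ne_zero _ hne h5
      rw [h8, zero_pow hp0.ne'] at h6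
      exact absurd h6 zero_ne_one
    · rw [map_sub, map_one, sub_eq_zero] at h5
      exact h5.symm
  have h8 := congrArg (IsLocalRing.residue A) (hz.geom_sum_eq_zero hp.one_lt)
  rw [map_sum, map_zero] at h8
  simp only [map_pow, h7, one_pow, Finset.sum_const, Finset.card_range, nsmul_eq_mul,
    mul_one] at h8
  exact hpk h8

end

end Fermat.Agent.H27
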