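import Mathlib

set_option autoImplicit false

open Polynomial

namespace Fermat.Agent.H27

/-- trace of a matrix some power of which is divisible by a prime -/
theorem trace_dvd {R Q : Type*} [CommRing R] [IsDomain R] [IsIntegrallyClosed R]
    [Field Q] [Algebra R Q] [IsFractionRing R Q] {n : Type*} [Fintype n] [DecidableEq n]
    (W W' : Matrix n n Q) (hW : IsIntegral R W)
    (hW' : IsIntegral R W') (π : R) (hπ : Prime π) (M : ℕ)
    (h : W ^ M = π • W') : ∃ t : R, W.trace = algebraMap R Q (π * t) := by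
  classical
  let Qb := AlgebraicClosure Q
  let f : Matrix n n Q →ₐ[R] Matrix n n Qb := (IsScalarTower.toAlgHom R Q Qb).mapMatrix
  let WQb : Matrix n n Qb := f W
  let W'Qb : Matrix n n Qb := f W'
  have hinjQ : Function.Injective (algebraMap R Q) := IsFractionRing.injective R Q
  have hinjQb : Function.Injective (algebraMap R Qb) := by
    rw [IsScalarTower.algebraMap_eq R Q Qb]
    exact (algebraMap Q Qb).injective.comp hinjQ
  have hπ0 : algebraMap R Qb π ≠ 0 := by
    rw [ne_eq, map_eq_zero_iff _ hinjQb]; exact hπ.ne_zero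
  rcases isEmpty_or_nonempty n with hn | hn
  · exact ⟨0, by simp [Matrix.trace]⟩
  have hroot : ∀ (q : Qb[X]), aeval WQb q = 0 → ∀ μ ∈ WQb.charpoly.roots, q.eval μ = 0 := by
    intro q hq μ hμ
    have h1 : μ ∈ spectrum Qb WQb := by
      rw [Matrix.mem_spectrum_iff_isRoot_charpoly]
      exact Polynomial.isRoot_of_mem_roots hμ
    have h2 := spectrum.subset_polynomial_aeval WQb q ⟨μ, h1, rfl⟩
    rw [hq, spectrum.zero_eq] at h2
    exact h2
  -- roots are integral
  have hint : ∀ μ ∈ WQb.charpoly.roots, IsIntegral R μ := by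
    intro μ hμ
    obtain ⟨P, hP, hPW⟩ := hW
    refine ⟨P, hP, ?_⟩
    have h1 : aeval WQb (P.map (algebraMap R Qb)) = 0 := by
      rw [Polynomial.aeval_map_algebraMap, ← map_zero f]
      have : aeval WQb P = f (aeval W P) := by rw [Polynomial.aeval_algHom_apply]
      rw [this]
      congr 1
    have h2 := hroot _ h1 μ hμ
    rwa [eval_map] at h2
  have hint' : ∀ μ ∈ WQb.charpoly.roots, ∃ μ' : Qb, IsIntegral R μ' ∧
      μ ^ M = algebraMap R Qb π * μ' := by
    intro μ hμ
    obtain ⟨P, hP, hPW⟩ := hW'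
    refine ⟨(algebraMap R Qb π)⁻¹ * μ ^ M, ⟨P, hP, ?_⟩, (mul_inv_cancel_left₀ hπ0 _).symm⟩
    have h0 : (algebraMap R Qb π)⁻¹ • WQb ^ M = W'Qb := by
      show (algebraMap R Qb π)⁻¹ • (f W) ^ M = f W'
      rw [← map_pow, h, map_smul, ← algebraMap_smul Qb π (f W'), smul_smul,
        inv_mul_cancel₀ hπ0, one_smul]
    have h1 : aeval WQb ((P.map (algebraMap R Qb)).comp
        (C (algebraMap R Qb π)⁻¹ * X ^ M)) = 0 := by
      rw [Polynomial.aeval_comp]
      have h3 : aeval WQb (C (algebraMap R Qb π)⁻¹ * X ^ M) = W'Qb := by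
        rw [← h0, map_mul, aeval_C, map_pow, aeval_X, Algebra.smul_def]
      rw [h3, Polynomial.aeval_map_algebraMap, ← map_zero f]
      have : aeval W'Qb P = f (aeval W' P) := by rw [Polynomial.aeval_algHom_apply]
      rw [this]
      congr 1
    have h2 := hroot _ h1 μ hμ
    rwa [eval_comp, eval_map, eval_mul, eval_C, eval_pow, eval_X] at h2
  -- the prime
  let S := integralClosure R Qb
  haveI : Algebra.IsIntegral R S := inferInstance
  have hπp : (Ideal.span {π}).IsPrime := (Ideal.span_singleton_prime hπ.ne_zero).mpr hπ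
  obtain ⟨P, hPp, hPc⟩ := Ideal.exists_ideal_over_prime_of_isIntegral_of_isDomain
    (R := R) (S := S) (Ideal.span {π}) (by
      have hinjS : Function.Injective (algebraMap R S) := by
        intro a b hab
        apply hinjQb
        exact congrArg (Subtype.val) hab
      rw [(RingHom.injective_iff_ker_eq_bot _).mp hinjS]
      exact bot_le)
  have hmemP : ∀ μ (hμ : μ ∈ WQb.charpoly.roots), (⟨μ, hint μ hμ⟩ : S) ∈ P := by
    intro μ hμ
    obtain ⟨μ', h1, h2⟩ := hint' μ hμ
    apply hPp.mem_of_pow_mem M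
    have h3 : (⟨μ, hint μ hμ⟩ : S) ^ M = algebraMap R S π * ⟨μ', h1⟩ := Subtype.ext h2
    rw [h3]
    apply Ideal.mul_mem_right
    have h4 : π ∈ Ideal.comap (algebraMap R S) P := by
      rw [hPc]; exact Ideal.mem_span_singleton_self π
    exact h4
  have hsum : ∀ s : Multiset Qb, (∀ μ ∈ s, ∃ hμ : IsIntegral R μ, (⟨μ, hμ⟩ : S) ∈ P) →
      ∃ hs : IsIntegral R s.sum, (⟨s.sum, hs⟩ : S) ∈ P := by
    intro s
    induction s using Multiset.induction_on with
    | empty => intro _; exact ⟨by simpa using isIntegral_zero, by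
        have : (⟨(0 : Multiset Qb).sum, by simpa using isIntegral_zero⟩ : S) = 0 :=
          Subtype.ext (by simp)
        rw [this]; exact P.zero_mem⟩
    | cons a s ih =>
      intro hs
      obtain ⟨h1, h2⟩ := hs a (Multiset.mem_cons_self _ _)
      obtain ⟨h3, h4⟩ := ih fun μ hμ => hs μ (Multiset.mem_cons_of_mem hμ)
      refine ⟨by rw [Multiset.sum_cons]; exact h1.add h3, ?_⟩
      have : (⟨(a ::ₘ s).sum, by rw [Multiset.sum_cons]; exact h1.add h3⟩ : S) =
        ⟨a, h1⟩ + ⟨s.sum, h3⟩ := Subtype.ext (by simp)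
      rw [this]
      exact P.add_mem h2 h4
  obtain ⟨hs, hsP⟩ := hsum WQb.charpoly.roots fun μ hμ => ⟨hint μ hμ, hmemP μ hμ⟩
  have htr : algebraMap Q Qb W.trace = WQb.charpoly.roots.sum := by
    rw [← Matrix.trace_eq_sum_roots_charpoly]
    show algebraMap Q Qb W.trace = (W.map (algebraMap Q Qb)).trace
    simp [Matrix.trace, map_sum]
  have hint1 : IsIntegral R W.trace := by
    rw [← isIntegral_algebraMap_iff (algebraMap Q Qb).injective, htr]
    exact hs
  obtain ⟨r, hr⟩ := IsIntegrallyClosed.isIntegral_iff.mp hint1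
  have hrP : r ∈ Ideal.comap (algebraMap R S) P := by
    show algebraMap R S r ∈ P
    have : algebraMap R S r = ⟨_, hs⟩ := by
      apply Subtype.ext
      show algebraMap R Qb r = WQb.charpoly.roots.sum
      rw [← htr, ← hr, ← IsScalarTower.algebraMap_apply]
    rw [this]
    exact hsP
  rw [hPc, Ideal.mem_span_singleton] at hrP
  obtain ⟨t, rfl⟩ := hrP
  exact ⟨t, hr.symm⟩

/-- trace of an integral matrix -/
theorem trace_mem {R Q : Type*} [CommRing R] [IsDomain R] [IsIntegrallyClosed R]
    [Field Q] [Algebra R Q] [IsFractionRing R Q] {n : Type*} [Fintype n] [DecidableEq n]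
    (W : Matrix n n Q) (hW : IsIntegral R W) : ∃ t : R, W.trace = algebraMap R Q t := by
  classical
  let Qb := AlgebraicClosure Q
  let f : Matrix n n Q →ₐ[R] Matrix n n Qb := (IsScalarTower.toAlgHom R Q Qb).mapMatrix
  let WQb : Matrix n n Qb := f W
  rcases isEmpty_or_nonempty n with hn | hn
  · exact ⟨0, by simp [Matrix.trace]⟩
  have hroot : ∀ (q : Qb[X]), aeval WQb q = 0 → ∀ μ ∈ WQb.charpoly.roots, q.eval μ = 0 := by
    intro q hq μ hμ
    have h1 : μ ∈ spectrum Qb WQb := by
      rw [Matrix.mem_spectrum_iff_isRoot_charpoly]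
      exact Polynomial.isRoot_of_mem_roots hμ
    have h2 := spectrum.subset_polynomial_aeval WQb q ⟨μ, h1, rfl⟩
    rw [hq, spectrum.zero_eq] at h2
    exact h2
  have hint : ∀ μ ∈ WQb.charpoly.roots, IsIntegral R μ := by
    intro μ hμ
    obtain ⟨P, hP, hPW⟩ := hW
    refine ⟨P, hP, ?_⟩
    have h1 : aeval WQb (P.map (algebraMap R Qb)) = 0 := by
      rw [Polynomial.aeval_map_algebraMap, ← map_zero f]
      have : aeval WQb P = f (aeval W P) := by rw [Polynomial.aeval_algHom_apply]
      rw [this]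
      congr 1
    have h2 := hroot _ h1 μ hμ
    rwa [eval_map] at h2
  have hs : IsIntegral R WQb.charpoly.roots.sum := IsIntegral.multiset_sum hint
  have htr : algebraMap Q Qb W.trace = WQb.charpoly.roots.sum := by
    rw [← Matrix.trace_eq_sum_roots_charpoly]
    show algebraMap Q Qb W.trace = (W.map (algebraMap Q Qb)).trace
    simp [Matrix.trace, map_sum]
  have hint1 : IsIntegral R W.trace := by
    rw [← isIntegral_algebraMap_iff (algebraMap Q Qb).injective, htr]
    exact hs
  obtain ⟨r, hr⟩ := IsIntegrallyClosed.isIntegral_iff.mp hint1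
  exact ⟨r, hr.symm⟩

end Fermat.Agent.H27
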