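import Fermat.Agent.H27.LocEmb
import Fermat.Agent.H27.MatTrace

set_option autoImplicit false

open Polynomial

namespace Fermat.Agent.H27

noncomputable section

variable {K : Type*} [Field K] {A : ValuationSubring K}
variable {𝕂 : Type*} [Field 𝕂] [Algebra K 𝕂]
variable {E : Type*} [Field E] [Algebra 𝕂 E]
variable {x : 𝕂} (h : RatCoord K x)
variable {ι : Type} [Fintype ι] [DecidableEq ι]

omit h in
theorem monic_aux {R : Type*} [CommRing R] : (X ^ 2 - X : R[X]).Monic := by
  refine monic_X_pow_sub (n := 2) (p := (X : R[X])) ?_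
  exact degree_X_le.trans_lt (by norm_num)

/-- matrices of multiplication over `V` -/
def psiV (e : EtBasis (gauss A h) E ι) : BV (gauss A h) E →+* Matrix ι ι (gauss A h) where
  toFun y := Matrix.of fun i j => ⟨Algebra.leftMulMatrix e.b (y : E) i j, by
    haveI := e.finite
    rw [Algebra.leftMulMatrix_eq_repr_mul, e.repr_eq]
    exact trace_mem_V (mul_mem (mul_mem y.2 (e.b_mem j)) (e.bd_mem i))⟩
  map_one' := by
    ext i j
    show Algebra.leftMulMatrix e.b (1 : E) i j = _
    rw [map_one, Matrix.one_apply, Matrix.one_apply]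
    split_ifs <;> rfl
  map_zero' := by
    ext i j
    show Algebra.leftMulMatrix e.b (0 : E) i j = _
    rw [map_zero]
    rfl
  map_mul' y z := by
    ext i j
    show Algebra.leftMulMatrix e.b ((y : E) * z) i j = _
    rw [map_mul, Matrix.mul_apply, Matrix.mul_apply, AddSubmonoidClass.coe_finset_sum]
    rfl
  map_add' y z := by
    ext i j
    show Algebra.leftMulMatrix e.b ((y : E) + z) i j = _
    rw [map_add]
    rfl

/-- reduction of matrices of multiplication -/
def Lam (e : EtBasis (gauss A h) E ι) :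
    BV (gauss A h) E →+* Matrix ι ι (RatFunc (kk A)) :=
  (rho A h).mapMatrix.comp (psiV h e)

theorem trace_Lam (e : EtBasis (gauss A h) E ι) (y : BV (gauss A h) E)
    (hy : Algebra.trace 𝕂 E (y : E) ∈ gauss A h) :
    (Lam h e y).trace = rho A h ⟨_, hy⟩ := by
  show Matrix.trace ((psiV h e y).map (rho A h)) = _
  have h1 : Matrix.trace ((psiV h e y).map (rho A h)) = rho A h (Matrix.trace (psiV h e y)) := by
    simp [Matrix.trace, map_sum]
  rw [h1]
  apply rho_eq_of_eq
  show _ = Algebra.trace 𝕂 E (y : E)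
  rw [Matrix.trace, AddSubmonoidClass.coe_finset_sum, Algebra.trace_eq_matrix_trace e.b]
  rfl

/-- `A[x] → B` -/
def polB (A : ValuationSubring K) {x : 𝕂} (h : RatCoord K x) (E : Type*) [Field E] [Algebra 𝕂 E] :
    A[X] →+* BV (gauss A h) E :=
  ((algebraMap 𝕂 E).comp (evA A x)).codRestrict _ fun f => val_mem_BV (evA_mem_gauss h f)

@[simp] theorem coe_polB (f : A[X]) : ((polB A h E f : BV (gauss A h) E) : E) =
    algebraMap 𝕂 E (evA A x f) := rfl

theorem Lam_polB (e : EtBasis (gauss A h) E ι) (f : A[X]) :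
    Lam h e (polB A h E f) = algebraMap (kk A)[X] _ (redP A f) := by
  ext i j
  have h1 : Algebra.leftMulMatrix e.b (algebraMap 𝕂 E (evA A x f)) =
      algebraMap 𝕂 _ (evA A x f) := AlgHom.commutes _ _
  have h2 : (psiV h e (polB A h E f)) i j =
      if i = j then ⟨evA A x f, evA_mem_gauss h f⟩ else 0 := by
    apply Subtype.ext
    show Algebra.leftMulMatrix e.b (algebraMap 𝕂 E (evA A x f)) i j = _
    rw [h1, Matrix.algebraMap_matrix_apply]
    split_ifs <;> rfl
  show rho A h ((psiV h e (polB A h E f)) i j) = _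
  rw [h2, Matrix.algebraMap_matrix_apply]
  split_ifs
  · exact rho_evA h f
  · exact map_zero _

theorem Lam_eq_zero_iff (e : EtBasis (gauss A h) E ι) (y : BV (gauss A h) E) :
    Lam h e y = 0 ↔ Small A (gauss A h) (y : E) := by
  haveI := e.finite
  constructor
  · intro h0
    refine small_of_rho h e fun i => ?_
    have hi : Algebra.trace 𝕂 E ((y : E) * e.bd i) ∈ gauss A h :=
      trace_mem_V (mul_mem y.2 (e.bd_mem i))
    have hj : ∀ j, Algebra.trace 𝕂 E (e.bd j) ∈ gauss A h := fun j => trace_mem_V (e.bd_mem j)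
    refine ⟨hi, ?_⟩
    have h1 : (⟨_, hi⟩ : gauss A h) = ∑ j, ⟨_, hj j⟩ * psiV h e y i j := by
      apply Subtype.ext
      rw [AddSubmonoidClass.coe_finset_sum]
      show Algebra.trace 𝕂 E ((y : E) * e.bd i) = ∑ j, Algebra.trace 𝕂 E (e.bd j) *
        Algebra.leftMulMatrix e.b (y : E) i j
      have h2 := e.sum_eq 1
      conv_lhs => rw [← mul_one ((y : E) * e.bd i), ← h2]
      rw [Finset.mul_sum, map_sum]
      refine Finset.sum_congr rfl fun j _ => ?_
      rw [one_mul, Algebra.leftMulMatrix_eq_repr_mul, e.repr_eq, mul_smul_comm, map_smul,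
        smul_eq_mul]
      congr 2
      ring
    rw [h1, map_sum]
    refine Finset.sum_eq_zero fun j _ => ?_
    rw [map_mul]
    have h3 : rho A h (psiV h e y i j) = 0 := congrFun (congrFun h0 i) j
    rw [h3, mul_zero]
  · rintro ⟨ϖ, y', h1, h2, h3⟩
    have h4 : y = polB A h E (C ϖ) * ⟨y', h2⟩ := by
      apply Subtype.ext
      rw [h3]
      show _ = algebraMap 𝕂 E (evA A x (C ϖ)) * y'
      rw [evA_C]
    rw [h4, map_mul, Lam_polB]
    simp [h1]

/-- `B → B / ker Λ`, commutative -/
abbrev BQ (e : EtBasis (gauss A h) E ι) : Type _ := BV (gauss A h) E ⧸ RingHom.ker (Lam h e)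

/-- integral modulo `m_A B` over `A[x]` -/
def IntMod (e : EtBasis (gauss A h) E ι) (y : BV (gauss A h) E) : Prop :=
  ((Ideal.Quotient.mk (RingHom.ker (Lam h e))).comp (polB A h E)).IsIntegralElem
    (Ideal.Quotient.mk _ y)

theorem IntMod.mul {e : EtBasis (gauss A h) E ι} {y z : BV (gauss A h) E} (hy : IntMod h e y)
    (hz : IntMod h e z) : IntMod h e (y * z) := by
  unfold IntMod
  rw [map_mul]
  exact RingHom.IsIntegralElem.mul _ hy hz

theorem IntMod.pow {e : EtBasis (gauss A h) E ι} {y : BV (gauss A h) E} (hy : IntMod h e y)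
    (n : ℕ) : IntMod h e (y ^ n) := by
  induction n with
  | zero => rw [pow_zero]; exact RingHom.isIntegralElem_one _
  | succ n ih => rw [pow_succ]; exact ih.mul h hy

theorem IntMod.of_OK {e : EtBasis (gauss A h) E ι} {y : BV (gauss A h) E}
    (hy : (y : E) ∈ OK K x E) : IntMod h e y := by
  haveI := e.finite
  obtain ⟨P, hP, hP0⟩ := exists_monic_A A h hy y.2
  refine ⟨P, hP, ?_⟩
  rw [← Polynomial.hom_eval₂]
  have : P.eval₂ (polB A h E) y = 0 := by
    apply Subtype.ext
    have h1 := Polynomial.hom_eval₂ P (polB A h E) (BV (gauss A h) E).subtype y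
    show (BV (gauss A h) E).subtype _ = 0
    rw [h1]
    exact hP0
  rw [this, map_zero]

theorem IntMod.polB (e : EtBasis (gauss A h) E ι) (f : A[X]) : IntMod h e (polB A h E f) :=
  RingHom.isIntegralElem_map _

theorem IntMod.of_idem {e : EtBasis (gauss A h) E ι} {y : BV (gauss A h) E}
    (hy : Small A (gauss A h) ((y : E) ^ 2 - y)) : IntMod h e y := by
  have h1 : (X ^ 2 - X : A[X][X]).Monic := monic_aux
  refine ⟨X ^ 2 - X, h1, ?_⟩
  have h2 : Lam h e (y ^ 2 - y) = 0 := by
    rw [Lam_eq_zero_iff]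
    exact hy
  rw [← Polynomial.hom_eval₂, Ideal.Quotient.eq_zero_iff_mem, RingHom.mem_ker, ← h2]
  congr 1
  rw [eval₂_sub, eval₂_pow, eval₂_X]

theorem IntMod.isIntegral {e : EtBasis (gauss A h) E ι} {y : BV (gauss A h) E}
    (hy : IntMod h e y) : IsIntegral (kk A)[X] (Lam h e y) := by
  obtain ⟨P, hP, hP0⟩ := hy
  refine ⟨P.map (redP A), hP.map _, ?_⟩
  rw [← Polynomial.hom_eval₂, Ideal.Quotient.eq_zero_iff_mem, RingHom.mem_ker] at hP0
  rw [eval₂_map]
  have h1 : (algebraMap (kk A)[X] (Matrix ι ι (RatFunc (kk A)))).comp (redP A) =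
      (Lam h e).comp (H27.polB A h E) := RingHom.ext fun f => (Lam_polB h e f).symm
  rw [h1, ← Polynomial.hom_eval₂]
  exact hP0

end

end Fermat.Agent.H27
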