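import Fermat.Agent.H27.NormB

set_option autoImplicit false

open Polynomial

namespace Fermat.Agent.H27

noncomputable section

/-- vanishing power sums in characteristic zero -/
theorem eq_zero_of_power_sums {F : Type*} [Field F] [CharZero F] {ι : Type*} [Fintype ι]
    (χ : ι → F) (hχ : ∀ k : ℕ, ∑ i, χ i ^ (k + 1) = 0) : ∀ i, χ i = 0 := by
  classical
  intro i₀
  by_contra h0
  let P : F[X] := ∏ c ∈ (Finset.univ.image χ).erase (χ i₀), (X - C c)
  have hP : ∀ i, χ i ≠ χ i₀ → P.eval (χ i) = 0 := by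
    intro i hi
    simp only [P, eval_prod, eval_sub, eval_X, eval_C]
    exact Finset.prod_eq_zero (i := χ i) (by simp [hi]) (by simp)
  have hP0 : P.eval (χ i₀) ≠ 0 := by
    simp only [P, eval_prod, eval_sub, eval_X, eval_C]
    rw [Finset.prod_ne_zero_iff]
    intro c hc
    exact sub_ne_zero.mpr (Finset.ne_of_mem_erase hc).symm
  have hsum : ∑ i, χ i * P.eval (χ i) = 0 := by
    simp only [eval_eq_sum_range, Finset.mul_sum]
    rw [Finset.sum_comm]
    refine Finset.sum_eq_zero fun k _ => ?_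
    have : ∀ i, χ i * (P.coeff k * χ i ^ k) = P.coeff k * χ i ^ (k + 1) := fun i => by ring
    simp only [this, ← Finset.mul_sum, hχ, mul_zero]
  have h1 : ∑ i, χ i * P.eval (χ i) =
      ∑ i, if χ i = χ i₀ then χ i₀ * P.eval (χ i₀) else 0 := by
    refine Finset.sum_congr rfl fun i _ => ?_
    split_ifs with hi
    · rw [hi]
    · rw [hP i hi, mul_zero]
  rw [hsum, ← Finset.sum_filter, Finset.sum_const, nsmul_eq_mul] at h1
  have h2 := mul_eq_zero.mp h1.symm
  rcases h2 with h2 | h2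
  · rw [Nat.cast_eq_zero, Finset.card_eq_zero] at h2
    have : i₀ ∈ (Finset.univ.filter fun i => χ i = χ i₀) := by simp
    rw [h2] at this
    simp at this
  · exact (mul_ne_zero h0 hP0) h2

section Emb

variable {𝕂 E L : Type*} [Field 𝕂] [Field E] [Field L] [Algebra 𝕂 E] [FiniteDimensional 𝕂 E]
  [CharZero 𝕂] (θ : 𝕂 →+* L) {ι : Type*} [Fintype ι] (φ : ι → (E →+* L))
  (hinj : Function.Injective φ) (hext : ∀ i y, φ i (algebraMap 𝕂 E y) = θ y)
  (hcard : Fintype.card ι = Module.finrank 𝕂 E)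

include hinj hext hcard

theorem emb_surj :
    letI := θ.toAlgebra
    ∀ σ : E →ₐ[𝕂] AlgebraicClosure L, ∃ i, ∀ y, σ y = algebraMap L _ (φ i y) := by
  letI := θ.toAlgebra
  let Ψ : ι → (E →ₐ[𝕂] AlgebraicClosure L) := fun i =>
    { (algebraMap L (AlgebraicClosure L)).comp (φ i) with
      commutes' := fun r => by
        show algebraMap L (AlgebraicClosure L) (φ i (algebraMap 𝕂 E r)) = _
        rw [hext, IsScalarTower.algebraMap_apply 𝕂 L (AlgebraicClosure L)]
        rfl }
  have hΨ : Function.Injective Ψ := by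
    intro i j hij
    apply hinj
    ext y
    apply (algebraMap L (AlgebraicClosure L)).injective
    exact congrArg (fun σ : E →ₐ[𝕂] AlgebraicClosure L => σ y) hij
  have hb : Function.Bijective Ψ := by
    rw [Fintype.bijective_iff_injective_and_card]
    exact ⟨hΨ, by rw [hcard, AlgHom.card]⟩
  intro σ
  obtain ⟨i, hi⟩ := hb.2 σ
  exact ⟨i, fun y => by rw [← hi]; rfl⟩

theorem emb_trace (y : E) : θ (Algebra.trace 𝕂 E y) = ∑ i, φ i y := by
  letI := θ.toAlgebra
  let Ψ : ι → (E →ₐ[𝕂] AlgebraicClosure L) := fun i =>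
    { (algebraMap L (AlgebraicClosure L)).comp (φ i) with
      commutes' := fun r => by
        show algebraMap L (AlgebraicClosure L) (φ i (algebraMap 𝕂 E r)) = _
        rw [hext, IsScalarTower.algebraMap_apply 𝕂 L (AlgebraicClosure L)]
        rfl }
  have hΨ : Function.Injective Ψ := by
    intro i j hij
    apply hinj
    ext y
    apply (algebraMap L (AlgebraicClosure L)).injective
    exact congrArg (fun σ : E →ₐ[𝕂] AlgebraicClosure L => σ y) hij
  have hb : Function.Bijective Ψ := by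
    rw [Fintype.bijective_iff_injective_and_card]
    exact ⟨hΨ, by rw [hcard, AlgHom.card]⟩
  apply (algebraMap L (AlgebraicClosure L)).injective
  have h1 := trace_eq_sum_embeddings (K := 𝕂) (L := E) (AlgebraicClosure L) (x := y)
  rw [IsScalarTower.algebraMap_apply 𝕂 L (AlgebraicClosure L)] at h1
  rw [map_sum]
  refine h1.trans ?_
  exact (Fintype.sum_bijective Ψ hb _ _ (fun i => rfl)).symm

theorem emb_minpoly_coeff {Γ : Type*} [LinearOrderedCommGroupWithZero Γ] (v : Valuation L Γ)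
    {y : E} (hy : ∀ i, v (φ i y) ≤ 1) (k : ℕ) : v (θ ((minpoly 𝕂 y).coeff k)) ≤ 1 := by
  letI := θ.toAlgebra
  have hsurj := emb_surj θ φ hinj hext hcard
  have hint : IsIntegral 𝕂 y := Algebra.IsIntegral.isIntegral y
  let S' : Subring (AlgebraicClosure L) := v.integer.map (algebraMap L (AlgebraicClosure L))
  have hspl : ((minpoly 𝕂 y).map (algebraMap 𝕂 (AlgebraicClosure L))).Splits :=
    IsAlgClosed.splits _
  have hprod := hspl.eq_prod_roots_of_monic ((minpoly.monic hint).map _)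
  have hmem : (minpoly 𝕂 y).map (algebraMap 𝕂 (AlgebraicClosure L)) ∈
      Polynomial.lifts S'.subtype := by
    rw [hprod]
    apply multiset_prod_mem
    intro p hp
    obtain ⟨r, hr, rfl⟩ := Multiset.mem_map.mp hp
    have hr' : r ∈ (minpoly 𝕂 y).rootSet (AlgebraicClosure L) := by
      rw [Polynomial.mem_rootSet']
      rw [Polynomial.mem_roots'] at hr
      refine ⟨hr.1, ?_⟩
      have := hr.2
      rwa [IsRoot.def, eval_map, ← aeval_def] at this
    rw [← Algebra.IsAlgebraic.range_eval_eq_rootSet_minpoly (F := 𝕂) (K := E)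
      (AlgebraicClosure L) y] at hr'
    obtain ⟨σ, hσ⟩ := hr'
    obtain ⟨i, hi⟩ := hsurj σ
    have hrS : r ∈ S' := by
      rw [← hσ]
      show σ y ∈ S'
      rw [hi y]
      exact ⟨φ i y, hy i, rfl⟩
    rw [sub_eq_add_neg, ← C_neg]
    refine add_mem (Polynomial.X_mem_lifts _) ?_
    exact Polynomial.C_mem_lifts S'.subtype ⟨-r, neg_mem hrS⟩
  rw [Polynomial.lifts_iff_coeff_lifts] at hmem
  obtain ⟨⟨s, t, ht, hts⟩, hs⟩ := hmem k
  rw [coeff_map, IsScalarTower.algebraMap_apply 𝕂 L (AlgebraicClosure L)] at hs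
  have h1 : t = θ ((minpoly 𝕂 y).coeff k) := by
    apply (algebraMap L (AlgebraicClosure L)).injective
    rw [hts]
    exact hs
  rw [← h1]
  exact ht

end Emb

/-! ### local embeddings -/

section Loc

variable {K : Type*} [Field K] {𝕂 : Type*} [Field 𝕂] [Algebra K 𝕂]

/-- Data of a complete set of embeddings of `E` at the point `x = a`. -/
structure LocData (x : 𝕂) (a : K) (E : Type*) [Field E] [Algebra 𝕂 E] (ι : Type) where
  L : Type
  [fL : Field L]
  v : Valuation L (WithZero (Multiplicative ℤ))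
  θ : 𝕂 →+* L
  φ : ι → (E →+* L)
  inj : Function.Injective φ
  ext : ∀ i y, φ i (algebraMap 𝕂 E y) = θ y
  const : ∀ c : K, c ≠ 0 → v (θ (algebraMap K 𝕂 c)) = 1
  e : ℕ
  e_pos : 0 < e
  unif : v (θ (x - algebraMap K 𝕂 a)) = WithZero.exp (-(e : ℤ))

attribute [instance] LocData.fL

variable {x : 𝕂} {a : K} {E : Type*} [Field E] [Algebra 𝕂 E] {ι : Type}

namespace LocData

variable (d : LocData x a E ι)

theorem const_le (c : K) : d.v (d.θ (algebraMap K 𝕂 c)) ≤ 1 := by
  by_cases hc : c = 0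
  · simp [hc]
  · rw [d.const c hc]

theorem unif_lt : d.v (d.θ (x - algebraMap K 𝕂 a)) < 1 := by
  rw [d.unif, ← WithZero.exp_zero, WithZero.exp_lt_exp]
  have := d.e_pos
  omega

theorem unif_ne : d.v (d.θ (x - algebraMap K 𝕂 a)) ≠ 0 := by
  rw [d.unif]; exact WithZero.exp_ne_zero

include d in
theorem sub_ne : x - algebraMap K 𝕂 a ≠ 0 := by
  intro h0
  apply d.unif_ne
  rw [h0, map_zero, map_zero]

theorem x_le : d.v (d.θ x) ≤ 1 := by
  have h1 : d.v (d.θ ((x - algebraMap K 𝕂 a) + algebraMap K 𝕂 a)) ≤ 1 := by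
    rw [map_add]
    exact (d.v.map_add _ _).trans (max_le d.unif_lt.le (d.const_le a))
  rwa [sub_add_cancel] at h1

theorem pol_le (p : K[X]) : d.v (d.θ (aeval x p)) ≤ 1 := by
  induction p using Polynomial.induction_on' with
  | add p q hp hq =>
    rw [map_add, map_add]
    exact (d.v.map_add _ _).trans (max_le hp hq)
  | monomial n c =>
    rw [aeval_monomial, map_mul, map_mul, map_pow, map_pow]
    exact mul_le_one' (d.const_le c) (pow_le_one' d.x_le n)

theorem pol_eq (p : K[X]) : ∃ q : K[X], aeval x p =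
    (x - algebraMap K 𝕂 a) * aeval x q + algebraMap K 𝕂 (p.eval a) := by
  obtain ⟨q, hq⟩ := Polynomial.X_sub_C_dvd_sub_C_eval (p := p) (a := a)
  refine ⟨q, ?_⟩
  have := congrArg (aeval x) hq
  rw [map_sub, aeval_C, map_mul, map_sub, aeval_X, aeval_C] at this
  linear_combination this

theorem pol_lt {p : K[X]} (hp : p.eval a = 0) : d.v (d.θ (aeval x p)) < 1 := by
  obtain ⟨q, hq⟩ := pol_eq (x := x) (a := a) p
  rw [hq, hp, map_zero, add_zero, map_mul, map_mul]
  exact mul_lt_one_of_lt_of_le d.unif_lt (d.pol_le q)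

theorem pol_unit {p : K[X]} (hp : p.eval a ≠ 0) : d.v (d.θ (aeval x p)) = 1 := by
  obtain ⟨q, hq⟩ := pol_eq (x := x) (a := a) p
  rw [hq, map_add, Valuation.map_add_eq_of_lt_right]
  · exact d.const _ hp
  · rw [d.const _ hp, map_mul, map_mul]
    exact mul_lt_one_of_lt_of_le d.unif_lt (d.pol_le q)

/-- elements of valuation `≤ 1` lie in the local ring at `a` -/
theorem exists_local (h : RatCoord K x) {y : 𝕂} (hy : d.v (d.θ y) ≤ 1) :
    ∃ s p : K[X], s.eval a ≠ 0 ∧ aeval x s * y = aeval x p := by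
  by_cases hy0 : y = 0
  · exact ⟨1, 0, by simp, by simp [hy0]⟩
  obtain ⟨f, g, hg, hfg⟩ := h.gen y
  have hgx : aeval x g ≠ 0 := by
    rw [ne_eq, map_eq_zero_iff _ (aeval_injective h)]; exact hg
  have hf : f ≠ 0 := by
    rintro rfl
    rw [map_zero] at hfg
    exact (mul_ne_zero hy0 hgx) hfg
  obtain ⟨f₁, hf1, hf2⟩ := Polynomial.exists_eq_pow_rootMultiplicity_mul_and_not_dvd f hf a
  obtain ⟨g₁, hg1, hg2⟩ := Polynomial.exists_eq_pow_rootMultiplicity_mul_and_not_dvd g hg a
  rw [Polynomial.dvd_iff_isRoot, IsRoot.def] at hf2 hg2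
  set m := f.rootMultiplicity a
  set n := g.rootMultiplicity a
  have hX : aeval x (X - C a) = x - algebraMap K 𝕂 a := by simp
  have h1 : y * ((x - algebraMap K 𝕂 a) ^ n * aeval x g₁) =
      (x - algebraMap K 𝕂 a) ^ m * aeval x f₁ := by
    rw [hg1, hf1, map_mul, map_mul, map_pow, map_pow, hX] at hfg
    exact hfg
  have hnm : n ≤ m := by
    by_contra hlt
    push Not at hlt
    have h2 := congrArg (fun t => d.v (d.θ t)) h1
    simp only [map_mul, map_pow] at h2
    rw [d.pol_unit hg2, d.pol_unit hf2, mul_one, mul_one, d.unif] at h2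
    have h3 : d.v (d.θ y) * WithZero.exp (-(d.e : ℤ)) ^ n ≤ WithZero.exp (-(d.e : ℤ)) ^ n :=
      mul_le_of_le_one_left zero_le hy
    rw [h2, ← WithZero.exp_nsmul, ← WithZero.exp_nsmul, WithZero.exp_le_exp] at h3
    have he := d.e_pos
    simp only [nsmul_eq_mul] at h3
    nlinarith
  refine ⟨g₁, (X - C a) ^ (m - n) * f₁, hg2, ?_⟩
  have h3 : (x - algebraMap K 𝕂 a) ^ n ≠ 0 := pow_ne_zero _ d.sub_ne
  apply mul_left_cancel₀ h3
  rw [map_mul, map_pow, hX, ← mul_assoc ((x - algebraMap K 𝕂 a) ^ n) _ (aeval x f₁), ← pow_add,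
    Nat.add_sub_cancel' hnm, ← h1]
  ring

variable [Fintype ι] [CharZero K] [FiniteDimensional 𝕂 E]

theorem exists_OK (h : RatCoord K x) (hcard : Fintype.card ι = Module.finrank 𝕂 E) {y : E}
    (hy : ∀ i, d.v (d.φ i y) ≤ 1) :
    ∃ s : K[X], s.eval a ≠ 0 ∧ polE K x E s * y ∈ OK K x E := by
  haveI : CharZero 𝕂 := charZero_of_injective_algebraMap (algebraMap K 𝕂).injective
  have h1 := emb_minpoly_coeff d.θ d.φ d.inj d.ext hcard d.v hy
  choose s p hs hsp using fun k => d.exists_local h (h1 k)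
  set μ := minpoly 𝕂 y with hμ
  have hint : IsIntegral 𝕂 y := Algebra.IsIntegral.isIntegral y
  have hmon : μ.Monic := minpoly.monic hint
  let t : K[X] := ∏ k ∈ Finset.range μ.natDegree, s k
  have ht : t.eval a ≠ 0 := by
    rw [eval_prod, Finset.prod_ne_zero_iff]
    exact fun k _ => hs k
  refine ⟨t, ht, ?_⟩
  have hcoef : ∀ k < μ.natDegree, ∃ q : K[X], aeval x t * μ.coeff k = aeval x q := by
    intro k hk
    refine ⟨(∏ j ∈ (Finset.range μ.natDegree).erase k, s j) * p k, ?_⟩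
    rw [map_mul (aeval x), ← hsp, ← mul_assoc, ← map_mul (aeval x),
      Finset.prod_erase_mul _ _ (Finset.mem_range.mpr hk)]
  have hl : Polynomial.scaleRoots μ (aeval x t) ∈ Polynomial.lifts (polK K x) := by
    rw [Polynomial.lifts_iff_coeff_lifts]
    intro k
    rw [Polynomial.coeff_scaleRoots]
    rcases lt_trichotomy k μ.natDegree with hk | hk | hk
    · obtain ⟨q, hq⟩ := hcoef k hk
      refine ⟨q * t ^ (μ.natDegree - k - 1), ?_⟩
      show aeval x (q * t ^ (μ.natDegree - k - 1)) = _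
      rw [map_mul (aeval x), map_pow (aeval x), ← hq]
      obtain ⟨j, hj⟩ := Nat.exists_eq_add_of_lt hk
      rw [hj, show k + j + 1 - k - 1 = j by omega, show k + j + 1 - k = j + 1 by omega]
      ring
    · refine ⟨1, ?_⟩
      subst hk
      rw [Nat.sub_self, pow_zero, mul_one, hmon.coeff_natDegree, map_one]
    · refine ⟨0, ?_⟩
      rw [Polynomial.coeff_eq_zero_of_natDegree_lt hk, zero_mul, map_zero]
  have hmon' : (Polynomial.scaleRoots μ (aeval x t)).Monic :=
    (Polynomial.monic_scaleRoots_iff _).mpr hmon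
  obtain ⟨P, hP, -, hPm⟩ := Polynomial.lifts_and_degree_eq_and_monic hl hmon'
  refine ⟨P, hPm, ?_⟩
  have h3 := Polynomial.scaleRoots_aeval_eq_zero (p := μ) (a := y) (r := aeval x t)
    (minpoly.aeval 𝕂 y)
  rw [← hP, aeval_def, eval₂_map] at h3
  exact h3

/-- trace duality at `a` -/
theorem duality (hcard : Fintype.card ι = Module.finrank 𝕂 E) {z : E}
    (hz : ∀ y : E, (∀ i, d.v (d.φ i y) < 1) → d.v (d.θ (Algebra.trace 𝕂 E (z * y))) < 1) :
    ∀ i, d.v (d.φ i z) ≤ 1 := by
  haveI : CharZero 𝕂 := charZero_of_injective_algebraMap (algebraMap K 𝕂).injective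
  by_contra hcon
  push Not at hcon
  obtain ⟨i₁, hi₁⟩ := hcon
  obtain ⟨i₀, -, hmax⟩ := Finset.exists_max_image Finset.univ (fun i => d.v (d.φ i z))
    ⟨i₁, Finset.mem_univ _⟩
  have hi₀ : 1 < d.v (d.φ i₀ z) := hi₁.trans_le (hmax i₁ (Finset.mem_univ _))
  obtain ⟨m, hm⟩ : ∃ m : ℤ, d.v (d.φ i₀ z) = WithZero.exp m :=
    ⟨WithZero.log (d.v (d.φ i₀ z)), (WithZero.exp_log (zero_lt_one.trans hi₀).ne').symm⟩
  have hm0 : 0 < m := by
    rw [hm, ← WithZero.exp_zero, WithZero.exp_lt_exp] at hi₀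
    exact hi₀
  lift m to ℕ using hm0.le
  have hm0' : 0 < m := by exact_mod_cast hm0
  obtain ⟨e', he'⟩ : ∃ e', d.e = e' + 1 := ⟨d.e - 1, by have := d.e_pos; omega⟩
  let w : E := z ^ e' * algebraMap 𝕂 E ((x - algebraMap K 𝕂 a) ^ m)
  have hxm : ∀ i, d.v (d.φ i (algebraMap 𝕂 E ((x - algebraMap K 𝕂 a) ^ m))) =
      WithZero.exp (-((d.e * m : ℕ) : ℤ)) := by
    intro i
    rw [d.ext, map_pow, map_pow, d.unif, ← WithZero.exp_nsmul]
    congr 1
    push_cast
    simp only [nsmul_eq_mul]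
    ring
  have hle : ∀ i, d.v (d.φ i z) ≤ WithZero.exp (m : ℤ) := fun i =>
    (hmax i (Finset.mem_univ _)).trans_eq hm
  have hw : ∀ i, d.v (d.φ i w) < 1 := by
    intro i
    show d.v (d.φ i (z ^ e' * _)) < 1
    rw [map_mul, map_mul, hxm, map_pow, map_pow]
    calc d.v (d.φ i z) ^ e' * WithZero.exp (-((d.e * m : ℕ) : ℤ))
        ≤ WithZero.exp (m : ℤ) ^ e' * WithZero.exp (-((d.e * m : ℕ) : ℤ)) :=
          mul_le_mul_left (pow_le_pow_left₀ zero_le (hle i) _) _
      _ = WithZero.exp (-(m : ℤ)) := by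
          rw [← WithZero.exp_nsmul, ← WithZero.exp_add, he']
          congr 1
          push_cast
          simp only [nsmul_eq_mul]
          ring
      _ < 1 := by
          rw [← WithZero.exp_zero, WithZero.exp_lt_exp]
          omega
  let u : E := z * w
  have hu : ∀ i, d.v (d.φ i u) ≤ 1 := by
    intro i
    show d.v (d.φ i (z * (z ^ e' * _))) ≤ 1
    rw [← mul_assoc, ← pow_succ', ← he', map_mul, map_mul, hxm, map_pow, map_pow]
    calc d.v (d.φ i z) ^ d.e * WithZero.exp (-((d.e * m : ℕ) : ℤ))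
        ≤ WithZero.exp (m : ℤ) ^ d.e * WithZero.exp (-((d.e * m : ℕ) : ℤ)) :=
          mul_le_mul_left (pow_le_pow_left₀ zero_le (hle i) _) _
      _ = 1 := by
          rw [← WithZero.exp_nsmul, ← WithZero.exp_add, ← WithZero.exp_zero]
          congr 1
          push_cast
          simp only [nsmul_eq_mul]
          ring
  have hu₀ : d.v (d.φ i₀ u) = 1 := by
    show d.v (d.φ i₀ (z * (z ^ e' * _))) = 1
    rw [← mul_assoc, ← pow_succ', ← he', map_mul, map_mul, hxm, map_pow, map_pow, hm,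
      ← WithZero.exp_nsmul, ← WithZero.exp_add, ← WithZero.exp_zero]
    congr 1
    push_cast
    simp only [nsmul_eq_mul]
    ring
  have hsum : ∀ k : ℕ, d.v (∑ i, d.φ i u ^ (k + 1)) < 1 := by
    intro k
    have h1 := hz (w * u ^ k) (fun i => by
      rw [map_mul, map_mul, map_pow, map_pow]
      exact mul_lt_one_of_lt_of_le (hw i) (pow_le_one' (hu i) k))
    rw [emb_trace d.θ d.φ d.inj d.ext hcard] at h1
    have h2 : ∀ i, d.φ i (z * (w * u ^ k)) = d.φ i u ^ (k + 1) := by
      intro i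
      rw [← mul_assoc, ← map_pow, pow_succ']
    simpa only [h2] using h1
  -- residue field
  let O := d.v.valuationSubring
  have hres : ∀ (y : d.L) (hy : d.v y ≤ 1), IsLocalRing.residue O ⟨y, hy⟩ = 0 ↔ d.v y < 1 := by
    intro y hy
    rw [IsLocalRing.residue_eq_zero_iff, IsLocalRing.mem_maximalIdeal, mem_nonunits_iff]
    constructor
    · intro hn
      by_contra hlt
      have h1 : d.v y = 1 := le_antisymm hy (not_lt.mp hlt)
      have hy0 : y ≠ 0 := by
        rintro rfl
        rw [map_zero] at h1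
        exact zero_ne_one h1
      apply hn
      refine IsUnit.of_mul_eq_one (⟨y⁻¹, ?_⟩ : O) (Subtype.ext (mul_inv_cancel₀ hy0))
      show d.v y⁻¹ ≤ 1
      rw [map_inv₀, h1, inv_one]
    · intro hlt hun
      obtain ⟨y', hy'⟩ := hun.exists_right_inv
      have h1 : y * (y' : d.L) = 1 := congrArg Subtype.val hy'
      have h2 := congrArg d.v h1
      rw [map_mul, map_one] at h2
      exact (mul_lt_one_of_lt_of_le hlt y'.2).ne h2
  let χ : ι → IsLocalRing.ResidueField O := fun i => IsLocalRing.residue O ⟨d.φ i u, hu i⟩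
  haveI : CharZero (IsLocalRing.ResidueField O) := by
    refine charZero_of_inj_zero fun n hn => ?_
    by_contra hn0
    have h2 : d.v (n : d.L) = 1 := by
      have := d.const (n : K) (by exact_mod_cast hn0)
      simpa using this
    have h1 : (n : IsLocalRing.ResidueField O) = IsLocalRing.residue O ⟨(n : d.L), h2.le⟩ := by
      rw [← map_natCast (IsLocalRing.residue O) n]
      congr 1
    rw [h1, hres, h2] at hn
    exact lt_irrefl _ hn
  have hχ : ∀ k : ℕ, ∑ i, χ i ^ (k + 1) = 0 := by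
    intro k
    have h1 : d.v (∑ i, d.φ i u ^ (k + 1)) ≤ 1 := (hsum k).le
    have h3 : (∑ i, (⟨d.φ i u, hu i⟩ : O) ^ (k + 1)) = ⟨∑ i, d.φ i u ^ (k + 1), h1⟩ := by
      apply Subtype.ext
      rw [AddSubmonoidClass.coe_finset_sum]
      rfl
    have h2 : ∑ i, χ i ^ (k + 1) = IsLocalRing.residue O ⟨∑ i, d.φ i u ^ (k + 1), h1⟩ := by
      rw [← h3, map_sum]
      rfl
    rw [h2, hres]
    exact hsum k
  have h0 := eq_zero_of_power_sums χ hχ i₀
  rw [hres, hu₀] at h0
  exact lt_irrefl _ h0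

end LocData

end Loc

end

end Fermat.Agent.H27
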