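import Fermat.Agent.H27.LaurTools
import Fermat.Agent.H27.LocEmb
import Fermat.Agent.H18_ModDeg
import Fermat.Agent.Descent.PlaceExpand

set_option autoImplicit false

open Polynomial

namespace Fermat.Agent.H27

noncomputable section

section mk

variable {K : Type} [Field K] [CharZero K] {𝕂 : Type*} [Field 𝕂] [Algebra K 𝕂]
  {E : Type*} [Field E] [Algebra 𝕂 E] [FiniteDimensional 𝕂 E] {ι : Type} [Fintype ι]

/-- local data from a homomorphism to `K((s))` whose extensions to `E` all land in `K((s))` -/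
theorem locData_mk (x : 𝕂) (a : K) (hι : Fintype.card ι = Module.finrank 𝕂 E)
    (θ : 𝕂 →+* LaurentSeries K)
    (hθ : ∀ c : K, θ (algebraMap K 𝕂 c) = algebraMap K (LaurentSeries K) c)
    {e : ℕ} (he : 0 < e) (h0 : θ (x - algebraMap K 𝕂 a) ≠ 0)
    (hord : (θ (x - algebraMap K 𝕂 a)).order = e)
    (hs : ∀ σ : E →+* AlgebraicClosure (LaurentSeries K),
      (∀ z, σ (algebraMap 𝕂 E z) = algebraMap (LaurentSeries K) _ (θ z)) →
      ∀ z, ∃ w : LaurentSeries K, σ z = algebraMap (LaurentSeries K) _ w) :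
    ∃ d : LocData x a E ι, d.e = e := by
  classical
  haveI : CharZero 𝕂 := charZero_of_injective_algebraMap (algebraMap K 𝕂).injective
  letI : Algebra 𝕂 (AlgebraicClosure (LaurentSeries K)) :=
    ((algebraMap (LaurentSeries K) (AlgebraicClosure (LaurentSeries K))).comp θ).toAlgebra
  have hcard : Fintype.card (E →ₐ[𝕂] AlgebraicClosure (LaurentSeries K)) =
      Module.finrank 𝕂 E := AlgHom.card 𝕂 E _
  have hinj : Function.Injective
      (algebraMap (LaurentSeries K) (AlgebraicClosure (LaurentSeries K))) :=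
    (algebraMap (LaurentSeries K) (AlgebraicClosure (LaurentSeries K))).injective
  have hs' : ∀ σ : E →ₐ[𝕂] AlgebraicClosure (LaurentSeries K), ∃ ψ : E →+* LaurentSeries K,
      ∀ z, σ z = algebraMap (LaurentSeries K) _ (ψ z) := by
    intro σ
    have h1 := hs (σ : E →+* _) (fun z => σ.commutes z)
    choose f hf using h1
    have hf' : ∀ z, σ z = algebraMap (LaurentSeries K) _ (f z) := hf
    refine ⟨{ toFun := f, map_one' := ?_, map_mul' := ?_, map_zero' := ?_, map_add' := ?_ }, hf'⟩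
    · apply hinj; rw [← hf', map_one, map_one]
    · intro u v; apply hinj; rw [← hf', map_mul, map_mul, hf', hf']
    · apply hinj; rw [← hf', map_zero, map_zero]
    · intro u v; apply hinj; rw [← hf', map_add, map_add, hf', hf']
  choose ψ hψ using hs'
  obtain ⟨ε⟩ : Nonempty (ι ≃ (E →ₐ[𝕂] AlgebraicClosure (LaurentSeries K))) :=
    Fintype.card_eq.mp (hι.trans hcard.symm)
  refine ⟨{ L := LaurentSeries K, v := lv K, θ := θ, φ := fun i => ψ (ε i), inj := ?_, ext := ?_,
            const := ?_, e := e, e_pos := he, unif := ?_ }, rfl⟩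
  · intro i j hij
    have hij' : ψ (ε i) = ψ (ε j) := hij
    apply ε.injective
    ext z
    rw [hψ, hψ, hij']
  · intro i y
    apply hinj
    rw [← hψ, AlgHom.commutes]
    rfl
  · intro c hc
    rw [hθ, lv_const hc]
  · rw [lv_apply h0, hord]

end mk

section modular

open Fermat.Agent.H18 AlgebraicCurve
open ModularCurve (coeffMap qExpand jqModC coeffEmb jq laurentBaseChange modularFunctionFieldFull)

variable {K : Type} [Field K] [Algebra K ℂ] [IsAlgClosed K] {M : ℕ} [NeZero M]

open Classical in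
/-- the ramification index of the modular cover over the point `c` of the `j`-line -/
def gInd (c : K) : ℕ := if c = 0 then 3 else if c = 1728 then 2 else 1

theorem gInd_pos (c : K) : 0 < gInd c := by
  unfold gInd; split_ifs <;> norm_num

theorem exists_pt (c : K) : ∃ τ : UpperHalfPlane, jfun τ = algebraMap K ℂ c ∧
    H01.ordAt τ (jfun - fun _ => algebraMap K ℂ c) = gInd c := by
  obtain ⟨τ, hτ⟩ := jfun_surjective (algebraMap K ℂ c)
  by_cases h0 : c = 0
  · refine ⟨rhoPt, by rw [jfun_rhoPt, h0, map_zero], ?_⟩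
    have := ordAt_jfun_of_E4 E4_rhoPt
    rw [gInd, if_pos h0, h0, map_zero]
    exact this
  by_cases h1 : c = 1728
  · refine ⟨UpperHalfPlane.I, by rw [jfun_I, h1, map_ofNat], ?_⟩
    rw [gInd, if_neg h0, if_pos h1, h1, map_ofNat]
    exact ordAt_jfun_sub_of_E6 E6_I
  · refine ⟨τ, hτ, ?_⟩
    rw [gInd, if_neg h0, if_neg h1]
    refine ordAt_jfun_sub_of_ne hτ ?_ ?_
    · rw [ne_eq, map_eq_zero]; exact h0
    · intro h
      apply h1
      apply (algebraMap K ℂ).injective
      rw [h, map_ofNat]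

variable (M) in
/-- expansions of the Galois closure at points over `c` -/
theorem exists_mu (c : K) : ∃ μ : ModField K M →+* LaurentSeries K,
    (∀ c : K, μ (algebraMap K _ c) = algebraMap K (LaurentSeries K) c) ∧ ∃ g : ℕ, 0 < g ∧
      g ∣ gInd c ∧ μ (jM K M - algebraMap K _ c) ≠ 0 ∧
      (μ (jM K M - algebraMap K _ c)).order = g := by
  obtain ⟨τ, hτ, hord⟩ := exists_pt c
  have : CharZero K := (algebraMap K ℂ).charZero
  have : Algebra.IsSeparable (RatFunc K) (ModField K M) := IsGalois.to_isSeparable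
  obtain ⟨μ, hμ, hμo⟩ := H26.exists_place_expansion (ptPlace (N := M) hτ) (deg_eq_one _)
  have h1 := (ptOrd M hτ).g_eq_idx_mul_ord (jM_sub_ne_zero (N := M) c)
  rw [g_ptOrd, hord] at h1
  change _ = _ * (ptPlace (N := M) hτ).ord _ at h1
  have h2 := (ptOrd M hτ).idx_pos
  have h3 : 0 < (ptPlace (N := M) hτ).ord (jM K M - algebraMap K _ c) := by
    have h4 : (0 : ℤ) < (ptOrd M hτ).idx * (ptPlace (N := M) hτ).ord
      (jM K M - algebraMap K _ c) := by
      rw [← h1]; exact_mod_cast gInd_pos c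
    exact (mul_pos_iff_of_pos_left (by exact_mod_cast h2)).mp h4
  obtain ⟨g, hg⟩ := Int.eq_ofNat_of_zero_le h3.le
  refine ⟨μ, hμ, g, ?_, ?_, ?_, ?_⟩
  · rw [hg] at h3; exact_mod_cast h3
  · rw [hg] at h1
    exact ⟨_, by rw [mul_comm]; exact_mod_cast h1⟩
  · rw [ne_eq, map_eq_zero]; exact jM_sub_ne_zero c
  · rw [hμo _ (jM_sub_ne_zero c), hg]

variable (K M) in
/-- expansion of the Galois closure at a cusp -/
theorem exists_mu_inf : ∃ μ : ModField K M →+* LaurentSeries K,
    (∀ c : K, μ (algebraMap K _ c) = algebraMap K (LaurentSeries K) c) ∧ ∃ g : ℕ, 0 < g ∧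
      μ (jM K M)⁻¹ ≠ 0 ∧ (μ (jM K M)⁻¹).order = g := by
  have : CharZero K := (algebraMap K ℂ).charZero
  have : Algebra.IsSeparable (RatFunc K) (ModField K M) := IsGalois.to_isSeparable
  obtain ⟨μ, hμ, hμo⟩ := H26.exists_place_expansion (infPl K M) (deg_eq_one _)
  have h1 := (infOrd K M).g_eq_idx_mul_ord (jM_ne_zero (K := K) (N := M))
  rw [g_infOrd_jM] at h1
  change _ = _ * (infPl K M).ord _ at h1
  have h2 := (infOrd K M).idx_pos
  have h4 := NeZero.pos M
  have hne := inv_ne_zero (jM_ne_zero (K := K) (N := M))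
  have h5 : (infPl K M).ord (jM K M)⁻¹ = -(infPl K M).ord (jM K M) := by
    have := (infPl K M).ord_inv (jM K M)
    exact this
  have h3 : 0 < (infPl K M).ord (jM K M)⁻¹ := by
    rw [h5]
    by_contra hneg
    push Not at hneg
    have : 0 ≤ ((infOrd K M).idx : ℤ) * (infPl K M).ord (jM K M) :=
      mul_nonneg (by positivity) (by omega)
    omega
  obtain ⟨g, hg⟩ := Int.eq_ofNat_of_zero_le h3.le
  refine ⟨μ, hμ, g, ?_, ?_, ?_⟩
  · rw [hg] at h3; exact_mod_cast h3
  · rw [ne_eq, map_eq_zero]; exact hne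
  · rw [hμo _ hne, hg]

end modular

end

end Fermat.Agent.H27
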