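import Fermat.Agent.H27.LocMk

set_option autoImplicit false

open Polynomial

namespace Fermat.Agent.H27

noncomputable section

open Fermat.Agent.H18 AlgebraicCurve
open ModularCurve (coeffMap qExpand jqModC coeffEmb jq laurentBaseChange modularFunctionFieldFull)

section split

variable {K : Type} [Field K] [Algebra K ℂ] [IsAlgClosed K] [Algebra ℚ K] {M : ℕ} [NeZero M]

attribute [local instance] algFb algFM

/-- the conjugates of elements of `F_M` over `K(j)` lie in the Galois closure -/
theorem split_Fb {L R' : Type*} [Field L] [Field R'] (ι : L →+* R') (σ : Fb K M →+* R')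
    (θ₀ : ModField K M →+* L)
    (hc : ∀ c : K, σ (algebraMap K _ c) = ι (θ₀ (algebraMap K _ c)))
    (hj : σ (jB K M) = ι (θ₀ (jM K M))) (z : Fb K M) : ∃ w : L, σ z = ι w := by
  have hcomp : σ.comp (algebraMap (RatFunc K) (Fb K M)) =
      (ι.comp θ₀).comp (algebraMap (RatFunc K) (ModField K M)) := by
    apply IsLocalization.ringHom_ext (nonZeroDivisors K[X])
    apply Polynomial.ringHom_ext
    · intro c
      rw [RingHom.comp_apply, RingHom.comp_apply, RingHom.comp_apply, RingHom.comp_apply,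
        RatFunc.algebraMap_C, ← RatFunc.algebraMap_eq_C,
        ← IsScalarTower.algebraMap_apply K (RatFunc K) (ModField K M),
        ← IsScalarTower.algebraMap_apply K (RatFunc K) (Fb K M)]
      exact hc c
    · rw [RingHom.comp_apply, RingHom.comp_apply, RingHom.comp_apply, RingHom.comp_apply,
        RatFunc.algebraMap_X, algebraMap_X_modField, algebraMap_X_Fb]
      exact hj
  have hspl := (inferInstance : Normal (RatFunc K) (ModField K M)).splits (embF K M z)
  have hmon := minpoly.monic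
    ((inferInstance : Normal (RatFunc K) (ModField K M)).isIntegral (embF K M z))
  set P := minpoly (RatFunc K) (embF K M z) with hP
  have h1 : P.aeval z = 0 := by
    have h2 : P.aeval (algebraMap (Fb K M) (ModField K M) z) = 0 := minpoly.aeval _ _
    rw [aeval_algebraMap_apply] at h2
    exact (map_eq_zero_iff _ (algebraMap (Fb K M) (ModField K M)).injective).mp h2
  have h2 : P.eval₂ (σ.comp (algebraMap (RatFunc K) (Fb K M))) (σ z) = 0 := by
    rw [← hom_eval₂, ← aeval_def, h1, map_zero]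
  rw [hcomp, ← eval₂_map, (hspl.eq_prod_roots_of_monic (hmon.map _)),
    eval₂_multiset_prod, Multiset.map_map, Multiset.prod_eq_zero_iff] at h2
  obtain ⟨r, -, hr⟩ := Multiset.mem_map.mp h2
  simp only [Function.comp, eval₂_sub, eval₂_X, eval₂_C] at hr
  exact ⟨θ₀ r, sub_eq_zero.mp hr⟩

end split

section main

variable {K : Type} [Field K] [Algebra K ℂ] [IsAlgClosed K] [Algebra ℚ K] {M : ℕ} [NeZero M]
variable {𝕂 : Type*} [Field 𝕂] [Algebra K 𝕂]
  {E : Type*} [Field E] [Algebra 𝕂 E] [FiniteDimensional 𝕂 E] {ι : Type} [Fintype ι]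
  [Algebra K E] [IsScalarTower K 𝕂 E]

/-- `E` is generated over `𝕂` and `F_M` by elements splitting over `K((s))`. -/
def GenOK (i : Fb K M →ₐ[K] E) (𝕂 : Type*) [Field 𝕂] [Algebra 𝕂 E] : Prop :=
  ∀ (σ : E →+* AlgebraicClosure (LaurentSeries K)),
    (∀ c : K, σ (algebraMap K E c) =
      algebraMap (LaurentSeries K) _ (algebraMap K (LaurentSeries K) c)) →
    (∀ z : 𝕂, ∃ w : LaurentSeries K, σ (algebraMap 𝕂 E z) = algebraMap (LaurentSeries K) _ w) →
    (∀ z : Fb K M, ∃ w : LaurentSeries K, σ (i z) = algebraMap (LaurentSeries K) _ w) →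
    ∀ z : E, ∃ w : LaurentSeries K, σ z = algebraMap (LaurentSeries K) _ w

theorem exists_locData_aux (i : Fb K M →ₐ[K] E) (hgen : GenOK i 𝕂)
    (hι : Fintype.card ι = Module.finrank 𝕂 E)
    {y : 𝕂} (h : RatCoord K y) {J' : 𝕂} (j₀ : Fb K M) (jm : ModField K M)
    (hJ' : algebraMap 𝕂 E J' = i j₀)
    {U T G : K[X]} {a : K} {r k : ℕ} (hr : 0 < r) (hk : 0 < k)
    (hj : J' * aeval y T = aeval y U) (hU : U = (X - C a) ^ r * G) (hG : G.eval a ≠ 0)
    (hT : T.eval a ≠ 0)
    (μ : ModField K M →+* LaurentSeries K)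
    (hμ : ∀ c : K, μ (algebraMap K _ c) = algebraMap K (LaurentSeries K) c)
    {g m : ℕ} (hm : 0 < m) (hkr : k * r = g * m)
    (hμ0 : μ jm ≠ 0) (hμo : (μ jm).order = g)
    (hjj : ∀ (σ : Fb K M →+* AlgebraicClosure (LaurentSeries K))
      (μ' : ModField K M →+* LaurentSeries K),
      (∀ c : K, σ (algebraMap K _ c) = algebraMap (LaurentSeries K) _ (algebraMap K _ c)) →
      (∀ c : K, μ' (algebraMap K _ c) = algebraMap K (LaurentSeries K) c) →
      σ j₀ = algebraMap (LaurentSeries K) _ (μ' jm) →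
      σ (jB K M) = algebraMap (LaurentSeries K) _ (μ' (jM K M))) :
    ∃ d : LocData y a E ι, d.e = k := by
  have : CharZero K := (algebraMap K ℂ).charZero
  haveI : NeZero m := ⟨hm.ne'⟩
  have hw0 : qExpand K m (μ jm) ≠ 0 := by
    rw [ne_eq, map_eq_zero_iff _ (RingHom.injective _)]; exact hμ0
  obtain ⟨θ, hθc, hθ0, hθo, hθj⟩ := exists_theta h hr hk hj hU hG hT (qExpand K m (μ jm)) hw0
    (by rw [order_qExpand m hμ0, hμo, hkr]; push_cast; ring)
  refine locData_mk y a hι θ hθc hk hθ0 hθo ?_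
  intro σ hσ
  have hσc : ∀ c : K, σ (algebraMap K E c) =
      algebraMap (LaurentSeries K) _ (algebraMap K (LaurentSeries K) c) := by
    intro c
    rw [IsScalarTower.algebraMap_apply K 𝕂 E, hσ, hθc]
  refine hgen σ hσc (fun z => ⟨_, hσ z⟩) ?_
  have hci : ∀ c : K, (σ.comp (i : Fb K M →+* E)) (algebraMap K _ c) =
      algebraMap (LaurentSeries K) _ (algebraMap K _ c) := by
    intro c
    rw [RingHom.comp_apply]
    erw [i.commutes]
    exact hσc c
  have hμ' : ∀ c : K, ((qExpand K m).comp μ) (algebraMap K _ c) =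
      algebraMap K (LaurentSeries K) c := by
    intro c
    rw [RingHom.comp_apply, hμ, qExpand_algebraMap]
  refine split_Fb (algebraMap (LaurentSeries K) _) (σ.comp (i : Fb K M →+* E))
    ((qExpand K m).comp μ) ?_ ?_
  · intro c
    rw [hci, hμ']
  · refine hjj _ _ hci hμ' ?_
    rw [RingHom.comp_apply]
    change σ (i j₀) = _
    rw [← hJ', hσ, hθj]
    rfl

/-- **Local data for the modular cover in a general coordinate.** -/
theorem exists_locData (i : Fb K M →ₐ[K] E) (hgen : GenOK i 𝕂)
    (hι : Fintype.card ι = Module.finrank 𝕂 E)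
    {y : 𝕂} (h : RatCoord K y) {J : 𝕂} (hJ : algebraMap 𝕂 E J = i (jB K M))
    {U T : K[X]} (hUT : IsCoprime U T) (hj : J * aeval y T = aeval y U) (a : K) :
    ∃ d : LocData y a E ι, ∀ c : K, T.eval a ≠ 0 → U.eval a = c * T.eval a →
      gInd c ∣ (U - C c * T).rootMultiplicity a → d.e = 1 := by
  have : CharZero K := (algebraMap K ℂ).charZero
  -- `J` is transcendental
  have hJtr : ∀ c : K, J ≠ algebraMap K 𝕂 c := by
    intro c hc
    have h1 : i (jB K M) = i (algebraMap K _ c) := by
      rw [← hJ, hc, ← IsScalarTower.algebraMap_apply, AlgHom.commutes]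
    have h2 := i.injective h1
    exact transcendental_jB (K := K) (N := M) (h2 ▸ isAlgebraic_algebraMap c)
  have hUcT : ∀ c : K, U - C c * T ≠ 0 := by
    intro c hc
    have h1 : U = C c * T := sub_eq_zero.mp hc
    have hT0 : T ≠ 0 := by
      rintro rfl
      rw [h1, mul_zero] at hUT
      exact not_isCoprime_zero_zero hUT
    rw [h1, map_mul, aeval_C] at hj
    have hTy : aeval y T ≠ 0 := fun h0 => hT0 ((transcendental_iff.mp h.trans) T h0)
    exact hJtr c (mul_right_cancel₀ hTy hj)
  have hJ0 : J ≠ 0 := by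
    have := hJtr 0
    rwa [map_zero] at this
  by_cases hTa : T.eval a = 0
  · -- cusp
    have hUa : U.eval a ≠ 0 := by
      intro h0
      obtain ⟨s, t, hst⟩ := hUT
      have := congrArg (eval a) hst
      simp [h0, hTa] at this
    have hT0 : T ≠ 0 := by
      rintro rfl
      have h1 : aeval y U = 0 := by rw [← hj, map_zero, mul_zero]
      have h2 := (transcendental_iff.mp h.trans) U h1
      rw [h2] at hUa
      simp at hUa
    obtain ⟨G, hG, hGa⟩ := exists_eq_pow_rootMultiplicity_mul_and_not_dvd T hT0 a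
    have hr : 0 < T.rootMultiplicity a := (rootMultiplicity_pos hT0).mpr hTa
    obtain ⟨μ, hμ, g, hg, hμ0, hμo⟩ := exists_mu_inf K M
    obtain ⟨d, -⟩ := exists_locData_aux (ι := ι) i hgen hι h (J' := J⁻¹) (jB K M)⁻¹ (jM K M)⁻¹
      (by rw [map_inv₀, map_inv₀, hJ]) (U := T) (T := U) (G := G) (a := a)
      (r := T.rootMultiplicity a) (k := g) hr hg
      (by rw [← hj, inv_mul_cancel_left₀ hJ0]) hG
      (fun h0 => hGa (dvd_iff_isRoot.mpr h0)) hUa μ hμ hr rfl hμ0 hμo
      (fun σ μ' _ _ h1 => by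
        rw [map_inv₀, map_inv₀, map_inv₀] at h1
        exact inv_injective h1)
    exact ⟨d, fun c hT' => absurd hTa hT'⟩
  · -- a finite point
    set c := U.eval a / T.eval a with hcdef
    have hUc : U.eval a = c * T.eval a := by rw [hcdef, div_mul_cancel₀ _ hTa]
    have hne := hUcT c
    have hroot : (U - C c * T).eval a = 0 := by simp [hUc]
    obtain ⟨G, hG, hGa⟩ := exists_eq_pow_rootMultiplicity_mul_and_not_dvd _ hne a
    have hr : 0 < (U - C c * T).rootMultiplicity a := (rootMultiplicity_pos hne).mpr hroot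
    obtain ⟨μ, hμ, g, hg, hgd, hμ0, hμo⟩ := exists_mu M c
    have hj' : (J - algebraMap K 𝕂 c) * aeval y T = aeval y (U - C c * T) := by
      rw [map_sub, map_mul, aeval_C, ← hj]; ring
    have hjj : ∀ (σ : Fb K M →+* AlgebraicClosure (LaurentSeries K))
      (μ' : ModField K M →+* LaurentSeries K),
      (∀ c : K, σ (algebraMap K _ c) = algebraMap (LaurentSeries K) _ (algebraMap K _ c)) →
      (∀ c : K, μ' (algebraMap K _ c) = algebraMap K (LaurentSeries K) c) →
      σ (jB K M - algebraMap K _ c) =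
        algebraMap (LaurentSeries K) _ (μ' (jM K M - algebraMap K _ c)) →
      σ (jB K M) = algebraMap (LaurentSeries K) _ (μ' (jM K M)) := by
      intro σ μ' h1 h2 h3
      rw [map_sub, map_sub, map_sub, h1, h2] at h3
      exact sub_left_injective h3
    have hJi : algebraMap 𝕂 E (J - algebraMap K 𝕂 c) = i (jB K M - algebraMap K _ c) := by
      rw [map_sub, map_sub, hJ, ← IsScalarTower.algebraMap_apply, AlgHom.commutes]
    have huniq : ∀ c' : K, U.eval a = c' * T.eval a → c' = c := fun c' hc' =>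
      mul_right_cancel₀ hTa (hc'.symm.trans hUc)
    by_cases hdvd : gInd c ∣ (U - C c * T).rootMultiplicity a
    · obtain ⟨m, hm⟩ := hgd.trans hdvd
      obtain ⟨d, hd⟩ := exists_locData_aux (ι := ι) i hgen hι h (J' := J - algebraMap K 𝕂 c)
        (jB K M - algebraMap K _ c) (jM K M - algebraMap K _ c) hJi (k := 1) hr one_pos hj' hG
        (fun h0 => hGa (dvd_iff_isRoot.mpr h0)) hTa μ hμ (g := g) (m := m)
        (Nat.pos_of_ne_zero (by rintro rfl; omega)) (by rw [one_mul]; exact hm) hμ0 hμo hjj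
      exact ⟨d, fun _ _ _ _ => hd⟩
    · obtain ⟨d, -⟩ := exists_locData_aux (ι := ι) i hgen hι h (J' := J - algebraMap K 𝕂 c)
        (jB K M - algebraMap K _ c) (jM K M - algebraMap K _ c) hJi (k := g) hr hg hj' hG
        (fun h0 => hGa (dvd_iff_isRoot.mpr h0)) hTa μ hμ hr rfl hμ0 hμo hjj
      refine ⟨d, fun c' _ hc' hd' => ?_⟩
      rw [huniq c' hc'] at hd'
      exact absurd hd' hdvd

/-- trivial generation -/
theorem GenOK.of_surjective {i : Fb K M →ₐ[K] E} (hi : Function.Surjective i) : GenOK i 𝕂 := by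
  intro σ _ _ h z
  obtain ⟨w, rfl⟩ := hi z
  exact h w

end main

end

end Fermat.Agent.H27
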