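import Fermat.Agent.H27.Ufree
import Fermat.Agent.Igusa.Orders

set_option autoImplicit false

open Polynomial ModularCurve

namespace Fermat.Agent.H27

open Fermat.Agent.Igusa

noncomputable section

theorem ev1_eq_evZ {R : Type*} [CommRing R] (y : R) : ev1 y = evZ y := rfl

variable (p : ℕ) [hp : Fact p.Prime]

/-- `k[X] → k((q))`, `X ↦ j(q^p)` -/
def psiP (k : Type*) [Field k] : k[X] →+* LaurentSeries k := (qExpand k p).comp (evJ k)

theorem psiP_injective (k : Type*) [Field k] : Function.Injective (psiP p k) :=
  (qExpand_injective p).comp (evJ_injective k)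

theorem psiP_comp (k : Type*) [Field k] :
    (psiP p k).comp (mapRingHom (Int.castRingHom k)) = evZ (qExpand k p (jqModC k)) := by
  ext1
  · exact Subsingleton.elim _ _
  · simp [psiP]

theorem order_const {k : Type*} [Field k] (c : k) : (HahnSeries.C c : LaurentSeries k).order = 0 := by
  by_cases hc : c = 0
  · rw [hc, map_zero, HahnSeries.order_zero]
  · rw [HahnSeries.C_apply, HahnSeries.order_single hc]

omit hp in
theorem sep_of_map {k L : Type*} [Field k] [Field L] (f : k[X][X]) (ψ : k[X] →+* L)
    (hψ : Function.Injective ψ) (hsep : (f.map ψ).Separable) :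
    (f.map (algebraMap k[X] (RatFunc k))).Separable := by
  let Ψ : RatFunc k →+* L := IsFractionRing.lift hψ
  have hΨ : Ψ.comp (algebraMap k[X] (RatFunc k)) = ψ :=
    RingHom.ext fun g => IsFractionRing.lift_algebraMap hψ g
  have h1 : f.map ψ = (f.map (algebraMap k[X] (RatFunc k))).map Ψ := by
    rw [Polynomial.map_map, hΨ]
  rw [h1] at hsep
  exact (Polynomial.separable_map Ψ).mp hsep

theorem goodRel_modPoly (k : Type*) [Field k] [IsAlgClosed k] (hk : (p : k) ≠ 0) :
    GoodRel k (modPoly p) := by
  haveI : NeZero (p : k) := ⟨hk⟩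
  obtain ⟨ζ, hζ⟩ := HasEnoughRootsOfUnity.exists_primitiveRoot k p
  let u : kˣ := (hζ.isUnit hp.out.ne_zero).unit
  have hu : IsPrimitiveRoot u p := by
    rw [← IsPrimitiveRoot.coe_units_iff]; exact hζ
  have hmap : ((modPoly p).map (mapRingHom (Int.castRingHom k))).map (psiP p k) = rtPoly p u := by
    rw [Polynomial.map_map, psiP_comp, modPoly_map p hu]
  refine ⟨modPoly_monic p, fun c hc => ?_, exists_bez _ ?_⟩
  · have h1 : (rtPoly p u).eval (HahnSeries.C c) = 0 := by
      rw [← hmap, eval_map]
      have h2 : (HahnSeries.C c : LaurentSeries k) = psiP p k (C c) := by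
        simp [psiP]
      rw [h2, eval₂_at_apply, hc, map_zero]
    rw [rtPoly, eval_prod, Finset.prod_eq_zero_iff] at h1
    obtain ⟨i, -, hi⟩ := h1
    rw [eval_sub, eval_X, eval_C, sub_eq_zero] at hi
    have h3 := congrArg HahnSeries.order hi
    rw [order_const] at h3
    match i with
    | none =>
      rw [order_rt_none] at h3
      have := hp.out.pos
      nlinarith
    | some b =>
      rw [order_rt_some] at h3
      omega
  · refine sep_of_map _ (psiP p k) (psiP_injective p k) ?_
    rw [hmap, rtPoly]
    exact Polynomial.separable_prod_X_sub_C_iff.mpr (rt_injective p hu)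

end

end Fermat.Agent.H27
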