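import Mathlib
import Fermat.Agent.H27.ModeH1
import Fermat.Agent.H26.TowB
import Fermat.Agent.H26.WSide
import Fermat.Agent.H09.MH2
import Fermat.Agent.H22.ModeTp

/-!
# The hard case at `p` for a semistable curve: the core
-/

set_option autoImplicit false
set_option linter.style.haveILetI false
set_option linter.unusedSectionVars false

noncomputable section

namespace Fermat.Agent.H27.MH

open Fermat.Agent.TC Fermat.Agent.TW Fermat.Agent.CC Fermat.Agent.H25.GE Fermat.Agent.H25.TR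
open Fermat.Agent.Ell Fermat.Agent.H25 Fermat.Agent.H25.PR Fermat.Agent.H25.PT
open Fermat.Agent.H22 Fermat.Agent.H12.LL Fermat.Agent.H25.SB Fermat.Agent.H25.GD
open Fermat.Agent.TFin
open Fermat.Agent.H25.St (UQ StT OrdD)
open IsLocalRing CongruenceSubgroup Matrix

section frob

variable {W : WeierstrassCurve ℤ} {p : ℕ} [hp : Fact p.Prime]
  (hΔ : W.Δ ≠ 0) (hirr : W.ModRepIsIrreducible p) (hp2 : p ≠ 2)
  {O : Type} [CommRing O] [IsDomain O] [IsLocalRing O] [Algebra ℤ_[p] O]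
  [IsLocalHom (algebraMap ℤ_[p] O)]

/-- the residual trace is the reduction of the trace -/
theorem RDW_trace_tW (g : GQ) : ((RDW hΔ hirr hp2 O).rbar g).trace =
    (RDW hΔ hirr hp2 O).res (tW W p O g) := by
  rw [RD.trace_rbar]
  rfl

end frob

section

variable {W : WeierstrassCurve ℤ} {p : ℕ} [hp : Fact p.Prime]
  {hΔ : W.Δ ≠ 0} {hirr : W.ModRepIsIrreducible p} {hp2 : p ≠ 2}
  {O : Type} [CommRing O] [IsDomain O] [IsDiscreteValuationRing O]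
  [IsAdicComplete (maximalIdeal O) O] [Algebra ℤ_[p] O] [IsLocalHom (algebraMap ℤ_[p] O)]
  [Finite (ResidueField O)] [CharZero O] {I : FIn hΔ hirr hp2 O}
  {K : Type} [Field K] [Algebra O K] [IsAlgClosed K] [FaithfulSMul O K]

set_option maxHeartbeats 1000000 in
/-- **Mode H, the core.** -/
theorem modeH_core (hss : W.IsSemistableModel)
    (hpO : (p : O) ∈ maximalIdeal O) (hIS : I.S = bigS W p) (_hID : I.D₀ = p * W.Δ.natAbs)
    (hSel : ∀ n, SelM (RDW hΔ hirr hp2 O) p ⟨p, hp.out⟩ (bigS W p) (unrT W p) I.r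
      (fun j => ⟨(I.c n).q j, (I.c n).prime j⟩))
    {N : ℕ} (Tw : Tow I K N) (hpN : ¬ p ∣ N) (hsqN : Squarefree N) (hnew : NewP W p 2)
    (X' : CmpT (I.F K)) (hX' : X'.N = (Tw.X (Fin.last _)).N * p)
    {psi : GQ → ℤ} (ho : OrdD (RDW hΔ hirr hp2 O) (plv p hp.out) psi)
    {κ' : Type} [Finite κ'] (E : Extra (I.F K) κ') (w : κ')
    (hWst : ∀ n x, StT (plv p hp.out) (RDW hΔ hirr hp2 O).chi psi ((E.H n w).t x))
    (hWun : ∀ (n : ℕ) (q : Nat.Primes), q ∈ bigS W p → (q : ℕ) ≠ p → ∀ x,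
      ∀ τ ∈ (plv q q.2).inertiaSubgroupIn ℚ, (E.H n w).t x τ = 2)
    (hSO : ∀ (n : ℕ) (x : (X'.toCmp.cd 1 n).X), p ∣ X'.toCmp.lvl 1 n x →
      ¬ p * p ∣ X'.toCmp.lvl 1 n x →
      StT (plv p hp.out) (RDW hΔ hirr hp2 O).chi psi ((X'.toCmp.cd 1 n).t x))
    (hTP : ∀ (X : CmpT (I.F K)), ¬ p ∣ X.N → ∀ (u : Oˣ) (σ₀ : GQ),
      σ₀ ∈ (plv p hp.out).inertiaSubgroupIn ℚ → (u : O) = (RDW hΔ hirr hp2 O).chi σ₀ - 1 →
      ∀ n, URel X u (frv p hp.out) σ₀ n)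
    (xw : (E.H₀ w).B →ₐ[O] O)
    (hW : ∀ g, xw (((E.H₀ w).C (I.F K).hbar₀).t g) = tW W p O g) :
    ∃ y : (X'.toCmp.cd₀ 1).X, ∀ g,
      (X'.toCmp.cd₀ 1).t y g = algebraMap O _ (tW W p O g) := by
  classical
  haveI := charP_res p O
  obtain ⟨ϖ, hϖ0', hϖ'⟩ : ∃ ϖ : O, ϖ ≠ 0 ∧ maximalIdeal O = Ideal.span {ϖ} := by
    obtain ⟨ϖ, hϖ⟩ := (IsPrincipalIdealRing.principal (maximalIdeal O)).principal
    have hϖ' : maximalIdeal O = Ideal.span {ϖ} := hϖ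
    refine ⟨ϖ, ?_, hϖ'⟩
    rintro rfl
    rw [Ideal.span_singleton_eq_bot.mpr rfl] at hϖ'
    exact IsDiscreteValuationRing.not_isField O
      ((IsLocalRing.isField_iff_maximalIdeal_eq).mpr hϖ')
  -- primes
  have hp0 := hp.out
  have hpX : ∀ j, ¬ p ∣ (Tw.X j).N := fun j h => hpN ((Tw.pN j).mp h)
  have hne : ∀ t, p ≠ Tw.tv t := fun t h => Tw.tv_ne t h.symm
  have hFrD : FrD (RDW hΔ hirr hp2 O) p Tw.tv := RDW_FrD hΔ hirr hp2 _ hne Tw.tv_unr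
  have hD₀ : ∀ q : ℕ, q.Prime → (q : ℤ) ∣ W.Δ → q ∣ I.D₀ := I.hΔD₀
  have htvD : ∀ t, (Tw.tv t : ℕ) ∣ I.D₀ := fun t => hD₀ _ (Tw.tv t).2 (Tw.tv_dvd t)
  have hssΔ : ∀ q : ℕ, q.Prime → (q : ℤ) ∣ W.Δ → ¬ (q : ℤ) ∣ W.c₄ := fun q hq h => hss q hq h
  have hsqX' : Squarefree X'.N := by
    rw [hX', Nat.squarefree_mul_iff]
    refine ⟨((Nat.Prime.coprime_iff_not_dvd hp0).mpr (hpX _)).symm, Tw.sq _,
      hp0.prime.squarefree⟩
  have hsqd : ∀ {M : ℕ}, Squarefree M → ∀ q : ℕ, q.Prime → ¬ q * q ∣ M := fun hM q hq h =>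
    hq.not_isUnit (hM q h)
  -- the signs
  choose ε hε hεt using fun t : Fin Tw.m => tW_frob_mult (O := O) hΔ hirr (Tw.tv t).2
    (Tw.tv_ne t) (Tw.tv_dvd t) (hssΔ _ (Tw.tv t).2 (Tw.tv_dvd t)) (plv_over _ (Tw.tv t).2)
    (frv_spec _ (Tw.tv t).2)
  have hε2 : ∀ t, ε t ^ 2 = 1 := fun t => by
    rcases hε t with h | h <;> rw [h] <;> norm_num
  have htr : ∀ t, ((RDW hΔ hirr hp2 O).rbar (frv (Tw.tv t) (Tw.tv t).2)).trace =
      (RDW hΔ hirr hp2 O).res (ε t * (((Tw.tv t : ℕ) : O) + 1)) := fun t => by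
    rw [RDW_trace_tW, hεt]
  -- the steps
  have hstep : ∀ t : Fin Tw.m, Tw.j₀ ≤ t.castSucc →
      RStep (Tw.X t.castSucc) (Tw.X t.succ) (Tw.tv t) := fun t ht =>
    I.rstep (Tw.step t ht).1 (Tw.step t ht).2
  let pp : Nat.Primes := ⟨p, hp0⟩
  have hstepp : RStep (Tw.X (Fin.last Tw.m)) X' pp := I.rstep hX' (hpX _)
  -- inertia at `p`
  obtain ⟨σ₀, hσ₀, hσ₁⟩ := St.exists_inertia_ne (D := RDW hΔ hirr hp2 O) hp0 hp2
    (plv_over p hp0) (RDW_isCyc hΔ hirr hp2)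
  have hu : IsUnit ((RDW hΔ hirr hp2 O).chi σ₀ - 1) := by
    by_contra hcon
    have h1 : (RDW hΔ hirr hp2 O).chi σ₀ - 1 ∈ maximalIdeal O := (mem_maximalIdeal _).mpr hcon
    rw [← Sys.rdres_mem (D := RDW hΔ hirr hp2 O), map_sub, map_one, sub_eq_zero] at h1
    exact hσ₁ h1
  obtain ⟨u, hu'⟩ := hu
  have hφ : (plv p hp0).IsFrobeniusAt (frv p hp0) p := frv_spec p hp0
  obtain ⟨Q, Q', hB, -⟩ := ho.exists_BData ⟨σ₀, hσ₀, hσ₁⟩
  have hFS : ∀ n, (I.F K).S n = bigS W p ∪ Finset.univ.image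
      (fun j => (⟨((I.F K).c n).q j, ((I.F K).c n).prime j⟩ : Nat.Primes)) := fun n => by
    rw [← hIS]
    rfl
  have hbigD : ∀ q ∈ bigS W p, (q : ℕ) ∣ I.D₀ := fun q hq => by
    rcases (mem_bigS hΔ hp0).mp hq with h | h
    · rw [h]; exact I.hpD₀
    · exact hD₀ q q.2 h
  -- the operator at `p`
  have htp := fun n => exists_tp (X := xx Tw.X X') E (some : Fin (Tw.m + 1) → _)
    (Fin.last Tw.m) (i' := none) (pp := pp) rfl hstepp hϖ' hϖ0' ho hφ.mem_decompositionSubgroup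
    hσ₀ hu' n (hTP _ (hpX _) u σ₀ hσ₀ hu' n)
  choose hy tp e hTp hye using htp
  refine liftH E Tw.X X' hϖ' hϖ0' hFrD ε hε2 htr (fun n j => (I.hc n).le j) Tw.j₀ hstep
    (fun t ht => rin (hstep t ht) (Tw.tv_ne t)) htvD (fun t => hsqd (Tw.sq _) _ (Tw.tv t).2)
    (fun ℓ hℓ h => ?_) (fun n t ht x => ?_) (pp := pp) rfl hstepp tp _ e hy hTp hye ?_ w ?_ xw
    (tW W p O) hW (fun t => ?_) hεt
  · -- bad primes
    have h1 := (Nat.mem_primeFactors.mp h).2.1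
    rcases (Nat.Prime.dvd_mul hℓ).mp h1 with h2 | h2
    · exact h2
    · exact h2.trans I.hpD₀
  · -- the stuck prime
    obtain ⟨h1, h2⟩ := Tw.hst hnew hsqN t ht
    refine t_frob_of_sq ((Tw.X Tw.j₀).toCmp.cd 1 n) ((I.F K).hbar n) x (Tw.tv t).2 (hε2 t)
      (hin_sq hpO I.Ge (RDW_isCyc hΔ hirr hp2) (RDW_hc hΔ hirr hp2)
        ((Tw.X Tw.j₀).toCmp.hin 1 n) x (Tw.tv t).2 (Tw.tv_ne t) (h2 n x)
        (Tw.not_sq_dvd_lvl _ n x (Tw.tv t).2 (htvD t)) (plv_over _ (Tw.tv t).2)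
        (frv_spec _ (Tw.tv t).2)) (htr t) ?_
    intro h3
    rw [Sys.rdres_mem] at h3
    apply h1
    have h4 : ε t * (2 * (ε t * (((Tw.tv t : ℕ) : O) + 1))) ∈ maximalIdeal O :=
      Ideal.mul_mem_left _ _ h3
    have h5 : ε t * (2 * (ε t * (((Tw.tv t : ℕ) : O) + 1))) =
        ((2 * ((Tw.tv t : ℕ) + 1) : ℕ) : O) := by
      push_cast
      linear_combination (2 * (((Tw.tv t : ℕ) : O) + 1)) * hε2 t
    rw [h5, ← residue_eq_zero_iff, map_natCast] at h4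
    exact (CharP.cast_eq_zero_iff (ResidueField O) p _).mp h4
  · -- the flat tower
    intro n
    have h1 := H09.MH.selBQ_flat (X := xx Tw.X X') E (pp := pp)
      (some : Fin (Tw.m + 1) → _) rfl I.hpD₀ n (hFS n) (hSel n) (fun j => hpX j)
      (fun q hq hqT hqp => ⟨hbigD q hq, fun j => hsqd (Tw.sq j) q q.2⟩) hB hφ hσ₀
      (hu' ▸ u.isUnit) (u := ((u⁻¹ : Oˣ) : O)) (l := ((psi (frv p hp0) : ℤ) : O))
      (u⁻¹ : Oˣ).isUnit
    exact H09.MH.selBQ_reindex h1 Tw.e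
  · -- the cokernel
    intro hd' n
    have h1 := H09.MH.selB_YC (X := xx Tw.X X') E (i := some (Fin.last Tw.m)) (i' := none)
      (pp := pp) hstepp hϖ' hϖ0' hd' w hpO hp2 rfl I.hpD₀ ho n (hFS n) (hSel n)
      (fun x hx => hSO n x hx (X'.not_sq_dvd_lvl n x hp0 (hsqd hsqX' p hp0) I.hpD₀))
      (hWst n) (fun q hq hqT hqp => ⟨hbigD q hq, hsqd hsqX' q q.2⟩)
      (fun q hq hqT hqp => hWun n q hq fun h => hqp (Subtype.ext h))
    exact H09.MH.selB_reindex h1 Tw.e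
  · -- unipotent inertia for the curve
    exact tW_inertia hΔ hirr (Tw.tv t).2 (Tw.tv_ne t) (fun h => hssΔ _ (Tw.tv t).2 h)
      (plv_over _ (Tw.tv t).2) (tmv_spec p hp0 (Tw.tv t) (Tw.tv t).2).2.1

end

end Fermat.Agent.H27.MH
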