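import Mathlib
import Fermat.Agent.H27.ModeH2
import Fermat.Agent.H26.Tower

/-!
# The hard case at `p` for a semistable curve, from the two pointwise inputs at `p`
-/

set_option autoImplicit false
set_option linter.style.haveILetI false
set_option linter.unusedSectionVars false

noncomputable section

namespace Fermat.Agent.H27.MH

open Fermat.Agent.TC Fermat.Agent.TW Fermat.Agent.CC Fermat.Agent.H25.GE Fermat.Agent.H25.TR
open Fermat.Agent.Ell Fermat.Agent.H25 Fermat.Agent.H25.PR Fermat.Agent.H25.PT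
open Fermat.Agent.H22 Fermat.Agent.H12.LL Fermat.Agent.H25.SB Fermat.Agent.H25.GD
open Fermat.Agent.TFin
open Fermat.Agent.H25.St (UQ StT OrdD)
open IsLocalRing CongruenceSubgroup Matrix

section

variable {W : WeierstrassCurve ℤ} {p : ℕ} [hp : Fact p.Prime]

/-- The two pointwise inputs at `p`. -/
structure PIn (hΔ : W.Δ ≠ 0) (hirr : W.ModRepIsIrreducible p) (hp2 : p ≠ 2) : Prop where
  so : ∀ (O : Type) [CommRing O] [IsDomain O] [IsDiscreteValuationRing O]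
    [IsAdicComplete (maximalIdeal O) O] [Algebra ℤ_[p] O] [IsLocalHom (algebraMap ℤ_[p] O)]
    [Finite (ResidueField O)] [CharZero O] (I : FIn hΔ hirr hp2 O)
    (K : Type) [Field K] [Algebra O K] [IsAlgClosed K] [FaithfulSMul O K]
    (X' : CmpT (I.F K)) {psi : GQ → ℤ}
    (_ : OrdD (RDW hΔ hirr hp2 O) (plv p hp.out) psi)
    (n : ℕ) (x : (X'.toCmp.cd 1 n).X), p ∣ X'.toCmp.lvl 1 n x →
      ¬ p * p ∣ X'.toCmp.lvl 1 n x →
      StT (plv p hp.out) (RDW hΔ hirr hp2 O).chi psi ((X'.toCmp.cd 1 n).t x)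
  tp : ∀ (O : Type) [CommRing O] [IsDomain O] [IsDiscreteValuationRing O]
    [IsAdicComplete (maximalIdeal O) O] [Algebra ℤ_[p] O] [IsLocalHom (algebraMap ℤ_[p] O)]
    [Finite (ResidueField O)] [CharZero O] (I : FIn hΔ hirr hp2 O)
    (K : Type) [Field K] [Algebra O K] [IsAlgClosed K] [FaithfulSMul O K] {psi : GQ → ℤ}
    (_ : OrdD (RDW hΔ hirr hp2 O) (plv p hp.out) psi)
    (X : CmpT (I.F K)), ¬ p ∣ X.N → ∀ (u : Oˣ) (σ₀ : GQ),
      σ₀ ∈ (plv p hp.out).inertiaSubgroupIn ℚ → (u : O) = (RDW hΔ hirr hp2 O).chi σ₀ - 1 →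
      ∀ n, URel X u (frv p hp.out) σ₀ n

/-- **MODE H.** -/
theorem finOut_of_PIn (hΔ : W.Δ ≠ 0) (hss : W.IsSemistableModel) (hp2 : p ≠ 2)
    (hirr : W.ModRepIsIrreducible p) (P : PIn hΔ hirr hp2) {N : ℕ} (hN : MinLevel W p N)
    (hpΔ : (p : ℤ) ∣ W.Δ) (hS : ¬ ModeS W p) (hnew : NewP W p 2) (hGW : GWad p) (G : Geo p) :
    FinOut W := by
  classical
  have hp0 := hp.out
  obtain ⟨O, i1, i2, i3, i4, i5, i6, i7, i8, K, i9, i10, i11, i12, i13, hpO, I, hIS, hID, hSel⟩ :=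
    exists_setup hΔ hss hirr hp2 hGW G
  haveI := charP_res p O
  obtain ⟨Tw⟩ := MinLevel.exists_tow I K hpO hIS hID hN
  have hpN : ¬ p ∣ N := fun h => hS (hN.mode.mp h)
  have hSg : ∀ q : Nat.Primes, q ∉ I.S → (q : ℕ) ≠ p ∧ W.IsGoodPrimeFor q := by
    intro q hq
    rw [hIS, mem_bigS hΔ hp0, not_or] at hq
    exact hq
  -- the level divisible by `p`
  have hpX : ¬ p ∣ (Tw.X (Fin.last _)).N := fun h => hpN ((Tw.pN _).mp h)
  have hsq' : Squarefree ((Tw.X (Fin.last _)).N * p) := by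
    rw [Nat.squarefree_mul_iff]
    exact ⟨((Nat.Prime.coprime_iff_not_dvd hp0).mpr hpX).symm, Tw.sq _, hp0.prime.squarefree⟩
  have hdisc : ∀ q : ℕ, q.Prime → q ∣ (Tw.X (Fin.last _)).N * p → (q : ℤ) ∣ W.Δ := by
    intro q hq h
    rcases (Nat.Prime.dvd_mul hq).mp h with h | h
    · exact Tw.disc _ q hq h
    · rw [(Nat.prime_dvd_prime_iff_eq hq hp0).mp h]; exact hpΔ
  have hell : Ell p ((Tw.X (Fin.last _)).N * p) := by
    rcases hN.two with h | ⟨h, -⟩
    · by_cases hp3 : p = 3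
      · exact Fermat.Agent.H24R.ell_of_even ((h.trans (Tw.dvd _)).mul_right _)
      · exact Or.inl hp3
    · exact Or.inl h
  obtain ⟨X', hX'⟩ := I.exists_cmpT K hpO (N := (Tw.X (Fin.last _)).N * p) hsq'.ne_zero hell
    (by
      rw [hID]
      exact squarefree_dvd hsq' fun q hq h => (Int.natCast_dvd.mp (hdisc q hq h)).mul_left _)
    (H18R.isResiduallyModular_mono hΔ hirr (Tw.rm (Fin.last _)) (dvd_mul_right _ _) hsq'.ne_zero)
    (fun q hq => by
      rw [hIS, mem_bigS hΔ hp0]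
      rcases (Nat.Prime.dvd_mul q.2).mp hq with h | h
      · exact Or.inr (hdisc q q.2 h)
      · exact Or.inl ((Nat.prime_dvd_prime_iff_eq q.2 hp0).mp h))
  -- the local data at `p`
  obtain ⟨psi, -, hst, hord⟩ := exists_stT_tW (O := O) hΔ hirr hp2 hpΔ (hss p hp0 hpΔ)
    (plv_over p hp0)
  obtain ⟨y, hy⟩ := modeH_core hss hpO hIS hID hSel Tw hpN hN.sq hnew X' hX' hord
    (I.EW K hSg) () (fun n x => hst)
    (fun n q hq hqp x τ hτ => by
      have h := tW_inertia (O := O) hΔ hirr q.2 hqp (hss _ q.2) (plv_over _ q.2) hτ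
      exact h)
    (fun n x h1 h2 => P.so O I K X' hord n x h1 h2)
    (fun X hX u σ₀ hσ₀ hu n => P.tp O I K hord X hX u σ₀ hσ₀ hu n)
    (AlgHom.id O O) (fun g => ((I.EW K hSg).H₀ ()).ev_C (I.F K).hbar₀ g ())
  exact finOut_of_point I X' (by rw [hX']; exact hsq') y hy

end

end Fermat.Agent.H27.MH
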