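import Mathlib
import Fermat.Agent.H27.ModeH3
import Fermat.Agent.H25.NOrd

/-!
# The hard case at `p` for a semistable curve
-/

set_option autoImplicit false
set_option linter.style.haveILetI false
set_option linter.unusedSectionVars false

noncomputable section

namespace Fermat.Agent.H27.MH

open Fermat.Agent.TC Fermat.Agent.TW Fermat.Agent.CC Fermat.Agent.H25.GE Fermat.Agent.H25.TR
open Fermat.Agent.Ell Fermat.Agent.H25 Fermat.Agent.H25.PR Fermat.Agent.H25.PT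
open Fermat.Agent.H22 Fermat.Agent.H12.LL Fermat.Agent.H25.SB Fermat.Agent.H25.GD
open Fermat.Agent.TFin
open Fermat.Agent.H25.St (UQ StT OrdD)
open IsLocalRing CongruenceSubgroup Matrix
open ModularFormClass (qCoeff)

section Cmp

variable {O K : Type} [CommRing O] [IsDomain O] [IsDiscreteValuationRing O]
    [IsAdicComplete (maximalIdeal O) O] [Field K] [Algebra O K] {p r : ℕ}
    [Finite (ResidueField O)] [CharZero O] [hp : Fact p.Prime] [IsAlgClosed K] [FaithfulSMul O K]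
    {F : TWBase O K p r}

theorem aX_mul (X : CmpT F) {u : Oˣ} {φ σ₀ : GQ} (hu : (u : O) = F.D.chi σ₀ - 1) (n : ℕ) :
    algebraMap O (X.toCmp.cd 1 n).B (F.D.chi σ₀ - 1) * aX X u φ σ₀ n =
      algebraMap O (X.toCmp.cd 1 n).B (F.D.chi σ₀) * ((X.toCmp.cd 1 n).C (F.hbar n)).t φ -
        ((X.toCmp.cd 1 n).C (F.hbar n)).t (σ₀ * φ) := by
  rw [aX, aC, ← mul_assoc, ← map_mul, ← hu, Units.mul_inv, map_one, one_mul]
  rfl

variable [CharP (ResidueField O) p]

/-- the quadratic relation of the unit root elements -/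
theorem uRel (X : CmpT F) (hp2 : p ≠ 2) (hpX : ¬ p ∣ X.N) (hpD : p ∣ F.D₀) {psi : GQ → ℤ}
    (ho : OrdD F.D (plv p hp.out) psi) {u : Oˣ} {φ σ₀ : GQ}
    (hφ : (plv p hp.out).IsFrobeniusAt φ p)
    (hσ₀ : σ₀ ∈ (plv p hp.out).inertiaSubgroupIn ℚ) (hu : (u : O) = F.D.chi σ₀ - 1) (n : ℕ) :
    URel X u φ σ₀ n := by
  intro t z hz
  have hA : (plv p hp.out).LiesOverPrime p := plv_over p hp.out
  refine Fermat.Agent.H25.NO.relation_pt X.B.hpO F.Ge F.hchi F.hc (X.toCmp.hin 1 n) (F.hbar n) hp2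
    t (X.not_dvd_lvl n t hp.out hpX hpD) hA ho (St.exists_inertia_ne (O := O) hp.out hp2 hA F.hchi)
    hφ hσ₀ (hu ▸ u.isUnit) (α := aX X u φ σ₀ n) ?_ hz
  exact aX_mul X hu n

/-- strict ordinarity at the points of level exactly divisible by `p` -/
theorem soT (X : CmpT F) (hp2 : p ≠ 2) {psi : GQ → ℤ}
    (ho : OrdD F.D (plv p hp.out) psi) (n : ℕ) (x : (X.toCmp.cd 1 n).X)
    (h1 : p ∣ X.toCmp.lvl 1 n x) (h2 : ¬ p * p ∣ X.toCmp.lvl 1 n x) :
    StT (plv p hp.out) F.D.chi psi ((X.toCmp.cd 1 n).t x) := by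
  have hA : (plv p hp.out).LiesOverPrime p := plv_over p hp.out
  exact St.stT_pt X.B.hpO F.Ge F.hchi F.hc (X.toCmp.hin 1 n) (F.hbar n) hp2 x
    ⟨h1, fun h => h2 (by rwa [pow_two] at h)⟩ hA ho
    (St.exists_inertia_ne (O := O) hp.out hp2 hA F.hchi)

end Cmp

section

variable {W : WeierstrassCurve ℤ} {p : ℕ} [hp : Fact p.Prime]

/-- The pointwise inputs at `p`. -/
theorem pIn (hΔ : W.Δ ≠ 0) (hirr : W.ModRepIsIrreducible p) (hp2 : p ≠ 2) : PIn hΔ hirr hp2 where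
  so O _ _ _ _ _ _ _ _ I K _ _ _ _ X' psi ho n x h1 h2 := by
    haveI := charP_res p O
    exact soT X' hp2 ho n x h1 h2
  tp O _ _ _ _ _ _ _ _ I K _ _ _ _ psi ho X hX u σ₀ hσ₀ hu n := by
    haveI := charP_res p O
    exact uRel X hp2 hX I.hpD₀ ho (frv_spec p hp.out) hσ₀ hu n

/-- **MODE H**: the output of the towers when the curve has multiplicative reduction at `p` and
the minimal level is prime to `p`. -/
theorem finOut_modeH (hΔ : W.Δ ≠ 0) (hss : W.IsSemistableModel) (hp2 : p ≠ 2)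
    (hirr : W.ModRepIsIrreducible p) (hGW : GWad p) (G : Geo p) {N : ℕ} (hN : MinLevel W p N)
    (hpΔ : (p : ℤ) ∣ W.Δ) (hS : ¬ ModeS W p) (hnew : NewP W p 2) : FinOut W :=
  finOut_of_PIn hΔ hss hp2 hirr (pIn hΔ hirr hp2) hN hpΔ hS hnew hGW G

end

end Fermat.Agent.H27.MH
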