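import Fermat.Agent.H27.EtBasis

set_option autoImplicit false

open Polynomial

namespace Fermat.Agent.H27

noncomputable section

variable {K : Type*} [Field K] {A : ValuationSubring K}
variable {𝕂 : Type*} [Field 𝕂] [Algebra K 𝕂]
variable {E : Type*} [Field E] [Algebra 𝕂 E]

/-- radical of `D · O_K` -/
def IK (K : Type*) [Field K] {𝕂 : Type*} [Field 𝕂] [Algebra K 𝕂] (x : 𝕂)
    (E : Type*) [Field E] [Algebra 𝕂 E] (D : K[X]) : Set E :=
  {w | w ∈ OK K x E ∧ ∃ (M : ℕ) (w' : E), w' ∈ OK K x E ∧ w ^ M = polE K x E D * w'}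

theorem mem_IK_iff (x : 𝕂) (D : K[X]) (w : E) :
    w ∈ IK K x E D ↔ ∃ hw : w ∈ OK K x E, (⟨w, hw⟩ : OK K x E) ∈
      (Ideal.span {(⟨polE K x E D, map_mem_intSub _ _⟩ : OK K x E)}).radical := by
  constructor
  · rintro ⟨hw, M, w', hw', h⟩
    refine ⟨hw, M, ?_⟩
    rw [Ideal.mem_span_singleton]
    exact ⟨⟨w', hw'⟩, Subtype.ext h⟩
  · rintro ⟨hw, M, h⟩
    rw [Ideal.mem_span_singleton] at h
    obtain ⟨⟨w', hw'⟩, h⟩ := h
    exact ⟨hw, M, w', hw', congrArg Subtype.val h⟩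

theorem IK_add {x : 𝕂} {D : K[X]} {w z : E} (hw : w ∈ IK K x E D) (hz : z ∈ IK K x E D) :
    w + z ∈ IK K x E D := by
  rw [mem_IK_iff] at *
  obtain ⟨hw, hw'⟩ := hw
  obtain ⟨hz, hz'⟩ := hz
  exact ⟨add_mem hw hz, Ideal.add_mem _ hw' hz'⟩

theorem IK_mul_left {x : 𝕂} {D : K[X]} {w z : E} (hw : w ∈ OK K x E) (hz : z ∈ IK K x E D) :
    w * z ∈ IK K x E D := by
  rw [mem_IK_iff] at *
  obtain ⟨hz, hz'⟩ := hz
  exact ⟨mul_mem hw hz, Ideal.mul_mem_left _ ⟨w, hw⟩ hz'⟩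

theorem IK_zero {x : 𝕂} {D : K[X]} : (0 : E) ∈ IK K x E D :=
  ⟨zero_mem _, 1, 0, zero_mem _, by simp⟩

theorem IK_neg {x : 𝕂} {D : K[X]} {w : E} (hw : w ∈ IK K x E D) : -w ∈ IK K x E D := by
  have := IK_mul_left (neg_mem (one_mem (OK K x E))) hw
  simpa using this

theorem IK_sub {x : 𝕂} {D : K[X]} {w z : E} (hw : w ∈ IK K x E D) (hz : z ∈ IK K x E D) :
    w - z ∈ IK K x E D := by
  rw [sub_eq_add_neg]; exact IK_add hw (IK_neg hz)

theorem IK_sum {x : 𝕂} {D : K[X]} {κ : Type*} (s : Finset κ) (f : κ → E)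
    (hf : ∀ i ∈ s, f i ∈ IK K x E D) : ∑ i ∈ s, f i ∈ IK K x E D := by
  classical
  induction s using Finset.induction_on with
  | empty => simpa using IK_zero
  | insert a s ha ih =>
    rw [Finset.sum_insert ha]
    exact IK_add (hf a (Finset.mem_insert_self _ _))
      (ih fun i hi => hf i (Finset.mem_insert_of_mem hi))

theorem IK_D {x : 𝕂} {D : K[X]} : polE K x E D ∈ IK K x E D :=
  ⟨map_mem_intSub _ _, 1, 1, one_mem _, by simp⟩

/-- `I = I_K ∩ B`. -/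
def IB (A : ValuationSubring K) {x : 𝕂} (h : RatCoord K x) (E : Type*) [Field E] [Algebra 𝕂 E]
    (D : K[X]) : Set E :=
  {w | w ∈ IK K x E D ∧ w ∈ BV (gauss A h) E}

section

variable {x : 𝕂} (h : RatCoord K x) {D : K[X]}

theorem IB_add {w z : E} (hw : w ∈ IB A h E D) (hz : z ∈ IB A h E D) : w + z ∈ IB A h E D :=
  ⟨IK_add hw.1 hz.1, add_mem hw.2 hz.2⟩

theorem evA_mem_OK (p : A[X]) : algebraMap 𝕂 E (evA A x p) ∈ OK K x E := pol_mem_OK x _

theorem IB_smul {w : E} (p : A[X]) (hw : w ∈ IB A h E D) :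
    algebraMap 𝕂 E (evA A x p) * w ∈ IB A h E D :=
  ⟨IK_mul_left (evA_mem_OK p) hw.1, mul_mem (val_mem_BV (evA_mem_gauss h p)) hw.2⟩

theorem IB_zero : (0 : E) ∈ IB A h E D := ⟨IK_zero, zero_mem _⟩

variable {ι : Type} [Fintype ι] [DecidableEq ι]

theorem rho_eq_of_eq {y z : gauss A h} (hyz : (y : 𝕂) = z) : rho A h y = rho A h z := by
  rw [Subtype.ext hyz]

/-- coordinates of elements of `I`, reduced. -/
def N0 (e : EtBasis (gauss A h) E ι) (D : K[X]) : Submodule (kk A)[X] (ι → RatFunc (kk A)) where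
  carrier := {u | ∃ w ∈ IB A h E D, ∀ i, ∃ hi : Algebra.trace 𝕂 E (w * e.bd i) ∈ gauss A h,
    rho A h ⟨_, hi⟩ = u i}
  add_mem' := by
    rintro u u' ⟨w, hw, hu⟩ ⟨w', hw', hu'⟩
    refine ⟨w + w', IB_add h hw hw', fun i => ?_⟩
    obtain ⟨hi, h1⟩ := hu i
    obtain ⟨hi', h1'⟩ := hu' i
    have h2 : Algebra.trace 𝕂 E ((w + w') * e.bd i) =
      Algebra.trace 𝕂 E (w * e.bd i) + Algebra.trace 𝕂 E (w' * e.bd i) := by
      rw [add_mul, map_add]
    have h3 : Algebra.trace 𝕂 E ((w + w') * e.bd i) ∈ gauss A h := by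
      rw [h2]; exact add_mem hi hi'
    refine ⟨h3, ?_⟩
    rw [Pi.add_apply, ← h1, ← h1', ← map_add]
    exact rho_eq_of_eq h h2
  zero_mem' := ⟨0, IB_zero h, fun i => ⟨by simp, by
    rw [show (⟨Algebra.trace 𝕂 E (0 * e.bd i), _⟩ : gauss A h) = 0 from
      Subtype.ext (by simp), map_zero]; rfl⟩⟩
  smul_mem' := by
    rintro p u ⟨w, hw, hu⟩
    obtain ⟨q, rfl⟩ := redP_surjective (A := A) p
    refine ⟨_, IB_smul h q hw, fun i => ?_⟩
    obtain ⟨hi, h1⟩ := hu i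
    have h2 : Algebra.trace 𝕂 E (algebraMap 𝕂 E (evA A x q) * w * e.bd i) =
      evA A x q * Algebra.trace 𝕂 E (w * e.bd i) := by
      rw [mul_assoc, ← Algebra.smul_def, map_smul, smul_eq_mul]
    have h3 : Algebra.trace 𝕂 E (algebraMap 𝕂 E (evA A x q) * w * e.bd i) ∈ gauss A h := by
      rw [h2]; exact mul_mem (evA_mem_gauss h q) hi
    refine ⟨h3, ?_⟩
    rw [Pi.smul_apply, ← h1, Algebra.smul_def, ← rho_evA h, ← map_mul]
    exact rho_eq_of_eq h h2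

/-- elements of `N0` have bounded denominators -/
theorem N0_bounded [FiniteDimensional 𝕂 E] (e : EtBasis (gauss A h) E ι) :
    ∃ s : (kk A)[X], s ≠ 0 ∧ ∀ u ∈ N0 h e D, ∀ i, ∃ p : (kk A)[X],
      algebraMap (kk A)[X] (RatFunc (kk A)) s * u i = algebraMap _ _ p := by
  choose s hs hs' using fun i => exists_scale_OK A h (e.bd i)
  refine ⟨∏ i, redP A (s i), Finset.prod_ne_zero_iff.mpr fun i _ => hs i, ?_⟩
  rintro u ⟨w, hw, hu⟩ i
  obtain ⟨hi, h1⟩ := hu i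
  have h3 : w * (algebraMap 𝕂 E (evA A x (s i)) * e.bd i) ∈ OK K x E :=
    mul_mem hw.1.1 (hs' i)
  have h4 : w * (algebraMap 𝕂 E (evA A x (s i)) * e.bd i) ∈ BV (gauss A h) E :=
    mul_mem hw.2 (mul_mem (val_mem_BV (evA_mem_gauss h _)) (e.bd_mem i))
  obtain ⟨p, hp⟩ := trace_mem_A A h h3 h4
  have h5 : evA A x (s i) * Algebra.trace 𝕂 E (w * e.bd i) = evA A x p := by
    rw [hp, mul_left_comm, ← Algebra.smul_def, map_smul, smul_eq_mul]
  refine ⟨(∏ j ∈ Finset.univ.erase i, redP A (s j)) * redP A p, ?_⟩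
  rw [← Finset.prod_erase_mul _ _ (Finset.mem_univ i), map_mul, map_mul, mul_assoc]
  congr 1
  rw [← h1, ← rho_evA h, ← rho_evA h, ← map_mul]
  exact rho_eq_of_eq h h5

theorem N0_full [FiniteDimensional 𝕂 E] (e : EtBasis (gauss A h) E ι) (hD : D ≠ 0) (i : ι) :
    ∃ s : (kk A)[X], s ≠ 0 ∧
      Pi.single i (algebraMap (kk A)[X] (RatFunc (kk A)) s) ∈ N0 h e D := by
  obtain ⟨s, hs, hs'⟩ := exists_scale_OK A h (e.b i)
  obtain ⟨c, D₁, hc, hD1, hD2⟩ := exists_scale A D hD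
  have hIK : polE K x E (incP A D₁) ∈ IK K x E D := by
    have : polE K x E (incP A D₁) = algebraMap 𝕂 E (algebraMap K 𝕂 c⁻¹) * polE K x E D := by
      rw [hD1, map_mul, ← mul_assoc]
      have : algebraMap 𝕂 E (algebraMap K 𝕂 c⁻¹) * polE K x E (C c) = 1 := by
        show algebraMap 𝕂 E (algebraMap K 𝕂 c⁻¹) * algebraMap 𝕂 E (aeval x (C c)) = 1
        rw [aeval_C, ← map_mul, ← map_mul, inv_mul_cancel₀ hc, map_one, map_one]
      rw [this, one_mul]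
    rw [this]
    exact IK_mul_left (const_mem_OK x _) IK_D
  refine ⟨redP A (D₁ * s), by rw [map_mul]; exact mul_ne_zero hD2 hs,
    algebraMap 𝕂 E (evA A x (D₁ * s)) * e.b i, ⟨?_, ?_⟩, fun j => ?_⟩
  · rw [map_mul, map_mul, mul_comm (algebraMap 𝕂 E _), mul_assoc, mul_comm _ (e.b i), ← mul_assoc]
    have h6 : algebraMap 𝕂 E (evA A x s) * e.b i * algebraMap 𝕂 E (evA A x D₁) ∈ IK K x E D :=
      IK_mul_left hs' hIK
    have h7 : algebraMap 𝕂 E (evA A x s) * e.b i * algebraMap 𝕂 E (evA A x D₁) =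
      algebraMap 𝕂 E (evA A x s) * e.b i * algebraMap 𝕂 E (evA A x D₁) := rfl
    exact h6
  · exact mul_mem (val_mem_BV (evA_mem_gauss h _)) (e.b_mem i)
  · have h2 : Algebra.trace 𝕂 E (algebraMap 𝕂 E (evA A x (D₁ * s)) * e.b i * e.bd j) =
        evA A x (D₁ * s) * (if i = j then 1 else 0) := by
      rw [mul_assoc, ← Algebra.smul_def, map_smul, smul_eq_mul, e.dual]
    by_cases hij : i = j
    · subst hij
      rw [if_pos rfl, mul_one] at h2
      refine ⟨by rw [h2]; exact evA_mem_gauss h _, ?_⟩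
      rw [Pi.single_eq_same, ← rho_evA h]
      exact rho_eq_of_eq h h2
    · rw [if_neg hij, mul_zero] at h2
      refine ⟨by rw [h2]; exact zero_mem _, ?_⟩
      rw [Pi.single_eq_of_ne (Ne.symm hij), ← map_zero (rho A h)]
      exact rho_eq_of_eq h h2

end

end

end Fermat.Agent.H27
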