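import Fermat.Agent.H27.GoodBasis

set_option autoImplicit false

open Polynomial

namespace Fermat.Agent.H27

noncomputable section

variable {K : Type*} [Field K] {A : ValuationSubring K}
variable {𝕂 : Type*} [Field 𝕂] [Algebra K 𝕂]
variable {E : Type*} [Field E] [Algebra 𝕂 E]
variable {x : 𝕂} (h : RatCoord K x) {D : K[X]}
variable {ι : Type} [Fintype ι] [DecidableEq ι]

/-- the basis vectors lie in `I`, and generate the reduction of `I` -/
structure GoodBasis (e : EtBasis (gauss A h) E ι) (D : K[X]) : Prop where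
  mem : ∀ j, e.b j ∈ IB A h E D
  red : ∀ w ∈ IB A h E D, ∀ j, ∃ (hi : Algebra.trace 𝕂 E (w * e.bd j) ∈ gauss A h)
        (p : (kk A)[X]), rho A h ⟨_, hi⟩ = algebraMap (kk A)[X] (RatFunc (kk A)) p

theorem evA_X_sub_C (x : 𝕂) (a : A) : evA A x (X - C a) = x - algebraMap K 𝕂 a := by
  rw [map_sub, evA_X, evA_C]

theorem redP_X_sub_C (a : A) : redP A (X - C a) = X - C (IsLocalRing.residue A a) := by
  simp

theorem redP_X_sub_C_ne (a : A) : redP A (X - C a) ≠ 0 := by
  rw [redP_X_sub_C]; exact Polynomial.X_sub_C_ne_zero _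

theorem coords_zero {e : EtBasis (gauss A h) E ι} (he : GoodBasis h e D) {w : E}
    (hw : w ∈ IK K x E D) (a : A) (γ : ι → K)
    (hγ : ∀ j, Algebra.trace 𝕂 E (w * e.bd j) * (x - algebraMap K 𝕂 a) = algebraMap K 𝕂 (γ j)) :
    ∀ j, γ j = 0 := by
  by_contra hne
  push Not at hne
  obtain ⟨i₀, hi₀⟩ := hne
  obtain ⟨i, -, hmax⟩ := Finset.exists_max_image Finset.univ (fun j => A.valuation (γ j))
    ⟨i₀, Finset.mem_univ _⟩
  have hi : γ i ≠ 0 := by
    intro h0
    have h1 := hmax i₀ (Finset.mem_univ _)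
    rw [h0, map_zero, le_zero_iff, map_eq_zero] at h1
    exact hi₀ h1
  have hxa : x - algebraMap K 𝕂 a ≠ 0 := by
    rw [← evA_X_sub_C]; exact evA_ne_zero h (redP_X_sub_C_ne a)
  have hinv : (x - algebraMap K 𝕂 a)⁻¹ ∈ gauss A h := by
    rw [← evA_X_sub_C]; exact inv_evA_mem_gauss h (redP_X_sub_C_ne a)
  let w₃ : E := algebraMap 𝕂 E (algebraMap K 𝕂 (γ i)⁻¹) * w
  have htr : ∀ j, Algebra.trace 𝕂 E (w₃ * e.bd j) =
      algebraMap K 𝕂 (γ j / γ i) * (x - algebraMap K 𝕂 a)⁻¹ := by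
    intro j
    rw [show w₃ * e.bd j = algebraMap 𝕂 E (algebraMap K 𝕂 (γ i)⁻¹) * (w * e.bd j) from
      mul_assoc _ _ _, ← Algebra.smul_def, map_smul, smul_eq_mul, div_eq_mul_inv,
      map_mul (algebraMap K 𝕂), ← hγ j]
    field_simp
  have hAle : ∀ j, γ j / γ i ∈ A := by
    intro j
    rw [← A.valuation_le_one_iff, map_div₀]
    exact div_le_one_of_le₀ (hmax j (Finset.mem_univ _)) zero_le
  have hw₃ : w₃ ∈ IB A h E D := by
    refine ⟨IK_mul_left (const_mem_OK x _) hw, e.mem_of_trace fun j => ?_⟩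
    rw [htr]
    exact mul_mem (algebraMap_mem_gauss h (hAle j)) hinv
  obtain ⟨hi', p, hp⟩ := he.red w₃ hw₃ i
  have h1 : (⟨Algebra.trace 𝕂 E (w₃ * e.bd i), hi'⟩ : gauss A h) *
      ⟨evA A x (X - C a), evA_mem_gauss h _⟩ = 1 := by
    apply Subtype.ext
    show Algebra.trace 𝕂 E (w₃ * e.bd i) * evA A x (X - C a) = 1
    rw [htr, evA_X_sub_C, div_self hi, map_one, one_mul, inv_mul_cancel₀ hxa]
  have h2 := congrArg (rho A h) h1
  rw [map_mul, map_one, hp, rho_evA, redP_X_sub_C, ← map_mul] at h2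
  have h3 : p * (X - C (IsLocalRing.residue A a)) = 1 := by
    apply IsFractionRing.injective (kk A)[X] (RatFunc (kk A))
    rw [h2, map_one]
  have h4 : IsUnit (X - C (IsLocalRing.residue A a)) := IsUnit.of_mul_eq_one_right p h3
  exact Polynomial.not_isUnit_X_sub_C _ h4

theorem exists_clear {e : EtBasis (gauss A h) E ι} (he : GoodBasis h e D) {w : E}
    (hw : w ∈ IK K x E D) :
    ∃ g : K[X], (∀ a ∈ A, g.eval a ≠ 0) ∧ ∀ j, ∃ G : K[X],
      aeval x g * Algebra.trace 𝕂 E (w * e.bd j) = aeval x G := by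
  classical
  let T : Set K[X] := {g | g ≠ 0 ∧ ∀ j, ∃ G : K[X],
      aeval x g * Algebra.trace 𝕂 E (w * e.bd j) = aeval x G}
  have hT : T.Nonempty := by
    choose f g hg hfg using fun j => h.gen (Algebra.trace 𝕂 E (w * e.bd j))
    refine ⟨∏ j, g j, Finset.prod_ne_zero_iff.mpr fun j _ => hg j, fun j => ?_⟩
    refine ⟨(∏ i ∈ Finset.univ.erase j, g i) * f j, ?_⟩
    rw [← Finset.prod_erase_mul _ _ (Finset.mem_univ j), map_mul (aeval x), map_mul (aeval x),
      mul_assoc, ← hfg]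
    ring
  obtain ⟨g, hgT, hgmin⟩ : ∃ g ∈ T, ∀ g' ∈ T, g.natDegree ≤ g'.natDegree := by
    obtain ⟨g, hg, hmin⟩ := WellFounded.has_min (measure (fun g : K[X] => g.natDegree)).wf T hT
    exact ⟨g, hg, fun g' hg' => not_lt.mp (hmin g' hg')⟩
  refine ⟨g, fun a ha h0 => ?_, hgT.2⟩
  obtain ⟨g₁, rfl⟩ := Polynomial.dvd_iff_isRoot.mpr (show g.IsRoot a from h0)
  have hg₁ : g₁ ≠ 0 := right_ne_zero_of_mul hgT.1
  choose G hG using hgT.2
  choose H hH using fun j => Polynomial.X_sub_C_dvd_sub_C_eval (p := G j) (a := a)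
  let a' : A := ⟨a, ha⟩
  have hxa : x - algebraMap K 𝕂 a ≠ 0 := by
    have := evA_ne_zero (A := A) h (redP_X_sub_C_ne a')
    rwa [evA_X_sub_C] at this
  let w₂ : E := algebraMap 𝕂 E (aeval x g₁) * w - ∑ j, algebraMap 𝕂 E (aeval x (H j)) * e.b j
  have hw₂ : w₂ ∈ IK K x E D :=
    IK_sub (IK_mul_left (pol_mem_OK x _) hw)
      (IK_sum _ _ fun j _ => IK_mul_left (pol_mem_OK x _) (he.mem j).1)
  have htr : ∀ l, Algebra.trace 𝕂 E (w₂ * e.bd l) =
      aeval x g₁ * Algebra.trace 𝕂 E (w * e.bd l) - aeval x (H l) := by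
    intro l
    simp only [w₂, sub_mul, map_sub, Finset.sum_mul, map_sum]
    congr 1
    · rw [mul_assoc, ← Algebra.smul_def, map_smul, smul_eq_mul]
    · rw [Finset.sum_eq_single l]
      · rw [mul_assoc, ← Algebra.smul_def, map_smul, smul_eq_mul, e.dual, if_pos rfl, mul_one]
      · intro j _ hj
        rw [mul_assoc, ← Algebra.smul_def, map_smul, smul_eq_mul, e.dual, if_neg hj, mul_zero]
      · intro h0; exact absurd (Finset.mem_univ _) h0
  have hX : ∀ q : K[X], aeval x ((X - C a) * q) = (x - algebraMap K 𝕂 a) * aeval x q := by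
    intro q; rw [map_mul, map_sub, aeval_X, aeval_C]
  have hz := coords_zero h he hw₂ a' (fun j => (G j).eval a) (fun l => by
    rw [htr]
    have h1 := hG l
    rw [hX] at h1
    have h2 := congrArg (aeval x) (hH l)
    rw [hX, map_sub, aeval_C] at h2
    show _ * (x - algebraMap K 𝕂 a) = _
    linear_combination h1 + h2)
  have hg₁T : g₁ ∈ T := by
    refine ⟨hg₁, fun j => ⟨H j, ?_⟩⟩
    have h1 := hG j
    have h2 := congrArg (aeval x) (hH j)
    rw [hX] at h1 h2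
    rw [hz j, C_0, sub_zero] at h2
    apply mul_left_cancel₀ hxa
    rw [← mul_assoc, h1, h2]
  have h3 := hgmin g₁ hg₁T
  rw [natDegree_mul (X_sub_C_ne_zero a) hg₁, natDegree_X_sub_C] at h3
  omega

end

end Fermat.Agent.H27
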