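import Fermat.Agent.H28.ModRed
import Fermat.Agent.H27.ConstU
import Fermat.Agent.H18_ModEmb

set_option autoImplicit false
set_option synthInstance.maxHeartbeats 400000

open Polynomial ModularCurve IntermediateField AlgebraicCurve IsLocalRing

namespace Fermat.Agent.H27

noncomputable section

variable (N : ℕ) (A : ValuationSubring (AlgebraicClosure ℚ))

/-- the key lemma for a prime exponent -/
def KeyPrime (p : ℕ) : Prop :=
  ∀ a b : (H28.modRed N A).Z, (H28.modRed N A).ρ a = (H28.modRed N A).ρ b →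
    (H28.modRed N A).ρ a ≠ 0 →
    (∀ P : Place (AlgebraicClosure ℚ) (modularFunctionFieldBar N), (p : ℤ) ∣
      P.ord ((a : modularFunctionFieldBar N) / (b : modularFunctionFieldBar N))) →
    ∃ w : modularFunctionFieldBar N,
      w ^ p = (a : modularFunctionFieldBar N) / (b : modularFunctionFieldBar N)

variable {N A}

theorem coe_ne_of_ρ {a : (H28.modRed N A).Z} (ha : (H28.modRed N A).ρ a ≠ 0) :
    (a : modularFunctionFieldBar N) ≠ 0 := by
  intro h0
  apply ha
  rw [show a = 0 from Subtype.ext h0, map_zero]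

/-- lifting functions to characteristic zero -/
theorem exists_lift_Fk (g : modularFunctionFieldFullC (ResidueField A) N) :
    ∃ X Y : (H28.modRed N A).Z, (H28.modRed N A).ρ Y ≠ 0 ∧
      g * (H28.modRed N A).ρ Y = (H28.modRed N A).ρ X := by
  obtain ⟨g, hg⟩ := g
  induction hg using IntermediateField.adjoin_induction with
  | mem g hg =>
    obtain ⟨d, hd0, hd, rfl⟩ := hg
    have h1 : (⟨coeffMap A.subtype (qExpand A d (jqModC A)), by
        rw [coeffMap_qExpand, coeffMap_jqModC, ← H18.coeffEmb_jq', ← H18.coeffEmb_qExpand]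
        exact coeffEmb_mem_laurentBaseChange _ (jqd_mem_full N hd)⟩ :
          modularFunctionFieldBar N) ∈ (H28.modRed N A).Z := by
      rw [H28.mem_laurentRed]
      refine ⟨qExpand A d (jqModC A), rfl, ?_⟩
      rw [coeffMap_qExpand, coeffMap_jqModC]
      exact jqModCd_mem_full _ N hd
    refine ⟨⟨_, h1⟩, 1, by rw [map_one]; exact one_ne_zero, ?_⟩
    apply Subtype.ext
    rw [map_one, mul_one, H28.laurentRed_ρ ⟨_, h1⟩ (y := qExpand A d (jqModC A)) rfl,
      coeffMap_qExpand, coeffMap_jqModC]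
  | algebraMap c =>
    obtain ⟨c, rfl⟩ := residue_surjective c
    refine ⟨⟨algebraMap _ _ (c : AlgebraicClosure ℚ), (H28.modRed N A).alg_mem c⟩, 1,
      by rw [map_one]; exact one_ne_zero, ?_⟩
    rw [map_one, mul_one, (H28.modRed N A).ρ_alg]
    rfl
  | add x y hx hy h1 h2 =>
    obtain ⟨X, Y, hY, h⟩ := h1
    obtain ⟨X', Y', hY', h'⟩ := h2
    refine ⟨X * Y' + X' * Y, Y * Y', ?_, ?_⟩
    · rw [map_mul]; exact mul_ne_zero hY hY'
    · have h3 : (⟨x + y, add_mem hx hy⟩ : modularFunctionFieldFullC (ResidueField A) N) =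
          ⟨x, hx⟩ + ⟨y, hy⟩ := rfl
      rw [h3, map_mul, map_add, map_mul, map_mul, ← h, ← h']
      ring
  | inv x hx h1 =>
    obtain ⟨X, Y, hY, h⟩ := h1
    by_cases hx0 : (⟨x, hx⟩ : modularFunctionFieldFullC (ResidueField A) N) = 0
    · have hx1 : x = 0 := congrArg Subtype.val hx0
      refine ⟨0, 1, by rw [map_one]; exact one_ne_zero, ?_⟩
      apply Subtype.ext
      rw [map_zero, map_one, mul_one]
      show x⁻¹ = 0
      rw [hx1, inv_zero]
    · refine ⟨Y, X, ?_, ?_⟩
      · rw [← h]; exact mul_ne_zero hx0 hY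
      · have h3 : (⟨x⁻¹, inv_mem hx⟩ : modularFunctionFieldFullC (ResidueField A) N) =
          (⟨x, hx⟩)⁻¹ := rfl
        rw [h3, ← h, inv_mul_cancel_left₀ hx0]
  | mul x y hx hy h1 h2 =>
    obtain ⟨X, Y, hY, h⟩ := h1
    obtain ⟨X', Y', hY', h'⟩ := h2
    refine ⟨X * X', Y * Y', ?_, ?_⟩
    · rw [map_mul]; exact mul_ne_zero hY hY'
    · have h3 : (⟨x * y, mul_mem hx hy⟩ : modularFunctionFieldFullC (ResidueField A) N) =
          ⟨x, hx⟩ * ⟨y, hy⟩ := rfl
      rw [h3, map_mul, map_mul, ← h, ← h']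
      ring

/-- `D = div a` for an integral function `a` with nonzero reduction -/
structure IsDiv (D : Divisor (AlgebraicClosure ℚ) (modularFunctionFieldBar N))
    (a : (H28.modRed N A).Z) : Prop where
  ne : (H28.modRed N A).ρ a ≠ 0
  eq : ∀ P, D P = P.ord (a : modularFunctionFieldBar N)

theorem IsDiv.of_mem {D : Divisor (AlgebraicClosure ℚ) (modularFunctionFieldBar N)}
    (hD : D ∈ integralPrincipalDivisors A (residue A) N) :
    ∃ a : (H28.modRed N A).Z, IsDiv D a := by
  obtain ⟨y, hy, hyk, hne, hDy⟩ := hD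
  have h1 : (⟨coeffMap A.subtype y, hy⟩ : modularFunctionFieldBar N) ∈ (H28.modRed N A).Z := by
    rw [H28.mem_laurentRed]
    exact ⟨y, rfl, hyk⟩
  refine ⟨⟨_, h1⟩, ?_, hDy⟩
  intro h0
  apply hne
  have h2 := H28.laurentRed_ρ (F := modularFunctionFieldBar N)
    (Fb := modularFunctionFieldFullC (ResidueField A) N) ⟨_, h1⟩ (y := y) rfl
  rw [← h2]
  exact congrArg Subtype.val h0

theorem IsDiv.mul {D E : Divisor (AlgebraicClosure ℚ) (modularFunctionFieldBar N)}
    {a b : (H28.modRed N A).Z} (ha : IsDiv D a) (hb : IsDiv E b) : IsDiv (D + E) (a * b) :=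
  ⟨by rw [map_mul]; exact mul_ne_zero ha.ne hb.ne, fun P => by
    rw [Finsupp.add_apply, ha.eq, hb.eq]
    exact (P.ord_mul (coe_ne_of_ρ ha.ne) (coe_ne_of_ρ hb.ne)).symm⟩

theorem IsDiv.one : IsDiv (0 : Divisor (AlgebraicClosure ℚ) (modularFunctionFieldBar N))
    (1 : (H28.modRed N A).Z) :=
  ⟨by rw [map_one]; exact one_ne_zero, fun P => by simp⟩

theorem exists_of_mem_closure {D : Divisor (AlgebraicClosure ℚ) (modularFunctionFieldBar N)}
    (hD : D ∈ AddSubgroup.closure (integralPrincipalDivisors A (residue A) N)) :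
    ∃ (Da Db : Divisor (AlgebraicClosure ℚ) (modularFunctionFieldBar N))
      (a b : (H28.modRed N A).Z), IsDiv Da a ∧ IsDiv Db b ∧ D = Da - Db := by
  induction hD using AddSubgroup.closure_induction with
  | mem D hD =>
    obtain ⟨a, ha⟩ := IsDiv.of_mem hD
    exact ⟨D, 0, a, 1, ha, IsDiv.one, by rw [sub_zero]⟩
  | zero => exact ⟨0, 0, 1, 1, IsDiv.one, IsDiv.one, by rw [sub_zero]⟩
  | add D E _ _ h1 h2 =>
    obtain ⟨Da, Db, a, b, ha, hb, rfl⟩ := h1
    obtain ⟨Ea, Eb, c, d, hc, hd, rfl⟩ := h2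
    exact ⟨Da + Ea, Db + Eb, a * c, b * d, ha.mul hc, hb.mul hd, by abel⟩
  | neg D _ h1 =>
    obtain ⟨Da, Db, a, b, ha, hb, rfl⟩ := h1
    exact ⟨Db, Da, b, a, hb, ha, by abel⟩

theorem IsDiv.red {r : Place (AlgebraicClosure ℚ) (modularFunctionFieldBar N) →
      Place (ResidueField A) (modularFunctionFieldFullC (ResidueField A) N)}
    (hr : IsPlaceReductionModL A N r)
    {D : Divisor (AlgebraicClosure ℚ) (modularFunctionFieldBar N)} {a : (H28.modRed N A).Z}
    (ha : IsDiv D a) (Q : Place (ResidueField A) (modularFunctionFieldFullC (ResidueField A) N)) :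
    Finsupp.mapDomain r D Q = Q.ord ((H28.modRed N A).ρ a) := by
  obtain ⟨f, hf⟩ := a
  obtain ⟨y, hy, hyk⟩ := H28.mem_laurentRed.mp hf
  have h1 := H28.laurentRed_ρ (F := modularFunctionFieldBar N)
    (Fb := modularFunctionFieldFullC (ResidueField A) N) ⟨f, hf⟩ (y := y) hy
  have hyF : coeffMap A.subtype y ∈ modularFunctionFieldBar N := by rw [hy]; exact f.2
  have hfy : f = ⟨coeffMap A.subtype y, hyF⟩ := Subtype.ext hy.symm
  have hne : coeffMap (residue A) y ≠ 0 := by
    rw [← h1]
    intro h0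
    exact ha.ne (Subtype.ext h0)
  have h2 := hr.2 y hyF hyk hne D (fun P => by rw [ha.eq]; rw [← hfy]) Q
  rw [h2]
  congr 1
  exact Subtype.ext h1.symm

/-- **S18 for a prime exponent, from the key lemma** -/
theorem injective_of_key [NeZero N] (h : ReductionInputsModL A N) [IsAlgClosed (ResidueField A)]
    (hN : (N : ResidueField A) ≠ 0) {p : ℕ} (hp : 0 < p) (hkey : KeyPrime N A p) {z : JZero N}
    (hpz : p • z = 0) (hz : reductionModL A N z = 0) : z = 0 := by
  obtain ⟨⟨D, hD0⟩, rfl⟩ := Pic0.mk_surjective z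
  -- `p D` is principal
  have hpD : p • D ∈ Divisor.principal (K := AlgebraicClosure ℚ)
      (F := modularFunctionFieldBar N) := by
    have h1 : (QuotientAddGroup.mk (p • (⟨D, hD0⟩ : Divisor.degZero
        (K := AlgebraicClosure ℚ) (F := modularFunctionFieldBar N))) : JZero N) = 0 := hpz
    rw [QuotientAddGroup.eq_zero_iff, AddSubgroup.mem_addSubgroupOf] at h1
    exact h1
  -- the reduction is principal
  set r := placeReductionModL h with hr
  have hrr := isPlaceReductionModL_placeReductionModL h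
  rw [← hr] at hrr
  have hrD : Finsupp.mapDomain r D ∈ Divisor.principal (K := ResidueField A)
      (F := modularFunctionFieldFullC (ResidueField A) N) := by
    rw [reductionModL_mk h] at hz
    have h1 : (QuotientAddGroup.mk (reductionDegZeroAlong (placeReductionModL h)
        (isPlaceReductionModL_placeReductionModL h).1 ⟨D, hD0⟩) :
          JZeroC (ResidueField A) N) = 0 := hz
    rw [QuotientAddGroup.eq_zero_iff, AddSubgroup.mem_addSubgroupOf] at h1
    exact h1
  obtain ⟨g, hg, hgD⟩ := hrD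
  obtain ⟨Da, Db, a, b, ha, hb, hab⟩ := exists_of_mem_closure (h.choose_spec.2 hpD)
  -- compare the reductions
  have hra := fun Q => ha.red hrr Q
  have hrb := fun Q => hb.red hrr Q
  have hQ : ∀ Q : Place (ResidueField A) (modularFunctionFieldFullC (ResidueField A) N),
      Q.ord ((H28.modRed N A).ρ a) - Q.ord ((H28.modRed N A).ρ b) = p * Q.ord g := by
    intro Q
    rw [← hra, ← hrb, ← hgD]
    have h1 : Finsupp.mapDomain r (p • D) = Finsupp.mapDomain r Da - Finsupp.mapDomain r Db := by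
      rw [hab, Finsupp.mapDomain_sub]
    have h2 : Finsupp.mapDomain r (p • D) = p • Finsupp.mapDomain r D := by
      exact map_nsmul (Finsupp.mapDomain.addMonoidHom r) p D
    rw [h2] at h1
    have h3 := congrArg (fun E => E Q) h1
    simp only [Finsupp.smul_apply, Finsupp.sub_apply, nsmul_eq_mul] at h3
    exact h3.symm
  have hane := ha.ne
  have hbne := hb.ne
  obtain ⟨ε, hε⟩ := const_Fk (ResidueField A) N hN
    (u := (H28.modRed N A).ρ a * ((H28.modRed N A).ρ b)⁻¹ * (g ^ p)⁻¹)
    (mul_ne_zero (mul_ne_zero hane (inv_ne_zero hbne)) (inv_ne_zero (pow_ne_zero _ hg)))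
    (fun P => by
      rw [P.ord_mul (mul_ne_zero hane (inv_ne_zero hbne)) (inv_ne_zero (pow_ne_zero _ hg)),
        P.ord_mul hane (inv_ne_zero hbne), P.ord_inv, P.ord_inv, H18.ord_pow]
      have := hQ P
      omega)
  obtain ⟨η, hη⟩ := IsAlgClosed.exists_pow_nat_eq ε hp
  have hgp : g ^ p ≠ 0 := pow_ne_zero _ hg
  set g' := algebraMap (ResidueField A) _ η * g with hg'
  have hab' : (H28.modRed N A).ρ a = (H28.modRed N A).ρ b * g' ^ p := by
    rw [hg', mul_pow, ← map_pow, hη, hε]
    field_simp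
  have hg'0 : g' ≠ 0 := by
    intro h0
    rw [h0, zero_pow hp.ne', mul_zero] at hab'
    exact hane hab'
  obtain ⟨X, Y, hY, hXY⟩ := exists_lift_Fk (A := A) g'
  have hX : (H28.modRed N A).ρ X ≠ 0 := by rw [← hXY]; exact mul_ne_zero hg'0 hY
  have haF := coe_ne_of_ρ hane
  have hbF := coe_ne_of_ρ hbne
  have hXF := coe_ne_of_ρ hX
  have hYF := coe_ne_of_ρ hY
  have hYX : (Y : modularFunctionFieldBar N) / X ≠ 0 := div_ne_zero hYF hXF
  have hXYF : (X : modularFunctionFieldBar N) / Y ≠ 0 := div_ne_zero hXF hYF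
  have habF : (a : modularFunctionFieldBar N) / b ≠ 0 := div_ne_zero haF hbF
  have hord : ∀ P : Place (AlgebraicClosure ℚ) (modularFunctionFieldBar N),
      P.ord ((a : modularFunctionFieldBar N) / b) = p * D P := by
    intro P
    rw [div_eq_mul_inv, P.ord_mul haF (inv_ne_zero hbF), P.ord_inv, ← ha.eq, ← hb.eq]
    have h3 := congrArg (fun E => E P) hab
    simp only [Finsupp.smul_apply, Finsupp.sub_apply, nsmul_eq_mul] at h3
    rw [h3]; ring
  have hquot : ((a * Y ^ p : (H28.modRed N A).Z) : modularFunctionFieldBar N) /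
      ((b * X ^ p : (H28.modRed N A).Z) : modularFunctionFieldBar N) =
      ((a : modularFunctionFieldBar N) / b) * ((Y : modularFunctionFieldBar N) / X) ^ p := by
    push_cast
    rw [div_pow]
    field_simp
  have hordq : ∀ P : Place (AlgebraicClosure ℚ) (modularFunctionFieldBar N),
      P.ord (((a : modularFunctionFieldBar N) / b) * ((Y : modularFunctionFieldBar N) / X) ^ p) =
        p * (D P + P.ord ((Y : modularFunctionFieldBar N) / X)) := by
    intro P
    rw [P.ord_mul habF (pow_ne_zero _ hYX), H18.ord_pow, hord]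
    ring
  obtain ⟨w, hw⟩ := hkey (a * Y ^ p) (b * X ^ p) (by
      rw [map_mul, map_mul, map_pow, map_pow, hab', ← hXY, mul_pow]
      ring)
    (by rw [map_mul, map_pow]; exact mul_ne_zero hane (pow_ne_zero _ hY))
    (fun P => by rw [hquot, hordq]; exact dvd_mul_right _ _)
  rw [hquot] at hw
  have hw0 : w ≠ 0 := by
    rintro rfl
    rw [zero_pow hp.ne'] at hw
    exact mul_ne_zero habF (pow_ne_zero _ hYX) hw.symm
  -- conclude
  refine (QuotientAddGroup.eq_zero_iff _).mpr ?_
  rw [AddSubgroup.mem_addSubgroupOf]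
  refine ⟨w * ((X : modularFunctionFieldBar N) / Y), mul_ne_zero hw0 hXYF, fun P => ?_⟩
  have h1 := hordq P
  rw [← hw, H18.ord_pow] at h1
  have h2 : P.ord w = D P + P.ord ((Y : modularFunctionFieldBar N) / X) :=
    mul_left_cancel₀ (by exact_mod_cast hp.ne' : (p : ℤ) ≠ 0) h1
  rw [P.ord_mul hw0 hXYF, h2]
  have h3 : (X : modularFunctionFieldBar N) / Y = ((Y : modularFunctionFieldBar N) / X)⁻¹ := by
    rw [inv_div]
  rw [h3, P.ord_inv]
  show D P = _
  ring

end

end Fermat.Agent.H27
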