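import Fermat.Agent.H27.EtBasis

set_option autoImplicit false

open Polynomial

namespace Fermat.Agent.H27

noncomputable section

/-- integral closures are integrally closed -/
theorem intSub_closed {R S : Type*} [CommRing R] [CommRing S] (f : R →+* S) {y : S}
    (hy : (intSub f).subtype.IsIntegralElem y) : y ∈ intSub f := by
  let g : R →+* intSub f := f.codRestrict _ fun r => map_mem_intSub f r
  letI := f.toAlgebra
  letI := g.toAlgebra
  haveI : IsScalarTower R (intSub f) S := IsScalarTower.of_algebraMap_eq fun _ => rfl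
  haveI : Algebra.IsIntegral R (intSub f) := by
    refine ⟨fun z => ?_⟩
    have h1 : IsIntegral R ((intSub f).subtype z) := z.2
    exact (isIntegral_algebraMap_iff (R := R) (A := intSub f) (B := S)
      Subtype.val_injective).mp h1
  exact isIntegral_trans (R := R) (A := intSub f) y hy

variable {𝕂 : Type*} [Field 𝕂] {V : ValuationSubring 𝕂}
variable {E₁ E₂ : Type*} [Field E₁] [Field E₂] [Algebra 𝕂 E₁] [Algebra 𝕂 E₂] [Algebra E₁ E₂]
  [IsScalarTower 𝕂 E₁ E₂]

theorem BV_comp (V : ValuationSubring 𝕂) :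
    (algebraMap E₁ E₂).comp ((algebraMap 𝕂 E₁).comp V.subtype) =
      (algebraMap 𝕂 E₂).comp V.subtype := by
  rw [← RingHom.comp_assoc, ← IsScalarTower.algebraMap_eq]

theorem map_mem_BV_iff (V : ValuationSubring 𝕂) {y : E₁} :
    algebraMap E₁ E₂ y ∈ BV V E₂ ↔ y ∈ BV V E₁ := by
  rw [mem_intSub, mem_intSub, ← BV_comp (E₁ := E₁) (E₂ := E₂)]
  exact RingHom.IsIntegralElem.map_iff (g := algebraMap E₁ E₂) (algebraMap E₁ E₂).injective

variable {ι : Type} [Fintype ι] [DecidableEq ι]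

theorem EtBasis.tower [CharZero 𝕂] (e : EtBasis V E₁ ι) (y : E₂) (hy : y ∈ BV V E₂)
    (hgen : Algebra.adjoin E₁ {y} = ⊤) (H : E₁[X]) (hH : H.Monic)
    (hHc : ∀ i, H.coeff i ∈ BV V E₁) (hHy : aeval y H = 0)
    (hne : aeval y (derivative H) ≠ 0) (hinv : (aeval y (derivative H))⁻¹ ∈ BV V E₂) :
    ∃ (m : ℕ) (e₂ : EtBasis V E₂ (ι × Fin m)),
      ∀ i, e₂.b i = algebraMap E₁ E₂ (e.b i.1) * y ^ (i.2 : ℕ) := by
  classical
  haveI := e.finite
  haveI : CharZero E₁ := charZero_of_injective_algebraMap (algebraMap 𝕂 E₁).injective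
  have hint : IsIntegral E₁ y := ⟨H, hH, hHy⟩
  let pb : PowerBasis E₁ E₂ := PowerBasis.ofAdjoinEqTop hint hgen
  have hpb : pb.gen = y := PowerBasis.ofAdjoinEqTop_gen hint hgen
  haveI : FiniteDimensional E₁ E₂ := pb.finite
  haveI : FiniteDimensional 𝕂 E₂ := FiniteDimensional.trans 𝕂 E₁ E₂
  -- minimal polynomial
  have hμ : ∀ i, (minpoly E₁ y).coeff i ∈ BV V E₁ := by
    intro i
    refine minpoly_coeff_mem ((algebraMap 𝕂 E₁).comp V.subtype) ?_ i
    rw [BV_comp]
    exact hy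
  have hdiv : ∀ i, (minpolyDiv E₁ y).coeff i ∈ BV V E₂ := by
    have h1 : ∀ n i, (minpolyDiv E₁ y).natDegree < i + n → (minpolyDiv E₁ y).coeff i ∈ BV V E₂ := by
      intro n
      induction n with
      | zero => intro i hi; rw [coeff_eq_zero_of_natDegree_lt (by simpa using hi)]; exact zero_mem _
      | succ n ih =>
        intro i hi
        rw [coeff_minpolyDiv]
        exact add_mem ((map_mem_BV_iff V).mpr (hμ _)) (mul_mem (ih (i + 1) (by omega)) hy)
    intro i
    exact h1 ((minpolyDiv E₁ y).natDegree + 1) i (by omega)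
  obtain ⟨H₁, hH₁⟩ := minpoly.dvd E₁ y hHy
  have hH₁m : H₁.Monic := by
    have := minpoly.monic hint
    rw [hH₁] at hH
    exact this.of_mul_monic_left hH
  have hH₁c : ∀ i, H₁.coeff i ∈ BV V E₁ := by
    have hl : H ∈ Polynomial.lifts (algebraMap (BV V E₁) E₁) := by
      rw [Polynomial.lifts_iff_coeff_lifts]
      exact fun i => ⟨⟨_, hHc i⟩, rfl⟩
    obtain ⟨H₀, hH₀, -, hH₀m⟩ := Polynomial.lifts_and_degree_eq_and_monic hl hH
    have h2 := integralClosure.mem_lifts_of_monic_of_dvd_map E₁ hH₀m hH₁m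
      (by rw [hH₀, hH₁]; exact Dvd.intro_left _ rfl)
    rw [Polynomial.lifts_iff_coeff_lifts] at h2
    intro i
    obtain ⟨c, hc⟩ := h2 i
    rw [← hc]
    exact intSub_closed _ c.2
  have hH₁y : aeval y H₁ ∈ BV V E₂ := by
    rw [aeval_eq_sum_range]
    refine sum_mem fun i _ => ?_
    rw [Algebra.smul_def]
    exact mul_mem ((map_mem_BV_iff V).mpr (hH₁c i)) (pow_mem hy i)
  have hder : aeval y (derivative H) = aeval y (derivative (minpoly E₁ y)) * aeval y H₁ := by
    rw [hH₁, derivative_mul, map_add, map_mul, map_mul, minpoly.aeval, zero_mul, add_zero]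
  have hμne : aeval y (derivative (minpoly E₁ y)) ≠ 0 := by
    intro h0; rw [hder, h0, zero_mul] at hne; exact hne rfl
  have hμinv : (aeval y (derivative (minpoly E₁ y)))⁻¹ ∈ BV V E₂ := by
    have h3 : (aeval y (derivative (minpoly E₁ y)))⁻¹ =
        aeval y H₁ * (aeval y (derivative H))⁻¹ := by
      have hne1 : aeval y H₁ ≠ 0 := by
        intro h0; rw [hder, h0, mul_zero] at hne; exact hne rfl
      rw [hder]
      field_simp
    rw [h3]
    exact mul_mem hH₁y hinv
  -- dual of the power basis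
  have hdual : ∀ i, pb.basis.traceDual i ∈ BV V E₂ := by
    intro i
    rw [Module.Basis.traceDual_powerBasis_eq, div_eq_mul_inv, hpb]
    exact mul_mem (hdiv _) hμinv
  let b₂ : Module.Basis (ι × Fin pb.dim) 𝕂 E₂ := e.b.smulTower pb.basis
  have hb₂ : ∀ i, b₂ i = algebraMap E₁ E₂ (e.b i.1) * y ^ (i.2 : ℕ) := by
    intro i
    show (e.b.smulTower pb.basis) i = _
    rw [Module.Basis.smulTower_apply, pb.basis_eq_pow, hpb, Algebra.smul_def]
  refine ⟨pb.dim,
    { b := b₂
      bd := fun i => algebraMap E₁ E₂ (e.bd i.1) * pb.basis.traceDual i.2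
      b_mem := fun i => by
        rw [hb₂]
        exact mul_mem ((map_mem_BV_iff V).mpr (e.b_mem _)) (pow_mem hy _)
      bd_mem := fun i => mul_mem ((map_mem_BV_iff V).mpr (e.bd_mem _)) (hdual _)
      dual := fun i j => ?_ }, hb₂⟩
  rw [hb₂, ← Algebra.trace_trace (S := E₁)]
  have h1 : algebraMap E₁ E₂ (e.b i.1) * y ^ (i.2 : ℕ) *
      (algebraMap E₁ E₂ (e.bd j.1) * pb.basis.traceDual j.2) =
      (e.b i.1 * e.bd j.1) • (pb.basis i.2 * pb.basis.traceDual j.2) := by
    rw [pb.basis_eq_pow, hpb, Algebra.smul_def, map_mul]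
    ring
  have h2 : Algebra.trace E₁ E₂ (pb.basis i.2 * pb.basis.traceDual j.2) =
      if i.2 = j.2 then 1 else 0 := Module.Basis.trace_mul_traceDual _ _ _
  rw [h1, map_smul, h2]
  by_cases h3 : i.2 = j.2
  · rw [if_pos h3, smul_eq_mul, mul_one, e.dual]
    by_cases h4 : i.1 = j.1
    · rw [if_pos h4, if_pos (Prod.ext h4 h3)]
    · rw [if_neg h4, if_neg (fun h5 => h4 (congrArg Prod.fst h5))]
  · rw [if_neg h3, smul_zero, map_zero, if_neg (fun h5 => h3 (congrArg Prod.snd h5))]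

end

end Fermat.Agent.H27
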